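import Fermat.Agent.PT.TW.Flat.Coords
import Mathlib.LinearAlgebra.Matrix.Charpoly.Coeff

/-!
Parcel H: the residual representation at `p` when a flat deformation exists: either a stable line on
which inertia acts through `ω`, the quotient being unramified, or the fundamental characters of
level two.
-/

set_option autoImplicit false
set_option linter.style.haveILetI false
set_option linter.unusedSectionVars false

noncomputable section

open Polynomial Matrix

namespace FLTAgent.PT.TW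

open FLTAgent.Reduction (Qb)
open IsLocalRing (ResidueField)

namespace PlaceData

variable {p : ℕ} [hpr : Fact p.Prime] (P : PlaceData p)

theorem exists_natCast_of_pow_eq {z : ResidueField P.A} (hz : z ^ p = z) :
    ∃ n : ℕ, n < p ∧ (n : ResidueField P.A) = z := by
  classical
  haveI := P.charP_res
  set S' : Finset (ResidueField P.A) :=
    (Finset.range p).image (fun k : ℕ => (k : ResidueField P.A))
  have hS' : S'.card = p := by
    rw [Finset.card_image_of_injOn fun a ha b hb hab => ?_, Finset.card_range]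
    have := (CharP.natCast_eq_natCast (ResidueField P.A) p).mp hab
    rwa [Nat.ModEq, Nat.mod_eq_of_lt (Finset.mem_range.mp ha),
      Nat.mod_eq_of_lt (Finset.mem_range.mp hb)] at this
  set R : (ResidueField P.A)[X] := Polynomial.X ^ p - Polynomial.X
  have hR : R ≠ 0 := FiniteField.X_pow_card_sub_X_ne_zero _ hpr.out.one_lt
  by_contra hno
  have hnot : z ∉ S' := fun h => by
    obtain ⟨k, hk, hkz⟩ := Finset.mem_image.mp h
    exact hno ⟨k, Finset.mem_range.mp hk, hkz⟩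
  have hsub : insert z S' ⊆ R.roots.toFinset := by
    intro w hw
    rw [Multiset.mem_toFinset, mem_roots hR, IsRoot.def, eval_sub, eval_pow, eval_X, sub_eq_zero]
    rcases Finset.mem_insert.mp hw with rfl | hw
    · exact hz
    · obtain ⟨k, -, rfl⟩ := Finset.mem_image.mp hw
      rw [← frobenius_def, map_natCast]
  have h2 := (Finset.card_le_card hsub).trans
    ((Multiset.toFinset_card_le _).trans (card_roots' R))
  rw [Finset.card_insert_of_notMem hnot, hS',
    FiniteField.X_pow_card_sub_X_natDegree_eq _ hpr.out.one_lt] at h2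
  omega

theorem isIntegral_res [Algebra (ZMod p) (ResidueField P.A)] (z : ResidueField P.A) :
    IsIntegral (ZMod p) z := by
  rcases eq_or_ne z 0 with rfl | hz
  · exact isIntegral_zero
  obtain ⟨m, hm, -, hzm⟩ := SS2.exists_pow_eq_one hpr.out P.hA hz
  exact IsIntegral.of_pow hm (by rw [hzm]; exact isIntegral_one)

/-- the conjugates of a number under inertia -/
def iorb (a : Qb) : Finset Qb :=
  open Classical in ((minpoly ℚ a).rootSet Qb).toFinset.filter fun z => ∃ σ ∈ P.I, σ a = z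

theorem mem_iorb {a z : Qb} : z ∈ P.iorb a ↔ ∃ σ ∈ P.I, σ a = z := by
  classical
  rw [iorb, Finset.mem_filter, and_iff_right_iff_imp]
  rintro ⟨σ, -, rfl⟩
  rw [Set.mem_toFinset, Polynomial.mem_rootSet]
  refine ⟨minpoly.ne_zero ((AlgebraicClosure.isAlgebraic ℚ).isAlgebraic a).isIntegral, ?_⟩
  rw [Polynomial.aeval_algHom_apply, minpoly.aeval, map_zero]

theorem card_iorb_pos (a : Qb) : 0 < (P.iorb a).card :=
  Finset.card_pos.mpr ⟨a, P.mem_iorb.mpr ⟨1, one_mem _, rfl⟩⟩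

theorem iorb_zpow {a : Qb} (ha : a ≠ 0) :
    ∃ i : ℤ, P.v a ^ (P.iorb a).card = P.v (p : Qb) ^ i := by
  have hT : ∏ z ∈ P.iorb a, z ∈ SS2.inertiaFixed P.A := by
    rw [SS2.mem_inertiaFixed]
    intro σ hσ
    rw [map_prod]
    refine Finset.prod_nbij' (fun z => σ z) (fun z => σ⁻¹ z) (fun z hz => ?_) (fun z hz => ?_)
      (fun z _ => σ.symm_apply_apply z) (fun z _ => σ.apply_symm_apply z) fun z _ => rfl
    · obtain ⟨τ, hτ, rfl⟩ := P.mem_iorb.mp hz
      exact P.mem_iorb.mpr ⟨σ * τ, mul_mem hσ hτ, rfl⟩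
    · obtain ⟨τ, hτ, rfl⟩ := P.mem_iorb.mp hz
      exact P.mem_iorb.mpr ⟨σ⁻¹ * τ, mul_mem (inv_mem hσ) hτ, rfl⟩
  have hne : ∏ z ∈ P.iorb a, z ≠ 0 := Finset.prod_ne_zero_iff.mpr fun z hz => by
    obtain ⟨σ, -, rfl⟩ := P.mem_iorb.mp hz
    exact (_root_.map_ne_zero σ).mpr ha
  obtain ⟨i, hi⟩ := SS2.exists_zpow_valuation_T hpr.out P.hA hT hne
  refine ⟨i, ?_⟩
  rw [← hi, map_prod, Finset.prod_congr rfl (g := fun _ => P.v a) fun z hz => by
    obtain ⟨σ, hσ, rfl⟩ := P.mem_iorb.mp hz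
    exact P.v_aut (P.I_le_D hσ) a, Finset.prod_const]

/-- the character of inertia at the value of `a` -/
def chr (a : Qb) (σ : GQ) : ResidueField P.A := P.res (σ a / a)

theorem chr_mem {a : Qb} (ha : a ≠ 0) {σ : GQ} (hσ : σ ∈ P.D) : σ a / a ∈ P.A :=
  (P.A.valuation_le_one_iff _).mp (by
    rw [map_div₀, P.v_aut hσ, div_self ((Valuation.ne_zero_iff _).mpr ha)])

theorem chr_eq {a b : Qb} (ha : a ≠ 0) (hab : P.v b = P.v a) {σ : GQ} (hσ : σ ∈ P.I) :
    P.chr b σ = P.chr a σ := by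
  have hb : b ≠ 0 := fun h => by
    rw [h, map_zero] at hab
    exact (Valuation.ne_zero_iff _).mpr ha hab.symm
  have hu : P.v (b / a) = 1 := by
    rw [map_div₀, hab, div_self ((Valuation.ne_zero_iff _).mpr ha)]
  have huA : b / a ∈ P.A := (P.A.valuation_le_one_iff _).mp hu.le
  have e : σ b / b * (b / a) = σ (b / a) * (σ a / a) := by
    have : σ a ≠ 0 := (_root_.map_ne_zero σ).mpr ha
    rw [map_div₀]
    field_simp
  have h := congrArg P.res e
  rw [P.res_mul (P.chr_mem hb (P.I_le_D hσ)) huA,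
    P.res_mul ((P.mem_aut (P.I_le_D hσ)).mpr huA) (P.chr_mem ha (P.I_le_D hσ)),
    P.res_inertia hσ huA, mul_comm] at h
  exact mul_left_cancel₀ ((P.res_ne_zero huA).mpr hu) h

theorem chr_mul {a : Qb} (ha : a ≠ 0) {σ τ : GQ} (hσ : σ ∈ P.I) (hτ : τ ∈ P.D) :
    P.chr a (σ * τ) = P.chr a σ * P.chr a τ := by
  have h1 := P.chr_mem ha hτ
  have h2 := P.chr_mem ha (P.I_le_D hσ)
  have e : (σ * τ) a / a = σ (τ a / a) * (σ a / a) := by
    have : σ a ≠ 0 := (_root_.map_ne_zero σ).mpr ha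
    rw [map_div₀, AlgEquiv.mul_apply]
    field_simp
  rw [chr, e, P.res_mul ((P.mem_aut (P.I_le_D hσ)).mpr h1) h2, P.res_inertia hσ h1, mul_comm]
  rfl

theorem chr_one {a : Qb} (ha : a ≠ 0) : P.chr a 1 = 1 := by
  rw [chr, AlgEquiv.one_apply, div_self ha, P.res_one]

theorem chr_pow {a : Qb} (ha : a ≠ 0) {σ : GQ} (hσ : σ ∈ P.I) (n : ℕ) :
    P.chr a (σ ^ n) = P.chr a σ ^ n := by
  induction n with
  | zero => rw [pow_zero, pow_zero, P.chr_one ha]
  | succ n ih =>
    rw [pow_succ', P.chr_mul ha hσ (P.I_le_D (pow_mem hσ n)), ih, pow_succ']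

theorem chr_conj {a : Qb} (ha : a ≠ 0) {σ : GQ} (hσ : σ ∈ P.I) :
    P.chr a (P.φ * σ * P.φ⁻¹) = P.chr a σ ^ p := by
  have hσD := P.I_le_D hσ
  have hb : P.φ⁻¹ a ≠ 0 := (_root_.map_ne_zero _).mpr ha
  have h1 := P.chr_mem hb hσD
  rw [← P.chr_eq ha (P.v_aut (inv_mem P.φ_mem) a) hσ]
  show P.res ((P.φ * σ * P.φ⁻¹) a / a) = P.res (σ (P.φ⁻¹ a) / P.φ⁻¹ a) ^ p
  rw [← P.res_frob h1, map_div₀]
  congr 2
  exact (P.φ.apply_symm_apply a).symm

theorem chr_eq_th {a : Qb} {j : ℕ} (ha : P.v a = P.v P.π ^ j) {σ : GQ} (hσ : σ ∈ P.I) :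
    P.chr a σ = P.th σ ^ j := by
  rw [P.chr_eq (a := P.π ^ j) (b := a) (pow_ne_zero j P.π_ne) (by rw [map_pow, ha]) hσ, chr,
    map_pow, ← div_pow, show σ P.π / P.π = P.rt σ from rfl, P.res_pow (P.rt_mem σ)]
  rfl

/-- some inertia element moves `ζ` -/
theorem exists_ω_ne_one : ∃ σ ∈ P.I, ExtCitation.cycloChar p σ ≠ 1 := by
  obtain ⟨σ, hσ, hne⟩ := TOR.exists_inertia_moves hpr.out P.hA P.ne2 P.hζ
  refine ⟨σ, hσ, fun h => hne ?_⟩
  haveI : Fact (1 < p) := ⟨hpr.out.one_lt⟩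
  rw [P.cyc_spec σ P.hζ.pow_eq_one, h, Units.val_one, ZMod.val_one, pow_one]

theorem algebraMap_val [Algebra (ZMod p) (ResidueField P.A)] (a : ZMod p) :
    algebraMap (ZMod p) (ResidueField P.A) a = (a.val : ResidueField P.A) := by
  haveI : NeZero p := ⟨hpr.out.ne_zero⟩
  conv_lhs => rw [← ZMod.natCast_zmod_val a, map_natCast]

end PlaceData

section Residual

theorem inv_mulVec_mulVec {k : Type} [Field k] (g : GL (Fin 2) k) (w : Fin 2 → k) :
    ((g⁻¹ : GL (Fin 2) k) : Matrix (Fin 2) (Fin 2) k) *ᵥ ((g : Matrix (Fin 2) (Fin 2) k) *ᵥ w) = w := by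
  rw [Matrix.mulVec_mulVec, ← Units.val_mul, inv_mul_cancel, Units.val_one, Matrix.one_mulVec]

theorem mulVec_inv_mulVec {k : Type} [Field k] (g : GL (Fin 2) k) (w : Fin 2 → k) :
    (g : Matrix (Fin 2) (Fin 2) k) *ᵥ (((g⁻¹ : GL (Fin 2) k) : Matrix (Fin 2) (Fin 2) k) *ᵥ w) = w := by
  rw [Matrix.mulVec_mulVec, ← Units.val_mul, mul_inv_cancel, Units.val_one, Matrix.one_mulVec]

variable {p : ℕ} [hpr : Fact p.Prime] {k : Type} [Field k] [Algebra (ZMod p) k] [Finite k]
  (P : PlaceData p) {r : GQ →* GL (Fin 2) k} {c : groupCohomology.cocycles₁ (ad0 p r)}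

/-- `w ↦ ε w` -/
def vmap : (Fin 2 → k) →+ ExtMod r c where
  toFun w := ⟨0, w⟩
  map_zero' := rfl
  map_add' w w' := ExtMod.ext (by simp) (by simp)

theorem smul_vmap (σ : GQ) (w : Fin 2 → k) :
    σ • (vmap (c := c) w) = vmap ((r σ : Matrix (Fin 2) (Fin 2) k) *ᵥ w) := by
  apply ExtMod.ext
  · rw [ExtMod.smul_fst]
    exact Matrix.mulVec_zero _
  · rw [ExtMod.smul_snd]
    show (c σ).1 *ᵥ ((r σ : Matrix (Fin 2) (Fin 2) k) *ᵥ 0) + _ = _
    rw [Matrix.mulVec_zero, Matrix.mulVec_zero, zero_add]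
    rfl

theorem vmap_injective : Function.Injective (vmap (c := c)) := fun _ _ h =>
  congrArg ExtMod.snd h

/-- a line stable under the decomposition group -/
def Stab (P : PlaceData p) (r : GQ →* GL (Fin 2) k) (v : Fin 2 → k) : Prop :=
  v ≠ 0 ∧ ∀ g ∈ P.D, ∃ x : k, (r g : Matrix (Fin 2) (Fin 2) k) *ᵥ v = x • v

variable (M : Mdl P.A ⊤ (ExtMod r c)) (hW : M.W = ⊥)

theorem p_nsmul_vmap (w : Fin 2 → k) : p • (vmap (c := c) w) = 0 := by
  haveI : CharP k p := charP_of_injective_algebraMap' (ZMod p) p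
  rw [← map_nsmul, ← Nat.cast_smul_eq_nsmul k, CharP.cast_eq_zero, zero_smul, map_zero]

include hW in
theorem lev_vmap_ne {w : Fin 2 → k} (hw : w ≠ 0) : M.lev (vmap w) ≠ 0 :=
  M.lev_ne_zero (by
    rw [hW, AddSubgroup.mem_bot, ← map_zero (vmap (c := c))]
    exact fun h => hw (vmap_injective h))

/-- the residues at a level -/
def lres (a : Qb) (i : Fin M.n) (w : Fin 2 → k) : ResidueField P.A :=
  P.res ((M.e i (vmap w) - M.e i 0) / a)

theorem lres_mem {a : Qb} (ha : a ≠ 0) {w : Fin 2 → k} (hw : M.lev (vmap w) ≤ P.v a) (i : Fin M.n) :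
    (M.e i (vmap w) - M.e i 0) / a ∈ P.A :=
  (P.A.valuation_le_one_iff _).mp (by
    rw [map_div₀, div_le_one₀ (zero_lt_iff.mpr ((Valuation.ne_zero_iff _).mpr ha))]
    exact (M.le_lev i _).trans hw)

theorem lres_add {a : Qb} (ha : a ≠ 0) (ha1 : P.v a < 1) {w w' : Fin 2 → k}
    (hw : M.lev (vmap w) ≤ P.v a) (hw' : M.lev (vmap w') ≤ P.v a) (i : Fin M.n) :
    lres P M a i (w + w') = lres P M a i w + lres P M a i w' := by
  have hs := (M.lev_add (vmap w) (vmap w')).trans (max_le hw hw')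
  rw [← map_add] at hs
  rw [lres, lres, lres, ← sub_eq_zero, ← P.res_add (lres_mem P M ha hw i) (lres_mem P M ha hw' i),
    ← P.res_sub (lres_mem P M ha hs i) (add_mem (lres_mem P M ha hw i) (lres_mem P M ha hw' i))]
  refine P.res_eq_zero_of_lt ?_
  rw [← add_div, ← sub_div, map_div₀,
    div_lt_one₀ (zero_lt_iff.mpr ((Valuation.ne_zero_iff _).mpr ha))]
  have h1 := M.cb_sub_le (M.cb_diff (Comb.base i) (vmap w')) (vmap w)
  rw [one_mul, zero_add, ← map_add] at h1
  rw [show M.e i (vmap (w + w')) - M.e i 0 - (M.e i (vmap w) - M.e i 0 + (M.e i (vmap w') - M.e i 0)) =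
    M.e i (vmap (w + w')) - M.e i (vmap w) - (M.e i (vmap w') - M.e i 0) by ring]
  refine (h1.trans (mul_le_mul' hw' hw)).trans_lt ?_
  exact mul_lt_of_lt_one_left (zero_lt_iff.mpr ((Valuation.ne_zero_iff _).mpr ha)) ha1

theorem lres_smul {a : Qb} (ha : a ≠ 0) {σ : GQ} (hσ : σ ∈ P.I) {w : Fin 2 → k}
    (hw : M.lev (vmap w) ≤ P.v a) (i : Fin M.n) :
    lres P M a i ((r σ : Matrix (Fin 2) (Fin 2) k) *ᵥ w) = P.chr a σ * lres P M a i w := by
  rw [lres, ← smul_vmap, M.equiv σ trivial,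
    show σ (M.e i (vmap w)) - M.e i 0 = σ (M.e i (vmap w) - M.e i 0) by
      rw [map_sub, M.cb_apply_zero trivial]]
  have hm := lres_mem P M ha hw i
  have e : σ (M.e i (vmap w) - M.e i 0) / a =
      σ ((M.e i (vmap w) - M.e i 0) / a) * (σ a / a) := by
    have : σ a ≠ 0 := (_root_.map_ne_zero σ).mpr ha
    rw [map_div₀]
    field_simp
  rw [e, P.res_mul ((P.mem_aut (P.I_le_D hσ)).mpr hm) (P.chr_mem ha (P.I_le_D hσ)),
    P.res_inertia hσ hm, mul_comm]
  rfl

theorem lev_eq_of_lres_zero {a : Qb} (ha : a ≠ 0) {w : Fin 2 → k}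
    (hw : M.lev (vmap w) ≤ P.v a) (h : ∀ i, lres P M a i w = 0) : M.lev (vmap w) < P.v a := by
  obtain ⟨i, hi⟩ := M.exists_lev (vmap w)
  rw [← hi]
  have := (P.res_eq_zero (lres_mem P M ha hw i)).mp (h i)
  rwa [map_div₀, div_lt_one₀ (zero_lt_iff.mpr ((Valuation.ne_zero_iff _).mpr ha))] at this

theorem lres_nsmul {a : Qb} (ha : a ≠ 0) (ha1 : P.v a < 1) {w : Fin 2 → k}
    (hw : M.lev (vmap w) ≤ P.v a) (n : ℕ) (i : Fin M.n) :
    M.lev (vmap (n • w)) ≤ P.v a ∧ lres P M a i (n • w) = n * lres P M a i w := by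
  induction n with
  | zero =>
    rw [zero_smul, map_zero, M.lev_zero, lres, map_zero, sub_self, zero_div, P.res_zero,
      Nat.cast_zero, zero_mul]
    exact ⟨zero_le, rfl⟩
  | succ n ih =>
    rw [succ_nsmul]
    refine ⟨by rw [map_add]; exact (M.lev_add _ _).trans (max_le ih.1 hw), ?_⟩
    rw [lres_add P M ha ha1 ih.1 hw, ih.2, Nat.cast_succ]
    ring

include hW in
/-- inertia acts on a stable line with an element of small level through `ω` -/
theorem line_omega {v : Fin 2 → k} (hv : Stab P r v) {α : k} (hα : α ≠ 0)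
    (hlt : M.lev (vmap (α • v)) < 1) {σ : GQ} (hσ : σ ∈ P.I) :
    (r σ : Matrix (Fin 2) (Fin 2) k) *ᵥ v =
      algebraMap (ZMod p) k (ExtCitation.cycloChar p σ) • v := by
  classical
  haveI := Fintype.ofFinite k
  haveI := P.charP_res
  haveI : CharP k p := charP_of_injective_algebraMap' (ZMod p) p
  obtain ⟨hv0, hst⟩ := hv
  obtain ⟨α₀, hα₀, hmin⟩ := Finset.exists_min_image (Finset.univ.filter fun x : k => x ≠ 0)
    (fun x => M.lev (vmap (x • v))) ⟨α, by simp [hα]⟩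
  rw [Finset.mem_filter] at hα₀
  set u₀ := α₀ • v
  have hu₀ : u₀ ≠ 0 := smul_ne_zero hα₀.2 hv0
  have hL1 : M.lev (vmap u₀) < 1 := (hmin α (by simp [hα])).trans_lt hlt
  obtain ⟨i₀, hi₀⟩ := M.exists_lev (vmap u₀)
  set a := M.e i₀ (vmap u₀) - M.e i₀ 0
  have ha : a ≠ 0 := fun h => lev_vmap_ne P M hW hu₀ (by rw [← hi₀, h, map_zero])
  have ha1 : P.v a < 1 := hi₀ ▸ hL1
  have hmove : ∀ g, g a = M.e i₀ (vmap ((r g : Matrix (Fin 2) (Fin 2) k) *ᵥ u₀)) - M.e i₀ 0 :=
    fun g => by rw [← smul_vmap, M.equiv g trivial, map_sub, M.cb_apply_zero trivial]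
  -- the character takes values in `𝔽_p`
  have hkey : ∀ τ ∈ P.I, ∃ n : ℕ, n < p ∧ (n : ResidueField P.A) = P.chr a τ ∧
      (r τ : Matrix (Fin 2) (Fin 2) k) *ᵥ u₀ = n • u₀ := by
    intro τ hτ
    obtain ⟨x, hx⟩ := hst τ (P.I_le_D hτ)
    obtain ⟨y, hy⟩ := hst P.φ⁻¹ (inv_mem P.φ_mem)
    have hy0 : y ≠ 0 := fun h => hv0 (by
      have h2 := congrArg ((r P.φ : Matrix (Fin 2) (Fin 2) k) *ᵥ ·) hy
      simp only [Matrix.mulVec_mulVec, h, zero_smul, Matrix.mulVec_zero, ← Units.val_mul, ← map_mul,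
        mul_inv_cancel, map_one, Units.val_one, Matrix.one_mulVec] at h2
      exact h2)
    have hconj : (r (P.φ * τ * P.φ⁻¹) : Matrix (Fin 2) (Fin 2) k) *ᵥ u₀ =
        (r τ : Matrix (Fin 2) (Fin 2) k) *ᵥ u₀ := by
      have hv' : (r P.φ : Matrix (Fin 2) (Fin 2) k) *ᵥ v = y⁻¹ • v := by
        have h2 := congrArg ((r P.φ : Matrix (Fin 2) (Fin 2) k) *ᵥ ·) hy
        simp only [Matrix.mulVec_mulVec, Matrix.mulVec_smul, ← Units.val_mul, ← map_mul,
          mul_inv_cancel, map_one, Units.val_one, Matrix.one_mulVec] at h2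
        rw [eq_inv_smul_iff₀ hy0]
        exact h2.symm
      simp only [u₀, map_mul, Units.val_mul, ← Matrix.mulVec_mulVec, Matrix.mulVec_smul, hy, hx,
        hv', smul_smul]
      congr 1
      field_simp
    have hchr : P.chr a τ ^ p = P.chr a τ := by
      rw [← P.chr_conj ha hτ]
      show P.res _ = P.res _
      rw [hmove, hmove τ, hconj]
    obtain ⟨n, hn, hn'⟩ := P.exists_natCast_of_pow_eq hchr
    refine ⟨n, hn, hn', ?_⟩
    have hτu : M.lev (vmap ((r τ : Matrix (Fin 2) (Fin 2) k) *ᵥ u₀)) ≤ P.v a := by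
      rw [← smul_vmap, M.lev_smul trivial (P.I_le_D hτ), ← hi₀]
    set w := (r τ : Matrix (Fin 2) (Fin 2) k) *ᵥ u₀ - n • u₀
    have hlev : M.lev (vmap u₀) ≤ P.v a := hi₀.ge
    have hwl : M.lev (vmap w) ≤ P.v a := by
      rw [map_sub, sub_eq_add_neg]
      refine (M.lev_add _ _).trans (max_le hτu ?_)
      rw [M.lev_neg]
      exact (lres_nsmul P M ha ha1 hlev n i₀).1
    have hw0 : ∀ i, lres P M a i w = 0 := fun i => by
      have h1 := lres_add P M ha ha1 hwl (lres_nsmul P M ha ha1 hlev n i).1 i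
      rw [show w + n • u₀ = (r τ : Matrix (Fin 2) (Fin 2) k) *ᵥ u₀ from sub_add_cancel _ _,
        lres_smul P M ha hτ hlev i, (lres_nsmul P M ha ha1 hlev n i).2, hn'] at h1
      exact right_eq_add.mp h1 |>.trans rfl
    obtain ⟨z, hz⟩ : ∃ z : k, w = z • v := ⟨x * α₀ - n * α₀, by
      simp only [w, u₀, Matrix.mulVec_smul, hx, ← Nat.cast_smul_eq_nsmul k, smul_smul, ← sub_smul]
      rw [mul_comm x α₀]⟩
    by_contra hne
    have hz0 : z ≠ 0 := fun h => hne (sub_eq_zero.mp (show w = 0 by rw [hz, h, zero_smul]))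
    have hlt' := lev_eq_of_lres_zero P M ha hwl hw0
    rw [hz, show P.v a = M.lev (vmap u₀) from hi₀] at hlt'
    exact absurd (hmin z (by simp [hz0])) (not_le.mpr hlt')
  -- the level is that of `ζ - 1`
  have hcard : (P.iorb a).card ≤ p - 1 := by
    have hsub : P.iorb a ⊆ (Finset.Ico 1 p).image fun n : ℕ =>
        M.e i₀ (vmap (n • u₀)) - M.e i₀ 0 := by
      intro z hz
      obtain ⟨τ, hτ, rfl⟩ := P.mem_iorb.mp hz
      obtain ⟨n, hn, hn', hτu⟩ := hkey τ hτ
      refine Finset.mem_image.mpr ⟨n, Finset.mem_Ico.mpr ⟨Nat.pos_of_ne_zero fun h => ?_, hn⟩,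
        by rw [hmove, hτu]⟩
      rw [h, Nat.cast_zero] at hn'
      exact (P.res_ne_zero (P.chr_mem ha (P.I_le_D hτ))).mpr (by
        rw [map_div₀, P.v_aut (P.I_le_D hτ), div_self ((Valuation.ne_zero_iff _).mpr ha)]) hn'.symm
    exact (Finset.card_le_card hsub).trans (Finset.card_image_le.trans (Nat.card_Ico 1 p).le)
  have hva : P.v a = P.v P.π ^ (p + 1) := by
    refine le_antisymm ?_ ((P.key_bound M (u := vmap u₀) (by
      rw [hW, AddSubgroup.mem_bot, ← map_zero (vmap (c := c))]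
      exact fun h => hu₀ (vmap_injective h)) (by rw [p_nsmul_vmap]; exact M.W.zero_mem)).trans hi₀.ge)
    refine le_of_pow_le_pow_left₀ (show p - 1 ≠ 0 by have := P.three_le; omega) zero_le ?_
    rw [← pow_mul, mul_comm (p + 1), ← P.e_eq, P.vπ_pow]
    obtain ⟨i, hi⟩ := P.iorb_zpow ha
    refine (pow_le_pow_right_of_le_one' ha1.le hcard).trans ?_
    have hlt1 : P.v a ^ (P.iorb a).card < 1 :=
      pow_lt_one₀ zero_le ha1 (P.card_iorb_pos a).ne'
    rw [hi] at hlt1 ⊢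
    have := (zpow_lt_one_iff_right_of_lt_one₀ P.vp_pos P.vp_lt).mp hlt1
    exact (zpow_le_zpow_right_of_le_one₀ P.vp_pos P.vp_lt.le (show (1 : ℤ) ≤ i by omega)).trans
      (zpow_one _).le
  obtain ⟨n, hn, hn', hσu⟩ := hkey σ hσ
  rw [P.chr_eq_th hva hσ, P.th_cyclo hσ, CharP.natCast_eq_natCast (ResidueField P.A) p, Nat.ModEq,
    Nat.mod_eq_of_lt hn, Nat.mod_eq_of_lt (ZMod.val_lt _)] at hn'
  haveI : NeZero p := ⟨hpr.out.ne_zero⟩
  rw [show algebraMap (ZMod p) k (ExtCitation.cycloChar p σ) = (n : k) by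
    rw [hn', ← map_natCast (algebraMap (ZMod p) k), ZMod.natCast_zmod_val], Nat.cast_smul_eq_nsmul]
  simp only [u₀, Matrix.mulVec_smul] at hσu
  rw [smul_comm n α₀ v] at hσu
  exact smul_right_injective (Fin 2 → k) hα₀.2 hσu

/-- a basis starting with a given vector -/
theorem exists_basis_of_vec {v : Fin 2 → k} (hv : v ≠ 0) :
    ∃ Q : GL (Fin 2) k, (Q : Matrix (Fin 2) (Fin 2) k) *ᵥ ![1, 0] = v := by
  suffices h : ∃ w : Fin 2 → k, v 0 * w 1 - w 0 * v 1 ≠ 0 by
    obtain ⟨w, hw⟩ := h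
    refine ⟨Matrix.GeneralLinearGroup.mkOfDetNeZero !![v 0, w 0; v 1, w 1]
      (by rw [Matrix.det_fin_two_of]; exact hw), ?_⟩
    funext i
    fin_cases i <;> simp [Matrix.mulVec, dotProduct, Fin.sum_univ_two,
      Matrix.GeneralLinearGroup.mkOfDetNeZero]
  by_cases h0 : v 0 = 0
  · refine ⟨![1, 0], ?_⟩
    simp only [Matrix.cons_val_zero, Matrix.cons_val_one, mul_zero, one_mul, zero_sub, neg_ne_zero]
    exact fun h1 => hv (funext fun i => by fin_cases i <;> simp [h0, h1])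
  · exact ⟨![0, 1], by simpa using h0⟩

theorem conjRep_mulVec (Q : GL (Fin 2) k) (g : GQ) (w : Fin 2 → k) :
    (r g : Matrix (Fin 2) (Fin 2) k) *ᵥ ((Q : Matrix (Fin 2) (Fin 2) k) *ᵥ w) =
      (Q : Matrix (Fin 2) (Fin 2) k) *ᵥ ((conjRep r Q g : Matrix (Fin 2) (Fin 2) k) *ᵥ w) := by
  rw [Matrix.mulVec_mulVec, Matrix.mulVec_mulVec, conjRep_coe]
  simp [mul_assoc]

theorem Q_mulVec_inj (Q : GL (Fin 2) k) {a b : Fin 2 → k}
    (h : (Q : Matrix (Fin 2) (Fin 2) k) *ᵥ a = (Q : Matrix (Fin 2) (Fin 2) k) *ᵥ b) : a = b := by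
  have := congrArg (((Q⁻¹ : GL (Fin 2) k) : Matrix (Fin 2) (Fin 2) k) *ᵥ ·) h
  simpa only [inv_mulVec_mulVec] using this

include hW in
/-- a stable line: the ordinary shape -/
theorem exists_red (hdet : ∀ g, (r g : Matrix (Fin 2) (Fin 2) k).det =
      algebraMap (ZMod p) k (ExtCitation.cycloChar p g))
    {v : Fin 2 → k} (hv : Stab P r v) :
    ∃ Q : GL (Fin 2) k, (∀ g ∈ P.D, (conjRep r Q g : Matrix (Fin 2) (Fin 2) k) 1 0 = 0) ∧
      ∀ σ ∈ P.I, (conjRep r Q σ : Matrix (Fin 2) (Fin 2) k) 0 0 =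
          algebraMap (ZMod p) k (ExtCitation.cycloChar p σ) ∧
        (conjRep r Q σ : Matrix (Fin 2) (Fin 2) k) 1 1 = 1 := by
  -- it suffices to find a stable line with an element of small level
  suffices h : ∃ (v : Fin 2 → k) (α : k), Stab P r v ∧ α ≠ 0 ∧ M.lev (vmap (α • v)) < 1 by
    obtain ⟨v, α, hv, hα, hlt⟩ := h
    obtain ⟨Q, hQ⟩ := exists_basis_of_vec hv.1
    have hcol : ∀ g x, (r g : Matrix (Fin 2) (Fin 2) k) *ᵥ v = x • v →
        (conjRep r Q g : Matrix (Fin 2) (Fin 2) k) 0 0 = x ∧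
          (conjRep r Q g : Matrix (Fin 2) (Fin 2) k) 1 0 = 0 := by
      intro g x hx
      rw [← hQ, conjRep_mulVec, ← Matrix.mulVec_smul] at hx
      have h := Q_mulVec_inj Q hx
      exact ⟨by simpa [Matrix.mulVec, dotProduct, Fin.sum_univ_two] using congrFun h 0,
        by simpa [Matrix.mulVec, dotProduct, Fin.sum_univ_two] using congrFun h 1⟩
    refine ⟨Q, fun g hg => ?_, fun σ hσ => ?_⟩
    · obtain ⟨x, hx⟩ := hv.2 g hg
      exact (hcol g x hx).2
    obtain ⟨h00, h10⟩ := hcol σ _ (line_omega P M hW hv hα hlt hσ)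
    refine ⟨h00, ?_⟩
    have hd := conjRep_det r Q σ
    rw [hdet, Matrix.det_fin_two, h00, h10, mul_zero, sub_zero] at hd
    refine mul_left_cancel₀ ?_ (hd.trans (mul_one _).symm)
    simp
  by_cases hlow : ∃ α : k, α ≠ 0 ∧ M.lev (vmap (α • v)) < 1
  · obtain ⟨α, hα, hlt⟩ := hlow
    exact ⟨v, α, hv, hα, hlt⟩
  push Not at hlow
  have hinv : ∀ σ ∈ P.I, (r σ : Matrix (Fin 2) (Fin 2) k) *ᵥ v = v := by
    intro σ hσ
    obtain ⟨x, hx⟩ := hv.2 σ (P.I_le_D hσ)
    rcases eq_or_ne x 1 with rfl | hx1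
    · rw [hx, one_smul]
    have h := M.lev_smul_sub_lt (trivial : σ ∈ ⊤) hσ (vmap v)
    rw [smul_vmap, hx, ← map_sub,
      show x • v - v = (x - 1) • v by rw [sub_smul, one_smul]] at h
    exact absurd h (not_lt.mpr (hlow _ (sub_ne_zero.mpr hx1)))
  obtain ⟨s, hs, hsω⟩ := P.exists_ω_ne_one
  set ω := algebraMap (ZMod p) k (ExtCitation.cycloChar p s) with hω
  have hω1 : ω ≠ 1 := fun h => hsω (Units.ext ((algebraMap (ZMod p) k).injective
    (h.trans (map_one _).symm)))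
  obtain ⟨Q, hQ⟩ := exists_basis_of_vec hv.1
  set R := (conjRep r Q s : Matrix (Fin 2) (Fin 2) k)
  have hRv : R *ᵥ ![1, 0] = ![1, 0] := Q_mulVec_inj Q (by
    rw [← conjRep_mulVec, hQ, hinv s hs])
  have h00 : R 0 0 = 1 := by simpa [Matrix.mulVec, dotProduct, Fin.sum_univ_two] using congrFun hRv 0
  have h10 : R 1 0 = 0 := by simpa [Matrix.mulVec, dotProduct, Fin.sum_univ_two] using congrFun hRv 1
  have h11 : R 1 1 = ω := by
    have hd := conjRep_det r Q s
    rw [hdet, Matrix.det_fin_two] at hd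
    change R 0 0 * R 1 1 - R 0 1 * R 1 0 = _ at hd
    rw [h00, h10, mul_zero, sub_zero, one_mul] at hd
    exact hd
  haveI : NeZero p := ⟨hpr.out.ne_zero⟩
  set n := (ExtCitation.cycloChar p s : ZMod p).val
  have hn : (n : k) = ω := by rw [hω, ← map_natCast (algebraMap (ZMod p) k), ZMod.natCast_zmod_val]
  -- elements of small level are eigenvectors
  have heig : ∀ w, M.lev (vmap w) < 1 → (r s : Matrix (Fin 2) (Fin 2) k) *ᵥ w = ω • w := by
    intro w hw
    set w' := ((Q⁻¹ : GL (Fin 2) k) : Matrix (Fin 2) (Fin 2) k) *ᵥ w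
    have hw' : (Q : Matrix (Fin 2) (Fin 2) k) *ᵥ w' = w := mulVec_inv_mulVec Q w
    set z := R 0 0 * w' 0 + R 0 1 * w' 1 - ω * w' 0
    have hz : (r s : Matrix (Fin 2) (Fin 2) k) *ᵥ w - n • w = z • v := by
      rw [← Nat.cast_smul_eq_nsmul k, hn, ← hw', conjRep_mulVec, ← hQ,
        ← Matrix.mulVec_smul (Q : Matrix (Fin 2) (Fin 2) k) ω w',
        ← Matrix.mulVec_smul (Q : Matrix (Fin 2) (Fin 2) k) z, ← Matrix.mulVec_sub]
      refine congrArg ((Q : Matrix (Fin 2) (Fin 2) k) *ᵥ ·) ?_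
      show R *ᵥ w' - ω • w' = z • ![1, 0]
      funext i
      fin_cases i
      · simp [z, Matrix.mulVec, dotProduct, Fin.sum_univ_two]
      · simp [Matrix.mulVec, dotProduct, Fin.sum_univ_two, h11, h10]
    have hlt : M.lev (vmap (z • v)) < 1 := by
      rw [← hz, map_sub, ← smul_vmap]
      refine (M.conn).sub_mem ?_ ?_
      · show M.lev _ < 1
        rw [M.lev_smul trivial (P.I_le_D hs)]; exact hw
      · rw [map_nsmul]; exact AddSubgroup.nsmul_mem _ hw n
    have hz0 : z = 0 := by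
      by_contra h
      exact absurd hlt (not_lt.mpr (hlow z h))
    rw [hz0, zero_smul, sub_eq_zero, ← Nat.cast_smul_eq_nsmul k, hn] at hz
    exact hz
  -- one of them
  obtain ⟨u, hu0, hu⟩ : ∃ u : Fin 2 → k, u ≠ 0 ∧ M.lev (vmap u) < 1 := by
    by_contra hno
    push Not at hno
    have h1 : R = 1 := by
      refine Matrix.ext_of_mulVec_single fun i => ?_
      refine Q_mulVec_inj Q ?_
      rw [← conjRep_mulVec, Matrix.one_mulVec]
      set u := (Q : Matrix (Fin 2) (Fin 2) k) *ᵥ Pi.single i 1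
      by_contra hne
      have h := M.lev_smul_sub_lt (trivial : s ∈ ⊤) hs (vmap u)
      rw [smul_vmap, ← map_sub] at h
      exact absurd h (not_lt.mpr (hno _ (sub_ne_zero.mpr hne)))
    exact hω1 (by rw [← h11, h1, Matrix.one_apply_eq])
  refine ⟨u, 1, ⟨hu0, fun g hg => ?_⟩, one_ne_zero, by rwa [one_smul]⟩
  have hgu : M.lev (vmap ((r g : Matrix (Fin 2) (Fin 2) k) *ᵥ u)) < 1 := by
    rw [← smul_vmap, M.lev_smul trivial hg]; exact hu
  -- the eigenspace is a line
  have hline : ∀ w, (r s : Matrix (Fin 2) (Fin 2) k) *ᵥ w = ω • w →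
      ∀ i : k, (((Q⁻¹ : GL (Fin 2) k) : Matrix (Fin 2) (Fin 2) k) *ᵥ w) 1 = i →
      w = i • ((Q : Matrix (Fin 2) (Fin 2) k) *ᵥ ![R 0 1 / (ω - 1), 1]) := by
    intro w hw i hi
    set w' := ((Q⁻¹ : GL (Fin 2) k) : Matrix (Fin 2) (Fin 2) k) *ᵥ w
    have hw' : (Q : Matrix (Fin 2) (Fin 2) k) *ᵥ w' = w := mulVec_inv_mulVec Q w
    rw [← hw', conjRep_mulVec, ← Matrix.mulVec_smul] at hw
    have h0 := congrFun (Q_mulVec_inj Q hw) 0
    simp [Matrix.mulVec, dotProduct, Fin.sum_univ_two] at h0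
    rw [show (conjRep r Q s : Matrix (Fin 2) (Fin 2) k) 0 0 = 1 from h00, one_mul] at h0
    rw [← hw', ← Matrix.mulVec_smul]
    congr 1
    funext j
    fin_cases j
    · simp only [Fin.zero_eta, Pi.smul_apply, Matrix.cons_val_zero, smul_eq_mul]
      rw [mul_div_assoc', eq_div_iff (sub_ne_zero.mpr hω1), ← hi]
      linear_combination -h0
    · simpa using hi
  have hu' := hline u (heig u hu) _ rfl
  set i := (((Q⁻¹ : GL (Fin 2) k) : Matrix (Fin 2) (Fin 2) k) *ᵥ u) 1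
  have hi : i ≠ 0 := fun h => hu0 (by rw [hu', h, zero_smul])
  obtain ⟨j, hj⟩ : ∃ j : k, (r g : Matrix (Fin 2) (Fin 2) k) *ᵥ u =
      j • ((Q : Matrix (Fin 2) (Fin 2) k) *ᵥ ![R 0 1 / (ω - 1), 1]) :=
    ⟨_, hline _ (heig _ hgu) _ rfl⟩
  refine ⟨j / i, hj.trans ?_⟩
  conv_rhs => rw [hu', smul_smul, div_mul_cancel₀ _ hi]

theorem aeval_mulVec_mem {L : P.A.ValueGroup} {σ : GQ} (hσ : σ ∈ P.I) (Pol : (ZMod p)[X])
    {w : Fin 2 → k} (hw : M.lev (vmap w) ≤ L) :
    M.lev (vmap ((aeval (r σ : Matrix (Fin 2) (Fin 2) k) Pol) *ᵥ w)) ≤ L := by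
  induction Pol using Polynomial.induction_on' with
  | add f g hf hg =>
    rw [map_add, Matrix.add_mulVec, map_add]
    exact (M.lev_add _ _).trans (max_le hf hg)
  | monomial n a =>
    haveI : NeZero p := ⟨hpr.out.ne_zero⟩
    rw [aeval_monomial, ← Algebra.smul_def, ← ZMod.natCast_zmod_val a, Nat.cast_smul_eq_nsmul,
      Matrix.smul_mulVec, map_nsmul]
    show a.val • vmap _ ∈ M.below L
    refine AddSubgroup.nsmul_mem _ ?_ _
    show M.lev _ ≤ L
    rw [← Units.val_pow_eq_pow_val, ← map_pow, ← smul_vmap,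
      M.lev_smul trivial (P.I_le_D (pow_mem hσ n))]
    exact hw

theorem lres_aeval [Algebra (ZMod p) (ResidueField P.A)] {a : Qb} (ha : a ≠ 0) (ha1 : P.v a < 1)
    {σ : GQ} (hσ : σ ∈ P.I) (Pol : (ZMod p)[X]) {w : Fin 2 → k} (hw : M.lev (vmap w) ≤ P.v a)
    (i : Fin M.n) : lres P M a i ((aeval (r σ : Matrix (Fin 2) (Fin 2) k) Pol) *ᵥ w) =
      aeval (P.chr a σ) Pol * lres P M a i w := by
  induction Pol using Polynomial.induction_on' with
  | add f g hf hg =>
    rw [map_add, Matrix.add_mulVec, lres_add P M ha ha1 (aeval_mulVec_mem P M hσ f hw)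
      (aeval_mulVec_mem P M hσ g hw), hf, hg, map_add, add_mul]
  | monomial n b =>
    haveI : NeZero p := ⟨hpr.out.ne_zero⟩
    have hw' : M.lev (vmap ((r (σ ^ n) : Matrix (Fin 2) (Fin 2) k) *ᵥ w)) ≤ P.v a := by
      rw [← smul_vmap, M.lev_smul trivial (P.I_le_D (pow_mem hσ n))]
      exact hw
    rw [aeval_monomial, aeval_monomial, P.algebraMap_val, ← Algebra.smul_def,
      ← ZMod.natCast_zmod_val b, Nat.cast_smul_eq_nsmul, ZMod.natCast_zmod_val,
      Matrix.smul_mulVec, ← Units.val_pow_eq_pow_val, ← map_pow,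
      (lres_nsmul P M ha ha1 hw' _ i).2, lres_smul P M ha (pow_mem hσ n) hw i, P.chr_pow ha hσ,
      mul_assoc]

include hW in
/-- no stable line: the fundamental characters of level two -/
theorem exists_irred (hdet : ∀ g, (r g : Matrix (Fin 2) (Fin 2) k).det =
      algebraMap (ZMod p) k (ExtCitation.cycloChar p g))
    (hsplit : ∀ g, ∃ α β : k,
      (r g : Matrix (Fin 2) (Fin 2) k).charpoly = (X - C α) * (X - C β))
    (hF : ∃ F : IntermediateField ℚ Qb, FiniteDimensional ℚ F ∧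
      ∀ g ∈ F.fixingSubgroup, r g = 1)
    (hno : ∀ v, ¬ Stab P r v) [Algebra (ZMod p) (ResidueField P.A)]
    {s : GQ} (hs : s ∈ P.I) (hgen : IsPrimitiveRoot (P.th s) P.e) :
    ∃ (Q : GL (Fin 2) k) (μ : k), μ ^ p ^ 2 = μ ∧ μ ^ p ≠ μ ∧
      aeval (P.th s) (minpoly (ZMod p) μ) = 0 ∧
      (∀ h ∈ P.H, conjRep r Q h = 1) ∧
      (conjRep r Q s : Matrix (Fin 2) (Fin 2) k) = !![μ, 0; 0, μ ^ p] ∧
      (conjRep r Q P.φ : Matrix (Fin 2) (Fin 2) k) 0 0 = 0 ∧
      (conjRep r Q P.φ : Matrix (Fin 2) (Fin 2) k) 1 1 = 0 := by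
  classical
  haveI := Fintype.ofFinite k
  haveI := P.charP_res
  haveI : CharP k p := charP_of_injective_algebraMap' (ZMod p) p
  haveI : NeZero p := ⟨hpr.out.ne_zero⟩
  have hrI : ∀ g, (r g : Matrix (Fin 2) (Fin 2) k) = 1 → ExtCitation.cycloChar p g = 1 := by
    intro g hg
    refine Units.ext ((algebraMap (ZMod p) k).injective ?_)
    rw [← hdet, hg, Matrix.det_one, Units.val_one, map_one]
  -- the smallest level
  obtain ⟨u₀, hu₀, hmin⟩ := Finset.exists_min_image (Finset.univ.filter fun w : Fin 2 → k => w ≠ 0)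
    (fun w => M.lev (vmap w)) ⟨![1, 0], by simp⟩
  rw [Finset.mem_filter] at hu₀
  have hL1 : M.lev (vmap u₀) < 1 := by
    obtain ⟨τ, hτ, hτω⟩ := P.exists_ω_ne_one
    by_contra hge
    refine hτω (hrI τ (Matrix.ext_of_mulVec_single fun i => ?_))
    rw [Matrix.one_mulVec]
    by_contra hne
    have h := M.lev_smul_sub_lt (trivial : τ ∈ ⊤) hτ (vmap (Pi.single i (1 : k)))
    rw [smul_vmap, ← map_sub] at h
    exact hge ((hmin _ (Finset.mem_filter.mpr ⟨Finset.mem_univ _, sub_ne_zero.mpr hne⟩)).trans_lt h)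
  obtain ⟨i₀, hi₀⟩ := M.exists_lev (vmap u₀)
  set a := M.e i₀ (vmap u₀) - M.e i₀ 0
  have ha : a ≠ 0 := fun h => lev_vmap_ne P M hW hu₀.2 (by rw [← hi₀, h, map_zero])
  have ha1 : P.v a < 1 := hi₀ ▸ hL1
  have hu₀a : M.lev (vmap u₀) ≤ P.v a := hi₀.ge
  have hmove : ∀ g, g a = M.e i₀ (vmap ((r g : Matrix (Fin 2) (Fin 2) k) *ᵥ u₀)) - M.e i₀ 0 :=
    fun g => by rw [← smul_vmap, M.equiv g trivial, map_sub, M.cb_apply_zero trivial]
  -- the elements of that level span
  set Sp : Submodule k (Fin 2 → k) := Submodule.span k {w | M.lev (vmap w) ≤ P.v a}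
  have hSp : Sp = ⊤ := by
    by_contra hne
    have hu₀S : u₀ ∈ Sp := Submodule.subset_span hu₀a
    have hfr : Module.finrank k Sp ≤ 1 := by
      have := Submodule.finrank_lt hne
      rw [Module.finrank_fin_fun] at this
      omega
    have hle : (Submodule.span k {u₀}) = Sp :=
      Submodule.eq_of_le_of_finrank_le ((Submodule.span_singleton_le_iff_mem _ _).mpr hu₀S)
        (hfr.trans (finrank_span_singleton hu₀.2).ge)
    refine hno u₀ ⟨hu₀.2, fun g hg => ?_⟩
    have : (r g : Matrix (Fin 2) (Fin 2) k) *ᵥ u₀ ∈ Submodule.span k {u₀} := by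
      rw [hle]
      refine Submodule.subset_span ?_
      show M.lev _ ≤ _
      rw [← smul_vmap, M.lev_smul trivial hg]
      exact hu₀a
    obtain ⟨x, hx⟩ := Submodule.mem_span_singleton.mp this
    exact ⟨x, hx.symm⟩
  -- polynomials killing the character kill `r`
  have hkill : ∀ σ ∈ P.I, ∀ Pol : (ZMod p)[X], aeval (P.chr a σ) Pol = 0 →
      aeval (r σ : Matrix (Fin 2) (Fin 2) k) Pol = 0 := by
    intro σ hσ Pol hPol
    have h0 : ∀ w ∈ Sp, (aeval (r σ : Matrix (Fin 2) (Fin 2) k) Pol) *ᵥ w = 0 := by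
      intro w hw
      induction hw using Submodule.span_induction with
      | mem w hw =>
        by_contra hne
        have hle := aeval_mulVec_mem P M hσ Pol hw
        have hlt := lev_eq_of_lres_zero P M ha hle fun i => by
          rw [lres_aeval P M ha ha1 hσ Pol hw i, hPol, zero_mul]
        rw [show P.v a = M.lev (vmap u₀) from hi₀] at hlt
        exact absurd (hmin _ (Finset.mem_filter.mpr ⟨Finset.mem_univ _, hne⟩)) (not_le.mpr hlt)
      | zero => exact Matrix.mulVec_zero _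
      | add x y _ _ hx hy => rw [Matrix.mulVec_add, hx, hy, add_zero]
      | smul x w _ hw => rw [Matrix.mulVec_smul, hw, smul_zero]
    exact Matrix.ext_of_mulVec_single fun i => by
      rw [h0 _ (hSp ▸ Submodule.mem_top), Matrix.zero_mulVec]
  have hone : ∀ σ ∈ P.I, P.chr a σ = 1 → r σ = 1 := fun σ hσ h => by
    refine Units.ext ?_
    have := hkill σ hσ (Polynomial.X - 1) (by simp [h])
    rw [map_sub, aeval_X, map_one, sub_eq_zero] at this
    exact this
  have hrel : ∀ σ ∈ P.I, r (P.φ * σ * P.φ⁻¹) = r σ ^ p := by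
    intro σ hσ
    have hσ' := P.conj_mem_I P.φ_mem hσ
    have hm : (σ ^ p)⁻¹ * (P.φ * σ * P.φ⁻¹) ∈ P.I := mul_mem (inv_mem (pow_mem hσ p)) hσ'
    have hc : P.chr a ((σ ^ p)⁻¹ * (P.φ * σ * P.φ⁻¹)) = 1 := by
      have h1 := P.chr_mul ha (pow_mem hσ p) (P.I_le_D hm)
      rw [mul_inv_cancel_left, P.chr_conj ha hσ, P.chr_pow ha hσ] at h1
      refine mul_left_cancel₀ (pow_ne_zero p ((P.res_ne_zero (P.chr_mem ha (P.I_le_D hσ))).mpr (by
        rw [map_div₀, P.v_aut (P.I_le_D hσ), div_self ((Valuation.ne_zero_iff _).mpr ha)])))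
        (h1.symm.trans (mul_one _).symm)
    have h2 := hone _ hm hc
    rw [map_mul r, map_inv, inv_mul_eq_one, map_pow] at h2
    exact h2.symm
  have heigen : ∀ (N : Matrix (Fin 2) (Fin 2) k) (x : k), N.charpoly.eval x = 0 →
      ∃ u : Fin 2 → k, u ≠ 0 ∧ N *ᵥ u = x • u := by
    intro N x hx
    rw [Matrix.eval_charpoly] at hx
    obtain ⟨u, hu, hu'⟩ := (Matrix.exists_mulVec_eq_zero_iff).mpr hx
    refine ⟨u, hu, ?_⟩
    rw [Matrix.sub_mulVec, sub_eq_zero] at hu'
    rw [← hu']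
    funext i
    simp [Matrix.mulVec_diagonal]
  -- the eigenvalues
  have hev : ∀ σ ∈ P.I, ∀ α β : k,
      (r σ : Matrix (Fin 2) (Fin 2) k).charpoly = (X - C α) * (X - C β) →
      aeval α (minpoly (ZMod p) (P.chr a σ)) = 0 ∧
        (α = α ^ p ∨ α = β ^ p) := by
    intro σ hσ α β hcp
    set N := (r σ : Matrix (Fin 2) (Fin 2) k)
    obtain ⟨u, hu, hNu⟩ := heigen N α (by rw [hcp]; simp)
    refine ⟨?_, ?_⟩
    · have hpol : ∀ Pol : (ZMod p)[X], (aeval N Pol) *ᵥ u = (aeval α Pol) • u := by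
        intro Pol
        have hpow : ∀ n : ℕ, (N ^ n) *ᵥ u = (α ^ n) • u := fun n => by
          induction n with
          | zero => rw [pow_zero, pow_zero, Matrix.one_mulVec, one_smul]
          | succ n ih =>
            rw [pow_succ, ← Matrix.mulVec_mulVec, hNu, Matrix.mulVec_smul, ih, smul_smul, pow_succ']
        induction Pol using Polynomial.induction_on' with
        | add f g hf hg => rw [map_add, map_add, Matrix.add_mulVec, hf, hg, add_smul]
        | monomial n b =>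
          rw [aeval_monomial, aeval_monomial, ← Algebra.smul_def, ← Algebra.smul_def,
            Matrix.smul_mulVec, hpow n, smul_assoc]
      have h := hpol (minpoly (ZMod p) (P.chr a σ))
      rw [hkill σ hσ _ (minpoly.aeval _ _), Matrix.zero_mulVec, eq_comm, smul_eq_zero] at h
      exact h.resolve_right hu
    · set F := (r P.φ : Matrix (Fin 2) (Fin 2) k)
      set u' := F *ᵥ u
      have hu' : u' ≠ 0 := fun h => hu (by
        have := congrArg (((r P.φ)⁻¹ : GL (Fin 2) k).val *ᵥ ·) h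
        simpa only [u', F, inv_mulVec_mulVec, Matrix.mulVec_zero] using this)
      have hFN : F * N = N ^ p * F := by
        have h1 := hrel σ hσ
        rw [map_mul, map_mul, map_inv, mul_inv_eq_iff_eq_mul] at h1
        have h2 := congrArg Units.val h1
        simpa [F, N] using h2
      have h1 : (N ^ p) *ᵥ u' = α • u' := by
        rw [Matrix.mulVec_mulVec, ← hFN, ← Matrix.mulVec_mulVec, hNu, Matrix.mulVec_smul]
      have hCH : (N - α • 1) * (N - β • 1) = 0 := by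
        have := Matrix.aeval_self_charpoly N
        rw [hcp, map_mul, map_sub, map_sub, aeval_X, aeval_C, aeval_C,
          Algebra.algebraMap_eq_smul_one, Algebra.algebraMap_eq_smul_one] at this
        exact this
      have hcomm : Commute (N - α • 1) (N - β • 1) :=
        ((Commute.refl N).sub_right ((Commute.one_right N).smul_right β)).sub_left
          ((Commute.one_left _).smul_left α)
      have hp' : ∀ x : k, (N - x • 1) ^ p = N ^ p - x ^ p • 1 := fun x => by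
        rw [sub_pow_char_of_commute (p := p) (Commute.smul_right (Commute.one_right N) x),
          _root_.smul_pow, one_pow]
      have h2 : (N ^ p - α ^ p • 1) * (N ^ p - β ^ p • 1) = 0 := by
        rw [← hp', ← hp', ← hcomm.mul_pow, hCH, zero_pow hpr.out.ne_zero]
      have h3 := congrArg (· *ᵥ u') h2
      simp only [← Matrix.mulVec_mulVec, Matrix.sub_mulVec, h1, Matrix.smul_mulVec,
        Matrix.one_mulVec, Matrix.zero_mulVec, Matrix.mulVec_sub, Matrix.mulVec_smul, smul_smul,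
        ← sub_smul] at h3
      rw [smul_eq_zero, or_iff_left hu'] at h3
      have h4 : (α - α ^ p) * (α - β ^ p) = 0 := by linear_combination h3
      rcases mul_eq_zero.mp h4 with h | h
      · exact Or.inl (sub_eq_zero.mp h)
      · exact Or.inr (sub_eq_zero.mp h)
  have hev2 : ∀ σ ∈ P.I, ∀ α β : k,
      (r σ : Matrix (Fin 2) (Fin 2) k).charpoly = (X - C α) * (X - C β) →
      (α ^ p = α ∨ β = α ^ p) ∧ α ^ p ^ 2 = α := by
    intro σ hσ α β hcp
    have hcp' := hcp.trans (mul_comm _ _)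
    have h1 := (hev σ hσ α β hcp).2
    have h2 := (hev σ hσ β α hcp').2
    rw [sq, pow_mul]
    rcases h1 with h1 | h1
    · exact ⟨Or.inl h1.symm, by rw [← h1, ← h1]⟩
    rcases h2 with h2 | h2
    · rw [← h2] at h1
      subst h1
      exact ⟨Or.inl h2.symm, by rw [← h2, ← h2]⟩
    · exact ⟨Or.inr h2, by rw [← h2, ← h1]⟩
  have hroot : ∀ (x : k) (Pol : (ZMod p)[X]) (z : ResidueField P.A),
      aeval x (minpoly (ZMod p) z) = 0 → aeval x Pol = 0 → aeval z Pol = 0 := by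
    intro x Pol z hxz hx
    have e := minpoly.eq_of_irreducible_of_monic (minpoly.irreducible (P.isIntegral_res z)) hxz
      (minpoly.monic (P.isIntegral_res z))
    obtain ⟨q, rfl⟩ := minpoly.dvd (ZMod p) x hx
    rw [map_mul, ← e, minpoly.aeval, zero_mul]
  have hord : ∀ σ ∈ P.I, P.chr a σ ^ P.e = 1 := by
    intro σ hσ
    obtain ⟨α, β, hcp⟩ := hsplit σ
    have := hroot α (Polynomial.X ^ p ^ 2 - Polynomial.X) _ (hev σ hσ α β hcp).1
      (by simp [(hev2 σ hσ α β hcp).2])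
    rw [map_sub, map_pow, aeval_X, sub_eq_zero, ← P.e_add_one, pow_succ] at this
    exact mul_right_cancel₀ ((P.res_ne_zero (P.chr_mem ha (P.I_le_D hσ))).mpr (by
      rw [map_div₀, P.v_aut (P.I_le_D hσ), div_self ((Valuation.ne_zero_iff _).mpr ha)]))
      (this.trans (one_mul _).symm)
  -- the level is a power of `π`
  obtain ⟨i, hi⟩ := P.iorb_zpow ha
  set m := (P.iorb a).card
  have hm : ∀ σ ∈ P.I, P.chr a σ ^ m = 1 := by
    intro σ hσ
    have h1 : P.chr (a ^ m) σ = P.chr a σ ^ m := by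
      rw [PlaceData.chr, map_pow, ← div_pow, P.res_pow (P.chr_mem ha (P.I_le_D hσ))]; rfl
    rw [← h1, ← P.chr_eq (a := (p : Qb) ^ i) (zpow_ne_zero _ (Nat.cast_ne_zero.mpr hpr.out.ne_zero))
      (by rw [map_pow, hi, map_zpow₀]) hσ |>.symm, PlaceData.chr, map_zpow₀, map_natCast,
      div_self (zpow_ne_zero _ (Nat.cast_ne_zero.mpr hpr.out.ne_zero)), P.res_one]
  have hdvd : m ∣ P.e := by
    set g := Nat.gcd m P.e
    have hg : 0 < g := Nat.gcd_pos_of_pos_right _ P.e_pos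
    have hmg : m ≤ g := by
      choose! ρ hρ hρa using fun z (hz : z ∈ P.iorb a) => P.mem_iorb.mp hz
      set Q : (ResidueField P.A)[X] := Polynomial.X ^ g - Polynomial.C 1
      have hQ : Q ≠ 0 := X_pow_sub_C_ne_zero hg 1
      refine le_trans (Finset.card_le_card_of_injOn (fun z => P.chr a (ρ z))
        (t := Q.roots.toFinset) (fun z hz => ?_) fun z hz z' hz' hzz => ?_)
        ((Multiset.toFinset_card_le _).trans ((card_roots' Q).trans natDegree_X_pow_sub_C.le))
      · rw [Finset.mem_coe, Multiset.mem_toFinset, mem_roots hQ, IsRoot.def]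
        simp [Q, pow_gcd_eq_one.mpr ⟨hm _ (hρ z hz), hord _ (hρ z hz)⟩, g]
      · have h1 : (ρ z')⁻¹ * ρ z ∈ P.I := mul_mem (inv_mem (hρ z' hz')) (hρ z hz)
        have h2 : P.chr a ((ρ z')⁻¹ * ρ z) = 1 := by
          have h3 := P.chr_mul ha (hρ z' hz') (P.I_le_D h1)
          rw [mul_inv_cancel_left] at h3
          refine mul_left_cancel₀ ((P.res_ne_zero (P.chr_mem ha (P.I_le_D (hρ z' hz')))).mpr (by
            rw [map_div₀, P.v_aut (P.I_le_D (hρ z' hz')),
              div_self ((Valuation.ne_zero_iff _).mpr ha)]))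
            (h3.symm.trans (Eq.trans hzz (mul_one _).symm))
        have h4 := hone _ h1 h2
        rw [map_mul, map_inv, inv_mul_eq_one] at h4
        rw [← hρa z hz, ← hρa z' hz', hmove, hmove, h4]
    exact Nat.gcd_eq_left_iff_dvd.mp (le_antisymm (Nat.gcd_le_left _ (P.card_iorb_pos a)) hmg)
  obtain ⟨q, hq⟩ := hdvd
  obtain ⟨j, hj⟩ : ∃ j : ℕ, P.v a = P.v P.π ^ j := by
    have h1 : P.v a ^ P.e = (P.v P.π ^ (i * (q : ℤ))) ^ P.e := by
      rw [← zpow_natCast (P.v P.π ^ _), ← _root_.zpow_mul, mul_comm (i * (q : ℤ)), _root_.zpow_mul,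
        zpow_natCast, P.vπ_pow, _root_.zpow_mul, ← hi, zpow_natCast, ← pow_mul, ← hq]
    have h2 := (pow_left_inj₀ zero_le zero_le P.e_pos.ne').mp h1
    have hpos : 0 < i * (q : ℤ) := by
      rw [h2] at ha1
      exact (zpow_lt_one_iff_right_of_lt_one₀ P.vπ_pos P.vπ_lt).mp ha1
    exact ⟨(i * (q : ℤ)).toNat, by rw [h2, ← zpow_natCast, Int.toNat_of_nonneg hpos.le]⟩
  have hj1 : 1 ≤ j := Nat.pos_of_ne_zero fun h => by
    rw [h, pow_zero] at hj; exact ha1.ne hj
  have hjp : j ≤ p + 1 := P.vpow_le.mp ((P.key_bound M (u := vmap u₀) (by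
      rw [hW, AddSubgroup.mem_bot, ← map_zero (vmap (c := c))]
      exact fun h => hu₀.2 (vmap_injective h)) (by rw [p_nsmul_vmap]; exact M.W.zero_mem)).trans
        (hi₀ ▸ hj ▸ le_rfl))
  have hH : ∀ h ∈ P.H, r h = 1 := fun h hh => hone h (P.H_le hh) (by
    rw [P.chr_eq_th hj (P.H_le hh), P.th_H hh, one_pow])
  -- the generator of tame inertia
  obtain ⟨α, β, hcp⟩ := hsplit s
  have hcp' := hcp.trans (mul_comm _ _)
  set N := (r s : Matrix (Fin 2) (Fin 2) k)
  obtain ⟨hαP, -⟩ := hev s hs α β hcp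
  obtain ⟨hαβ, hα2⟩ := hev2 s hs α β hcp
  have hχ : P.chr a s = P.th s ^ j := P.chr_eq_th hj hs
  rw [hχ] at hαP
  have hαF : α ^ p ≠ α := by
    intro hα
    have h1 := hroot α (Polynomial.X ^ p - Polynomial.X) _ hαP (by simp [hα])
    rw [map_sub, map_pow, aeval_X, sub_eq_zero] at h1
    obtain ⟨n, -, hn⟩ := P.exists_natCast_of_pow_eq h1
    have hN : N = (n : k) • (1 : Matrix (Fin 2) (Fin 2) k) := by
      have := hkill s hs (Polynomial.X - (n : (ZMod p)[X]))
        (by rw [map_sub, aeval_X, map_natCast, hχ, hn, sub_self])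
      rw [map_sub, aeval_X, map_natCast, sub_eq_zero] at this
      show N = _
      rw [Nat.cast_smul_eq_nsmul, nsmul_one]
      exact this
    obtain ⟨x, y, hxy⟩ := hsplit P.φ
    obtain ⟨u, hu, hFu⟩ := heigen _ x (by rw [hxy]; simp)
    obtain ⟨F, hFfin, hFr⟩ := hF
    haveI := hFfin
    let St : Subgroup GQ :=
      { carrier := {g | ∃ z : kˣ, (r g : Matrix (Fin 2) (Fin 2) k) *ᵥ u = (z : k) • u}
        mul_mem' := by
          rintro g g' ⟨z, hz⟩ ⟨z', hz'⟩
          exact ⟨z' * z, by rw [map_mul, Units.val_mul, ← Matrix.mulVec_mulVec, hz',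
            Matrix.mulVec_smul, hz, smul_smul, Units.val_mul]⟩
        one_mem' := ⟨1, by simp⟩
        inv_mem' := by
          rintro g ⟨z, hz⟩
          refine ⟨z⁻¹, ?_⟩
          have h2 := congrArg ((r g⁻¹ : Matrix (Fin 2) (Fin 2) k) *ᵥ ·) hz
          simp only [Matrix.mulVec_mulVec, Matrix.mulVec_smul, ← Units.val_mul, ← map_mul,
            inv_mul_cancel, map_one, Units.val_one, Matrix.one_mulVec] at h2
          conv_rhs => rw [h2]
          rw [smul_smul, ← Units.val_mul, inv_mul_cancel, Units.val_one, one_smul] }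
    have hunit : ∀ (g : GQ) (z : k), (r g : Matrix (Fin 2) (Fin 2) k) *ᵥ u = z • u → g ∈ St := by
      intro g z hz
      refine ⟨Units.mk0 z ?_, hz⟩
      rintro rfl
      rw [zero_smul] at hz
      have := congrArg (((r g)⁻¹ : GL (Fin 2) k).val *ᵥ ·) hz
      simp only [inv_mulVec_mulVec, Matrix.mulVec_zero] at this
      exact hu this
    have hSI : P.I ≤ St := fun σ hσ => by
      obtain ⟨l, h, hh, rfl⟩ := P.exists_pow_mul_H hs hgen hσ
      refine hunit _ ((n : k) ^ l) ?_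
      rw [map_mul, hH h hh, mul_one, map_pow, Units.val_pow_eq_pow_val, show (r s).val = _ from hN,
        _root_.smul_pow, one_pow, Matrix.smul_mulVec, Matrix.one_mulVec]
    have hSF : F.fixingSubgroup ≤ St := fun g hg => hunit g 1 (by simp [hFr g hg])
    exact hno u ⟨hu, fun g hg => let ⟨z, hz⟩ := P.D_le hSI hSF (hunit _ x hFu) hg; ⟨z, hz⟩⟩
  have hβ : β = α ^ p := hαβ.resolve_left hαF
  obtain ⟨v, hv, hNv⟩ := heigen N α (by rw [hcp]; simp)
  obtain ⟨w, hw, hNw⟩ := heigen N β (by rw [hcp]; simp)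
  have hne : α ≠ β := fun h => hαF (hβ ▸ h.symm)
  have hdetQ : v 0 * w 1 - w 0 * v 1 ≠ 0 := by
    intro h0
    obtain ⟨l, hl⟩ : ∃ l : Fin 2, v l ≠ 0 := Function.ne_iff.mp hv
    have hwv : v l • w = w l • v := by
      funext t
      fin_cases l <;> fin_cases t <;> simp <;>
        first | ring1 | linear_combination h0 | linear_combination -h0
    have hwl : w l ≠ 0 := fun h => hw (by
      have := hwv
      rw [h, zero_smul, smul_eq_zero] at this
      exact this.resolve_left hl)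
    have h5 := congrArg (N *ᵥ ·) hwv
    simp only [Matrix.mulVec_smul, hNw, hNv, smul_smul] at h5
    rw [mul_comm (v l), mul_comm (w l), ← smul_smul, ← smul_smul, hwv, smul_smul, smul_smul,
      ← sub_eq_zero, ← sub_smul, smul_eq_zero, or_iff_left hv, ← sub_mul, mul_eq_zero,
      or_iff_left hwl, sub_eq_zero] at h5
    exact hne h5.symm
  let Q : GL (Fin 2) k := Matrix.GeneralLinearGroup.mkOfDetNeZero !![v 0, w 0; v 1, w 1]
    (by rw [Matrix.det_fin_two_of]; exact hdetQ)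
  have hQ0 : (Q : Matrix (Fin 2) (Fin 2) k) *ᵥ ![1, 0] = v := by
    funext t; fin_cases t <;>
      simp [Q, Matrix.mulVec, dotProduct, Fin.sum_univ_two, Matrix.GeneralLinearGroup.mkOfDetNeZero]
  have hQ1 : (Q : Matrix (Fin 2) (Fin 2) k) *ᵥ ![0, 1] = w := by
    funext t; fin_cases t <;>
      simp [Q, Matrix.mulVec, dotProduct, Fin.sum_univ_two, Matrix.GeneralLinearGroup.mkOfDetNeZero]
  set S := (conjRep r Q s : Matrix (Fin 2) (Fin 2) k)
  have hS0 : S *ᵥ ![1, 0] = α • ![1, 0] := Q_mulVec_inj Q (by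
    rw [← conjRep_mulVec, hQ0, hNv, Matrix.mulVec_smul, hQ0])
  have hS1 : S *ᵥ ![0, 1] = β • ![0, 1] := Q_mulVec_inj Q (by
    rw [← conjRep_mulVec, hQ1, hNw, Matrix.mulVec_smul, hQ1])
  have hSeq : S = !![α, 0; 0, α ^ p] := by
    have e1 := congrFun hS0 0
    have e2 := congrFun hS0 1
    have e3 := congrFun hS1 0
    have e4 := congrFun hS1 1
    simp [Matrix.mulVec, dotProduct, Fin.sum_univ_two] at e1 e2 e3 e4
    ext t t'
    fin_cases t <;> fin_cases t' <;> simp [e1, e2, e3, e4, hβ]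
  have hFS : (conjRep r Q P.φ : Matrix (Fin 2) (Fin 2) k) * S =
      S ^ p * (conjRep r Q P.φ : Matrix (Fin 2) (Fin 2) k) := by
    have h1 : conjRep r Q (P.φ * s * P.φ⁻¹) = conjRep r Q s ^ p := by
      rw [conjRep, MonoidHom.comp_apply, hrel s hs, map_pow]
      rfl
    rw [map_mul, map_mul, map_inv, mul_inv_eq_iff_eq_mul] at h1
    simpa [S] using congrArg Units.val h1
  have hSp' : S ^ p = !![α ^ p, 0; 0, α] := by
    have hpow : ∀ l : ℕ, (!![α, 0; 0, α ^ p] : Matrix (Fin 2) (Fin 2) k) ^ l =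
        !![α ^ l, 0; 0, (α ^ p) ^ l] := fun l => by
      induction l with
      | zero => simp [Matrix.one_fin_two]
      | succ l ih => rw [pow_succ, ih, Matrix.mul_fin_two]; simp [pow_succ]
    rw [hSeq, hpow, ← pow_mul, ← sq, hα2]
  rw [hSp', hSeq] at hFS
  set F' := (conjRep r Q P.φ : Matrix (Fin 2) (Fin 2) k)
  have hd0 : F' 0 0 * (α - α ^ p) = 0 := by
    have := congrFun (congrFun hFS 0) 0
    simp [Matrix.mul_apply, Fin.sum_univ_two] at this
    linear_combination this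
  have hd1 : F' 1 1 * (α ^ p - α) = 0 := by
    have := congrFun (congrFun hFS 1) 1
    simp [Matrix.mul_apply, Fin.sum_univ_two] at this
    linear_combination this
  refine ⟨Q, α, hα2, hαF, ?_, fun h hh => by rw [conjRep, MonoidHom.comp_apply, hH h hh, map_one],
    hSeq, (mul_eq_zero.mp hd0).resolve_right (sub_ne_zero.mpr fun h => hαF h.symm),
    (mul_eq_zero.mp hd1).resolve_right (sub_ne_zero.mpr hαF)⟩
  -- the level is `1` or `p`
  have hdetα : α * β = algebraMap (ZMod p) k (ExtCitation.cycloChar p s) := by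
    have := conjRep_det r Q s
    rw [hdet, show (conjRep r Q s : Matrix (Fin 2) (Fin 2) k) = S from rfl, hSeq,
      Matrix.det_fin_two_of, mul_zero, sub_zero] at this
    rw [hβ, this]
  have h1 := hroot α (Polynomial.X ^ (p + 1) - Polynomial.C ((ExtCitation.cycloChar p s : ZMod p)))
    _ hαP (by rw [map_sub, map_pow, aeval_X, aeval_C, pow_succ', ← hβ, hdetα, sub_self])
  rw [map_sub, map_pow, aeval_X, aeval_C, P.algebraMap_val, sub_eq_zero, ← P.th_cyclo hs,
    ← pow_mul] at h1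
  have hdiv : P.e ∣ (j - 1) * (p + 1) := by
    refine (hgen.pow_eq_one_iff_dvd _).mp ?_
    rw [show j * (p + 1) = (j - 1) * (p + 1) + (p + 1) by
      rw [← Nat.succ_mul, Nat.succ_eq_add_one, Nat.sub_add_cancel hj1], pow_add] at h1
    exact mul_right_cancel₀ (pow_ne_zero (p + 1) (P.th_ne s)) (h1.trans (one_mul _).symm)
  rw [P.e_eq] at hdiv
  have hdiv' := Nat.dvd_of_mul_dvd_mul_right (Nat.succ_pos p) hdiv
  have h3 := P.three_le
  have hαP' : aeval (P.th s ^ j) (minpoly (ZMod p) α) = 0 :=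
    hroot α (minpoly (ZMod p) α) _ hαP (minpoly.aeval _ _)
  rcases Nat.eq_zero_or_pos (j - 1) with h0 | h0
  · rwa [show j = 1 by omega, pow_one] at hαP'
  obtain ⟨l, hl⟩ := hdiv'
  have hjp' : j = p := by
    rcases l with _ | _ | l
    · omega
    · omega
    · exfalso
      have hl' : (p - 1) * (l + 1 + 1) = j - 1 := hl.symm
      have : (p - 1) * 2 ≤ (p - 1) * (l + 1 + 1) := Nat.mul_le_mul_left _ (by omega)
      omega
  have hfr : ∀ (Pol : (ZMod p)[X]) (z : ResidueField P.A), aeval (z ^ p) Pol = aeval z Pol ^ p := by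
    intro Pol z
    rw [← map_pow, ← Polynomial.expand_aeval, ZMod.expand_card]
  rw [hjp', hfr] at hαP'
  exact eq_zero_of_pow_eq_zero hαP'

end Residual

end FLTAgent.PT.TW

end
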