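import Fermat.Agent.PT.TW.Flat.Frame
import Fermat.Agent.PT.TW.Flat.Residual

/-!
Parcel H, the ordinary shape: a stable line on which inertia acts through `ω` with unramified
quotient. The connected part of a flat module is multiplicative, and what remains is counted by the
leading residues of the Kummer generators at the level of `ζ`.
-/

set_option autoImplicit false
set_option linter.style.haveILetI false
set_option linter.unusedSectionVars false

noncomputable section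

open Matrix groupCohomology

namespace FLTAgent.PT.TW

open FLTAgent.Reduction (Qb)
open IsLocalRing (ResidueField)

variable {p : ℕ} [hpr : Fact p.Prime]

namespace PlaceData

variable (P : PlaceData p) {G : Type} [AddCommGroup G] [DistribMulAction GQ G] {S : Subgroup GQ}
  (M : Mdl P.A S G)

/-- a line on which inertia acts through `ω` has the level of `ζ - 1` -/
theorem lev_omega (hS : P.I ≤ S) {u : G} (hpu : p • u ∈ M.W)
    (hu : ∀ σ ∈ P.I, σ • u - (ExtCitation.cycloChar p σ : ZMod p).val • u ∈ M.W) :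
    M.lev u ≤ P.v P.π ^ (p + 1) := by
  classical
  haveI : NeZero p := ⟨hpr.out.ne_zero⟩
  rcases eq_or_ne (M.lev u) 0 with h0 | hne
  · rw [h0]; exact zero_le
  -- the level is less than one
  have hconn : ∀ w ∈ M.W, w ∈ M.conn := fun w hw => by
    show M.lev w < 1
    rw [M.lev_of_mem hw]; exact zero_lt_one
  have hlt : M.lev u < 1 := by
    obtain ⟨σ, hσ, hσω⟩ := P.exists_ω_ne_one
    set n := (ExtCitation.cycloChar p σ : ZMod p).val
    have hn1 : 1 ≤ n := Nat.pos_of_ne_zero fun h => (ExtCitation.cycloChar p σ).ne_zero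
      ((ZMod.val_eq_zero _).mp h)
    have h1 : σ • u - u ∈ M.conn := M.lev_smul_sub_lt (hS hσ) hσ u
    have h2 : (n - 1) • u ∈ M.conn := by
      have e : (n - 1) • u = (σ • u - u) - (σ • u - n • u) := by
        rw [sub_sub_sub_cancel_left, eq_sub_iff_add_eq, ← succ_nsmul, Nat.sub_add_cancel hn1]
      rw [e]
      exact sub_mem h1 (hconn _ (hu σ hσ))
    set c : ZMod p := ((n - 1 : ℕ) : ZMod p)
    have hc : c ≠ 0 := fun h => by
      refine hσω (Units.ext ?_)
      simp only [c, Nat.cast_sub hn1, n, ZMod.natCast_zmod_val, Nat.cast_one, sub_eq_zero] at h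
      rw [Units.val_one]; exact h
    set m := c⁻¹.val
    have hmod : (m * (n - 1)) % p = 1 := by
      have h3 : ((m * (n - 1) : ℕ) : ZMod p) = (1 : ℕ) := by
        rw [Nat.cast_mul, ZMod.natCast_zmod_val, Nat.cast_one]
        exact inv_mul_cancel₀ hc
      have h4 := (ZMod.natCast_eq_natCast_iff' _ _ _).mp h3
      rwa [Nat.mod_eq_of_lt hpr.out.one_lt] at h4
    have e : u = m • ((n - 1) • u) - (m * (n - 1) / p) • (p • u) := by
      rw [← mul_smul, ← mul_smul]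
      conv_rhs => arg 1; rw [← Nat.div_add_mod (m * (n - 1)) p, hmod, add_smul, one_smul,
        mul_comm p]
      rw [add_sub_cancel_left]
    rw [e]
    exact sub_mem (nsmul_mem h2 m) (nsmul_mem (hconn _ hpu) _)
  obtain ⟨i, hi⟩ := M.exists_lev u
  set a := M.e i u - M.e i 0
  have ha : a ≠ 0 := fun h => hne (by rw [← hi, h, map_zero])
  have ha1 : P.v a < 1 := hi ▸ hlt
  have hsub : P.iorb a ⊆ (Finset.Ico 1 p).image fun n : ℕ => M.e i (n • u) - M.e i 0 := by
    intro z hz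
    obtain ⟨τ, hτ, rfl⟩ := P.mem_iorb.mp hz
    set n := (ExtCitation.cycloChar p τ : ZMod p).val
    refine Finset.mem_image.mpr ⟨n, Finset.mem_Ico.mpr
      ⟨Nat.pos_of_ne_zero fun h => (ExtCitation.cycloChar p τ).ne_zero ((ZMod.val_eq_zero _).mp h),
        ZMod.val_lt _⟩, ?_⟩
    rw [map_sub, M.cb_apply_zero (hS hτ), ← M.equiv τ (hS hτ)]
    congr 1
    conv_rhs => rw [← add_sub_cancel (n • u) (τ • u)]
    exact (M.inv i _ _ (hu τ hτ)).symm
  have hcard : (P.iorb a).card ≤ p - 1 :=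
    (Finset.card_le_card hsub).trans (Finset.card_image_le.trans (Nat.card_Ico 1 p).le)
  rw [← hi]
  refine le_of_pow_le_pow_left₀ (show p - 1 ≠ 0 by have := P.three_le; omega) zero_le ?_
  rw [← pow_mul, mul_comm (p + 1), ← P.e_eq, P.vπ_pow]
  refine (pow_le_pow_right_of_le_one' ha1.le hcard).trans ?_
  obtain ⟨z, hz⟩ := P.iorb_zpow ha
  have hlt1 : P.v a ^ (P.iorb a).card < 1 := pow_lt_one₀ zero_le ha1 (P.card_iorb_pos a).ne'
  rw [hz] at hlt1 ⊢
  have := (zpow_lt_one_iff_right_of_lt_one₀ P.vp_pos P.vp_lt).mp hlt1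
  exact (zpow_le_zpow_right_of_le_one₀ P.vp_pos P.vp_lt.le (show (1 : ℤ) ≤ z by omega)).trans
    (zpow_one _).le

include P in
/-- sums over a box of small level -/
theorem cb_box {n : ℕ} (u : Fin n → G) (hu : ∀ i, M.lev (u i) ≤ P.v P.π ^ (p + 1))
    {N : P.A.ValueGroup} {f : G → Qb} (hf : M.Cb N f) :
    M.Cb (P.v (p : Qb) ^ n * N)
      (fun x => ∑ c : Fin n → ZMod p, f (x + ∑ i, (c i).val • u i)) := by
  classical
  haveI : NeZero p := ⟨hpr.out.ne_zero⟩
  induction n with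
  | zero =>
    rw [pow_zero, one_mul]
    exact hf.congr fun x => by simp
  | succ n ih =>
    have h1 := ih (fun i => u i.succ) (fun i => hu i.succ)
    have h2 := P.cb_line_sum M (hu 0) h1
    rw [pow_succ', mul_assoc]
    refine h2.congr fun x => ?_
    rw [← (Fin.consEquiv fun _ : Fin (n + 1) => ZMod p).sum_comp, Fintype.sum_prod_type]
    refine Finset.sum_bij' (fun j _ => j.val) (fun j _ => (j : ZMod p))
      (fun j _ => Finset.mem_range.mpr (ZMod.val_lt j)) (fun j _ => Finset.mem_univ _)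
      (fun j _ => ZMod.natCast_zmod_val j)
      (fun j hj => ZMod.val_cast_of_lt (Finset.mem_range.mp hj)) fun j _ => ?_
    refine Finset.sum_congr rfl fun c _ => ?_
    rw [Fin.sum_univ_succ]
    simp only [Fin.consEquiv, Equiv.coe_fn_mk, Fin.cons_zero, Fin.cons_succ]
    rw [add_assoc]

end PlaceData

variable {k : Type} [Field k] [Algebra (ZMod p) k]

theorem vec2_zero : (![0, 0] : Fin 2 → k) = 0 := by
  funext i; fin_cases i <;> rfl

theorem vec2_add (a b : k) : (![a + b, 0] : Fin 2 → k) = ![a, 0] + ![b, 0] := by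
  funext i; fin_cases i <;> simp

namespace CData

variable {R : GQ →* GL (Fin 2) k} (d : CData p R)

/-- `α ↦ (α e₁, 0)` -/
def hor : k →+ d.Mod where
  toFun a := ⟨![a, 0], 0⟩
  map_zero' := ExtMod.ext vec2_zero rfl
  map_add' a b := ExtMod.ext (by simp) (by simp)

/-- `γ ↦ (0, γ e₁)` -/
def ver : k →+ d.Mod where
  toFun a := ⟨0, ![a, 0]⟩
  map_zero' := ExtMod.ext rfl vec2_zero
  map_add' a b := ExtMod.ext (by simp) (by simp)

theorem hor_apply (a : k) : d.hor a = ⟨![a, 0], 0⟩ := rfl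

theorem ver_apply (a : k) : d.ver a = ⟨0, ![a, 0]⟩ := rfl

/-- the elements `(α e₁, γ e₁)` -/
def flag : AddSubgroup d.Mod where
  carrier := {x | x.fst 1 = 0 ∧ x.snd 1 = 0}
  add_mem' {x y} hx hy := ⟨by rw [ExtMod.add_fst, Pi.add_apply, hx.1, hy.1, add_zero],
    by rw [ExtMod.add_snd, Pi.add_apply, hx.2, hy.2, add_zero]⟩
  zero_mem' := ⟨rfl, rfl⟩
  neg_mem' {x} hx := by
    refine ⟨?_, ?_⟩
    · rw [show (-x).fst = -x.fst from map_neg d.fstHom x, Pi.neg_apply, hx.1, neg_zero]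
    · rw [show (-x).snd = -x.snd from map_neg d.sndHom x, Pi.neg_apply, hx.2, neg_zero]

theorem mem_flag {x : d.Mod} : x ∈ d.flag ↔ x.fst 1 = 0 ∧ x.snd 1 = 0 := Iff.rfl

/-- `(α e₁, γ e₁)` with `l γ = 0` -/
def flagKer (l : k →+ ZMod p) : AddSubgroup d.Mod :=
  d.flag ⊓ ((l.comp (Pi.evalAddMonoidHom (fun _ : Fin 2 => k) 0)).comp d.sndHom).ker

theorem mem_flagKer {l : k →+ ZMod p} {x : d.Mod} :
    x ∈ d.flagKer l ↔ x ∈ d.flag ∧ l (x.snd 0) = 0 := Iff.rfl

/-- a coboundary applied after another -/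
theorem shift_shift {m m' : Matrix (Fin 2) (Fin 2) k} (g : GQ) :
    d.C g + ((R g : Matrix (Fin 2) (Fin 2) k) * (m + m') * ((R g)⁻¹ : GL (Fin 2) k) - (m + m')) =
      d.C g + ((R g : Matrix (Fin 2) (Fin 2) k) * m * ((R g)⁻¹ : GL (Fin 2) k) - m) +
        ((R g : Matrix (Fin 2) (Fin 2) k) * m' * ((R g)⁻¹ : GL (Fin 2) k) - m') := by
  rw [mul_add, add_mul]
  abel

end CData

/-- the ordinary shape of `R` at `p` -/
structure Ord (P : PlaceData p) (R : GQ →* GL (Fin 2) k) where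
  /-- the generator of tame inertia -/
  s : GQ
  hs : s ∈ P.I
  hgen : IsPrimitiveRoot (P.th s) P.e
  hlow : ∀ g ∈ P.D, (R g : Matrix (Fin 2) (Fin 2) k) 1 0 = 0
  h00 : ∀ σ ∈ P.I, (R σ : Matrix (Fin 2) (Fin 2) k) 0 0 =
    algebraMap (ZMod p) k (ExtCitation.cycloChar p σ)
  h11 : ∀ σ ∈ P.I, (R σ : Matrix (Fin 2) (Fin 2) k) 1 1 = 1
  hS : (R s : Matrix (Fin 2) (Fin 2) k) 0 1 = 0
  hlevel : ∃ F : IntermediateField ℚ Qb, FiniteDimensional ℚ F ∧ ∀ g ∈ F.fixingSubgroup, R g = 1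

namespace Ord

open PlaceData (conjH)

variable [Finite k] {P : PlaceData p} {R : GQ →* GL (Fin 2) k} (O : Ord P R)

/-- the character on the line -/
def x (_O : Ord P R) (g : GQ) : k := (R g : Matrix (Fin 2) (Fin 2) k) 0 0

/-- the upper right entry -/
def y (_O : Ord P R) (g : GQ) : k := (R g : Matrix (Fin 2) (Fin 2) k) 0 1

/-- the character on the quotient -/
def z (_O : Ord P R) (g : GQ) : k := (R g : Matrix (Fin 2) (Fin 2) k) 1 1

/-- `ω s` in `k` -/
def ω : k := algebraMap (ZMod p) k (ExtCitation.cycloChar p O.s)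

include O

theorem R_eq {g : GQ} (hg : g ∈ P.D) :
    (R g : Matrix (Fin 2) (Fin 2) k) = !![O.x g, O.y g; 0, O.z g] := by
  conv_lhs => rw [Matrix.eta_fin_two (R g : Matrix (Fin 2) (Fin 2) k), O.hlow g hg]
  rfl

theorem xz_ne {g : GQ} (hg : g ∈ P.D) : O.x g ≠ 0 ∧ O.z g ≠ 0 := by
  have h := (Matrix.isUnit_iff_isUnit_det _).mp (R g).isUnit
  rw [O.R_eq hg, Matrix.det_fin_two_of, mul_zero, sub_zero, isUnit_iff_ne_zero, mul_ne_zero_iff]
    at h
  exact h

theorem R_inv {g : GQ} (hg : g ∈ P.D) : (((R g)⁻¹ : GL (Fin 2) k) : Matrix (Fin 2) (Fin 2) k) =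
    !![(O.x g)⁻¹, -O.y g / (O.x g * O.z g); 0, (O.z g)⁻¹] := by
  refine Units.inv_eq_of_mul_eq_one_right ?_
  obtain ⟨hx, hz⟩ := O.xz_ne hg
  rw [O.R_eq hg, Matrix.mul_fin_two]
  ext i j
  fin_cases i <;> fin_cases j <;> simp [hx, hz] <;> field_simp <;> ring

theorem ω_ne_one : O.ω ≠ 1 := by
  intro h
  haveI : Fact (1 < p) := ⟨hpr.out.one_lt⟩
  have h1 := P.th_cyclo O.hs
  rw [(algebraMap (ZMod p) k).injective (h.trans (map_one _).symm), ZMod.val_one, Nat.cast_one,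
    O.hgen.pow_eq_one_iff_dvd] at h1
  have := Nat.le_of_dvd (by omega) h1
  have := P.two_p_lt
  omega

theorem ω_ne_zero : O.ω ≠ 0 := fun h =>
  (ExtCitation.cycloChar p O.s).ne_zero ((map_eq_zero _).mp h)

theorem xs : O.x O.s = O.ω := O.h00 _ O.hs

theorem zs : O.z O.s = 1 := O.h11 _ O.hs

theorem ys : O.y O.s = 0 := O.hS

theorem cyclo_H {h : GQ} (hh : h ∈ P.H) : (ExtCitation.cycloChar p h : ZMod p) = 1 := by
  haveI : NeZero p := ⟨hpr.out.ne_zero⟩
  haveI : Fact (1 < p) := ⟨hpr.out.one_lt⟩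
  refine ZMod.val_injective p ?_
  rw [ZMod.val_one]
  refine P.hζ.pow_inj (ZMod.val_lt _) hpr.out.one_lt ?_
  rw [pow_one, ← P.cyc_spec h P.hζ.pow_eq_one, P.ζ_fixed_H hh]

theorem xH {h : GQ} (hh : h ∈ P.H) : O.x h = 1 ∧ O.z h = 1 := by
  refine ⟨?_, O.h11 _ (P.H_le hh)⟩
  show (R h : Matrix (Fin 2) (Fin 2) k) 0 0 = 1
  rw [O.h00 _ (P.H_le hh), O.cyclo_H hh, map_one]

theorem H_le_D {h : GQ} (hh : h ∈ P.H) : h ∈ P.D := P.I_le_D (P.H_le hh)

theorem sD : O.s ∈ P.D := P.I_le_D O.hs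

variable (d : CData p R)

theorem smul_hor {g : GQ} (hg : g ∈ P.D) (a : k) : g • d.hor a =
    ⟨![O.x g * a, 0], ![d.C g 0 0 * (O.x g * a), d.C g 1 0 * (O.x g * a)]⟩ := by
  apply ExtMod.ext
  · rw [d.smul_fst, d.hor_apply, O.R_eq hg]
    funext i
    fin_cases i <;> simp [mul_comm]
  · rw [d.smul_snd, d.hor_apply, O.R_eq hg]
    funext i
    fin_cases i <;> simp [Matrix.mulVec, dotProduct, Fin.sum_univ_two, mul_comm]

theorem smul_ver {g : GQ} (hg : g ∈ P.D) (a : k) : g • d.ver a = d.ver (O.x g * a) := by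
  apply ExtMod.ext
  · rw [d.smul_fst, d.ver_apply, Matrix.mulVec_zero]
    rfl
  · rw [d.smul_snd, d.ver_apply, Matrix.mulVec_zero, Matrix.mulVec_zero, zero_add, O.R_eq hg,
      d.ver_apply]
    funext i
    fin_cases i <;> simp [mul_comm]

theorem C_mul_10 {g h : GQ} (hg : g ∈ P.D) :
    d.C (g * h) 1 0 = O.z g / O.x g * d.C h 1 0 + d.C g 1 0 := by
  rw [d.coc, Matrix.add_apply, O.R_inv hg, O.R_eq hg]
  simp [Matrix.mul_apply, Fin.sum_univ_two, Matrix.vecMul, dotProduct]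
  ring

theorem C_mul_00 {g h : GQ} (hg : g ∈ P.D) (hc : d.C h 1 0 = 0) :
    d.C (g * h) 0 0 = d.C h 0 0 + d.C g 0 0 := by
  obtain ⟨hx, hz⟩ := O.xz_ne hg
  rw [d.coc, Matrix.add_apply, O.R_inv hg, O.R_eq hg]
  simp [Matrix.mul_apply, Fin.sum_univ_two, Matrix.vecMul, dotProduct, hc]
  field_simp

theorem C_mul_01 {g h : GQ} (hg : g ∈ P.D) (hc : d.C h 1 0 = 0) :
    d.C (g * h) 0 1 = (O.x g * d.C h 0 1 - 2 * O.y g * d.C h 0 0) / O.z g + d.C g 0 1 := by
  obtain ⟨hx, hz⟩ := O.xz_ne hg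
  rw [d.coc, Matrix.add_apply, O.R_inv hg, O.R_eq hg]
  simp [Matrix.mul_apply, Fin.sum_univ_two, Matrix.vecMul, dotProduct, hc, d.trace_diag]
  field_simp
  ring

/-! ### the connected part -/

theorem conn_facts (M : Mdl P.A ⊤ d.Mod) (hW : M.W = ⊥) {w : d.Mod} (hw : w ∈ M.conn) :
    w.fst 1 = 0 ∧ (w.fst = 0 → w.snd 1 = 0) := by
  haveI : Module.Finite (ZMod p) k := Module.Finite.of_finite
  haveI : Finite d.Mod := inferInstance
  have hst : ∀ σ ∈ P.I, ∀ y ∈ M.conn, σ • y ∈ M.conn := fun σ hσ y hy => by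
    show M.lev (σ • y) < 1
    rw [M.lev_smul trivial (P.I_le_D hσ)]; exact hy
  refine ⟨(Module.forall_dual_apply_eq_zero_iff (ZMod p) _).mp fun f => ?_, fun h0 => ?_⟩
  · refine M.no_hom hpr.out P.ne2 P.hA le_top hW M.conn (fun y hy => hy) hst
      ((f.toAddMonoidHom.comp (Pi.evalAddMonoidHom (fun _ : Fin 2 => k) 1)).comp d.fstHom)
      (fun σ hσ y _ => ?_) hw
    show f ((σ • y).fst 1) = f (y.fst 1)
    rw [d.smul_fst, O.R_eq (P.I_le_D hσ), show O.z σ = 1 from O.h11 σ hσ]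
    simp [Matrix.mulVec, dotProduct, Fin.sum_univ_two]
  · refine (Module.forall_dual_apply_eq_zero_iff (ZMod p) _).mp fun f => ?_
    let K : AddSubgroup d.Mod := M.conn ⊓ d.fstHom.ker
    refine M.no_hom hpr.out P.ne2 P.hA le_top hW K (fun y hy => hy.1) (fun σ hσ y hy => ?_)
      ((f.toAddMonoidHom.comp (Pi.evalAddMonoidHom (fun _ : Fin 2 => k) 1)).comp d.sndHom)
      (fun σ hσ y hy => ?_) (y := w) ⟨hw, h0⟩
    · refine ⟨hst σ hσ y hy.1, ?_⟩
      show (σ • y).fst = 0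
      rw [d.smul_fst, show y.fst = 0 from hy.2, Matrix.mulVec_zero]
    · show f ((σ • y).snd 1) = f (y.snd 1)
      rw [d.smul_snd, show y.fst = 0 from hy.2, Matrix.mulVec_zero, Matrix.mulVec_zero, zero_add,
        O.R_eq (P.I_le_D hσ), show O.z σ = 1 from O.h11 σ hσ]
      simp [Matrix.mulVec, dotProduct, Fin.sum_univ_two]

/-- after a coboundary the lower left entry vanishes on the decomposition group -/
theorem c10_shift (M : Mdl P.A ⊤ d.Mod) (hW : M.W = ⊥) {g : GQ} (hg : g ∈ P.D) :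
    d.C g 1 0 + (O.z g / O.x g - 1) * (d.C O.s 1 0 * O.ω / (O.ω - 1)) = 0 := by
  have hω1 : O.ω - 1 ≠ 0 := sub_ne_zero.mpr O.ω_ne_one
  set β := d.C O.s 1 0 * O.ω / (O.ω - 1) with hβ
  set u := O.s • d.hor (O.ω - 1)⁻¹ - d.hor (O.ω - 1)⁻¹ with hu
  have huc : u ∈ M.conn := M.lev_smul_sub_lt trivial O.hs _
  have hu0 : u.fst = ![1, 0] := by
    rw [hu, d.sub_fst, O.smul_hor d O.sD, d.hor_apply, O.xs]
    funext i
    fin_cases i <;> simp
    field_simp
  have hu1 : u.snd 1 = β := by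
    rw [hu, d.sub_snd, O.smul_hor d O.sD, d.hor_apply, O.xs, hβ]
    simp
    field_simp
  -- the difference with a translate is vertical
  have hgu : g • u ∈ M.conn := by
    show M.lev (g • u) < 1
    rw [M.lev_smul trivial hg]; exact huc
  obtain ⟨n, hn⟩ : ∃ w : d.Mod, w = O.s • d.hor (O.x g * (O.ω - 1)⁻¹) -
      d.hor (O.x g * (O.ω - 1)⁻¹) := ⟨_, rfl⟩
  have hnc : n ∈ M.conn := hn ▸ M.lev_smul_sub_lt trivial O.hs _
  have hn0 : n.fst = ![O.x g, 0] := by
    rw [hn, d.sub_fst, O.smul_hor d O.sD, d.hor_apply, O.xs]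
    funext i
    fin_cases i <;> simp
    field_simp
  have hn1 : n.snd 1 = β * O.x g := by
    rw [hn, d.sub_snd, O.smul_hor d O.sD, d.hor_apply, O.xs, hβ]
    simp
    field_simp
  have h1 : (g • u).fst = ![O.x g, 0] := by
    rw [d.smul_fst, hu0, O.R_eq hg]
    funext i
    fin_cases i <;> simp
  have h2 : (g • u).snd 1 = d.C g 1 0 * O.x g + O.z g * β := by
    rw [d.smul_snd, hu0, O.R_eq hg]
    simp [hu1, Matrix.mulVec, dotProduct, Fin.sum_univ_two]
  have h3 := (O.conn_facts d M hW (sub_mem hgu hnc)).2 (by rw [d.sub_fst, h1, hn0, sub_self])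
  rw [d.sub_snd, Pi.sub_apply, h2, hn1] at h3
  obtain ⟨hx, -⟩ := O.xz_ne hg
  field_simp
  linear_combination h3

/-- the connected part is multiplicative: the diagonal vanishes on `H` -/
theorem a_zero_H (M : Mdl P.A ⊤ d.Mod) (hW : M.W = ⊥) (hc : ∀ g ∈ P.D, d.C g 1 0 = 0)
    {τ : GQ} (hτ : τ ∈ P.H) : d.C τ 0 0 = 0 := by
  classical
  haveI : NeZero p := ⟨hpr.out.ne_zero⟩
  haveI : Module.Finite (ZMod p) k := Module.Finite.of_finite
  haveI : CharP k p := charP_of_injective_algebraMap' (ZMod p) p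
  set f := Module.finrank (ZMod p) k
  set b := Module.finBasis (ZMod p) k
  set e := b.equivFun
  have hexp : ∀ (φ : k →+ d.Mod) (c : Fin f → ZMod p),
      φ (e.symm c) = ∑ i, (c i).val • φ (b i) := fun φ c => by
    rw [Module.Basis.equivFun_symm_apply, map_sum]
    refine Finset.sum_congr rfl fun i _ => ?_
    rw [← map_nsmul]
    congr 1
    rw [← Nat.cast_smul_eq_nsmul (ZMod p), ZMod.natCast_zmod_val]
  let L1 : AddSubgroup d.Mod := d.ver.range
  have hst : ∀ σ ∈ P.I, ∀ w ∈ L1, σ • w ∈ L1 := fun σ hσ w ⟨a, ha⟩ =>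
    ⟨O.x σ * a, by rw [← ha, O.smul_ver d (P.I_le_D hσ)]⟩
  obtain ⟨M', hM'W, hM'cb⟩ := M.exists_quot P.I le_top L1 (by rw [hW]; exact bot_le) hst
  have hval : ∀ σ ∈ P.I, ∀ a : k,
      O.x σ * a = (ExtCitation.cycloChar p σ : ZMod p).val • a := fun σ hσ a => by
    rw [nsmul_eq_mul, show O.x σ = _ from O.h00 σ hσ, ← map_natCast (algebraMap (ZMod p) k),
      ZMod.natCast_zmod_val]
  have hverlev : ∀ a, M.lev (d.ver a) ≤ P.v P.π ^ (p + 1) := fun a =>
    P.lev_omega M le_top (by rw [d.nsmul_eq_zero]; exact M.W.zero_mem) fun σ hσ => by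
      rw [O.smul_ver d (P.I_le_D hσ), ← map_nsmul, ← map_sub, hval σ hσ, sub_self, map_zero]
      exact M.W.zero_mem
  have hhorlev : ∀ a, M'.lev (d.hor a) ≤ P.v P.π ^ (p + 1) := fun a =>
    P.lev_omega M' le_rfl (by rw [d.nsmul_eq_zero]; exact M'.W.zero_mem) fun σ hσ => by
      rw [hM'W, ← map_nsmul, ← hval σ hσ]
      refine ⟨d.C σ 0 0 * (O.x σ * a), ?_⟩
      rw [O.smul_hor d (P.I_le_D hσ), d.ver_apply, hc σ (P.I_le_D hσ), zero_mul, d.hor_apply]
      apply ExtMod.ext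
      · rw [d.sub_fst, sub_self]
      · rw [d.sub_snd, sub_zero]
  let ψ : (Fin (f + f) → ZMod p) →+ d.Mod := AddMonoidHom.mk'
    (fun c => d.hor (e.symm fun i => c (Fin.castAdd f i)) + d.ver (e.symm fun i => c (Fin.natAdd f i)))
    fun c c' => by
      simp only [Pi.add_apply]
      rw [show (fun i => c (Fin.castAdd f i) + c' (Fin.castAdd f i)) =
        (fun i => c (Fin.castAdd f i)) + fun i => c' (Fin.castAdd f i) from rfl,
        show (fun i => c (Fin.natAdd f i) + c' (Fin.natAdd f i)) =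
        (fun i => c (Fin.natAdd f i)) + fun i => c' (Fin.natAdd f i) from rfl, map_add, map_add,
        map_add, map_add]
      abel
  have hψ : Function.Injective ψ := by
    intro c c' h
    have h1 := congrArg (fun w : d.Mod => w.fst 0) h
    have h2 := congrArg (fun w : d.Mod => w.snd 0) h
    simp [ψ, d.hor_apply, d.ver_apply] at h1 h2
    funext i
    exact Fin.addCases (fun i => by simpa using congrFun h1 i)
      (fun i => by simpa using congrFun h2 i) i
  have hsum : ∀ F, M.Cb 1 F → P.v (∑ c, F (ψ c)) ≤ P.v (p : Qb) ^ (f + f) := by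
    intro F hF
    set F1 : d.Mod → Qb := fun x => ∑ c : Fin f → ZMod p, F (x + d.ver (e.symm c))
    have hF1 : M.Cb (P.v (p : Qb) ^ f) F1 := by
      refine ((P.cb_box M (fun i => d.ver (b i)) (fun i => hverlev _) hF).congr fun x => ?_).mono
        (mul_one _).le
      exact Finset.sum_congr rfl fun c _ => by rw [hexp d.ver c]
    have hinv : ∀ x, ∀ w ∈ L1, F1 (x + w) = F1 x := by
      rintro x w ⟨a, rfl⟩
      refine Fintype.sum_equiv (Equiv.addRight (e a)) _ _ fun c => ?_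
      rw [Equiv.coe_addRight, map_add, LinearEquiv.symm_apply_apply, map_add, add_assoc x,
        add_comm (d.ver a)]
    have h2 := P.cb_box M' (fun i => d.hor (b i)) (fun i => hhorlev _) (hM'cb _ F1 hF1 hinv)
    have h3 := Mdl.Cb.le M' h2 0
    rw [pow_add]
    refine le_of_eq_of_le (congrArg P.v ?_) h3
    let E : (Fin f → ZMod p) × (Fin f → ZMod p) ≃ (Fin (f + f) → ZMod p) :=
      { toFun := fun q => Fin.append q.1 q.2
        invFun := fun c => (fun i => c (Fin.castAdd f i), fun i => c (Fin.natAdd f i))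
        left_inv := fun q => Prod.ext (funext fun i => Fin.append_left q.1 q.2 i)
          (funext fun i => Fin.append_right q.1 q.2 i)
        right_inv := fun c => Fin.append_castAdd_natAdd }
    rw [← E.sum_comp, Fintype.sum_prod_type]
    refine Finset.sum_congr rfl fun c _ => ?_
    rw [zero_add, ← hexp d.hor c]
    refine Finset.sum_congr rfl fun c' _ => ?_
    congr 1
    simp only [ψ, E, AddMonoidHom.mk'_apply, Equiv.coe_fn_mk, Fin.append_left, Fin.append_right]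
  have hfix := P.fix_of_mult M hW d.nsmul_eq_zero ψ hψ hsum (τ := τ) trivial (P.H_le hτ)
    (P.ζ_fixed_H hτ) (Fin.append (e 1) 0)
  have h1 : ψ (Fin.append (e 1) 0) = d.hor 1 := by
    simp only [ψ, AddMonoidHom.mk'_apply, Fin.append_left, Fin.append_right]
    rw [LinearEquiv.symm_apply_apply, show (fun i => (0 : Fin f → ZMod p) i) = 0 from rfl, map_zero,
      map_zero, add_zero]
  rw [h1, O.smul_hor d (O.H_le_D hτ)] at hfix
  have h2 := congrArg (fun w : d.Mod => w.snd 0) hfix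
  simpa [d.hor_apply, (O.xH hτ).1] using h2

/-- the diagonal vanishes on inertia -/
theorem a_zero_I (hc : ∀ g ∈ P.D, d.C g 1 0 = 0) (hH : ∀ h ∈ P.H, d.C h 0 0 = 0) {σ : GQ}
    (hσ : σ ∈ P.I) : d.C σ 0 0 = 0 := by
  haveI : CharP k p := charP_of_injective_algebraMap' (ZMod p) p
  have hn : ∀ n : ℕ, d.C (O.s ^ n) 0 0 = n * d.C O.s 0 0 := fun n => by
    induction n with
    | zero => rw [pow_zero, d.C_one, Matrix.zero_apply, Nat.cast_zero, zero_mul]
    | succ n ih =>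
      rw [pow_succ', O.C_mul_00 d O.sD (hc _ (P.I_le_D (pow_mem O.hs n))), ih, Nat.cast_succ]
      ring
  have he : O.s ^ P.e ∈ P.H :=
    P.mem_H_iff.mpr ⟨pow_mem O.hs _, by rw [P.th_pow O.hs, P.th_pow_e]⟩
  have h1 := hn P.e
  rw [hH _ he, eq_comm, mul_eq_zero] at h1
  have hs : d.C O.s 0 0 = 0 :=
    h1.resolve_left fun h => P.not_dvd_e ((CharP.cast_eq_zero_iff k p _).mp h)
  obtain ⟨n, h, hh, rfl⟩ := P.exists_pow_mul_H O.hs O.hgen hσ
  rw [O.C_mul_00 d (P.I_le_D (pow_mem O.hs n)) (hc _ (O.H_le_D hh)), hH _ hh, hn, hs, mul_zero,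
    zero_add]

/-! ### functions on `H` with the weight of `ω` -/

/-- additive on `H`, of finite level, of weight `ω` for inertia -/
structure Wt (O : Ord P R) (f : GQ → k) : Prop where
  add : ∀ σ ∈ P.H, ∀ τ ∈ P.H, f (σ * τ) = f σ + f τ
  level : ∃ F : IntermediateField ℚ Qb, FiniteDimensional ℚ F ∧ ∀ σ ∈ F.fixingSubgroup, f σ = 0
  conj : ∀ h ∈ P.H, O.ω * f (O.s⁻¹ * h * O.s) = f h

omit O in
/-- `g ↦ l (f g)` -/
def app (f : GQ → k) (l : k →+ ZMod p) : GQ → ZMod p := fun g => l (f g)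

variable {f : GQ → k}

theorem app_kum (hf : O.Wt f) (l : k →+ ZMod p) : app f l ∈ P.KumS := by
  obtain ⟨F, hF, h0⟩ := hf.level
  haveI := hF
  exact P.exists_kum (fun σ hσ τ hτ => by simp only [app, hf.add σ hσ τ hτ, map_add]) F
    fun σ _ hσ => by simp only [app, h0 σ hσ, map_zero]

theorem app_conj_s (hf : O.Wt f) (l : k →+ ZMod p) {h : GQ} (hh : h ∈ P.H) :
    conjH O.s (app f l) h = app f l h := by
  simp only [conjH, app]
  rw [← hom_algebraMap_mul]
  exact congrArg l (hf.conj h hh)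

theorem app_wL_zero (hf : O.Wt f) (l : k →+ ZMod p) {j : ℕ} (hj1 : 1 ≤ j) (hje : j ≠ P.e)
    (hjp : ¬ p ∣ j) (hjt : j < p * (p + 1)) (hl : app f l ∈ P.Lvl j) :
    P.wL j (app f l) = 0 := by
  have h1 := P.wL_conj_inertia O.hs hjp hjt hl
  rw [P.wL_congr hjp hjt (fun σ hσ => O.app_conj_s hf l hσ) hl] at h1
  by_contra hne
  have h2 : P.th O.s ^ j = 1 := mul_right_cancel₀ hne (h1.symm.trans (one_mul _).symm)
  obtain ⟨c, rfl⟩ := (O.hgen.pow_eq_one_iff_dvd j).mp h2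
  have h3 := P.two_p_lt
  have h4 := P.e_add_one
  rcases c with _ | _ | c
  · omega
  · exact hje (mul_one _)
  · nlinarith

theorem app_lvl (hf : O.Wt f) (h0 : ∀ l, P.idx (app f l) = 0) (l : k →+ ZMod p) :
    app f l ∈ P.Lvl P.e := by
  have h4 := P.e_add_one
  have het : P.e ≤ p * (p + 1) := by nlinarith
  exact P.lvl_climb le_rfl het (P.lvl_one_of_idx (O.app_kum hf l) (h0 l))
    fun j hj1 hj hjp hl => O.app_wL_zero hf l hj1 hj.ne hjp (hj.trans_le het) hl

omit O in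
theorem e_lt_top (P : PlaceData p) : P.e < p * (p + 1) := by
  have := P.e_add_one
  nlinarith

theorem app_eq_zero (hf : O.Wt f) (hl : ∀ l, app f l ∈ P.Lvl P.e)
    (hw : ∀ l, P.wL P.e (app f l) = 0) {h : GQ} (hh : h ∈ P.H) : f h = 0 := by
  haveI : Module.Finite (ZMod p) k := Module.Finite.of_finite
  rw [← Module.forall_dual_apply_eq_zero_iff (ZMod p)]
  intro g
  refine P.eq_zero_of_lvl_top (h := app f g.toAddMonoidHom) le_rfl
    (P.lvl_climb (i := P.e) P.e_pos le_rfl (hl _) fun j hj hjt hjp hlj => ?_) hh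
  rcases eq_or_ne j P.e with rfl | hne
  · exact hw _
  · exact O.app_wL_zero hf _ (P.e_pos.trans_le hj) hne hjp hjt hlj

/-- the residues at the level `e` -/
def wE (f : GQ → k) (hl : ∀ l, app f l ∈ P.Lvl P.e) :
    (k →+ ZMod p) →+ ResidueField P.A :=
  AddMonoidHom.mk' (fun l => P.wL P.e (app f l)) fun l l' => by
    rw [show app f (l + l') = app f l + app f l' from rfl,
      P.wL_add P.not_dvd_e (e_lt_top P) (hl l) (hl l')]

theorem wE_apply (hl : ∀ l, app f l ∈ P.Lvl P.e) (l : k →+ ZMod p) :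
    wE f hl l = P.wL P.e (app f l) := rfl

/-- the multiplier of the Frobenius relation -/
def μ : k := algebraMap (ZMod p) k (ExtCitation.cycloChar p P.φ) * (O.z P.φ / O.x P.φ)

/-- additive maps with the Frobenius relation -/
def semi : Set ((k →+ ZMod p) →+ ResidueField P.A) :=
  {W | ∀ l, W (l.comp (AddMonoidHom.mulLeft O.μ)) = 1 * W l ^ p}

theorem semi_card : O.semi.Finite ∧ Nat.card O.semi ≤ p ^ Module.finrank (ZMod p) k := by
  haveI := P.charP_res
  exact Count.card_semilinear_le O.μ one_ne_zero O.semi fun W hW => hW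

theorem wE_mem_semi (hl : ∀ l, app f l ∈ P.Lvl P.e)
    (hφ : ∀ h ∈ P.H, f (P.φ⁻¹ * h * P.φ) = O.z P.φ / O.x P.φ * f h) : wE f hl ∈ O.semi := by
  intro l
  have h1 := P.wL_conj_frob P.not_dvd_e (e_lt_top P) (hl l)
  rw [P.th_pow_e, P.wL_congr P.not_dvd_e (e_lt_top P) (h := app f (l.comp (AddMonoidHom.mulLeft O.μ)))
    (fun h hh => ?_) (hl _)] at h1
  · exact h1
  · simp only [conjH, app, hφ h hh, AddMonoidHom.coe_comp, Function.comp_apply,
      AddMonoidHom.coe_mulLeft]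
    rw [μ, mul_assoc, hom_algebraMap_mul]

/-- the index vanishes for the functions that move a base vector of a flat module -/
theorem idx_zero (M : Mdl P.A ⊤ d.Mod) (hW : M.W = ⊥) (hc : ∀ g ∈ P.D, d.C g 1 0 = 0)
    (ha : ∀ h ∈ P.H, d.C h 0 0 = 0) (hf : O.Wt f) (y : d.Mod)
    (hy : ∀ σ ∈ P.H, σ • y - y ∈ d.flag ∧ (σ • y - y).snd 0 = f σ) (l₁ : k →+ ZMod p) :
    P.idx (app f l₁) = 0 := by
  haveI : NeZero p := ⟨hpr.out.ne_zero⟩
  by_contra hidx
  obtain ⟨τ, hτ, hτ1⟩ : ∃ τ ∈ P.H, app f l₁ τ ≠ 0 := by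
    by_contra hno
    push Not at hno
    refine hidx ?_
    rw [P.idx_congr (h := (0 : GQ → ZMod p)) hno (zero_mem _), P.idx_eq P.kum_zero (i := 0)
      (by rw [one_pow, map_one, zpow_zero]), Int.cast_zero]
  set c := (app f l₁ τ)⁻¹ with hc'
  set l := c.val • l₁ with hl
  have hτ0 : app f l τ = 1 := by
    rw [app, hl, AddMonoidHom.smul_apply, nsmul_eq_mul, ZMod.natCast_zmod_val, hc']
    exact inv_mul_cancel₀ hτ1
  have hidx0 : P.idx (app f l) ≠ 0 := by
    have e : app f l = c • app f l₁ := funext fun g => by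
      rw [Pi.smul_apply, app, app, hl, AddMonoidHom.smul_apply, nsmul_eq_mul,
        ZMod.natCast_zmod_val, smul_eq_mul]
    rw [e, (P.idx_smul (O.app_kum hf l₁) c).2]
    exact mul_ne_zero (inv_ne_zero hτ1) hidx
  have hfix : ∀ σ ∈ P.H, ∀ w ∈ d.flag, σ • w = w := by
    intro σ hσ w hw
    obtain ⟨hw1, hw2⟩ := hw
    apply ExtMod.ext
    · rw [d.smul_fst, O.R_eq (O.H_le_D hσ), (O.xH hσ).1, (O.xH hσ).2]
      funext i
      fin_cases i <;> simp [Matrix.mulVec, dotProduct, Fin.sum_univ_two, hw1]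
    · rw [d.smul_snd, O.R_eq (O.H_le_D hσ), (O.xH hσ).1, (O.xH hσ).2]
      funext i
      fin_cases i <;> simp [Matrix.mulVec, dotProduct, Fin.sum_univ_two, hw1, hw2,
        hc σ (O.H_le_D hσ), ha σ hσ]
  obtain ⟨M', hM'W, -⟩ := M.exists_quot P.H le_top (d.flagKer l) (by rw [hW]; exact bot_le)
    (fun σ hσ w hw => by rw [hfix σ hσ w hw.1]; exact hw)
  set u := τ • y - y
  have huW : u ∉ M'.W := by
    rw [hM'W, d.mem_flagKer]
    rintro ⟨-, h⟩
    rw [(hy τ hτ).2] at h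
    exact one_ne_zero (hτ0.symm.trans h)
  obtain ⟨i, hi⟩ := M'.exists_diff y u
  have hkey : P.v P.π ^ (p + 1) ≤ P.v (τ (M'.e i y) - M'.e i y) := by
    refine (P.key_bound M' huW (by rw [d.nsmul_eq_zero]; exact M'.W.zero_mem)).trans
      (hi.trans (le_of_eq ?_))
    rw [add_sub_cancel, M'.equiv τ hτ]
  have hfixed : ∀ σ ∈ P.H, app f l σ = 0 → σ (M'.e i y) = M'.e i y := fun σ hσ h0 => by
    rw [← M'.equiv σ hσ, ← add_sub_cancel y (σ • y)]
    refine M'.inv i _ _ ?_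
    rw [hM'W, d.mem_flagKer, (hy σ hσ).2]
    exact ⟨(hy σ hσ).1, h0⟩
  exact absurd hkey (not_le.mpr (P.crit_idx (O.app_kum hf l) hidx0
    ((P.A.valuation_le_one_iff _).mp (M'.val i y)) hfixed hτ hτ0
    (fun σ hσ τ' hτ' => by simp only [app, hf.add σ hσ τ' hτ', map_add])))

/-! ### the upper right entries -/

omit O in
theorem conj_eq {σ h : GQ} : σ * (σ⁻¹ * h * σ) = h * σ := by group

theorem wt_y : O.Wt (fun g => (R g : Matrix (Fin 2) (Fin 2) k) 0 1) where
  add σ hσ τ hτ := by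
    rw [map_mul, Units.val_mul, O.R_eq (O.H_le_D hσ), O.R_eq (O.H_le_D hτ), (O.xH hσ).1,
      (O.xH hτ).2]
    simp [add_comm]
  level := by
    obtain ⟨F, hF, h⟩ := O.hlevel
    exact ⟨F, hF, fun σ hσ => by simp [h σ hσ]⟩
  conj h hh := by
    have hk : O.s⁻¹ * h * O.s ∈ P.H := by simpa using P.conj_mem_H (inv_mem O.sD) hh
    have e := congrArg (fun g => (R g : Matrix (Fin 2) (Fin 2) k) 0 1) (conj_eq (σ := O.s) (h := h))
    rw [map_mul R O.s, map_mul R h, Units.val_mul, Units.val_mul] at e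
    rw [O.R_eq O.sD, O.R_eq (O.H_le_D hk), O.R_eq (O.H_le_D hh), O.xs, O.ys, O.zs, (O.xH hh).1,
      (O.xH hk).2] at e
    simpa [Ord.y] using e

theorem y_conj_φ {h : GQ} (hh : h ∈ P.H) :
    (R (P.φ⁻¹ * h * P.φ) : Matrix (Fin 2) (Fin 2) k) 0 1 =
      O.z P.φ / O.x P.φ * (R h : Matrix (Fin 2) (Fin 2) k) 0 1 := by
  have hk : P.φ⁻¹ * h * P.φ ∈ P.H := by simpa using P.conj_mem_H (inv_mem P.φ_mem) hh
  obtain ⟨hx, -⟩ := O.xz_ne P.φ_mem
  have e := congrArg (fun g => (R g : Matrix (Fin 2) (Fin 2) k) 0 1) (conj_eq (σ := P.φ) (h := h))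
  rw [map_mul R P.φ, map_mul R h, Units.val_mul, Units.val_mul] at e
  rw [O.R_eq P.φ_mem, O.R_eq (O.H_le_D hk), O.R_eq (O.H_le_D hh), (O.xH hh).1, (O.xH hk).2] at e
  show O.y _ = _ * O.y h
  simp at e
  field_simp
  linear_combination e

theorem wt_b (hc : ∀ g ∈ P.D, d.C g 1 0 = 0) (ha : ∀ σ ∈ P.I, d.C σ 0 0 = 0) :
    O.Wt (fun g => d.C g 0 1) where
  add σ hσ τ hτ := by
    rw [O.C_mul_01 d (O.H_le_D hσ) (hc _ (O.H_le_D hτ)), ha τ (P.H_le hτ), (O.xH hσ).1,
      (O.xH hσ).2]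
    ring
  level := by
    obtain ⟨F, hF, hC⟩ := d.level
    refine ⟨F, hF, fun σ hσ => ?_⟩
    rw [← one_mul σ, hC 1 σ hσ, d.C_one, Matrix.zero_apply]
  conj h hh := by
    have hk : O.s⁻¹ * h * O.s ∈ P.H := by simpa using P.conj_mem_H (inv_mem O.sD) hh
    have e := congrArg (fun g => d.C g 0 1) (conj_eq (σ := O.s) (h := h))
    rw [O.C_mul_01 d O.sD (hc _ (O.H_le_D hk)), O.C_mul_01 d (O.H_le_D hh) (hc _ O.sD),
      ha _ (P.H_le hk), ha _ O.hs, O.xs, O.ys, O.zs, (O.xH hh).1, (O.xH hh).2] at e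
    linear_combination e

theorem b_conj_φ (hc : ∀ g ∈ P.D, d.C g 1 0 = 0) (ha : ∀ σ ∈ P.I, d.C σ 0 0 = 0)
    (hz : ∀ h ∈ P.H, O.y h * d.C P.φ 0 0 = 0) {h : GQ} (hh : h ∈ P.H) :
    d.C (P.φ⁻¹ * h * P.φ) 0 1 = O.z P.φ / O.x P.φ * d.C h 0 1 := by
  have hk : P.φ⁻¹ * h * P.φ ∈ P.H := by simpa using P.conj_mem_H (inv_mem P.φ_mem) hh
  obtain ⟨hx, hzn⟩ := O.xz_ne P.φ_mem
  have e := congrArg (fun g => d.C g 0 1) (conj_eq (σ := P.φ) (h := h))
  rw [O.C_mul_01 d P.φ_mem (hc _ (O.H_le_D hk)), O.C_mul_01 d (O.H_le_D hh) (hc _ P.φ_mem),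
    ha _ (P.H_le hk), (O.xH hh).1, (O.xH hh).2] at e
  field_simp at e ⊢
  linear_combination e - 2 * O.z P.φ * hz h hh

/-- triviality on the decomposition group -/
theorem exists_triv (hc : ∀ g ∈ P.D, d.C g 1 0 = 0) (ha : ∀ σ ∈ P.I, d.C σ 0 0 = 0)
    (hb : ∀ h ∈ P.H, d.C h 0 1 = 0) (hφ : d.C P.φ 0 0 = 0) :
    ∃ m : Matrix (Fin 2) (Fin 2) k, m.trace = 0 ∧ ∀ g ∈ P.D, d.C g +
      ((R g : Matrix (Fin 2) (Fin 2) k) * m * ((R g)⁻¹ : GL (Fin 2) k) - m) = 0 := by
  have hω1 : O.ω - 1 ≠ 0 := sub_ne_zero.mpr O.ω_ne_one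
  set q := -d.C O.s 0 1 / (O.ω - 1) with hq
  set m : Matrix (Fin 2) (Fin 2) k := !![0, q; 0, 0] with hm
  have hmt : m.trace = 0 := by rw [hm, Matrix.trace_fin_two_of, add_zero]
  refine ⟨m, hmt, fun g hg => ?_⟩
  set d' := d.shift m hmt O.hlevel
  show d'.C g = 0
  have hval : ∀ g ∈ P.D, d'.C g 0 0 = d.C g 0 0 ∧ d'.C g 1 0 = d.C g 1 0 ∧
      d'.C g 0 1 = d.C g 0 1 + (O.x g / O.z g - 1) * q := by
    intro g hg
    obtain ⟨hx, hz⟩ := O.xz_ne hg
    refine ⟨?_, ?_, ?_⟩ <;>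
    · show (d.C g + _) _ _ = _
      rw [Matrix.add_apply, O.R_inv hg, O.R_eq hg, hm]
      simp [Matrix.mul_apply, Fin.sum_univ_two, Matrix.vecMul, dotProduct]
      try field_simp
      try ring
  have hzero : ∀ g ∈ P.D, d'.C g 0 0 = 0 → d'.C g 1 0 = 0 → d'.C g 0 1 = 0 → d'.C g = 0 := by
    intro g _ h1 h2 h3
    ext i j
    fin_cases i <;> fin_cases j
    · exact h1
    · exact h3
    · exact h2
    · show d'.C g 1 1 = 0
      rw [d'.trace_diag, h1, neg_zero]
  have hH' : ∀ h ∈ P.H, d'.C h = 0 := fun h hh => by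
    obtain ⟨h1, h2, h3⟩ := hval h (O.H_le_D hh)
    refine hzero h (O.H_le_D hh) (h1.trans (ha h (P.H_le hh))) (h2.trans (hc h (O.H_le_D hh))) ?_
    rw [h3, hb h hh, (O.xH hh).1, (O.xH hh).2]
    ring
  have hs' : d'.C O.s = 0 := by
    obtain ⟨h1, h2, h3⟩ := hval O.s O.sD
    refine hzero _ O.sD (h1.trans (ha _ O.hs)) (h2.trans (hc _ O.sD)) ?_
    rw [h3, O.xs, O.zs, hq, div_one, mul_div_cancel₀ _ hω1, add_neg_cancel]
  have hI' : ∀ σ ∈ P.I, d'.C σ = 0 := by
    intro σ hσ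
    obtain ⟨n, h, hh, rfl⟩ := P.exists_pow_mul_H O.hs O.hgen hσ
    induction n with
    | zero => rw [pow_zero, one_mul]; exact hH' h hh
    | succ n ih =>
      rw [pow_succ', mul_assoc, d'.coc, ih (mul_mem (pow_mem O.hs n) (P.H_le hh)), hs', mul_zero,
        zero_mul, zero_add]
  refine P.eq_zero_on_D d' hI' ?_ g hg
  obtain ⟨h1, h2, -⟩ := hval P.φ P.φ_mem
  have hσ' : P.φ⁻¹ * O.s * P.φ ∈ P.I := by simpa using P.conj_mem_I (inv_mem P.φ_mem) O.hs
  have e := congrArg (fun g => d'.C g 0 1) (conj_eq (σ := P.φ) (h := O.s))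
  rw [d'.coc, hI' _ hσ', mul_zero, zero_mul, zero_add,
    O.C_mul_01 d' O.sD (h2.trans (hc _ P.φ_mem)), hs', h1, hφ, O.xs, O.ys, O.zs,
    Matrix.zero_apply] at e
  refine hzero _ P.φ_mem (h1.trans hφ) (h2.trans (hc _ P.φ_mem)) ?_
  by_contra hne
  exact hω1 (mul_right_cancel₀ hne (a := O.ω - 1) (c := 0) (by linear_combination -e))

/-- `R` is diagonal on the decomposition group when it is on `H` -/
theorem y_zero_D (hy : ∀ h ∈ P.H, O.y h = 0) {g : GQ} (hg : g ∈ P.D) : O.y g = 0 := by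
  let S : Subgroup GQ :=
    { carrier := {g | (R g : Matrix (Fin 2) (Fin 2) k) 1 0 = 0 ∧
        (R g : Matrix (Fin 2) (Fin 2) k) 0 1 = 0}
      mul_mem' := fun {a b} ha hb => by
        simp only [Set.mem_setOf_eq] at ha hb ⊢
        rw [map_mul, Units.val_mul, Matrix.mul_apply, Matrix.mul_apply, Fin.sum_univ_two,
          Fin.sum_univ_two, ha.1, ha.2, hb.1, hb.2]
        exact ⟨by ring, by ring⟩
      one_mem' := by simp
      inv_mem' := fun {a} ha => by
        simp only [Set.mem_setOf_eq] at ha ⊢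
        rw [map_inv]
        have hdet := (Matrix.isUnit_iff_isUnit_det _).mp (R a).isUnit
        have e : (((R a)⁻¹ : GL (Fin 2) k) : Matrix (Fin 2) (Fin 2) k) =
            !![((R a : Matrix (Fin 2) (Fin 2) k) 0 0)⁻¹, 0;
              0, ((R a : Matrix (Fin 2) (Fin 2) k) 1 1)⁻¹] := by
          refine Units.inv_eq_of_mul_eq_one_right ?_
          rw [Matrix.det_fin_two, ha.1, ha.2, mul_zero, sub_zero, isUnit_iff_ne_zero,
            mul_ne_zero_iff] at hdet
          conv_lhs => arg 1; rw [Matrix.eta_fin_two (R a : Matrix (Fin 2) (Fin 2) k), ha.1, ha.2]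
          rw [Matrix.mul_fin_two]
          ext i j
          fin_cases i <;> fin_cases j <;> simp [hdet.1, hdet.2]
        rw [e]
        exact ⟨rfl, rfl⟩ }
  obtain ⟨F, hF, hFR⟩ := O.hlevel
  haveI := hF
  have hys : ∀ n : ℕ, O.s ^ n ∈ S := fun n => pow_mem (show O.s ∈ S from
    ⟨O.hlow _ O.sD, O.hS⟩) n
  have hI : P.I ≤ S := fun σ hσ => by
    obtain ⟨n, h, hh, rfl⟩ := P.exists_pow_mul_H O.hs O.hgen hσ
    exact mul_mem (hys n) ⟨O.hlow _ (O.H_le_D hh), hy h hh⟩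
  refine (P.D_le (F := F) hI (fun τ hτ => ?_) ⟨O.hlow _ P.φ_mem, ?_⟩ hg).2
  · show _ ∧ _
    simp [hFR τ hτ]
  · have hσ' : P.φ⁻¹ * O.s * P.φ ∈ P.I := by simpa using P.conj_mem_I (inv_mem P.φ_mem) O.hs
    have hyk : O.y (P.φ⁻¹ * O.s * P.φ) = 0 := (hI hσ').2
    have e := congrArg (fun g => (R g : Matrix (Fin 2) (Fin 2) k)) (conj_eq (σ := P.φ) (h := O.s))
    rw [map_mul R P.φ, map_mul R O.s, Units.val_mul, Units.val_mul] at e
    rw [O.R_eq O.sD, O.R_eq P.φ_mem, O.R_eq (P.I_le_D hσ'), O.xs, O.ys, O.zs, hyk,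
      show O.z (P.φ⁻¹ * O.s * P.φ) = 1 from O.h11 _ hσ'] at e
    have e1 := congrFun (congrFun e 0) 1
    simp [Matrix.mul_apply, Fin.sum_univ_two] at e1
    by_contra hne
    exact O.ω_ne_one (mul_right_cancel₀ (show O.y P.φ ≠ 0 from hne) (e1.symm.trans (one_mul _).symm))

end Ord

/-- the ordinary case of the flat bound -/
theorem exists_bound_ord [Finite k] (P : PlaceData p) (r : GQ →* GL (Fin 2) k) (Q : GL (Fin 2) k)
    (O : Ord P (conjRep r Q))
    {U : Type*} [AddCommGroup U] [Module (ZMod p) U]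
    (L : Z1 (MonoidHom.id GQ) (ad0 p r) →ₗ[ZMod p] U) (hL : ∀ c, IsLocTriv P r c → L c = 0)
    (c₀ : Z1 (MonoidHom.id GQ) (ad0 p r))
    (hc₀ : Flat.HasFlatModel (ExtMod r ⟨c₀.1, c₀.2.1⟩) p) :
    ∃ N : Submodule (ZMod p) (Z1 (MonoidHom.id GQ) (ad0 p r)),
      (∀ c : Z1 (MonoidHom.id GQ) (ad0 p r),
        Flat.HasFlatModel (ExtMod r ⟨c.1, c.2.1⟩) p → c ∈ N) ∧
      Finite (N.map L) ∧
      (Module.finrank (ZMod p) (N.map L) ≤ Module.finrank (ZMod p) k ∨
          (Module.finrank (ZMod p) (N.map L) ≤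
              Module.finrank (ZMod p) k + Module.finrank (ZMod p) k ∧
            ∀ g ∈ P.D, (conjRep r Q g : Matrix (Fin 2) (Fin 2) k) 1 0 = 0 ∧
              (conjRep r Q g : Matrix (Fin 2) (Fin 2) k) 0 1 = 0)) := by
  classical
  haveI : NeZero p := ⟨hpr.out.ne_zero⟩
  haveI : CharP k p := charP_of_injective_algebraMap' (ZMod p) p
  set f := Module.finrank (ZMod p) k with hf
  set D0 := conjData (p := p) r Q
  -- the coboundary clearing the lower left entry
  let mc : Z1 (MonoidHom.id GQ) (ad0 p r) → Matrix (Fin 2) (Fin 2) k :=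
    fun c => !![0, 0; (D0 c).C O.s 1 0 * O.ω / (O.ω - 1), 0]
  have hmt : ∀ c, (mc c).trace = 0 := fun c => by simp [mc, Matrix.trace_fin_two_of]
  let D : Z1 (MonoidHom.id GQ) (ad0 p r) → CData p (conjRep r Q) :=
    fun c => (D0 c).shift (mc c) (hmt c) O.hlevel
  have hmadd : ∀ c c', mc (c + c') = mc c + mc c' := fun c c' => by
    simp only [mc, D0, conjData_C, Submodule.coe_add, Pi.add_apply, mul_add, add_mul,
      Matrix.add_apply, add_div]
    ext i j
    fin_cases i <;> fin_cases j <;> simp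
  have hmzero : mc 0 = 0 := by
    have := hmadd 0 0
    rwa [add_zero, left_eq_add] at this
  have hDadd : ∀ c c' g, (D (c + c')).C g = (D c).C g + (D c').C g := fun c c' g => by
    show (D0 (c + c')).C g + _ = (D0 c).C g + _ + ((D0 c').C g + _)
    simp only [hmadd, D0, conjData_C, Submodule.coe_add, Pi.add_apply, mul_add, add_mul]
    abel
  have hDzero : ∀ g, (D 0).C g = 0 := fun g => by
    have := hDadd 0 0 g
    rwa [add_zero, left_eq_add] at this
  have hDneg : ∀ c g, (D (-c)).C g = -(D c).C g := fun c g => by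
    have := hDadd c (-c) g
    rw [show c + -c = 0 from add_neg_cancel c, hDzero] at this
    exact eq_neg_of_add_eq_zero_right this.symm
  have happ : ∀ c c' (l : k →+ ZMod p), Ord.app (fun g => (D (c + c')).C g 0 1) l =
      Ord.app (fun g => (D c).C g 0 1) l + Ord.app (fun g => (D c').C g 0 1) l := fun c c' l =>
    funext fun g => by
      show l ((D (c + c')).C g 0 1) = l ((D c).C g 0 1) + l ((D c').C g 0 1)
      rw [hDadd, Matrix.add_apply, map_add]
  let N₀ : AddSubgroup (Z1 (MonoidHom.id GQ) (ad0 p r)) :=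
    { carrier := {c | (∀ g ∈ P.D, (D c).C g 1 0 = 0) ∧ (∀ σ ∈ P.I, (D c).C σ 0 0 = 0) ∧
        ∀ l, Ord.app (fun g => (D c).C g 0 1) l ∈ P.Lvl P.e}
      add_mem' := fun {c c'} hc hc' => ⟨fun g hg => by
          rw [hDadd, Matrix.add_apply, hc.1 g hg, hc'.1 g hg, add_zero],
        fun σ hσ => by rw [hDadd, Matrix.add_apply, hc.2.1 σ hσ, hc'.2.1 σ hσ, add_zero],
        fun l => by rw [happ]; exact add_mem (hc.2.2 l) (hc'.2.2 l)⟩
      zero_mem' := ⟨fun g _ => by rw [hDzero, Matrix.zero_apply],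
        fun g _ => by rw [hDzero, Matrix.zero_apply],
        fun l => by
          rw [show Ord.app (fun g => (D 0).C g 0 1) l = 0 from funext fun g => by
            simp only [Ord.app, hDzero, Matrix.zero_apply, map_zero, Pi.zero_apply]]
          exact zero_mem _⟩
      neg_mem' := fun {c} hc => ⟨fun g hg => by rw [hDneg, Matrix.neg_apply, hc.1 g hg, neg_zero],
        fun g hg => by rw [hDneg, Matrix.neg_apply, hc.2.1 g hg, neg_zero],
        fun l => by
          rw [show Ord.app (fun g => (D (-c)).C g 0 1) l = -Ord.app (fun g => (D c).C g 0 1) l from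
            funext fun g => by
              simp only [Ord.app, hDneg, Matrix.neg_apply, map_neg, Pi.neg_apply]]
          exact neg_mem (hc.2.2 l)⟩ }
  set N := AddSubgroup.toZModSubmodule p N₀
  -- what flatness gives
  have hflat : ∀ c : Z1 (MonoidHom.id GQ) (ad0 p r),
      Flat.HasFlatModel (ExtMod r ⟨c.1, c.2.1⟩) p → c ∈ N ∧
        ∀ l, P.idx (Ord.app (fun g => (conjRep r Q g : Matrix (Fin 2) (Fin 2) k) 0 1) l) = 0 := by
    intro c hc
    obtain ⟨M₀, hM₀⟩ := exists_mdl_conj r Q c P.hA hc (D0 c) 0 (fun g => by simp [D0])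
    obtain ⟨M, hM⟩ := exists_mdl_conj r Q c P.hA hc (D c) (mc c) (fun g => rfl)
    have hc10 : ∀ g ∈ P.D, (D c).C g 1 0 = 0 := fun g hg => by
      have h := O.c10_shift (D0 c) M₀ hM₀ hg
      obtain ⟨hx, hz⟩ := O.xz_ne hg
      show ((D0 c).C g + _) 1 0 = 0
      rw [Matrix.add_apply, O.R_inv hg, O.R_eq hg]
      simp [mc, Matrix.mul_apply, Fin.sum_univ_two, Matrix.vecMul, dotProduct]
      field_simp at h ⊢
      linear_combination h
    have haH : ∀ h ∈ P.H, (D c).C h 0 0 = 0 := fun h hh => O.a_zero_H (D c) M hM hc10 hh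
    have haI : ∀ σ ∈ P.I, (D c).C σ 0 0 = 0 := fun σ hσ => O.a_zero_I (D c) hc10 haH hσ
    refine ⟨⟨hc10, haI, O.app_lvl (O.wt_b (D c) hc10 haI) fun l => O.idx_zero (D c) M hM hc10 haH
      (O.wt_b (D c) hc10 haI) ⟨![0, 1], 0⟩ (fun σ hσ => ?_) l⟩, fun l => O.idx_zero (D c) M hM hc10
        haH O.wt_y ⟨0, ![0, 1]⟩ (fun σ hσ => ?_) l⟩
    · have hD := O.H_le_D hσ
      obtain ⟨hx1, hz1⟩ := O.xH hσ
      have h11 := (D c).trace_diag σ
      rw [haI σ (P.H_le hσ), neg_zero] at h11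
      rw [(D c).mem_flag, (D c).sub_fst, (D c).sub_snd, CData.smul_fst, CData.smul_snd, O.R_eq hD,
        hx1, hz1]
      simp [Matrix.mulVec, dotProduct, Fin.sum_univ_two, hc10 σ hD, haI σ (P.H_le hσ), h11]
    · have hD := O.H_le_D hσ
      obtain ⟨hx1, hz1⟩ := O.xH hσ
      rw [(D c).mem_flag, (D c).sub_fst, (D c).sub_snd, CData.smul_fst, CData.smul_snd, O.R_eq hD,
        hx1, hz1]
      simp [Matrix.mulVec, dotProduct, Fin.sum_univ_two, Ord.y]
  refine ⟨N, fun c hc => (hflat c hc).1, ?_⟩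
  -- triviality of the kernels
  have hker : ∀ c : N, (D c.1).C P.φ 0 0 = 0 →
      (∀ l, P.wL P.e (Ord.app (fun g => (D c.1).C g 0 1) l) = 0) → L c = 0 := by
    intro c hφ hw
    have hb : ∀ h ∈ P.H, (D c.1).C h 0 1 = 0 := fun h hh =>
      O.app_eq_zero (O.wt_b (D c.1) c.2.1 c.2.2.1) c.2.2.2 hw hh
    obtain ⟨m, hm, htriv⟩ := O.exists_triv (D c.1) c.2.1 c.2.2.1 hb hφ
    refine hL _ (isLocTriv_of_shift Q _ (m := mc c.1 + m)
      (by rw [Matrix.trace_add, hmt, hm, add_zero]) fun g hg => ?_)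
    rw [(D0 c.1).shift_shift]
    exact htriv g hg
  obtain ⟨hsfin, hscard⟩ := O.semi_card
  haveI hsf := hsfin.to_subtype
  have hcardk : Nat.card k = p ^ f := by
    haveI : Module.Finite (ZMod p) k := Module.Finite.of_finite
    rw [Module.natCard_eq_pow_finrank (K := ZMod p), Nat.card_zmod, hf]
  let wb : ∀ c : N, (k →+ ZMod p) →+ ResidueField P.A :=
    fun c => Ord.wE (P := P) (fun g => (D c.1).C g 0 1) c.2.2.2
  have hwb : ∀ c c' : N, wb (c + c') = wb c + wb c' := fun c c' => AddMonoidHom.ext fun l => by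
    rw [AddMonoidHom.add_apply]
    simp only [wb, O.wE_apply, Submodule.coe_add, happ]
    exact P.wL_add P.not_dvd_e (Ord.e_lt_top P) (c.2.2.2 l) (c'.2.2.2 l)
  by_cases hy : ∀ h ∈ P.H, O.y h = 0
  · -- diagonal on the decomposition group
    let Φ : N →+ k × ((k →+ ZMod p) →+ ResidueField P.A) :=
      AddMonoidHom.mk' (fun c => ((D c.1).C P.φ 0 0, wb c)) fun c c' =>
        Prod.ext (by simp [hDadd]) (hwb c c')
    have hS : ((Set.univ : Set k) ×ˢ O.semi).Finite := Set.finite_univ.prod hsfin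
    have h := Count.finrank_map_le L N Φ (fun c h0 => hker c (congrArg Prod.fst h0)
      fun l => DFunLike.congr_fun (congrArg Prod.snd h0) l) _ hS
      (fun c => ⟨Set.mem_univ _, O.wE_mem_semi c.2.2.2 fun h hh => O.b_conj_φ (D c.1) c.2.1 c.2.2.1
        (fun h hh => by rw [hy h hh, zero_mul]) hh⟩) (f := f + f) (by
      rw [Nat.card_congr (Equiv.Set.prod _ _), Nat.card_prod, Nat.card_congr (Equiv.Set.univ k),
        hcardk, pow_add]
      exact Nat.mul_le_mul_left _ hscard)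
    exact ⟨h.1, Or.inr ⟨h.2, fun g hg => ⟨O.hlow g hg, O.y_zero_D hy hg⟩⟩⟩
  -- peu ramifié residual extension
  set β : GQ → k := fun g => (conjRep r Q g : Matrix (Fin 2) (Fin 2) k) 0 1
  have hwtγ : ∀ γ : k, O.Wt fun g => γ * β g := fun γ =>
    { add := fun σ hσ τ hτ => by
        rw [show β (σ * τ) = β σ + β τ from O.wt_y.add σ hσ τ hτ, mul_add]
      level := by
        obtain ⟨F, hF, h⟩ := O.wt_y.level
        exact ⟨F, hF, fun σ hσ => by rw [show β σ = 0 from h σ hσ, mul_zero]⟩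
      conj := fun h hh => by
        rw [mul_left_comm, show O.ω * β (O.s⁻¹ * h * O.s) = β h from O.wt_y.conj h hh] }
  have hlγ : ∀ (γ : k) l, Ord.app (fun g => γ * β g) l ∈ P.Lvl P.e := fun γ l =>
    O.app_lvl O.wt_y (hflat c₀ hc₀).2 (l.comp (AddMonoidHom.mulLeft γ))
  let Ψ : k → O.semi := fun γ => ⟨Ord.wE (P := P) _ (hlγ γ), O.wE_mem_semi (hlγ γ) fun h hh => by
    rw [show β (P.φ⁻¹ * h * P.φ) = _ from O.y_conj_φ hh]; ring⟩
  have hΨ : Function.Injective Ψ := by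
    intro γ γ' he
    by_contra hne
    refine hy fun h hh => ?_
    have h0 := O.app_eq_zero (hwtγ (γ - γ')) (hlγ _) (fun l => ?_) hh
    · exact (mul_eq_zero.mp h0).resolve_left (sub_ne_zero.mpr hne)
    · have e := DFunLike.congr_fun (congrArg Subtype.val he) l
      simp only [Ψ, O.wE_apply] at e
      rw [show Ord.app (fun g => (γ - γ') * β g) l =
          Ord.app (fun g => γ * β g) l + (-1 : ZMod p) • Ord.app (fun g => γ' * β g) l from
        funext fun g => by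
          show l ((γ - γ') * β g) = l (γ * β g) + (-1) * l (γ' * β g)
          rw [sub_mul, map_sub]; ring,
        P.wL_add P.not_dvd_e (Ord.e_lt_top P) (hlγ γ l) (P.lvl_smul (hlγ γ' l) _),
        (P.wL_smul P.not_dvd_e (Ord.e_lt_top P) (hlγ γ' l) _).2, e]
      haveI := P.charP_res
      have hneg : (((-1 : ZMod p).val : ℕ) : ResidueField P.A) = -1 := by
        rw [ZMod.natCast_val, ZMod.cast_neg (dvd_refl p), ZMod.cast_one (dvd_refl p)]
      rw [hneg]
      ring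
  have hΨs : Function.Surjective Ψ :=
    (hΨ.bijective_of_nat_card_le (hscard.trans hcardk.ge)).2
  let Φ : N →+ k := AddMonoidHom.mk' (fun c => (D c.1).C P.φ 0 0) fun c c' => by simp [hDadd]
  have h := Count.finrank_map_le L N Φ (fun c hφ => ?_) Set.univ Set.finite_univ
    (fun c => Set.mem_univ _) (f := f) (by rw [Nat.card_congr (Equiv.Set.univ k), hcardk])
  · exact ⟨h.1, Or.inl h.2⟩
  · -- absorb the leading residues by a diagonal coboundary
    change (D c.1).C P.φ 0 0 = 0 at hφ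
    obtain ⟨γ, hγ⟩ := hΨs ⟨wb c, O.wE_mem_semi c.2.2.2 fun h hh => O.b_conj_φ (D c.1) c.2.1 c.2.2.1
      (fun h hh => by rw [hφ, mul_zero]) hh⟩
    have h2 : (2 : k) ≠ 0 := fun h => by
      have := Nat.le_of_dvd two_pos ((CharP.cast_eq_zero_iff k p 2).mp (by exact_mod_cast h))
      have := P.three_le
      omega
    set t := γ / 2
    set md : Matrix (Fin 2) (Fin 2) k := !![t, 0; 0, -t] with hmd
    have hmdt : md.trace = 0 := by rw [hmd, Matrix.trace_fin_two_of, add_neg_cancel]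
    set d' := (D c.1).shift md hmdt O.hlevel with hd'
    have hv : ∀ g ∈ P.D, d'.C g 0 0 = (D c.1).C g 0 0 ∧ d'.C g 1 0 = (D c.1).C g 1 0 ∧
        d'.C g 0 1 = (D c.1).C g 0 1 - γ * O.y g / O.z g := by
      intro g hg
      obtain ⟨hx, hz⟩ := O.xz_ne hg
      refine ⟨?_, ?_, ?_⟩ <;>
      · show ((D c.1).C g + _) _ _ = _
        rw [Matrix.add_apply, O.R_inv hg, O.R_eq hg, hmd]
        simp [Matrix.mul_apply, Fin.sum_univ_two, Matrix.vecMul, dotProduct, t]
        try field_simp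
        try ring
    have hc' : ∀ g ∈ P.D, d'.C g 1 0 = 0 := fun g hg => (hv g hg).2.1.trans (c.2.1 g hg)
    have ha' : ∀ σ ∈ P.I, d'.C σ 0 0 = 0 := fun σ hσ =>
      (hv σ (P.I_le_D hσ)).1.trans (c.2.2.1 σ hσ)
    have hb' : ∀ h ∈ P.H, d'.C h 0 1 = 0 := by
      have heq : ∀ (l : k →+ ZMod p), ∀ h ∈ P.H, Ord.app (fun g => d'.C g 0 1) l h =
          (Ord.app (fun g => (D c.1).C g 0 1) l + (-1 : ZMod p) • Ord.app (fun g => γ * β g) l) h :=
        fun l h hh => by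
          show l (d'.C h 0 1) = l ((D c.1).C h 0 1) + (-1) * l (γ * β h)
          rw [(hv h (O.H_le_D hh)).2.2, (O.xH hh).2, div_one, map_sub]
          show l ((D c.1).C h 0 1) - l (γ * β h) = _
          ring
      have hmem : ∀ l, Ord.app (fun g => (D c.1).C g 0 1) l +
          (-1 : ZMod p) • Ord.app (fun g => γ * β g) l ∈ P.Lvl P.e :=
        fun l => add_mem (c.2.2.2 l) (P.lvl_smul (hlγ γ l) _)
      refine fun h hh => O.app_eq_zero (O.wt_b d' hc' ha')
        (fun l => P.lvl_congr (heq l) (hmem l)) (fun l => ?_) hh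
      have e := DFunLike.congr_fun (congrArg Subtype.val hγ) l
      simp only [Ψ, wb, O.wE_apply] at e
      rw [P.wL_congr P.not_dvd_e (Ord.e_lt_top P) (heq l) (hmem l),
        P.wL_add P.not_dvd_e (Ord.e_lt_top P) (c.2.2.2 l) (P.lvl_smul (hlγ γ l) _),
        (P.wL_smul P.not_dvd_e (Ord.e_lt_top P) (hlγ γ l) _).2, e]
      haveI := P.charP_res
      have hneg : (((-1 : ZMod p).val : ℕ) : ResidueField P.A) = -1 := by
        rw [ZMod.natCast_val, ZMod.cast_neg (dvd_refl p), ZMod.cast_one (dvd_refl p)]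
      rw [hneg]
      ring
    obtain ⟨m, hm, htriv⟩ := O.exists_triv d' hc' ha' hb' ((hv _ P.φ_mem).1.trans hφ)
    refine hL _ (isLocTriv_of_shift Q _ (m := mc c.1 + (md + m))
      (by rw [Matrix.trace_add, Matrix.trace_add, hmt, hmdt, hm, add_zero, add_zero])
      fun g hg => ?_)
    rw [(D0 c.1).shift_shift, ← htriv g hg]
    exact (D c.1).shift_shift g

end FLTAgent.PT.TW

end
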