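import Fermat.Agent.PT.TW.Flat.Gen
import Fermat.Agent.PT.Defs
import Mathlib.LinearAlgebra.Lagrange

/-!
Parcel H: Kummer generators over the field fixed by `H`, their levels and leading residues, and the
estimate for integers moved by a homomorphism of given level.
-/

set_option autoImplicit false
set_option linter.style.haveILetI false
set_option linter.unusedSectionVars false

noncomputable section

open Polynomial

namespace FLTAgent.PT.TW

open FLTAgent.Reduction (Qb)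

local notation "GalQ" => AlgebraicClosure ℚ ≃ₐ[ℚ] AlgebraicClosure ℚ

namespace PlaceData

variable {p : ℕ} [hpr : Fact p.Prime] (P : PlaceData p)

theorem zp_nsmul (n : ℕ) (a : ZMod p) : P.zp a ^ n = P.zp ((n : ZMod p) * a) := by
  induction n with
  | zero => rw [pow_zero, Nat.cast_zero, zero_mul, P.zp_zero]
  | succ n ih => rw [pow_succ, ih, Nat.cast_succ, add_mul, one_mul, P.zp_add]

theorem zp_apply (σ : GalQ) (a : ZMod p) :
    σ (P.zp a) = P.zp ((ExtCitation.cycloChar p σ : ZMod p) * a) := by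
  haveI : NeZero p := ⟨hpr.out.ne_zero⟩
  rw [P.cyc_spec σ (P.zp_pow a), P.zp_nsmul, ZMod.natCast_zmod_val]

theorem zp_fixed_H {σ : GalQ} (hσ : σ ∈ P.H) (a : ZMod p) : σ (P.zp a) = P.zp a := by
  rw [zp, map_pow, P.ζ_fixed_H hσ]

/-- the `p`-th powers differ from the sum by multiples of `p η` -/
theorem v_one_add_pow {η : Qb} (hη : P.v η ≤ 1) :
    P.v ((1 + η) ^ p - 1 - η ^ p) ≤ P.v (p : Qb) * P.v η := by
  obtain ⟨r, hr⟩ := exists_add_pow_prime_eq hpr.out (1 : P.A) ⟨η, (P.A.valuation_le_one_iff _).mp hη⟩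
  have h := congrArg (fun z : P.A => (z : Qb)) hr
  push_cast at h
  rw [one_pow, mul_one] at h
  rw [h, show (1 : Qb) + η ^ p + (p : Qb) * η * r - 1 - η ^ p = (p : Qb) * η * r by ring, map_mul,
    map_mul]
  exact mul_le_of_le_one_right zero_le ((P.A.valuation_le_one_iff _).mpr r.2)

/-- `v ((1 + η) ^ p - 1)` is small when `η` is -/
theorem v_pow_small {η : Qb} (hη : P.v η ≤ P.v P.π ^ (p + 1)) :
    P.v ((1 + η) ^ p - 1) ≤ P.v P.π ^ (p * (p + 1)) := by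
  have h1 := P.v_one_add_pow (hη.trans (pow_le_one₀ zero_le P.vπ_lt.le))
  rw [show (1 + η) ^ p - 1 = ((1 + η) ^ p - 1 - η ^ p) + η ^ p by ring]
  refine (Valuation.map_add _ _ _).trans (max_le (h1.trans ?_) ?_)
  · rw [← P.vπ_pow]
    refine (mul_le_mul' le_rfl hη).trans ?_
    rw [← pow_add, P.vpow_le]
    have := P.e_add_one
    nlinarith
  · rw [map_pow, mul_comm, pow_mul]
    exact pow_le_pow_left₀ zero_le hη p

/-- otherwise `v ((1 + η) ^ p - 1) = v η ^ p` -/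
theorem v_pow_big {η : Qb} (hη1 : P.v η ≤ 1) (hη : P.v P.π ^ (p + 1) < P.v η) :
    P.v ((1 + η) ^ p - 1) = P.v η ^ p := by
  have hlt : P.v (p : Qb) * P.v η < P.v η ^ p := by
    rw [show P.v η ^ p = P.v η ^ (p - 1) * P.v η by
      rw [← pow_succ, Nat.sub_add_cancel hpr.out.one_le]]
    refine mul_lt_mul_of_pos_right ?_ (lt_of_le_of_lt zero_le hη)
    rw [← P.vπ_pow, P.e_eq, mul_comm, pow_mul]
    exact pow_lt_pow_left₀ hη zero_le (by have := P.three_le; omega)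
  rw [show (1 + η) ^ p - 1 = ((1 + η) ^ p - 1 - η ^ p) + η ^ p by ring,
    Valuation.map_add_eq_of_lt_right, map_pow]
  rw [map_pow]
  exact (P.v_one_add_pow hη1).trans_lt hlt

theorem v_le_succ {x : Qb} (hx : ∀ σ ∈ P.H, σ x = x) {j : ℕ} (h : P.v x < P.v P.π ^ j) :
    P.v x ≤ P.v P.π ^ (j + 1) := by
  rcases eq_or_ne x 0 with rfl | hx0
  · rw [map_zero]; exact zero_le
  obtain ⟨i, hi⟩ := P.exists_zpow_v hx hx0
  rw [hi, ← zpow_natCast] at h
  rw [hi, ← zpow_natCast]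
  refine zpow_le_zpow_right_of_le_one₀ P.vπ_pos P.vπ_lt.le ?_
  have := (zpow_lt_zpow_iff_right_of_lt_one₀ P.vπ_pos P.vπ_lt).mp h
  push_cast
  omega

/-! ### generators -/

/-- `y` is a Kummer generator of `h` on `H` -/
def Kum (h : GalQ → ZMod p) (y : Qb) : Prop :=
  y ≠ 0 ∧ ∀ σ ∈ P.H, σ y = P.zp (h σ) * y

theorem Kum.mul {h h' : GalQ → ZMod p} {y y' : Qb} (hy : P.Kum h y) (hy' : P.Kum h' y') :
    P.Kum (h + h') (y * y') :=
  ⟨mul_ne_zero hy.1 hy'.1, fun σ hσ => by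
    rw [map_mul, hy.2 σ hσ, hy'.2 σ hσ, Pi.add_apply, P.zp_add]; ring⟩

theorem kum_zero : P.Kum 0 1 :=
  ⟨one_ne_zero, fun σ _ => by rw [map_one, Pi.zero_apply, P.zp_zero, one_mul]⟩

theorem Kum.inv {h : GalQ → ZMod p} {y : Qb} (hy : P.Kum h y) : P.Kum (-h) y⁻¹ := by
  refine ⟨inv_ne_zero hy.1, fun σ hσ => ?_⟩
  rw [map_inv₀, hy.2 σ hσ, mul_inv, Pi.neg_apply]
  congr 1
  exact (eq_inv_of_mul_eq_one_left (by rw [← P.zp_add, neg_add_cancel, P.zp_zero])).symm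

theorem Kum.mul_fixed {h : GalQ → ZMod p} {y t : Qb} (hy : P.Kum h y) (ht0 : t ≠ 0)
    (ht : ∀ σ ∈ P.H, σ t = t) : P.Kum h (y * t) :=
  ⟨mul_ne_zero hy.1 ht0, fun σ hσ => by rw [map_mul, hy.2 σ hσ, ht σ hσ, mul_assoc]⟩

theorem Kum.pow_fixed {h : GalQ → ZMod p} {y : Qb} (hy : P.Kum h y) :
    ∀ σ ∈ P.H, σ (y ^ p) = y ^ p := fun σ hσ => by
  rw [map_pow, hy.2 σ hσ, mul_pow, P.zp_pow, one_mul]

theorem Kum.ratio {h : GalQ → ZMod p} {y y' : Qb} (hy : P.Kum h y) (hy' : P.Kum h y') :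
    ∀ σ ∈ P.H, σ (y' / y) = y' / y := fun σ hσ => by
  rw [map_div₀, hy.2 σ hσ, hy'.2 σ hσ, mul_div_mul_left]
  intro h0
  have := P.v_zp (h σ)
  rw [h0, map_zero] at this
  exact zero_ne_one this

/-- the homomorphisms with a Kummer generator -/
def KumS : AddSubgroup (GalQ → ZMod p) where
  carrier := {h | ∃ y, P.Kum h y}
  add_mem' := fun ⟨y, hy⟩ ⟨y', hy'⟩ => ⟨_, Kum.mul P hy hy'⟩
  zero_mem' := ⟨1, P.kum_zero⟩
  neg_mem' := fun ⟨_, hy⟩ => ⟨_, Kum.inv P hy⟩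

/-- the homomorphisms of level at least `j` -/
def Lvl (j : ℕ) : AddSubgroup (GalQ → ZMod p) where
  carrier := {h | ∃ y, P.Kum h y ∧ P.v y = 1 ∧ P.v (y ^ p - 1) ≤ P.v P.π ^ j}
  add_mem' := by
    rintro h h' ⟨y, hy, hv, hl⟩ ⟨y', hy', hv', hl'⟩
    refine ⟨_, Kum.mul P hy hy', by rw [map_mul, hv, hv', one_mul], ?_⟩
    rw [mul_pow, show y ^ p * y' ^ p - 1 = (y ^ p - 1) * y' ^ p + (y' ^ p - 1) by ring]
    refine (Valuation.map_add _ _ _).trans (max_le ?_ hl')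
    rw [map_mul, map_pow P.v y', hv', one_pow, mul_one]
    exact hl
  zero_mem' := ⟨1, P.kum_zero, map_one _, by rw [one_pow, sub_self, map_zero]; exact zero_le⟩
  neg_mem' := by
    rintro h ⟨y, hy, hv, hl⟩
    refine ⟨_, Kum.inv P hy, by rw [map_inv₀, hv, inv_one], ?_⟩
    rw [inv_pow, show (y ^ p)⁻¹ - 1 = -((y ^ p - 1) * (y ^ p)⁻¹) by
      have := pow_ne_zero p hy.1
      field_simp; ring, Valuation.map_neg, map_mul, map_inv₀, map_pow P.v y, hv, one_pow, inv_one,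
      mul_one]
    exact hl

theorem lvl_le_kumS (j : ℕ) : P.Lvl j ≤ P.KumS := fun _ ⟨y, hy, _⟩ => ⟨y, hy⟩

theorem lvl_anti {i j : ℕ} (hij : i ≤ j) : P.Lvl j ≤ P.Lvl i := fun _ ⟨y, hy, hv, hl⟩ =>
  ⟨y, hy, hv, hl.trans (P.vpow_le.mpr hij)⟩

theorem lvl_congr {h h' : GalQ → ZMod p} (hh : ∀ σ ∈ P.H, h' σ = h σ) {j : ℕ} (hj : h ∈ P.Lvl j) :
    h' ∈ P.Lvl j := by
  obtain ⟨y, hy, hv, hl⟩ := hj
  exact ⟨y, ⟨hy.1, fun σ hσ => by rw [hh σ hσ]; exact hy.2 σ hσ⟩, hv, hl⟩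

/-- the highest level is trivial -/
theorem eq_zero_of_lvl_top {h : GalQ → ZMod p} {j : ℕ} (hj : p * (p + 1) ≤ j) (hh : h ∈ P.Lvl j)
    {σ : GalQ} (hσ : σ ∈ P.H) : h σ = 0 := by
  obtain ⟨y, hy, hv, hl⟩ := hh
  set η := y - 1
  have hη1 : P.v η ≤ 1 := (Valuation.map_sub _ _ _).trans (max_le hv.le (map_one P.v).le)
  have hη : P.v η ≤ P.v P.π ^ (p + 1) := by
    by_contra hcon
    push Not at hcon
    have h1 := P.v_pow_big hη1 hcon
    rw [show 1 + η = y by simp [η]] at h1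
    have := (h1 ▸ hl).trans (P.vpow_le.mpr hj)
    rw [mul_comm, pow_mul] at this
    exact absurd this (not_le.mpr (pow_lt_pow_left₀ hcon zero_le hpr.out.ne_zero))
  by_contra hne
  have hzA : η / P.π ^ (p + 1) ∈ P.A := (P.A.valuation_le_one_iff _).mp (by
    rw [map_div₀, map_pow, div_le_one₀ (pow_pos P.vπ_pos _)]; exact hη)
  have h1 := P.v_sub_inertia (P.H_le hσ) hzA
  rw [map_div₀, map_pow, (P.mem_H.mp hσ).2, ← sub_div,
    show σ η - η = (P.zp (h σ) - 1) * y by rw [map_sub, map_one, hy.2 σ hσ]; simp [η]; ring,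
    map_div₀, map_mul, P.v_zp_sub_one hne, hv, mul_one, map_pow,
    div_self (pow_ne_zero _ P.vπ_pos.ne')] at h1
  exact lt_irrefl _ h1

/-- a level divisible by `p` does not occur -/
theorem lvl_step {j : ℕ} (hj : 1 ≤ j) (hjp : p ∣ j) (hjt : j < p * (p + 1)) :
    P.Lvl j ≤ P.Lvl (j + 1) := by
  rintro h ⟨y, hy, hv, hl⟩
  obtain ⟨q, rfl⟩ := hjp
  have hq : q ≤ p := Nat.lt_succ_iff.mp (Nat.lt_of_mul_lt_mul_left hjt)
  have hwA : (y ^ p - 1) / P.π ^ (p * q) ∈ P.A := (P.A.valuation_le_one_iff _).mp (by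
    rw [map_div₀, map_pow P.v P.π, div_le_one₀ (pow_pos P.vπ_pos _)]; exact hl)
  obtain ⟨s, hs⟩ := P.exists_root_p (P.res ((y ^ p - 1) / P.π ^ (p * q)))
  obtain ⟨t, htA, htT, rfl⟩ := P.exists_residue_fixed s
  set η := t * P.π ^ q
  have hqpos : 0 < q := Nat.pos_of_ne_zero fun h => by simp [h] at hj
  have hη : P.v η ≤ P.v P.π ^ q := by
    rw [map_mul, map_pow]
    exact mul_le_of_le_one_left zero_le ((P.A.valuation_le_one_iff _).mpr htA)
  have hη1 : P.v η < 1 := hη.trans_lt (pow_lt_one₀ zero_le P.vπ_lt hqpos.ne')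
  have hu : P.v (1 + η) = 1 := Valuation.map_one_add_of_lt P.v hη1
  have hne : 1 + η ≠ 0 := fun h0 => by rw [h0, map_zero] at hu; exact zero_ne_one hu
  have hfix : ∀ σ ∈ P.H, σ (1 + η) = 1 + η := fun σ hσ => by
    rw [map_add, map_one, map_mul, map_pow, (P.mem_H.mp hσ).2,
      SS2.mem_inertiaFixed.mp htT σ (P.H_le hσ)]
  have hy' : P.Kum h (y * (1 + η)⁻¹) :=
    Kum.mul_fixed P hy (inv_ne_zero hne) fun σ hσ => by rw [map_inv₀, hfix σ hσ]
  refine ⟨_, hy', by rw [map_mul, map_inv₀, hv, hu, inv_one, mul_one],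
    P.v_le_succ (fun σ hσ => by rw [map_sub, map_one, Kum.pow_fixed P hy' σ hσ]) ?_⟩
  have e1 : (y * (1 + η)⁻¹) ^ p - 1 =
      (P.π ^ (p * q) * ((y ^ p - 1) / P.π ^ (p * q) - t ^ p) - ((1 + η) ^ p - 1 - η ^ p)) *
        ((1 + η) ^ p)⁻¹ := by
    rw [mul_sub, mul_div_cancel₀ _ (pow_ne_zero _ P.π_ne),
      show P.π ^ (p * q) * t ^ p = η ^ p by rw [mul_pow, ← pow_mul, mul_comm p q]; ring,
      mul_pow, inv_pow]
    have := pow_ne_zero p hne
    field_simp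
    ring
  rw [e1, map_mul, map_inv₀, map_pow P.v (1 + η), hu, one_pow, inv_one, mul_one]
  refine Valuation.map_sub_lt _ ?_ ?_
  · rw [map_mul, map_pow P.v P.π]
    refine mul_lt_of_lt_one_right (pow_pos P.vπ_pos _) ?_
    rw [← P.res_eq_zero (sub_mem hwA (pow_mem htA p)), P.res_sub hwA (pow_mem htA p),
      P.res_pow htA, hs, sub_self]
  · refine (P.v_one_add_pow hη1.le).trans_lt ?_
    rw [← P.vπ_pow]
    refine (mul_le_mul' le_rfl hη).trans_lt ?_
    rw [← pow_add, P.vpow_lt]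
    have := P.e_add_one
    have h3 := P.three_le
    nlinarith [Nat.mul_le_mul_left (p - 1) hq, Nat.sub_add_cancel hpr.out.one_le]

/-- the leading residue at level `j` -/
def wL (j : ℕ) (h : GalQ → ZMod p) : IsLocalRing.ResidueField P.A :=
  open Classical in if hh : h ∈ P.Lvl j then P.res ((hh.choose ^ p - 1) / P.π ^ j) else 0

theorem wL_eq {j : ℕ} (hjp : ¬ p ∣ j) (hjt : j < p * (p + 1)) {h : GalQ → ZMod p} {y : Qb}
    (hy : P.Kum h y) (hv : P.v y = 1) (hl : P.v (y ^ p - 1) ≤ P.v P.π ^ j) :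
    P.wL j h = P.res ((y ^ p - 1) / P.π ^ j) := by
  have hh : h ∈ P.Lvl j := ⟨y, hy, hv, hl⟩
  rw [wL, dif_pos hh]
  obtain ⟨hy', hv', hl'⟩ := hh.choose_spec
  set y' := hh.choose
  set t := y' / y with ht
  have htv : P.v t = 1 := by rw [map_div₀, hv, hv', div_one]
  have htfix := Kum.ratio P hy hy'
  have htl : P.v (t ^ p - 1) < P.v P.π ^ j := by
    have hle : P.v (t ^ p - 1) ≤ P.v P.π ^ j := by
      rw [ht, div_pow, div_sub_one (pow_ne_zero p hy.1), map_div₀, map_pow P.v y, hv, one_pow,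
        div_one, show y' ^ p - y ^ p = (y' ^ p - 1) - (y ^ p - 1) by ring]
      exact (Valuation.map_sub _ _ _).trans (max_le hl' hl)
    have hη1 : P.v (t - 1) ≤ 1 :=
      (Valuation.map_sub _ _ _).trans (max_le htv.le (map_one P.v).le)
    rcases le_or_gt (P.v (t - 1)) (P.v P.π ^ (p + 1)) with hs | hs
    · have := P.v_pow_small hs
      rw [add_sub_cancel] at this
      exact this.trans_lt (P.vpow_lt.mpr hjt)
    · have h1 := P.v_pow_big hη1 hs
      rw [add_sub_cancel] at h1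
      obtain ⟨i, hi⟩ := P.exists_zpow_v (x := t - 1)
        (fun σ hσ => by rw [map_sub, map_one, htfix σ hσ]) (fun h0 => by
          rw [h0, map_zero] at hs; exact not_lt.mpr zero_le hs)
      refine lt_of_le_of_ne hle fun heq => hjp ?_
      rw [h1, hi, ← zpow_natCast (P.v P.π ^ i), ← zpow_mul, ← zpow_natCast, P.vzpow_inj] at heq
      exact Int.natCast_dvd_natCast.mp ⟨i, by rw [← heq, mul_comm]⟩
  refine P.res_congr ((P.A.valuation_le_one_iff _).mp (by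
    rw [map_div₀, map_pow P.v P.π, div_le_one₀ (pow_pos P.vπ_pos _)]; exact hl')) ?_
  have hyt : y' = y * t := by rw [ht, mul_div_cancel₀ _ hy.1]
  rw [← sub_div, map_div₀, map_pow P.v P.π, div_lt_one₀ (pow_pos P.vπ_pos _), hyt, mul_pow,
    show y ^ p * t ^ p - 1 - (y ^ p - 1) = y ^ p * (t ^ p - 1) by ring, map_mul, map_pow P.v y,
    hv, one_pow, one_mul]
  exact htl

theorem wL_congr {j : ℕ} (hjp : ¬ p ∣ j) (hjt : j < p * (p + 1)) {h h' : GalQ → ZMod p}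
    (hh : ∀ σ ∈ P.H, h' σ = h σ) (hj : h ∈ P.Lvl j) : P.wL j h' = P.wL j h := by
  obtain ⟨y, hy, hv, hl⟩ := hj
  rw [P.wL_eq hjp hjt hy hv hl, P.wL_eq hjp hjt (h := h')
    ⟨hy.1, fun σ hσ => by rw [hh σ hσ]; exact hy.2 σ hσ⟩ hv hl]

theorem wL_add {j : ℕ} (hjp : ¬ p ∣ j) (hjt : j < p * (p + 1)) {h h' : GalQ → ZMod p}
    (hh : h ∈ P.Lvl j) (hh' : h' ∈ P.Lvl j) : P.wL j (h + h') = P.wL j h + P.wL j h' := by
  obtain ⟨y, hy, hv, hl⟩ := hh
  obtain ⟨y', hy', hv', hl'⟩ := hh'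
  have hA : ∀ {z : Qb}, P.v z ≤ P.v P.π ^ j → z / P.π ^ j ∈ P.A := fun {z} hz =>
    (P.A.valuation_le_one_iff _).mp (by
      rw [map_div₀, map_pow P.v P.π, div_le_one₀ (pow_pos P.vπ_pos _)]; exact hz)
  have hy'A : y' ^ p ∈ P.A := pow_mem ((P.A.valuation_le_one_iff _).mp hv'.le) p
  have hone : P.res (y' ^ p) = 1 := by
    rw [← P.res_one]
    exact P.res_congr hy'A (hl'.trans_lt (pow_lt_one₀ zero_le P.vπ_lt
      (fun h0 => hjp (h0 ▸ dvd_zero p))))
  have e1 : (y * y') ^ p - 1 = (y ^ p - 1) * y' ^ p + (y' ^ p - 1) := by ring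
  rw [P.wL_eq hjp hjt (Kum.mul P hy hy') (by rw [map_mul, hv, hv', one_mul]) (by
      rw [e1]
      refine (Valuation.map_add _ _ _).trans (max_le ?_ hl')
      rw [map_mul, map_pow P.v y', hv', one_pow, mul_one]
      exact hl), P.wL_eq hjp hjt hy hv hl, P.wL_eq hjp hjt hy' hv' hl', e1, add_div,
    mul_div_right_comm, P.res_add (mul_mem (hA hl) hy'A) (hA hl'), P.res_mul (hA hl) hy'A, hone,
    mul_one]

theorem wL_zero {j : ℕ} (hjp : ¬ p ∣ j) (hjt : j < p * (p + 1)) : P.wL j 0 = 0 := by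
  rw [P.wL_eq hjp hjt P.kum_zero (map_one _) (by rw [one_pow, sub_self, map_zero]; exact zero_le),
    one_pow, sub_self, zero_div, P.res_zero]

theorem wL_smul {j : ℕ} (hjp : ¬ p ∣ j) (hjt : j < p * (p + 1)) {h : GalQ → ZMod p}
    (hh : h ∈ P.Lvl j) (c : ZMod p) :
    c • h ∈ P.Lvl j ∧ P.wL j (c • h) = (c.val : IsLocalRing.ResidueField P.A) * P.wL j h := by
  haveI : NeZero p := ⟨hpr.out.ne_zero⟩
  obtain ⟨n, rfl⟩ : ∃ n : ℕ, (n : ZMod p) = c := ⟨c.val, ZMod.natCast_zmod_val c⟩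
  haveI := P.charP_res
  rw [ZMod.val_natCast, CharP.natCast_eq_natCast (IsLocalRing.ResidueField P.A) p |>.mpr
    (Nat.mod_modEq n p), Nat.cast_smul_eq_nsmul]
  induction n with
  | zero => exact ⟨by rw [zero_smul]; exact zero_mem _,
      by rw [zero_smul, P.wL_zero hjp hjt, Nat.cast_zero, zero_mul]⟩
  | succ n ih =>
    rw [succ_nsmul]
    exact ⟨add_mem ih.1 hh, by rw [P.wL_add hjp hjt ih.1 hh, ih.2, Nat.cast_succ]; ring⟩

theorem lvl_succ_of_wL {j : ℕ} (hjp : ¬ p ∣ j) (hjt : j < p * (p + 1)) {h : GalQ → ZMod p}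
    (hh : h ∈ P.Lvl j) (hw : P.wL j h = 0) : h ∈ P.Lvl (j + 1) := by
  obtain ⟨y, hy, hv, hl⟩ := hh
  rw [P.wL_eq hjp hjt hy hv hl, P.res_eq_zero ((P.A.valuation_le_one_iff _).mp (by
    rw [map_div₀, map_pow P.v P.π, div_le_one₀ (pow_pos P.vπ_pos _)]; exact hl)),
    map_div₀, map_pow P.v P.π, div_lt_one₀ (pow_pos P.vπ_pos _)] at hw
  exact ⟨y, hy, hv, P.v_le_succ (fun σ hσ => by rw [map_sub, map_one, Kum.pow_fixed P hy σ hσ]) hw⟩

/-- climbing through levels with vanishing residues -/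
theorem lvl_climb {i j : ℕ} (hi : 1 ≤ i) (hjt : j ≤ p * (p + 1)) {h : GalQ → ZMod p}
    (hh : h ∈ P.Lvl i) (hw : ∀ l, i ≤ l → l < j → ¬ p ∣ l → h ∈ P.Lvl l → P.wL l h = 0) :
    h ∈ P.Lvl j := by
  rcases le_or_gt j i with hji | hij
  · exact P.lvl_anti hji hh
  obtain ⟨d, rfl⟩ : ∃ d, j = i + d := ⟨j - i, by omega⟩
  clear hij
  induction d with
  | zero => exact hh
  | succ d ih =>
    have h1 := ih (by omega) fun l h1 h2 => hw l h1 (by omega)
    by_cases hd : p ∣ i + d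
    · exact P.lvl_step (by omega) hd (by omega) h1
    · exact P.lvl_succ_of_wL hd (by omega) h1 (hw _ (by omega) (by omega) hd h1)

/-! ### the index of a generator -/

/-- `i mod p` for `v (y ^ p) = v π ^ i` -/
def idx (h : GalQ → ZMod p) : ZMod p :=
  open Classical in if hh : ∃ y, P.Kum h y then
    (((P.exists_zpow_v (Kum.pow_fixed P hh.choose_spec)
      (pow_ne_zero p hh.choose_spec.1)).choose : ℤ) : ZMod p) else 0

theorem idx_eq {h : GalQ → ZMod p} {y : Qb} (hy : P.Kum h y) {i : ℤ}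
    (hi : P.v (y ^ p) = P.v P.π ^ i) : P.idx h = (i : ZMod p) := by
  have hh : ∃ y, P.Kum h y := ⟨y, hy⟩
  rw [idx, dif_pos hh]
  have hy' := hh.choose_spec
  have hi' := (P.exists_zpow_v (Kum.pow_fixed P hy') (pow_ne_zero p hy'.1)).choose_spec
  set i' := (P.exists_zpow_v (Kum.pow_fixed P hy') (pow_ne_zero p hy'.1)).choose
  obtain ⟨s, hs⟩ := P.exists_zpow_v (Kum.ratio P hy hy') (div_ne_zero hy'.1 hy.1)
  have h1 : P.v P.π ^ i' = P.v P.π ^ (i + s * p) := by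
    rw [← hi', zpow_add₀ P.vπ_pos.ne', zpow_mul, zpow_natCast, ← hi, ← hs, ← map_pow, ← map_mul,
      div_pow, mul_div_cancel₀ _ (pow_ne_zero p hy.1)]
  rw [P.vzpow_inj.mp h1, Int.cast_add, Int.cast_mul, Int.cast_natCast, ZMod.natCast_self, mul_zero,
    add_zero]

theorem idx_congr {h h' : GalQ → ZMod p} (hh : ∀ σ ∈ P.H, h' σ = h σ) (hj : h ∈ P.KumS) :
    P.idx h' = P.idx h := by
  obtain ⟨y, hy⟩ := hj
  obtain ⟨i, hi⟩ := P.exists_zpow_v (Kum.pow_fixed P hy) (pow_ne_zero p hy.1)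
  rw [P.idx_eq hy hi,
    P.idx_eq (h := h') ⟨hy.1, fun σ hσ => by rw [hh σ hσ]; exact hy.2 σ hσ⟩ hi]

theorem idx_add {h h' : GalQ → ZMod p} (hh : h ∈ P.KumS) (hh' : h' ∈ P.KumS) :
    P.idx (h + h') = P.idx h + P.idx h' := by
  obtain ⟨y, hy⟩ := hh
  obtain ⟨y', hy'⟩ := hh'
  obtain ⟨i, hi⟩ := P.exists_zpow_v (Kum.pow_fixed P hy) (pow_ne_zero p hy.1)
  obtain ⟨i', hi'⟩ := P.exists_zpow_v (Kum.pow_fixed P hy') (pow_ne_zero p hy'.1)
  rw [P.idx_eq hy hi, P.idx_eq hy' hi', P.idx_eq (Kum.mul P hy hy') (i := i + i') (by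
    rw [mul_pow, map_mul, hi, hi', zpow_add₀ P.vπ_pos.ne']), Int.cast_add]

theorem idx_smul {h : GalQ → ZMod p} (hh : h ∈ P.KumS) (c : ZMod p) :
    c • h ∈ P.KumS ∧ P.idx (c • h) = c * P.idx h := by
  haveI : NeZero p := ⟨hpr.out.ne_zero⟩
  obtain ⟨n, rfl⟩ : ∃ n : ℕ, (n : ZMod p) = c := ⟨c.val, ZMod.natCast_zmod_val c⟩
  rw [Nat.cast_smul_eq_nsmul]
  induction n with
  | zero =>
    refine ⟨by rw [zero_smul]; exact zero_mem _, ?_⟩
    rw [zero_smul, P.idx_eq P.kum_zero (i := 0) (by rw [one_pow, map_one, zpow_zero]), Int.cast_zero,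
      Nat.cast_zero, zero_mul]
  | succ n ih =>
    rw [succ_nsmul]
    exact ⟨add_mem ih.1 hh, by rw [P.idx_add ih.1 hh, ih.2, Nat.cast_succ]; ring⟩

theorem lvl_one_of_idx {h : GalQ → ZMod p} (hh : h ∈ P.KumS) (h0 : P.idx h = 0) :
    h ∈ P.Lvl 1 := by
  obtain ⟨y, hy⟩ := hh
  obtain ⟨i, hi⟩ := P.exists_zpow_v (Kum.pow_fixed P hy) (pow_ne_zero p hy.1)
  rw [P.idx_eq hy hi, ZMod.intCast_zmod_eq_zero_iff_dvd] at h0
  obtain ⟨q, rfl⟩ := h0
  have hy1 : P.Kum h (y * (P.π ^ q)⁻¹) :=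
    Kum.mul_fixed P hy (inv_ne_zero (zpow_ne_zero _ P.π_ne)) fun σ hσ => by
      rw [map_inv₀, map_zpow₀, (P.mem_H.mp hσ).2]
  have hv1 : P.v (y * (P.π ^ q)⁻¹) = 1 := by
    refine (pow_eq_one_iff_of_nonneg zero_le hpr.out.ne_zero).mp ?_
    rw [map_mul, mul_pow, ← map_pow, hi, map_inv₀, map_zpow₀, inv_pow, ← zpow_natCast (P.v P.π ^ q),
      ← zpow_mul, mul_comm q, mul_inv_cancel₀ (zpow_ne_zero _ P.vπ_pos.ne')]
  set y₁ := y * (P.π ^ q)⁻¹
  have hy1A : y₁ ∈ P.A := (P.A.valuation_le_one_iff _).mp hv1.le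
  obtain ⟨t, htA, htT, htr⟩ := P.exists_residue_fixed (P.res y₁)
  have htv : P.v t = 1 := by rw [← P.res_ne_zero htA, htr, P.res_ne_zero hy1A]; exact hv1
  have ht0 : t ≠ 0 := fun h0 => by rw [h0, map_zero] at htv; exact zero_ne_one htv
  have hy2 : P.Kum h (y₁ * t⁻¹) := Kum.mul_fixed P hy1 (inv_ne_zero ht0) fun σ hσ => by
    rw [map_inv₀, SS2.mem_inertiaFixed.mp htT σ (P.H_le hσ)]
  refine ⟨_, hy2, by rw [map_mul, map_inv₀, hv1, htv, inv_one, mul_one], ?_⟩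
  refine P.v_le_succ (j := 0) (fun σ hσ => by rw [map_sub, map_one, Kum.pow_fixed P hy2 σ hσ]) ?_
  have htiA : y₁ * t⁻¹ ∈ P.A := (P.A.valuation_le_one_iff _).mp (by
    rw [map_mul, map_inv₀, hv1, htv, inv_one, mul_one])
  rw [pow_zero, ← P.res_eq_zero (sub_mem (pow_mem htiA p) P.A.one_mem),
    P.res_sub (pow_mem htiA p) P.A.one_mem, P.res_pow htiA, P.res_one, sub_eq_zero]
  have : P.res (y₁ * t⁻¹) = 1 := by
    rw [← P.res_one]
    refine P.res_congr htiA ?_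
    rw [mul_inv_eq_iff_eq_mul₀ ht0 |>.mpr (show y₁ = (1 + (y₁ - t) / t) * t by field_simp; ring),
      add_sub_cancel_left, map_div₀, htv, div_one, ← P.res_eq_zero (sub_mem hy1A htA),
      P.res_sub hy1A htA, htr, sub_self]
  rw [this, one_pow]

/-! ### conjugation -/

/-- `k ↦ ω (σ) h (σ⁻¹ k σ)` -/
def conjH (σ : GalQ) (h : GalQ → ZMod p) : GalQ → ZMod p :=
  fun k => (ExtCitation.cycloChar p σ : ZMod p) * h (σ⁻¹ * k * σ)

theorem kum_conj {σ : GalQ} (hσ : σ ∈ P.D) {h : GalQ → ZMod p} {y : Qb} (hy : P.Kum h y) :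
    P.Kum (conjH σ h) (σ y) := by
  refine ⟨(_root_.map_ne_zero σ).mpr hy.1, fun k hk => ?_⟩
  have hk' : σ⁻¹ * k * σ ∈ P.H := by simpa using P.conj_mem_H (inv_mem hσ) hk
  rw [conjH, ← P.zp_apply, ← map_mul, ← hy.2 _ hk']
  exact (σ.apply_symm_apply _).symm

theorem idx_conj {σ : GalQ} (hσ : σ ∈ P.D) {h : GalQ → ZMod p} (hh : h ∈ P.KumS) :
    P.idx (conjH σ h) = P.idx h := by
  obtain ⟨y, hy⟩ := hh
  obtain ⟨i, hi⟩ := P.exists_zpow_v (Kum.pow_fixed P hy) (pow_ne_zero p hy.1)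
  rw [P.idx_eq hy hi, P.idx_eq (P.kum_conj hσ hy) (i := i) (by rw [← map_pow, P.v_aut hσ, hi])]

theorem lvl_conj {σ : GalQ} (hσ : σ ∈ P.D) {j : ℕ} {h : GalQ → ZMod p} (hh : h ∈ P.Lvl j) :
    conjH σ h ∈ P.Lvl j := by
  obtain ⟨y, hy, hv, hl⟩ := hh
  exact ⟨σ y, P.kum_conj hσ hy, by rw [P.v_aut hσ, hv],
    by rw [← map_pow, ← map_one σ, ← map_sub, P.v_aut hσ]; exact hl⟩

theorem wL_conj_inertia {σ : GalQ} (hσ : σ ∈ P.I) {j : ℕ} (hjp : ¬ p ∣ j) (hjt : j < p * (p + 1))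
    {h : GalQ → ZMod p} (hh : h ∈ P.Lvl j) :
    P.wL j (conjH σ h) = P.th σ ^ j * P.wL j h := by
  obtain ⟨y, hy, hv, hl⟩ := hh
  have e1 : σ y ^ p - 1 = σ (y ^ p - 1) := by rw [map_sub, map_pow, map_one]
  rw [P.wL_eq hjp hjt (P.kum_conj (P.I_le_D hσ) hy) (by rw [P.v_aut (P.I_le_D hσ), hv])
      (by rw [e1, P.v_aut (P.I_le_D hσ)]; exact hl),
    P.wL_eq hjp hjt hy hv hl, e1, P.res_scale hσ hl]

theorem wL_conj_frob {j : ℕ} (hjp : ¬ p ∣ j) (hjt : j < p * (p + 1))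
    {h : GalQ → ZMod p} (hh : h ∈ P.Lvl j) :
    P.wL j (conjH P.φ h) = P.th P.φ ^ j * P.wL j h ^ p := by
  obtain ⟨y, hy, hv, hl⟩ := hh
  have e1 : P.φ y ^ p - 1 = P.φ (y ^ p - 1) := by rw [map_sub, map_pow, map_one]
  rw [P.wL_eq hjp hjt (P.kum_conj P.φ_mem hy) (by rw [P.v_aut P.φ_mem, hv])
      (by rw [e1, P.v_aut P.φ_mem]; exact hl),
    P.wL_eq hjp hjt hy hv hl, e1, P.res_scale_frob hl]

/-! ### existence -/

/-- homomorphisms on `H` of finite level have generators -/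
theorem exists_kum {h : GalQ → ZMod p} (hadd : ∀ σ ∈ P.H, ∀ τ ∈ P.H, h (σ * τ) = h σ + h τ)
    (F : IntermediateField ℚ Qb) [FiniteDimensional ℚ F]
    (hF : ∀ σ ∈ P.H, σ ∈ F.fixingSubgroup → h σ = 0) : h ∈ P.KumS := by
  classical
  haveI := FLTAgent.Common.isGalois_qbar
  by_cases hz : ∀ σ ∈ P.H, h σ = 0
  · exact ⟨1, one_ne_zero, fun σ hσ => by rw [map_one, hz σ hσ, P.zp_zero, one_mul]⟩
  push Not at hz
  obtain ⟨τ₀, hτ₀, hτ₀'⟩ := hz
  have hone : h 1 = 0 := by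
    have := hadd 1 (one_mem _) 1 (one_mem _)
    rwa [one_mul, left_eq_add] at this
  have hpow : ∀ σ ∈ P.H, ∀ n : ℕ, h (σ ^ n) = n * h σ := by
    intro σ hσ n
    induction n with
    | zero => rw [pow_zero, hone, Nat.cast_zero, zero_mul]
    | succ n ih => rw [pow_succ, hadd _ (pow_mem hσ n) _ hσ, ih, Nat.cast_succ]; ring
  have hinv : ∀ σ ∈ P.H, h σ⁻¹ = -h σ := fun σ hσ => by
    have := hadd _ (inv_mem hσ) _ hσ
    rw [inv_mul_cancel, hone] at this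
    exact eq_neg_of_add_eq_zero_left this.symm
  haveI : NeZero p := ⟨hpr.out.ne_zero⟩
  set τ := τ₀ ^ (h τ₀)⁻¹.val with hτdef
  have hτ : τ ∈ P.H := pow_mem hτ₀ _
  have hτ1 : h τ = 1 := by
    rw [hτdef, hpow _ hτ₀, ZMod.natCast_zmod_val, inv_mul_cancel₀ hτ₀']
  -- an element fixed by the kernel and moved by `τ`
  set F' := IntermediateField.normalClosure ℚ F Qb
  haveI : Normal ℚ F' := normalClosure.normal ℚ F _
  haveI : IsGalois ℚ F' := { }
  let res := AlgEquiv.restrictNormalHom (F := ℚ) (K₁ := Qb) F'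
  let Kh : Subgroup GalQ :=
    { carrier := {σ | σ ∈ P.H ∧ h σ = 0}
      mul_mem' := fun {a b} ha hb => ⟨mul_mem ha.1 hb.1, by rw [hadd _ ha.1 _ hb.1, ha.2, hb.2, add_zero]⟩
      one_mem' := ⟨one_mem _, hone⟩
      inv_mem' := fun {a} ha => ⟨inv_mem ha.1, by rw [hinv _ ha.1, ha.2, neg_zero]⟩ }
  have hτK : res τ ∉ Kh.map res := by
    rintro ⟨σ, ⟨hσ, hσ0⟩, hστ⟩
    have hmem : σ⁻¹ * τ ∈ F.fixingSubgroup := by
      refine IntermediateField.fixingSubgroup_antitone F.le_normalClosure ?_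
      rw [IntermediateField.mem_fixingSubgroup_iff]
      intro x hx
      have := congrArg (fun g => ((g ⟨x, hx⟩ : F') : Qb)) hστ
      change ((AlgEquiv.restrictNormal σ F' ⟨x, hx⟩ : F') : Qb) =
        ((AlgEquiv.restrictNormal τ F' ⟨x, hx⟩ : F') : Qb) at this
      have e1 := AlgEquiv.restrictNormal_commutes σ F' ⟨x, hx⟩
      have e2 := AlgEquiv.restrictNormal_commutes τ F' ⟨x, hx⟩
      simp only [IntermediateField.algebraMap_apply] at e1 e2
      rw [e1, e2] at this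
      show σ.symm (τ x) = x
      rw [← this, AlgEquiv.symm_apply_apply]
    have h0 := hF _ (mul_mem (inv_mem hσ) hτ) hmem
    rw [hadd _ (inv_mem hσ) _ hτ, hinv _ hσ, hσ0, hτ1, neg_zero, zero_add] at h0
    exact one_ne_zero h0
  obtain ⟨a, haK, haτ⟩ : ∃ a : Qb, (∀ σ ∈ P.H, h σ = 0 → σ a = a) ∧ τ a ≠ a := by
    rw [← IntermediateField.fixingSubgroup_fixedField (Kh.map res)] at hτK
    rw [IntermediateField.mem_fixingSubgroup_iff] at hτK
    push Not at hτK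
    obtain ⟨x, hx, hxτ⟩ := hτK
    have hcomm : ∀ g : GalQ, ((res g x : F') : Qb) = g (x : Qb) := fun g =>
      AlgEquiv.restrictNormal_commutes g F' x
    refine ⟨(x : Qb), fun σ hσ hσ0 => ?_, fun h0 => hxτ (Subtype.ext ((hcomm τ).trans h0))⟩
    rw [← hcomm]
    exact congrArg Subtype.val ((IntermediateField.mem_fixedField_iff _ _).mp hx _
      ⟨σ, ⟨hσ, hσ0⟩, rfl⟩)
  -- resolvents
  set f : ZMod p → Qb := fun s => (τ ^ s.val) a
  have hτp : (τ ^ p) a = a := haK _ (pow_mem hτ p) (by rw [hpow _ hτ, ZMod.natCast_self, zero_mul])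
  have hmod : ∀ n : ℕ, (τ ^ n) a = (τ ^ (n % p)) a := fun n => by
    conv_lhs => rw [← Nat.mod_add_div n p, pow_add, AlgEquiv.mul_apply, pow_mul]
    congr 1
    induction n / p with
    | zero => rw [pow_zero, AlgEquiv.one_apply]
    | succ k ih => rw [pow_succ, AlgEquiv.mul_apply, hτp, ih]
  have hf1 : ∀ s, τ (f s) = f (s + 1) := fun s => by
    haveI : Fact (1 < p) := ⟨hpr.out.one_lt⟩
    show τ ((τ ^ s.val) a) = (τ ^ (s + 1).val) a
    rw [← AlgEquiv.mul_apply, ← pow_succ', hmod, ZMod.val_add, ZMod.val_one]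
  set R : ZMod p → Qb := fun l => ∑ s, P.zp (-(l * s)) * f s with hR
  have hτR : ∀ l, τ (R l) = P.zp l * R l := fun l => by
    rw [hR, map_sum, Finset.mul_sum]
    refine Fintype.sum_equiv (Equiv.addRight 1) _ _ fun s => ?_
    rw [map_mul, P.zp_fixed_H hτ, hf1, Equiv.coe_addRight, ← mul_assoc, ← P.zp_add]
    congr 2
    ring
  obtain ⟨l, hl0, hRl⟩ : ∃ l, l ≠ 0 ∧ R l ≠ 0 := by
    by_contra hall
    push Not at hall
    have hsum : ∑ l, R l = (p : Qb) * a := by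
      rw [hR, Finset.sum_comm, Finset.sum_eq_single 0]
      · simp [P.zp_zero, f, ZMod.card]
      · intro s _ hs
        rw [← Finset.sum_mul, Finset.sum_congr rfl fun l _ => by rw [← mul_neg],
          P.sum_zp (neg_ne_zero.mpr hs), zero_mul]
      · exact fun h => absurd (Finset.mem_univ _) h
    rw [Finset.sum_eq_single 0 (fun l _ hl => hall l hl) fun h => absurd (Finset.mem_univ _) h]
      at hsum
    have := hτR 0
    rw [hsum, P.zp_zero, one_mul, map_mul, map_natCast] at this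
    exact haτ (mul_left_cancel₀ (Nat.cast_ne_zero.mpr hpr.out.ne_zero) this)
  refine ⟨R l ^ l⁻¹.val, pow_ne_zero _ hRl, fun σ hσ => ?_⟩
  set n := (h σ).val
  have hk : ∀ s, ((τ ^ n)⁻¹ * σ) (f s) = f s := fun s => by
    have hkH : (τ ^ n)⁻¹ * σ ∈ P.H := mul_mem (inv_mem (pow_mem hτ n)) hσ
    have hk0 : h ((τ ^ n)⁻¹ * σ) = 0 := by
      rw [hadd _ (inv_mem (pow_mem hτ n)) _ hσ, hinv _ (pow_mem hτ n), hpow _ hτ,
        ZMod.natCast_zmod_val, hτ1, mul_one, neg_add_cancel]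
    have hc := haK ((τ ^ s.val)⁻¹ * ((τ ^ n)⁻¹ * σ) * τ ^ s.val)
      (mul_mem (mul_mem (inv_mem (pow_mem hτ _)) hkH) (pow_mem hτ _)) (by
        rw [hadd _ (mul_mem (inv_mem (pow_mem hτ _)) hkH) _ (pow_mem hτ _),
          hadd _ (inv_mem (pow_mem hτ _)) _ hkH, hinv _ (pow_mem hτ _), hk0, add_zero,
          neg_add_cancel])
    exact (τ ^ s.val).symm_apply_eq.mp hc
  have hσR : σ (R l) = (τ ^ n) (R l) := by
    have : ((τ ^ n)⁻¹ * σ) (R l) = R l := by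
      rw [hR, map_sum]
      exact Finset.sum_congr rfl fun s _ => by
        rw [map_mul, P.zp_fixed_H (mul_mem (inv_mem (pow_mem hτ n)) hσ), hk]
    exact (τ ^ n).symm_apply_eq.mp this
  have hn : ∀ n : ℕ, (τ ^ n) (R l) = P.zp l ^ n * R l := by
    intro n
    induction n with
    | zero => rw [pow_zero, pow_zero, AlgEquiv.one_apply, one_mul]
    | succ n ih =>
      rw [pow_succ', AlgEquiv.mul_apply, ih, map_mul, map_pow, P.zp_fixed_H hτ, hτR, pow_succ]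
      ring
  rw [map_pow, hσR, hn, mul_pow, ← pow_mul, P.zp_nsmul, Nat.cast_mul, ZMod.natCast_zmod_val,
    ZMod.natCast_zmod_val, mul_assoc, inv_mul_cancel₀ hl0, mul_one]

/-! ### the estimate -/

/-- coordinates in the powers of a translate of a generator -/
theorem exists_kum_coords {h : GalQ → ZMod p} {y : Qb} (hy : P.Kum h y) {c₀ : Qb}
    (hc₀ : ∀ σ ∈ P.H, σ c₀ = c₀) {a : Qb} (ha : ∀ σ ∈ P.H, h σ = 0 → σ a = a) {τ : GalQ}
    (hτ : τ ∈ P.H) (hτ1 : h τ = 1)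
    (hadd : ∀ σ ∈ P.H, ∀ τ ∈ P.H, h (σ * τ) = h σ + h τ) :
    ∃ d : ℕ → Qb, (∀ k, ∀ σ ∈ P.H, σ (d k) = d k) ∧
      a = ∑ k ∈ Finset.range p, d k * (y - c₀) ^ k := by
  classical
  haveI : NeZero p := ⟨hpr.out.ne_zero⟩
  have hone : h 1 = 0 := by
    have := hadd 1 (one_mem _) 1 (one_mem _)
    rwa [one_mul, left_eq_add] at this
  have hpow : ∀ n : ℕ, h (τ ^ n) = n := by
    intro n
    induction n with
    | zero => rw [pow_zero, hone, Nat.cast_zero]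
    | succ n ih => rw [pow_succ, hadd _ (pow_mem hτ n) _ hτ, ih, hτ1, Nat.cast_succ]
  set zf : ZMod p → Qb := fun s => P.zp s * y - c₀
  set w : ZMod p → Qb := fun s => (τ ^ s.val) a
  have hinj : Function.Injective zf := fun s s' hs => by
    by_contra hne
    have h1 : P.zp s = P.zp s' := mul_right_cancel₀ hy.1 (sub_left_inj.mp hs)
    have h2 : P.zp (s - s') = 1 := by
      refine mul_right_cancel₀ (b := P.zp s') ?_ ?_
      · intro h0
        have := P.v_zp s'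
        rw [h0, map_zero] at this
        exact zero_ne_one this
      · rw [← P.zp_add, sub_add_cancel, one_mul, h1]
    exact P.zp_ne_one (sub_ne_zero.mpr hne) h2
  have hperm : ∀ σ ∈ P.H, ∀ s, σ (zf s) = zf (s + h σ) ∧ σ (w s) = w (s + h σ) := by
    intro σ hσ s
    refine ⟨by rw [map_sub, map_mul, P.zp_fixed_H hσ, hy.2 σ hσ, hc₀ σ hσ, ← mul_assoc,
      ← P.zp_add], ?_⟩
    set m := (s + h σ).val
    have hk : (τ ^ m)⁻¹ * (σ * τ ^ s.val) ∈ P.H :=
      mul_mem (inv_mem (pow_mem hτ m)) (mul_mem hσ (pow_mem hτ _))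
    have hk0 : h ((τ ^ m)⁻¹ * (σ * τ ^ s.val)) = 0 := by
      have := hadd _ (pow_mem hτ m) _ hk
      rw [mul_inv_cancel_left, hadd _ hσ _ (pow_mem hτ _), hpow, hpow, ZMod.natCast_zmod_val,
        ZMod.natCast_zmod_val, add_comm (h σ)] at this
      exact left_eq_add.mp this
    exact (τ ^ m).symm_apply_eq.mp (ha _ hk hk0)
  set Q := Lagrange.interpolate (Finset.univ : Finset (ZMod p)) zf w
  have hdeg : Q.degree < (Finset.univ : Finset (ZMod p)).card :=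
    Lagrange.degree_interpolate_lt _ hinj.injOn
  refine ⟨Q.coeff, fun k σ hσ => ?_, ?_⟩
  · have heq : Q.map (σ : Qb →+* Qb) = Q := by
      refine Lagrange.eq_interpolate_of_eval_eq _ hinj.injOn (lt_of_le_of_lt degree_map_le hdeg)
        fun s _ => ?_
      obtain ⟨h1, h2⟩ := hperm σ hσ (s - h σ)
      rw [sub_add_cancel] at h1 h2
      rw [← h1, eval_map, ← RingHom.coe_coe σ, eval₂_hom,
        Lagrange.eval_interpolate_at_node _ hinj.injOn (Finset.mem_univ _)]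
      exact h2
    simpa using congrArg (fun g : Qb[X] => g.coeff k) heq
  · have h0 := Lagrange.eval_interpolate_at_node w hinj.injOn (Finset.mem_univ (0 : ZMod p))
    have hw0 : w 0 = a := by simp [w]
    have hz0 : zf 0 = y - c₀ := by simp [zf, P.zp_zero]
    rw [hw0, hz0] at h0
    conv_lhs => rw [← h0]
    rcases eq_or_ne Q 0 with hQ | hQ
    · rw [show Q.eval (y - c₀) = 0 by rw [hQ, eval_zero]]
      exact (Finset.sum_eq_zero fun k _ => by rw [hQ, coeff_zero, zero_mul]).symm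
    refine eval_eq_sum_range' ((natDegree_lt_iff_degree_lt hQ).mpr ?_) _
    simpa [ZMod.card] using hdeg

/-- the coordinates of an integer are integral, and only the constant one can be a unit -/
theorem kum_terms_le {z : Qb} {i : ℤ} (hi : P.v z ^ p = P.v P.π ^ i) (hpi : ¬ (p : ℤ) ∣ i)
    {d : ℕ → Qb} (hd : ∀ k, ∀ σ ∈ P.H, σ (d k) = d k)
    (hs : P.v (∑ k ∈ Finset.range p, d k * z ^ k) ≤ 1) {k : ℕ} (hk : k < p) :
    P.v (d k * z ^ k) ≤ 1 ∧ (k ≠ 0 → P.v (d k * z ^ k) < 1) := by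
  classical
  have hz0 : P.v z ≠ 0 := fun h0 => by
    rw [h0, zero_pow hpr.out.ne_zero] at hi
    exact zpow_ne_zero i P.vπ_pos.ne' hi.symm
  have hexp : ∀ k, d k ≠ 0 → ∃ s : ℤ, P.v (d k * z ^ k) ^ p = P.v P.π ^ (s * p + i * k) := by
    intro k hk
    obtain ⟨s, hs⟩ := P.exists_zpow_v (hd k) hk
    refine ⟨s, ?_⟩
    rw [map_mul, map_pow, mul_pow, hs, ← pow_mul, mul_comm k, pow_mul, hi, ← zpow_natCast,
      ← zpow_mul, ← zpow_natCast (P.v P.π ^ i), ← zpow_mul, ← zpow_add₀ P.vπ_pos.ne']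
  have hdis : ∀ {k s : ℕ}, k < p → s < p → k ≠ s → ∀ a b : ℤ, a * p + i * k ≠ b * p + i * s := by
    intro k s hk hs hks a b heq
    have hd' : (p : ℤ) ∣ i * ((k : ℤ) - s) := ⟨b - a, by linear_combination heq⟩
    rcases (Nat.prime_iff_prime_int.mp hpr.out).dvd_or_dvd hd' with h | h
    · exact hpi h
    · refine hks ?_
      have := Int.eq_zero_of_abs_lt_dvd h (by rw [abs_lt]; constructor <;> omega)
      omega
  have hle : ∀ k, k < p → P.v (d k * z ^ k) ≤ 1 := by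
    obtain ⟨k₀, hk₀, hmax⟩ := Finset.exists_max_image (Finset.range p)
      (fun k => P.v (d k * z ^ k)) ⟨0, Finset.mem_range.mpr hpr.out.pos⟩
    intro k hk
    refine (hmax k (Finset.mem_range.mpr hk)).trans ?_
    rcases eq_or_ne (d k₀) 0 with h0 | h0
    · rw [h0, zero_mul, map_zero]; exact zero_le
    rw [← Valuation.map_sum_eq_of_lt P.v (f := fun k => d k * z ^ k) hk₀ fun s hs => ?_]
    · exact hs
    rw [Finset.mem_sdiff, Finset.mem_singleton] at hs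
    rcases eq_or_ne (d s) 0 with hs0 | hs0
    · rw [hs0, zero_mul, map_zero]
      refine zero_lt_iff.mpr ?_
      rw [map_mul, map_pow]
      exact mul_ne_zero ((Valuation.ne_zero_iff _).mpr h0) (pow_ne_zero _ hz0)
    refine lt_of_le_of_ne (hmax s hs.1) fun he => ?_
    obtain ⟨a, ha⟩ := hexp s hs0
    obtain ⟨b, hb⟩ := hexp k₀ h0
    rw [he, hb, P.vzpow_inj] at ha
    exact hdis (Finset.mem_range.mp hk₀) (Finset.mem_range.mp hs.1) (Ne.symm hs.2) _ _ ha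
  refine ⟨hle k hk, fun hk0 => lt_of_le_of_ne (hle k hk) fun he => ?_⟩
  have hdk : d k ≠ 0 := fun h0 => by
    rw [h0, zero_mul, map_zero] at he
    exact zero_ne_one he
  obtain ⟨a, ha⟩ := hexp k hdk
  rw [he, one_pow, ← zpow_zero (P.v P.π), P.vzpow_inj] at ha
  exact hdis hk hpr.out.pos hk0 a 0 (by push_cast; linear_combination -ha)

/-- integers fixed by the kernel of `h` are moved little when the level of `h` is low -/
theorem crit_level {h : GalQ → ZMod p} {j : ℕ} (hjp : ¬ p ∣ j) (hjt : j < p * (p + 1))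
    (hh : h ∈ P.Lvl j) (hw : P.wL j h ≠ 0) {a : Qb} (haA : a ∈ P.A)
    (ha : ∀ σ ∈ P.H, h σ = 0 → σ a = a) {τ : GalQ} (hτ : τ ∈ P.H) (hτ1 : h τ = 1)
    (hadd : ∀ σ ∈ P.H, ∀ τ ∈ P.H, h (σ * τ) = h σ + h τ) {m : ℕ} (hm : m ≤ p + 1)
    (hmv : P.v P.π ^ m ≤ P.v (τ a - a)) : p * (p + 1 - m) ≤ j := by
  obtain ⟨y, hy, hv, hl⟩ := hh
  have hexact : P.v (y ^ p - 1) = P.v P.π ^ j := by
    refine le_antisymm hl (not_lt.mp fun hlt => hw ?_)
    rw [P.wL_eq hjp hjt hy hv hl]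
    exact P.res_eq_zero_of_lt (by
      rw [map_div₀, map_pow P.v P.π, div_lt_one₀ (pow_pos P.vπ_pos _)]; exact hlt)
  set η := y - 1 with hη
  have hη1 : P.v η ≤ 1 := (Valuation.map_sub _ _ _).trans (max_le hv.le (map_one P.v).le)
  have hbig : P.v P.π ^ (p + 1) < P.v η := by
    by_contra hcon
    push Not at hcon
    have h1 := P.v_pow_small hcon
    rw [show 1 + η = y by simp [η], hexact, P.vpow_le] at h1
    omega
  have hηp : P.v η ^ p = P.v P.π ^ j := by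
    rw [← P.v_pow_big hη1 hbig, show 1 + η = y by simp [η], hexact]
  have hη0 : 0 < P.v η := lt_of_le_of_lt zero_le hbig
  obtain ⟨d, hd, had⟩ := P.exists_kum_coords hy (c₀ := 1) (fun σ _ => map_one σ) ha hτ hτ1 hadd
  rw [← hη] at had
  have hterm := fun {k : ℕ} (hk : k < p) => (P.kum_terms_le (z := η) (i := j)
    (by rw [hηp, zpow_natCast]) (by exact_mod_cast hjp) hd
    (by rw [← had]; exact (P.A.valuation_le_one_iff _).mpr haA) hk).1
  have hτη : τ η - η = (P.zp 1 - 1) * y := by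
    rw [hη, map_sub, map_one, hy.2 τ hτ, hτ1]; ring
  have hτηv : P.v (τ η - η) = P.v P.π ^ (p + 1) := by
    rw [hτη, map_mul, P.v_zp_sub_one one_ne_zero, hv, mul_one]
  have hτηle : P.v (τ η) ≤ P.v η := by
    rw [show τ η = η + (τ η - η) by ring]
    exact (Valuation.map_add _ _ _).trans (max_le le_rfl (hτηv.trans_le hbig.le))
  have key : P.v (τ a - a) * P.v η ≤ P.v P.π ^ (p + 1) := by
    rw [← map_mul]
    have e : (τ a - a) * η =
        ∑ k ∈ Finset.range p, d k * η * (∑ i ∈ Finset.range k, (τ η) ^ i * η ^ (k - 1 - i)) *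
          (τ η - η) := by
      rw [had, map_sum, ← Finset.sum_sub_distrib, Finset.sum_mul]
      refine Finset.sum_congr rfl fun k _ => ?_
      rw [map_mul, map_pow, hd k τ hτ]
      linear_combination (- d k * η) * geom_sum₂_mul (τ η) η k
    rw [e]
    refine Valuation.map_sum_le _ fun k hk => ?_
    rw [map_mul, hτηv]
    refine mul_le_of_le_one_left zero_le ?_
    rw [map_mul, map_mul]
    rcases Nat.eq_zero_or_pos k with rfl | hk0
    · rw [Finset.range_zero, Finset.sum_empty, map_zero, mul_zero]; exact zero_le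
    calc P.v (d k) * P.v η * P.v (∑ i ∈ Finset.range k, (τ η) ^ i * η ^ (k - 1 - i))
        ≤ P.v (d k) * P.v η * P.v η ^ (k - 1) := by
          refine mul_le_mul' le_rfl (Valuation.map_sum_le _ fun i hi => ?_)
          rw [map_mul, map_pow, map_pow]
          calc P.v (τ η) ^ i * P.v η ^ (k - 1 - i) ≤ P.v η ^ i * P.v η ^ (k - 1 - i) :=
                mul_le_mul' (pow_le_pow_left₀ zero_le hτηle i) le_rfl
            _ = P.v η ^ (k - 1) := by
                rw [← pow_add]; congr 1; have := Finset.mem_range.mp hi; omega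
      _ = P.v (d k * η ^ k) := by
          rw [map_mul, map_pow, mul_assoc, ← pow_succ', Nat.sub_add_cancel hk0]
      _ ≤ 1 := hterm (Finset.mem_range.mp hk)
  obtain ⟨l, hl'⟩ : ∃ l, p + 1 = l + m := ⟨p + 1 - m, by omega⟩
  have h2 : P.v η ≤ P.v P.π ^ l := by
    refine le_of_mul_le_mul_left ?_ (pow_pos P.vπ_pos m)
    rw [← pow_add, add_comm m, ← hl']
    exact (mul_le_mul' hmv le_rfl).trans key
  have h3 := pow_le_pow_left₀ zero_le h2 p
  rw [hηp, ← pow_mul, P.vpow_le] at h3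
  rw [hl', Nat.add_sub_cancel, mul_comm]
  exact h3

/-- and moved less than `ζ - 1` when the index is non-zero -/
theorem crit_idx {h : GalQ → ZMod p} (hh : h ∈ P.KumS) (hidx : P.idx h ≠ 0) {a : Qb}
    (haA : a ∈ P.A) (ha : ∀ σ ∈ P.H, h σ = 0 → σ a = a) {τ : GalQ} (hτ : τ ∈ P.H)
    (hτ1 : h τ = 1) (hadd : ∀ σ ∈ P.H, ∀ τ ∈ P.H, h (σ * τ) = h σ + h τ) :
    P.v (τ a - a) < P.v P.π ^ (p + 1) := by
  obtain ⟨y, hy⟩ := hh
  obtain ⟨i, hi⟩ := P.exists_zpow_v (Kum.pow_fixed P hy) (pow_ne_zero p hy.1)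
  rw [P.idx_eq hy hi, Ne, ZMod.intCast_zmod_eq_zero_iff_dvd] at hidx
  obtain ⟨d, hd, had⟩ := P.exists_kum_coords hy (c₀ := 0) (fun σ _ => map_zero σ) ha hτ hτ1 hadd
  simp only [sub_zero] at had
  have e : τ a - a = ∑ k ∈ Finset.range p, (P.zp 1 ^ k - 1) * (d k * y ^ k) := by
    rw [had, map_sum, ← Finset.sum_sub_distrib]
    refine Finset.sum_congr rfl fun k _ => ?_
    rw [map_mul, map_pow, hd k τ hτ, hy.2 τ hτ, hτ1]
    ring
  rw [e]
  refine Valuation.map_sum_lt _ (pow_pos P.vπ_pos _).ne' fun k hk => ?_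
  rcases eq_or_ne k 0 with rfl | hk0
  · rw [pow_zero, sub_self, zero_mul, map_zero]; exact pow_pos P.vπ_pos _
  have h2 := (P.kum_terms_le (z := y) (by rw [← map_pow]; exact hi) hidx hd
    (by rw [← had]; exact (P.A.valuation_le_one_iff _).mpr haA) (Finset.mem_range.mp hk)).2 hk0
  rw [map_mul]
  calc P.v (P.zp 1 ^ k - 1) * P.v (d k * y ^ k)
      ≤ P.v P.π ^ (p + 1) * P.v (d k * y ^ k) := by
        refine mul_le_mul' ?_ le_rfl
        rw [P.zp_nsmul]; exact P.v_zp_sub_one_le _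
    _ < P.v P.π ^ (p + 1) := mul_lt_of_lt_one_right (pow_pos P.vπ_pos _) h2

end PlaceData

end FLTAgent.PT.TW

end
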