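import Fermat.Agent.PT.TW.Flat.Gen
import Fermat.Agent.PT.TW.Flat.Kummer
import Fermat.Agent.PT.TW.Defs

/-!
Parcel H: cocycles in a basis, their modules and models.
-/

set_option autoImplicit false
set_option linter.style.haveILetI false
set_option linter.unusedSectionVars false

noncomputable section

open Matrix groupCohomology

namespace FLTAgent.PT.TW

open FLTAgent.Reduction (Qb)

variable {p : ℕ} [hpr : Fact p.Prime] {k : Type} [Field k] [Algebra (ZMod p) k]

/-- `r` in the basis given by the columns of `Q` -/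
def conjRep (r : GQ →* GL (Fin 2) k) (Q : GL (Fin 2) k) : GQ →* GL (Fin 2) k :=
  (MulAut.conj Q⁻¹).toMonoidHom.comp r

theorem conjRep_coe (r : GQ →* GL (Fin 2) k) (Q : GL (Fin 2) k) (g : GQ) :
    (conjRep r Q g : Matrix (Fin 2) (Fin 2) k) =
      ((Q⁻¹ : GL (Fin 2) k) : Matrix (Fin 2) (Fin 2) k) * r g * Q := by
  simp [conjRep, MulAut.conj_apply]

theorem conjRep_det (r : GQ →* GL (Fin 2) k) (Q : GL (Fin 2) k) (g : GQ) :
    (conjRep r Q g : Matrix (Fin 2) (Fin 2) k).det = (r g : Matrix (Fin 2) (Fin 2) k).det := by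
  rw [conjRep_coe, Matrix.det_mul, Matrix.det_mul, mul_right_comm, ← Matrix.det_mul,
    ← Units.val_mul, inv_mul_cancel, Units.val_one, Matrix.det_one, one_mul]

/-- a traceless continuous cocycle of matrices -/
structure CData (p : ℕ) [Fact p.Prime] {k : Type} [Field k] [Algebra (ZMod p) k]
    (R : GQ →* GL (Fin 2) k) where
  /-- the cocycle -/
  C : GQ → Matrix (Fin 2) (Fin 2) k
  tr : ∀ g, (C g).trace = 0
  coc : ∀ g h, C (g * h) = (R g : Matrix (Fin 2) (Fin 2) k) * C h *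
    ((R g)⁻¹ : GL (Fin 2) k) + C g
  level : ∃ F : IntermediateField ℚ Qb, FiniteDimensional ℚ F ∧
    ∀ g s, s ∈ F.fixingSubgroup → C (g * s) = C g

namespace CData

variable {R : GQ →* GL (Fin 2) k} (d : CData p R)

/-- as a cocycle of `ad⁰` -/
def cocycle : cocycles₁ (ad0 p R) :=
  ⟨fun g => ⟨d.C g, d.tr g⟩, (mem_cocycles₁_def _).2 fun g h => by
    refine Subtype.ext ?_
    show ((ad0 p R).ρ g ⟨d.C h, d.tr h⟩).1 - d.C (g * h) + d.C g = 0
    rw [ad0_apply, d.coc]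
    abel⟩

/-- its module -/
abbrev Mod : Type := ExtMod R d.cocycle

theorem smul_fst (g : GQ) (x : d.Mod) :
    (g • x).fst = (R g : Matrix (Fin 2) (Fin 2) k) *ᵥ x.fst := rfl

theorem smul_snd (g : GQ) (x : d.Mod) :
    (g • x).snd = d.C g *ᵥ ((R g : Matrix (Fin 2) (Fin 2) k) *ᵥ x.fst) +
      (R g : Matrix (Fin 2) (Fin 2) k) *ᵥ x.snd := rfl

theorem C_one : d.C 1 = 0 := by
  have := d.coc 1 1
  simpa using this

theorem trace_diag (g : GQ) : d.C g 1 1 = -d.C g 0 0 := by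
  have := d.tr g
  rw [Matrix.trace_fin_two] at this
  linear_combination this

theorem coc_mul (g h : GQ) :
    d.C (g * h) * (R g : Matrix (Fin 2) (Fin 2) k) =
      (R g : Matrix (Fin 2) (Fin 2) k) * d.C h + d.C g * (R g : Matrix (Fin 2) (Fin 2) k) := by
  rw [d.coc, add_mul, mul_assoc, mul_assoc, Units.inv_mul, mul_one]

/-- adding a coboundary -/
def shift (m : Matrix (Fin 2) (Fin 2) k) (hm : m.trace = 0)
    (hR : ∃ F : IntermediateField ℚ Qb, FiniteDimensional ℚ F ∧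
      ∀ g ∈ F.fixingSubgroup, R g = 1) : CData p R where
  C g := d.C g + ((R g : Matrix (Fin 2) (Fin 2) k) * m * ((R g)⁻¹ : GL (Fin 2) k) - m)
  tr g := by
    rw [Matrix.trace_add, Matrix.trace_sub, d.tr, Matrix.trace_mul_comm, ← mul_assoc,
      ← Units.val_mul, inv_mul_cancel, Units.val_one, one_mul, hm, sub_zero, zero_add]
  coc g h := by
    rw [d.coc, map_mul, _root_.mul_inv_rev, Units.val_mul, Units.val_mul]
    simp only [mul_add, add_mul, mul_sub, sub_mul, mul_assoc]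
    abel
  level := by
    obtain ⟨F, hF, hC⟩ := d.level
    obtain ⟨F', hF', hR'⟩ := hR
    refine ⟨F ⊔ F', inferInstance, fun g s hs => ?_⟩
    rw [hC g s (IntermediateField.fixingSubgroup_antitone le_sup_left hs), map_mul,
      hR' s (IntermediateField.fixingSubgroup_antitone le_sup_right hs), mul_one]

end CData

/-- a continuous cocycle in the basis `Q` -/
def conjData (r : GQ →* GL (Fin 2) k) (Q : GL (Fin 2) k)
    (c : Z1 (MonoidHom.id GQ) (ad0 p r)) : CData p (conjRep r Q) where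
  C g := ((Q⁻¹ : GL (Fin 2) k) : Matrix (Fin 2) (Fin 2) k) * (c.1 g).1 * Q
  tr g := by
    rw [Matrix.trace_mul_comm, ← mul_assoc, ← Units.val_mul, mul_inv_cancel, Units.val_one, one_mul]
    exact (c.1 g).2
  coc g h := by
    have hval : (c.1 (g * h)).1 = (r g : Matrix (Fin 2) (Fin 2) k) * (c.1 h).1 *
        ((r g)⁻¹ : GL (Fin 2) k) + (c.1 g).1 := by
      have h1 := congrArg Subtype.val ((mem_cocycles₁_def (c.1 : GQ → ad0 p r)).1 c.2.1 g h)
      rw [Submodule.coe_add, AddSubgroupClass.coe_sub, ad0_apply, ZeroMemClass.coe_zero] at h1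
      linear_combination (norm := abel) -h1
    simp only [hval, conjRep_coe, conjRep, MonoidHom.comp_apply, MulEquiv.coe_toMonoidHom,
      MulAut.conj_apply, inv_inv, _root_.mul_inv_rev, Units.val_mul, mul_add, add_mul, mul_assoc,
      Units.mul_inv_cancel_left]
  level := by
    obtain ⟨F, hF, hc⟩ := c.2.2
    exact ⟨F, hF, fun g s hs => by rw [hc g s hs]⟩

theorem conjData_C (r : GQ →* GL (Fin 2) k) (Q : GL (Fin 2) k)
    (c : Z1 (MonoidHom.id GQ) (ad0 p r)) (g : GQ) :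
    (conjData r Q c).C g = ((Q⁻¹ : GL (Fin 2) k) : Matrix (Fin 2) (Fin 2) k) * (c.1 g).1 * Q := rfl

/-- the module in a basis and after a coboundary -/
theorem exists_mdl_conj [Finite k] (r : GQ →* GL (Fin 2) k) (Q : GL (Fin 2) k)
    (c : Z1 (MonoidHom.id GQ) (ad0 p r)) {A : ValuationSubring Qb} (hA : A.LiesOverPrime p)
    (hG : Flat.HasFlatModel (ExtMod r ⟨c.1, c.2.1⟩) p) (d : CData p (conjRep r Q))
    (m : Matrix (Fin 2) (Fin 2) k)
    (hd : ∀ g, d.C g = (conjData r Q c).C g +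
      ((conjRep r Q g : Matrix (Fin 2) (Fin 2) k) * m * ((conjRep r Q g)⁻¹ : GL (Fin 2) k) - m)) :
    ∃ M : Mdl A ⊤ d.Mod, M.W = ⊥ := by
  haveI : Finite d.Mod := inferInstance
  set Qm : Matrix (Fin 2) (Fin 2) k := Q.val
  set Qi : Matrix (Fin 2) (Fin 2) k := ((Q⁻¹ : GL (Fin 2) k) : Matrix (Fin 2) (Fin 2) k)
  have hQ : Qm * Qi = 1 := by simp [Qm, Qi]
  have hQ' : Qi * Qm = 1 := by simp [Qm, Qi]
  let ψ : d.Mod ≃+ ExtMod r ⟨c.1, c.2.1⟩ :=
    { toFun := fun x => ⟨Qm *ᵥ x.fst, Qm *ᵥ (x.snd + m *ᵥ x.fst)⟩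
      invFun := fun x => ⟨Qi *ᵥ x.fst, Qi *ᵥ x.snd - m *ᵥ (Qi *ᵥ x.fst)⟩
      left_inv := fun x => by
        apply ExtMod.ext <;> simp only [Matrix.mulVec_mulVec, hQ', Matrix.one_mulVec]
        abel
      right_inv := fun x => by
        apply ExtMod.ext <;> simp only [Matrix.mulVec_mulVec, hQ, Matrix.one_mulVec, sub_add_cancel]
      map_add' := fun x y => by
        apply ExtMod.ext <;> simp only [ExtMod.add_fst, ExtMod.add_snd, Matrix.mulVec_add]
        abel }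
  refine exists_mdl_of_flat hA hG ψ fun g x => ?_
  have hR : Qm * (conjRep r Q g : Matrix (Fin 2) (Fin 2) k) = (r g : Matrix _ _ k) * Qm := by
    rw [conjRep_coe, ← mul_assoc, ← mul_assoc, hQ, one_mul]
  apply ExtMod.ext
  · show Qm *ᵥ (g • x).fst = (r g : Matrix (Fin 2) (Fin 2) k) *ᵥ (Qm *ᵥ x.fst)
    rw [CData.smul_fst, Matrix.mulVec_mulVec, hR, Matrix.mulVec_mulVec]
  · show Qm *ᵥ ((g • x).snd + m *ᵥ (g • x).fst) =
      (c.1 g).1 *ᵥ ((r g : Matrix (Fin 2) (Fin 2) k) *ᵥ (Qm *ᵥ x.fst)) +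
        (r g : Matrix (Fin 2) (Fin 2) k) *ᵥ (Qm *ᵥ (x.snd + m *ᵥ x.fst))
    rw [CData.smul_snd, CData.smul_fst, Matrix.mulVec_add _ x.snd, hd, conjData_C]
    simp only [Matrix.mulVec_mulVec, Matrix.mulVec_add, Matrix.add_mulVec, Matrix.sub_mulVec,
      Matrix.mulVec_sub]
    simp only [Matrix.mul_add, Matrix.add_mul, Matrix.mul_sub, Matrix.sub_mul, mul_assoc,
      Matrix.add_mulVec, Matrix.sub_mulVec, Units.inv_mul, mul_one]
    have h1 : Qm * (Qi * ((c.1 g).1 * (Qm * (conjRep r Q g : Matrix (Fin 2) (Fin 2) k)))) =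
        (c.1 g).1 * ((r g : Matrix (Fin 2) (Fin 2) k) * Qm) := by
      rw [← mul_assoc Qm Qi, hQ, one_mul, hR]
    simp only [show (Q : Matrix (Fin 2) (Fin 2) k) = Qm from rfl,
      show ((Q⁻¹ : GL (Fin 2) k) : Matrix (Fin 2) (Fin 2) k) = Qi from rfl, h1, ← mul_assoc, hR, hQ,
      one_mul]
    abel

namespace PlaceData

variable (P : PlaceData p)

/-- functionals of the entries of a cocycle have Kummer generators where `H` acts trivially -/
theorem entry_mem_kumS {R : GQ →* GL (Fin 2) k} (d : CData p R) (i j : Fin 2)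
    (hadd : ∀ σ ∈ P.H, ∀ τ ∈ P.H, d.C (σ * τ) i j = d.C σ i j + d.C τ i j) (l : k →+ ZMod p) :
    (fun g => l (d.C g i j)) ∈ P.KumS := by
  obtain ⟨F, hF, hC⟩ := d.level
  haveI := hF
  refine P.exists_kum (fun σ hσ τ hτ => by rw [hadd σ hσ τ hτ, map_add]) F fun σ _ hσ => ?_
  have := hC 1 σ hσ
  rw [one_mul, d.C_one] at this
  rw [this, Matrix.zero_apply, map_zero]

end PlaceData

end FLTAgent.PT.TW

end
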