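import Mathlib

/-!
Parcel H: counting additive maps on the dual of a finite field that are semilinear for a
multiplication; dimensions from cardinalities.
-/

set_option autoImplicit false
set_option linter.style.haveILetI false
set_option linter.unusedSectionVars false

noncomputable section

open Polynomial

namespace FLTAgent.PT.TW.Count

variable {p : ℕ} [hpr : Fact p.Prime] {k : Type} [Field k] [Algebra (ZMod p) k] [Finite k]
variable {F : Type} [Field F]

/-- additive maps on the functionals are bounded by values at a basis over `𝔽_p(μ)` -/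
theorem card_additive_le (μ : k) (T : F → F) (Z : Finset F)
    (hZ : Z.card ≤ p ^ (minpoly (ZMod p) μ).natDegree) (S : Set ((k →+ ZMod p) →+ F))
    (hT : ∀ W ∈ S, ∀ l, W (l.comp (AddMonoidHom.mulLeft μ)) = T (W l))
    (hval : ∀ W ∈ S, ∀ l, W l ∈ Z) :
    S.Finite ∧ Nat.card S ≤ p ^ Module.finrank (ZMod p) k := by
  classical
  haveI : Module.Finite (ZMod p) k := Module.Finite.of_finite
  obtain ⟨b⟩ : Nonempty (Module.Basis (Fin (Module.finrank (ZMod p) k)) (ZMod p) k) :=
    ⟨Module.finBasis _ _⟩
  have hpos : 0 < Module.finrank (ZMod p) k := Module.finrank_pos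
  set l₁ : k →ₗ[ZMod p] ZMod p := b.coord ⟨0, hpos⟩
  let ev : k →ₗ[ZMod p] Module.Dual (ZMod p) k :=
    { toFun := fun x => l₁.comp (LinearMap.mulLeft (ZMod p) x)
      map_add' := fun x y => LinearMap.ext fun z => by simp [add_mul]
      map_smul' := fun a x => LinearMap.ext fun z => by simp }
  have hinj : Function.Injective ev := by
    intro x y hxy
    by_contra hne
    have h := LinearMap.congr_fun hxy ((x - y)⁻¹ * b ⟨0, hpos⟩)
    simp only [ev, LinearMap.coe_mk, AddHom.coe_mk, LinearMap.comp_apply, LinearMap.mulLeft_apply]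
      at h
    rw [← sub_eq_zero, ← map_sub, ← sub_mul, ← mul_assoc, mul_inv_cancel₀ (sub_ne_zero.mpr hne),
      one_mul, Module.Basis.coord_apply, Module.Basis.repr_self, Finsupp.single_eq_same] at h
    exact one_ne_zero h
  have hsurj : Function.Surjective ev :=
    (LinearMap.injective_iff_surjective_of_finrank_eq_finrank Subspace.dual_finrank_eq.symm).mp hinj
  -- a basis over `𝔽_p(μ)`
  set E := IntermediateField.adjoin (ZMod p) ({μ} : Set k)
  have hint : IsIntegral (ZMod p) μ := IsIntegral.of_finite (ZMod p) μ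
  have hEd : Module.finrank (ZMod p) E = (minpoly (ZMod p) μ).natDegree :=
    IntermediateField.adjoin.finrank hint
  haveI : Module.Finite E k := Module.Finite.of_finite
  set bE := Module.finBasis E k
  -- values at the basis determine
  have hdet : ∀ W ∈ S, ∀ W' ∈ S,
      (∀ i, W (ev (bE i)).toAddMonoidHom = W' (ev (bE i)).toAddMonoidHom) → W = W' := by
    intro W hW W' hW' hi
    let D : AddSubgroup k :=
      { carrier := {x | W (ev x).toAddMonoidHom = W' (ev x).toAddMonoidHom}
        add_mem' := fun {x y} hx hy => by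
          simp only [Set.mem_setOf_eq] at hx hy ⊢
          rw [map_add, show (ev x + ev y).toAddMonoidHom = (ev x).toAddMonoidHom +
            (ev y).toAddMonoidHom from rfl, map_add, map_add, hx, hy]
        zero_mem' := by
          simp only [Set.mem_setOf_eq, map_zero]
          rw [show ((0 : Module.Dual (ZMod p) k)).toAddMonoidHom = 0 from rfl, map_zero, map_zero]
        neg_mem' := fun {x} hx => by
          simp only [Set.mem_setOf_eq] at hx ⊢
          rw [map_neg, show (-ev x).toAddMonoidHom = -(ev x).toAddMonoidHom from rfl, map_neg,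
            map_neg, hx] }
    have hμ : ∀ x ∈ D, μ * x ∈ D := fun x hx => by
      show W _ = W' _
      have e : (ev (μ * x)).toAddMonoidHom =
          (ev x).toAddMonoidHom.comp (AddMonoidHom.mulLeft μ) :=
        AddMonoidHom.ext fun z => by
          simp [ev, mul_comm μ x, mul_assoc]
      rw [e, hT W hW, hT W' hW']
      exact congrArg T hx
    have hE : ∀ c ∈ E, ∀ x ∈ D, c * x ∈ D := by
      intro c hc
      have hc' : c ∈ Algebra.adjoin (ZMod p) ({μ} : Set k) := by
        rw [← IntermediateField.adjoin_simple_toSubalgebra_of_isAlgebraic hint.isAlgebraic]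
        exact hc
      clear hc
      induction hc' using Algebra.adjoin_induction with
      | mem y hy => rw [Set.mem_singleton_iff.mp hy]; exact hμ
      | algebraMap r =>
        intro x hx
        obtain ⟨n, rfl⟩ : ∃ n : ℕ, (n : ZMod p) = r := by
          haveI : NeZero p := ⟨hpr.out.ne_zero⟩
          exact ⟨r.val, ZMod.natCast_zmod_val r⟩
        rw [map_natCast, ← nsmul_eq_mul]
        exact nsmul_mem hx n
      | add y z _ _ hy hz => intro x hx; rw [add_mul]; exact add_mem (hy x hx) (hz x hx)
      | mul y z _ _ hy hz => intro x hx; rw [mul_assoc]; exact hy _ (hz x hx)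
    have hall : ∀ x, x ∈ D := fun x => by
      rw [← bE.sum_repr x]
      exact sum_mem fun i _ => hE _ (bE.repr x i).2 _ (hi i)
    refine AddMonoidHom.ext fun l => ?_
    obtain ⟨x, hx⟩ := hsurj (l.toZModLinearMap p)
    have : l = (ev x).toAddMonoidHom := by rw [hx]; rfl
    rw [this]
    exact hall x
  let Φ : S → (Fin (Module.finrank E k) → Z) := fun W i => ⟨W.1 _, hval W.1 W.2 (ev (bE i)).toAddMonoidHom⟩
  have hΦ : Function.Injective Φ := fun W W' h =>
    Subtype.ext (hdet _ W.2 _ W'.2 fun i => congrArg Subtype.val (congrFun h i))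
  haveI : Finite S := Finite.of_injective Φ hΦ
  refine ⟨Set.toFinite S, (Nat.card_le_card_of_injective Φ hΦ).trans ?_⟩
  rw [Nat.card_fun, Nat.card_fin, Nat.card_eq_fintype_card, Fintype.card_coe,
    ← Module.finrank_mul_finrank (ZMod p) E k, hEd, pow_mul]
  exact Nat.pow_le_pow_left hZ _

/-- the semilinear case `W (l ∘ μ) = C W (l) ^ p` -/
theorem card_semilinear_le [CharP F p] (μ : k) {C : F} (hC : C ≠ 0)
    (S : Set ((k →+ ZMod p) →+ F))
    (hT : ∀ W ∈ S, ∀ l, W (l.comp (AddMonoidHom.mulLeft μ)) = C * W l ^ p) :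
    S.Finite ∧ Nat.card S ≤ p ^ Module.finrank (ZMod p) k := by
  classical
  let cn : ℕ → F := fun n => Nat.rec 1 (fun _ c => C * c ^ p) n
  have hcn : ∀ n, cn n ≠ 0 := fun n => by
    induction n with
    | zero => exact one_ne_zero
    | succ n ih => exact mul_ne_zero hC (pow_ne_zero _ ih)
  set P := minpoly (ZMod p) μ
  set d := P.natDegree
  set Q : F[X] := ∑ n ∈ Finset.range (d + 1),
    Polynomial.C ((P.coeff n).val * cn n : F) * X ^ p ^ n
  have hint : IsIntegral (ZMod p) μ := IsIntegral.of_finite (ZMod p) μ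
  have hQtop : Q.coeff (p ^ d) = cn d := by
    simp only [Q, finsetSum_coeff, coeff_C_mul, coeff_X_pow]
    rw [Finset.sum_eq_single d]
    · rw [if_pos rfl, mul_one, show P.coeff d = 1 from minpoly.monic hint, ZMod.val_one,
        Nat.cast_one, one_mul]
    · intro n _ hn
      rw [if_neg, mul_zero]
      exact fun h => hn (Nat.pow_right_injective hpr.out.two_le h).symm
    · exact fun h => absurd (Finset.self_mem_range_succ d) h
  have hQ : Q ≠ 0 := fun h => hcn d (by rw [← hQtop, h, coeff_zero])
  have hQdeg : Q.natDegree ≤ p ^ d := by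
    refine natDegree_sum_le_of_forall_le _ _ fun n hn => ?_
    refine (natDegree_C_mul_le _ _).trans ((natDegree_X_pow_le _).trans ?_)
    exact Nat.pow_le_pow_right hpr.out.pos (Nat.lt_succ_iff.mp (Finset.mem_range.mp hn))
  refine card_additive_le μ (fun z => C * z ^ p) Q.roots.toFinset
    ((Multiset.toFinset_card_le _).trans ((card_roots' Q).trans hQdeg)) S hT fun W hW l => ?_
  have hpowμ : ∀ n, W (l.comp (AddMonoidHom.mulLeft (μ ^ n))) = cn n * W l ^ p ^ n := by
    intro n
    induction n with
    | zero =>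
      rw [show l.comp (AddMonoidHom.mulLeft (μ ^ 0)) = l from AddMonoidHom.ext fun z => by simp]
      simp [cn]
    | succ n ih =>
      rw [show l.comp (AddMonoidHom.mulLeft (μ ^ (n + 1))) =
        (l.comp (AddMonoidHom.mulLeft (μ ^ n))).comp (AddMonoidHom.mulLeft μ) from
          AddMonoidHom.ext fun z => by simp [pow_succ, mul_assoc], hT W hW, ih, mul_pow, ← pow_mul,
        ← pow_succ, show cn (n + 1) = C * cn n ^ p from rfl, mul_assoc]
  rw [Multiset.mem_toFinset, mem_roots hQ, IsRoot.def]
  simp only [Q, eval_finsetSum, eval_mul, eval_C, eval_pow, eval_X, mul_assoc, ← hpowμ]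
  haveI : NeZero p := ⟨hpr.out.ne_zero⟩
  rw [Finset.sum_congr rfl fun n _ => by rw [← nsmul_eq_mul, ← map_nsmul], ← map_sum]
  rw [show ∑ n ∈ Finset.range (d + 1), (P.coeff n).val • l.comp (AddMonoidHom.mulLeft (μ ^ n)) = 0
    from ?_, map_zero]
  refine AddMonoidHom.ext fun z => ?_
  rw [AddMonoidHom.finsetSum_apply, AddMonoidHom.zero_apply]
  simp only [AddMonoidHom.smul_apply, AddMonoidHom.coe_comp, Function.comp_apply,
    AddMonoidHom.coe_mulLeft, ← map_nsmul, ← map_sum]
  have hev : Polynomial.aeval μ P = 0 := minpoly.aeval _ _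
  rw [Polynomial.aeval_eq_sum_range] at hev
  rw [show ∑ n ∈ Finset.range (d + 1), (P.coeff n).val • (μ ^ n * z) =
    (∑ n ∈ Finset.range (d + 1), P.coeff n • μ ^ n) * z from ?_, hev, zero_mul, map_zero]
  rw [Finset.sum_mul]
  refine Finset.sum_congr rfl fun n _ => ?_
  rw [← smul_mul_assoc, ← Nat.cast_smul_eq_nsmul (ZMod p), ZMod.natCast_zmod_val]

/-- a bound on the dimension of an image from the cardinality of a finer invariant -/
theorem finrank_map_le {V U X : Type*} [AddCommGroup V] [Module (ZMod p) V] [AddCommGroup U]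
    [Module (ZMod p) U] [AddCommGroup X] (L : V →ₗ[ZMod p] U) (N : Submodule (ZMod p) V)
    (Φ : N →+ X) (hker : ∀ x : N, Φ x = 0 → L x = 0) {f : ℕ} (S : Set X) (hS : S.Finite)
    (hΦ : ∀ x, Φ x ∈ S) (hcard : Nat.card S ≤ p ^ f) :
    Finite (N.map L) ∧ Module.finrank (ZMod p) (N.map L) ≤ f := by
  classical
  haveI := hS.to_subtype
  have hpre : ∀ u : N.map L, ∃ x : N, L x = u := fun u => by
    obtain ⟨x, hx, hxu⟩ := Submodule.mem_map.mp u.2
    exact ⟨⟨x, hx⟩, hxu⟩
  choose g hg using hpre
  let ψ : N.map L → S := fun u => ⟨Φ (g u), hΦ _⟩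
  have hψ : Function.Injective ψ := fun u u' h => by
    have h1 : Φ (g u - g u') = 0 := by
      rw [map_sub, sub_eq_zero]; exact congrArg Subtype.val h
    have h2 := hker _ h1
    rw [AddSubgroupClass.coe_sub, map_sub, hg, hg, sub_eq_zero] at h2
    exact Subtype.ext h2
  haveI : Finite (N.map L) := Finite.of_injective ψ hψ
  haveI : Module.Finite (ZMod p) (N.map L) := Module.Finite.of_finite
  have h := (Nat.card_le_card_of_injective ψ hψ).trans hcard
  rw [Module.natCard_eq_pow_finrank (K := ZMod p), Nat.card_zmod] at h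
  exact ⟨‹_›, (Nat.pow_le_pow_iff_right hpr.out.one_lt).mp h⟩

end FLTAgent.PT.TW.Count

end
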