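import Fermat.Agent.PT.TW.Flat.Coords
import Fermat.Agent.PT.TW.Flat.Count

/-!
Parcel H: what the two residual shapes share: entries of a cocycle under conjugation, the additive
maps given by the leading residues, local triviality.
-/

set_option autoImplicit false
set_option linter.style.haveILetI false
set_option linter.unusedSectionVars false

noncomputable section

open Matrix groupCohomology

namespace FLTAgent.PT.TW

open FLTAgent.Reduction (Qb)
open IsLocalRing (ResidueField)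

variable {p : ℕ} [hpr : Fact p.Prime] {k : Type} [Field k] [Algebra (ZMod p) k]

/-- additive maps to `𝔽_p` commute with scalars from `𝔽_p` -/
theorem hom_algebraMap_mul (l : k →+ ZMod p) (c : ZMod p) (x : k) :
    l (algebraMap (ZMod p) k c * x) = c * l x := by
  haveI : NeZero p := ⟨hpr.out.ne_zero⟩
  rw [← ZMod.natCast_zmod_val c, map_natCast, ← nsmul_eq_mul, map_nsmul, nsmul_eq_mul]

/-- an element fixed by Frobenius is a scalar from `𝔽_p` -/
theorem exists_algebraMap_eq {x : k} (hx : x ^ p = x) : ∃ t : ZMod p, algebraMap (ZMod p) k t = x := by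
  classical
  haveI : NeZero p := ⟨hpr.out.ne_zero⟩
  haveI : CharP k p := charP_of_injective_algebraMap' (ZMod p) p
  set S' : Finset k := Finset.univ.image (algebraMap (ZMod p) k)
  have hS' : S'.card = p := by
    rw [Finset.card_image_of_injective _ (algebraMap (ZMod p) k).injective, Finset.card_univ,
      ZMod.card]
  set R : Polynomial k := Polynomial.X ^ p - Polynomial.X
  have hR : R ≠ 0 := FiniteField.X_pow_card_sub_X_ne_zero _ hpr.out.one_lt
  by_contra hno
  have hnot : x ∉ S' := fun h => by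
    obtain ⟨t, -, ht⟩ := Finset.mem_image.mp h
    exact hno ⟨t, ht⟩
  have hsub : insert x S' ⊆ R.roots.toFinset := by
    intro w hw
    rw [Multiset.mem_toFinset, Polynomial.mem_roots hR, Polynomial.IsRoot.def, Polynomial.eval_sub,
      Polynomial.eval_pow, Polynomial.eval_X, sub_eq_zero]
    rcases Finset.mem_insert.mp hw with rfl | hw
    · exact hx
    · obtain ⟨t, -, rfl⟩ := Finset.mem_image.mp hw
      rw [← map_pow, ZMod.pow_card]
  have h2 := (Finset.card_le_card hsub).trans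
    ((Multiset.toFinset_card_le _).trans (Polynomial.card_roots' R))
  rw [Finset.card_insert_of_notMem hnot, hS',
    FiniteField.X_pow_card_sub_X_natDegree_eq _ hpr.out.one_lt] at h2
  omega

namespace CData

variable {R : GQ →* GL (Fin 2) k} (d : CData p R)

theorem C_mul_of_eq_one {g : GQ} (hg : R g = 1) (h : GQ) : d.C (g * h) = d.C g + d.C h := by
  rw [d.coc, hg, inv_one, Units.val_one, one_mul, mul_one, add_comm]

theorem C_conj {σ h : GQ} (hh : R h = 1) :
    d.C (σ⁻¹ * h * σ) =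
      ((R σ)⁻¹ : GL (Fin 2) k) * d.C h * (R σ : Matrix (Fin 2) (Fin 2) k) := by
  have h2 : d.C (σ * (σ⁻¹ * h * σ)) = d.C h + d.C σ := by
    rw [show σ * (σ⁻¹ * h * σ) = h * σ by group, d.C_mul_of_eq_one hh]
  rw [d.coc, add_left_inj] at h2
  rw [← h2, mul_assoc, mul_assoc, mul_assoc, Units.inv_mul, mul_one, Units.inv_mul_cancel_left]

/-- `w ↦ ε w` -/
def vec : (Fin 2 → k) →+ d.Mod where
  toFun w := ⟨0, w⟩
  map_zero' := rfl
  map_add' w w' := ExtMod.ext (by simp) (by simp)

theorem vec_fst (w : Fin 2 → k) : (d.vec w).fst = 0 := rfl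

theorem vec_snd (w : Fin 2 → k) : (d.vec w).snd = w := rfl

theorem nsmul_eq_zero (x : d.Mod) : p • x = 0 := by
  haveI : CharP k p := charP_of_injective_algebraMap' (ZMod p) p
  have hv : ∀ w : Fin 2 → k, p • w = 0 := fun w => by
    rw [← Nat.cast_smul_eq_nsmul k, CharP.cast_eq_zero, zero_smul]
  let F : d.Mod →+ (Fin 2 → k) × (Fin 2 → k) :=
    { toFun := fun x => (x.fst, x.snd), map_zero' := rfl, map_add' := fun _ _ => rfl }
  have h : F (p • x) = F 0 := by
    rw [map_nsmul, map_zero]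
    exact Prod.ext (hv _) (hv _)
  exact ExtMod.ext (congrArg Prod.fst h) (congrArg Prod.snd h)

/-- first components -/
def fstHom : d.Mod →+ (Fin 2 → k) where
  toFun x := x.fst
  map_zero' := rfl
  map_add' _ _ := rfl

/-- second components -/
def sndHom : d.Mod →+ (Fin 2 → k) where
  toFun x := x.snd
  map_zero' := rfl
  map_add' _ _ := rfl

theorem sub_fst (x y : d.Mod) : (x - y).fst = x.fst - y.fst := map_sub d.fstHom x y

theorem sub_snd (x y : d.Mod) : (x - y).snd = x.snd - y.snd := map_sub d.sndHom x y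

/-- `g ↦ l` of the entry `(i, j)` -/
def ent (i j : Fin 2) (l : k →+ ZMod p) : GQ → ZMod p := fun g => l (d.C g i j)

theorem ent_apply (i j : Fin 2) (l : k →+ ZMod p) (g : GQ) : d.ent i j l g = l (d.C g i j) := rfl

theorem ent_add (i j : Fin 2) (l l' : k →+ ZMod p) :
    d.ent i j (l + l') = d.ent i j l + d.ent i j l' := rfl

theorem ent_zero (i j : Fin 2) : d.ent i j 0 = 0 := rfl

end CData

namespace PlaceData

variable (P : PlaceData p) {R : GQ →* GL (Fin 2) k} (d : CData p R)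

/-- a cocycle vanishing on inertia and at Frobenius vanishes on the decomposition group -/
theorem eq_zero_on_D (hI : ∀ σ ∈ P.I, d.C σ = 0) (hφ : d.C P.φ = 0) :
    ∀ g ∈ P.D, d.C g = 0 := by
  let S : Subgroup GQ :=
    { carrier := {g | d.C g = 0}
      mul_mem' := fun {a b} (ha : d.C a = 0) (hb : d.C b = 0) => by
        show d.C (a * b) = 0
        rw [d.coc, ha, hb, mul_zero, zero_mul, zero_add]
      one_mem' := d.C_one
      inv_mem' := fun {a} (ha : d.C a = 0) => by
        show d.C a⁻¹ = 0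
        have h := d.coc a⁻¹ a
        rwa [inv_mul_cancel, d.C_one, ha, mul_zero, zero_mul, zero_add, eq_comm] at h }
  obtain ⟨F, hF, hC⟩ := d.level
  haveI := hF
  exact fun g hg => P.D_le (S := S) (F := F) hI (fun s hs => by
    show d.C s = 0
    rw [← one_mul s, hC 1 s hs, d.C_one]) hφ hg

theorem ent_mem_kumS (hR : ∀ h ∈ P.H, R h = 1) (i j : Fin 2) (l : k →+ ZMod p) :
    d.ent i j l ∈ P.KumS :=
  P.entry_mem_kumS d i j (fun σ hσ τ _ => by rw [d.C_mul_of_eq_one (hR σ hσ), Matrix.add_apply]) l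

theorem ent_hadd (hR : ∀ h ∈ P.H, R h = 1) (i j : Fin 2) (l : k →+ ZMod p) :
    ∀ σ ∈ P.H, ∀ τ ∈ P.H, d.ent i j l (σ * τ) = d.ent i j l σ + d.ent i j l τ :=
  fun σ hσ τ _ => by
    simp only [CData.ent_apply, d.C_mul_of_eq_one (hR σ hσ), Matrix.add_apply, map_add]

theorem lvl_smul {j : ℕ} {h : GQ → ZMod p} (hh : h ∈ P.Lvl j) (c : ZMod p) : c • h ∈ P.Lvl j := by
  haveI : NeZero p := ⟨hpr.out.ne_zero⟩
  rw [← ZMod.natCast_zmod_val c, Nat.cast_smul_eq_nsmul]
  exact nsmul_mem hh _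

/-- the leading residues at a level, as an additive map on the functionals -/
def wLHom (i i' : Fin 2) {j : ℕ} (hjp : ¬ p ∣ j) (hjt : j < p * (p + 1))
    (hall : ∀ l, d.ent i i' l ∈ P.Lvl j) : (k →+ ZMod p) →+ ResidueField P.A :=
  AddMonoidHom.mk' (fun l => P.wL j (d.ent i i' l))
    fun l l' => by rw [d.ent_add, P.wL_add hjp hjt (hall l) (hall l')]

theorem wLHom_apply (i i' : Fin 2) {j : ℕ} (hjp : ¬ p ∣ j) (hjt : j < p * (p + 1))
    (hall : ∀ l, d.ent i i' l ∈ P.Lvl j) (l : k →+ ZMod p) :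
    P.wLHom d i i' hjp hjt hall l = P.wL j (d.ent i i' l) := rfl

/-- all functionals climb together -/
theorem ent_climb (i i' : Fin 2) {a b : ℕ} (ha : 1 ≤ a) (hb : b ≤ p * (p + 1))
    (h0 : ∀ l, d.ent i i' l ∈ P.Lvl a)
    (hw : ∀ j, a ≤ j → j < b → ¬ p ∣ j → (∀ l, d.ent i i' l ∈ P.Lvl j) →
      ∀ l, P.wL j (d.ent i i' l) = 0) :
    ∀ l, d.ent i i' l ∈ P.Lvl b := by
  rcases le_or_gt b a with hba | hab
  · exact fun l => P.lvl_anti hba (h0 l)
  obtain ⟨n, rfl⟩ : ∃ n, b = a + n := ⟨b - a, by omega⟩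
  clear hab
  induction n with
  | zero => exact h0
  | succ n ih =>
    have h1 := ih (by omega) fun j h1 h2 => hw j h1 (by omega)
    intro l
    by_cases hd : p ∣ a + n
    · exact P.lvl_step (by omega) hd (by omega) (h1 l)
    · exact P.lvl_succ_of_wL hd (by omega) (h1 l) (hw _ (by omega) (by omega) hd h1 l)

/-- an entry of the highest level vanishes on `H` -/
theorem entry_eq_zero [Finite k] (i i' : Fin 2) {j : ℕ} (hj : p * (p + 1) ≤ j)
    (hall : ∀ l, d.ent i i' l ∈ P.Lvl j) {h : GQ} (hh : h ∈ P.H) : d.C h i i' = 0 := by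
  haveI : Module.Finite (ZMod p) k := Module.Finite.of_finite
  rw [← Module.forall_dual_apply_eq_zero_iff (ZMod p)]
  exact fun f => P.eq_zero_of_lvl_top hj (hall f.toAddMonoidHom) hh

end PlaceData

/-! ### local triviality -/

/-- the restriction to the decomposition group is a coboundary -/
def IsLocTriv (P : PlaceData p) (r : GQ →* GL (Fin 2) k)
    (c : Z1 (MonoidHom.id GQ) (ad0 p r)) : Prop :=
  ∃ m : Matrix (Fin 2) (Fin 2) k, m.trace = 0 ∧ ∀ g ∈ P.D,
    (c.1 g).1 = (r g : Matrix (Fin 2) (Fin 2) k) * m * ((r g)⁻¹ : GL (Fin 2) k) - m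

theorem conjRep_level (r : GQ →* GL (Fin 2) k) (Q : GL (Fin 2) k)
    (hr : ∃ F : IntermediateField ℚ Qb, FiniteDimensional ℚ F ∧ ∀ g ∈ F.fixingSubgroup, r g = 1) :
    ∃ F : IntermediateField ℚ Qb, FiniteDimensional ℚ F ∧
      ∀ g ∈ F.fixingSubgroup, conjRep r Q g = 1 := by
  obtain ⟨F, hF, h⟩ := hr
  exact ⟨F, hF, fun g hg => by rw [conjRep, MonoidHom.comp_apply, h g hg, map_one]⟩

theorem isLocTriv_of_shift {P : PlaceData p} {r : GQ →* GL (Fin 2) k} (Q : GL (Fin 2) k)
    (c : Z1 (MonoidHom.id GQ) (ad0 p r)) {m : Matrix (Fin 2) (Fin 2) k} (hm : m.trace = 0)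
    (h : ∀ g ∈ P.D, (conjData r Q c).C g + ((conjRep r Q g : Matrix (Fin 2) (Fin 2) k) * m *
      ((conjRep r Q g)⁻¹ : GL (Fin 2) k) - m) = 0) : IsLocTriv P r c := by
  set Qm : Matrix (Fin 2) (Fin 2) k := Q.val
  set Qi : Matrix (Fin 2) (Fin 2) k := ((Q⁻¹ : GL (Fin 2) k) : Matrix (Fin 2) (Fin 2) k)
  refine ⟨-(Qm * m * Qi), by
    rw [Matrix.trace_neg, Matrix.trace_mul_comm, ← mul_assoc, Units.inv_mul, one_mul, hm, neg_zero],
    fun g hg => ?_⟩
  have h1 := congrArg (fun X => Qm * X * Qi) (h g hg)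
  simp only [conjData_C, conjRep, MonoidHom.comp_apply, MulEquiv.coe_toMonoidHom, MulAut.conj_apply,
    inv_inv, _root_.mul_inv_rev, Units.val_mul, mul_add, add_mul, mul_sub, sub_mul, mul_zero,
    zero_mul, mul_assoc, Units.mul_inv_cancel_left, Units.mul_inv, mul_one, Qm, Qi] at h1
  simp only [mul_neg, neg_mul, mul_assoc, Qm, Qi]
  rw [eq_neg_of_add_eq_zero_left h1]
  abel

end FLTAgent.PT.TW

end
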