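import Fermat.Agent.PT.TW.Flat.Model
import Fermat.Agent.TOR.FlatConn

/-!
Parcel H: the model of a finite flat module; characters are integral combinations of the model; a
multiplicative subgroup is fixed by the inertia elements fixing `ζ`.
-/

set_option autoImplicit false
set_option linter.style.haveILetI false
set_option linter.unusedSectionVars false

noncomputable section

namespace FLTAgent.PT.TW

open FLTAgent.Reduction (Qb)

local notation "GalQ" => AlgebraicClosure ℚ ≃ₐ[ℚ] AlgebraicClosure ℚ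

/-- the model of a module with a finite flat model -/
theorem exists_mdl_of_flat {p : ℕ} [Fact p.Prime] {A : ValuationSubring Qb}
    (hA : A.LiesOverPrime p) {G₀ G : Type} [AddCommGroup G₀] [DistribMulAction GalQ G₀]
    [AddCommGroup G] [DistribMulAction GalQ G] [Finite G] (hG : Flat.HasFlatModel G₀ p)
    (ψ : G ≃+ G₀) (hψ : ∀ (σ : GalQ) x, ψ (σ • x) = σ • ψ x) :
    ∃ M : Mdl A ⊤ G, M.W = ⊥ := by
  classical
  obtain ⟨H, _, _, hfin, -, -, ev, hadd, hgal⟩ := hG
  set F : H →ₐ[GaloisRep.ratLocalizedAt p] (G → Qb) :=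
    AlgHom.pi fun x => (ev.symm (ψ x)).ofConv with hFdef
  have hF : ∀ h x, F h x = (ev.symm (ψ x)).ofConv h := fun _ _ => rfl
  have hvalR : ∀ r : GaloisRep.ratLocalizedAt p, algebraMap _ Qb r ∈ A :=
    Flat.ratLocalized_mem (Fact.out : p.Prime) hA
  obtain ⟨s, hs⟩ := hfin.fg_top
  haveI := Fintype.ofFinite G
  -- values are integral
  have hval : ∀ h x, F h x ∈ A := by
    intro h x
    have hint : IsIntegral (GaloisRep.ratLocalizedAt p) h := Algebra.IsIntegral.isIntegral h
    have h2 : IsIntegral A (F h x) := by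
      obtain ⟨P, hP, hPx⟩ := hint.map (ev.symm (ψ x)).ofConv
      let j : GaloisRep.ratLocalizedAt p →+* A := (algebraMap _ Qb).codRestrict A hvalR
      refine ⟨P.map j, hP.map j, ?_⟩
      rw [Polynomial.eval₂_map]
      exact hPx
    exact Reduction.mem_A_of_isIntegral A h2
  set gens : Set (G → Qb) := F '' (s : Set H) with hgens
  have hspan : ∀ h, F h ∈ Submodule.span A gens := by
    intro h
    have : h ∈ Submodule.span (GaloisRep.ratLocalizedAt p) (s : Set H) := by
      rw [hs]; exact Submodule.mem_top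
    induction this using Submodule.span_induction with
    | mem x hx => exact Submodule.subset_span ⟨x, hx, rfl⟩
    | zero => rw [map_zero]; exact zero_mem _
    | add x y _ _ hx hy => rw [map_add]; exact add_mem hx hy
    | smul r x _ hx =>
      rw [map_smul, show r • F x = (⟨_, hvalR r⟩ : A) • F x from
        funext fun y => (Algebra.smul_def r _)]
      exact Submodule.smul_mem _ _ hx
  have hsep : ∀ c d : G, (∀ f ∈ gens, f c = f d) → c = d := by
    intro c d h
    refine ψ.injective (ev.symm.injective (WithConv.ext (AlgHom.ext fun x => ?_)))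
    show F x c = F x d
    have hx : x ∈ Submodule.span (GaloisRep.ratLocalizedAt p) (s : Set H) := by
      rw [hs]; exact Submodule.mem_top
    induction hx using Submodule.span_induction with
    | mem x hx => exact h _ ⟨x, hx, rfl⟩
    | zero => simp
    | add x y _ _ hx hy => simp only [map_add, Pi.add_apply, hx, hy]
    | smul r x _ hx => simp only [map_smul, Pi.smul_apply, hx]
  obtain ⟨T, hTc, hTs, hTtop, hind⟩ := TOR.exists_invariant_basis (s.finite_toSet.image F)
    (by rintro _ ⟨h, -, rfl⟩ x; exact hval h x) hsep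
  let e : Fin T.card → G → Qb := fun t => (T.equivFin.symm t : G → Qb)
  have hrange : Set.range e = (T : Set (G → Qb)) := by
    ext f
    exact ⟨fun ⟨t, ht⟩ => ht ▸ (T.equivFin.symm t).2, fun hf => ⟨T.equivFin ⟨f, hf⟩, by simp [e]⟩⟩
  have hcomb : ∀ h, Comb A e 1 (F h) := by
    intro h
    have h1 : F h ∈ Submodule.span A (Set.range e) := by
      rw [hrange, hTs]
      exact Submodule.span_le.mpr (fun f hf => Algebra.subset_adjoin hf) (hspan h)
    obtain ⟨c, hc⟩ := (Submodule.mem_span_range_iff_exists_fun A).mp h1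
    refine ⟨fun i => (c i : Qb), fun i => (A.valuation_le_one_iff _).mpr (c i).2, fun x => ?_⟩
    rw [← hc, Finset.sum_apply]
    rfl
  have hlift : ∀ t, ∃ h, e t = F h := by
    intro t
    suffices hall : ∀ f ∈ Submonoid.closure gens, ∃ h, f = F h from
      hall _ (hTc (T.equivFin.symm t).2)
    intro f hmem
    induction hmem using Submonoid.closure_induction with
    | mem f hf => obtain ⟨h, -, rfl⟩ := hf; exact ⟨h, rfl⟩
    | one => exact ⟨1, (map_one F).symm⟩
    | mul f f' _ _ hf hf' =>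
      obtain ⟨h, rfl⟩ := hf
      obtain ⟨h', rfl⟩ := hf'
      exact ⟨h * h', (map_mul F h h').symm⟩
  choose hh hhh using hlift
  have hconv : ∀ x y, ev.symm (x + y) = ev.symm x * ev.symm y := fun x y =>
    ev.injective (by rw [hadd, Equiv.apply_symm_apply, Equiv.apply_symm_apply, Equiv.apply_symm_apply])
  have hcomul : ∀ h, ∃ γ : Fin T.card → Fin T.card → Qb, (∀ a b, A.valuation (γ a b) ≤ 1) ∧
      ∀ x y, F h (x + y) = ∑ a, ∑ b, γ a b * (e a x * e b y) := by
    intro h
    suffices key : ∀ t : TensorProduct (GaloisRep.ratLocalizedAt p) H H,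
        ∃ γ : Fin T.card → Fin T.card → Qb, (∀ a b, A.valuation (γ a b) ≤ 1) ∧
          ∀ x y, Algebra.TensorProduct.lift (ev.symm (ψ x)).ofConv (ev.symm (ψ y)).ofConv
            (fun _ _ => Commute.all _ _) t = ∑ a, ∑ b, γ a b * (e a x * e b y) by
      obtain ⟨γ, hγ, hγe⟩ := key (Coalgebra.comul (R := GaloisRep.ratLocalizedAt p) h)
      refine ⟨γ, hγ, fun x y => ?_⟩
      rw [← hγe, hF, map_add, hconv, AlgHom.convMul_apply]
    intro t
    induction t using TensorProduct.induction_on with
    | zero => exact ⟨0, fun a b => by simp, fun x y => by simp⟩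
    | tmul u v =>
      obtain ⟨c, hc, hcu⟩ := hcomb u
      obtain ⟨d, hd, hdv⟩ := hcomb v
      refine ⟨fun a b => c a * d b, fun a b => by rw [map_mul]; exact mul_le_one' (hc a) (hd b),
        fun x y => ?_⟩
      rw [Algebra.TensorProduct.lift_tmul, ← hF, ← hF, hcu, hdv, Finset.sum_mul_sum]
      exact Finset.sum_congr rfl fun a _ => Finset.sum_congr rfl fun b _ => by ring
    | add t t' h h' =>
      obtain ⟨γ, hγ, hγe⟩ := h
      obtain ⟨γ', hγ', hγe'⟩ := h'
      refine ⟨γ + γ', fun a b => (Valuation.map_add _ _ _).trans (max_le (hγ a b) (hγ' a b)),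
        fun x y => ?_⟩
      simp only [map_add, hγe, hγe', Pi.add_apply, add_mul, Finset.sum_add_distrib]
  choose γ hγ hγe using fun t => hcomul (hh t)
  have hind' : LinearIndependent Qb e := hind.comp _ T.equivFin.symm.injective
  refine ⟨{ W := ⊥
            n := T.card
            e := e
            inv := fun t x w hw => by rw [(AddSubgroup.mem_bot.mp hw), add_zero]
            indep := hind'
            span := fun f _ => ?_
            val := fun t x => by rw [hhh]; exact (A.valuation_le_one_iff _).mpr (hval _ x)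
            one := (hcomb 1).congr fun x => by rw [map_one]
            mul := fun i j => (hcomb (hh i * hh j)).congr fun x => by rw [map_mul, ← hhh, ← hhh]
            equiv := fun σ _ t x => ?_
            γ := γ
            γ_le := hγ
            comul := fun t x y => by rw [← hγe, ← hhh] }, rfl⟩
  · obtain ⟨c, hc⟩ := (Submodule.mem_span_range_iff_exists_fun Qb).mp
      (show f ∈ Submodule.span Qb (Set.range e) by rw [hrange, hTtop]; trivial)
    exact ⟨c, fun x => by rw [← hc]; simp [Finset.sum_apply]⟩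
  · rw [hhh, hF, hF]
    set f := ev.symm (ψ x)
    let g : WithConv (H →ₐ[GaloisRep.ratLocalizedAt p] Qb) :=
      WithConv.toConv ((σ.toAlgHom.restrictScalars (GaloisRep.ratLocalizedAt p)).comp f.ofConv)
    have hg : ev g = σ • ev f := hgal σ f g fun _ => rfl
    rw [Equiv.apply_symm_apply, ← hψ] at hg
    rw [← hg, Equiv.symm_apply_apply]
    rfl

namespace Mdl

variable {G : Type} [AddCommGroup G] [DistribMulAction GalQ G] {A : ValuationSubring Qb}
  {S : Subgroup GalQ} (M : Mdl A S G)

theorem eq_of_forall {c d : G} (h : ∀ i, M.e i c = M.e i d) : c - d ∈ M.W := by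
  by_contra hc
  refine M.lev_ne_zero hc (le_antisymm (M.lev_le.mpr fun i => ?_) zero_le)
  obtain ⟨a, -, ha⟩ := M.cb_translate (Comb.base i) (-d)
  have h1 : M.e i (c - d) = M.e i 0 := by
    have e1 := ha c
    have e2 := ha d
    simp only [← sub_eq_add_neg, sub_self] at e1 e2
    rw [e1, e2]
    simp only [h]
  rw [h1, sub_self, map_zero]

/-- no invariant homomorphism of a connected subgroup onto `ℤ/p` -/
theorem no_hom {p : ℕ} (hp : p.Prime) (hp2 : p ≠ 2) (hA : A.LiesOverPrime p)
    (hS : A.inertiaSubgroupIn ℚ ≤ S) (hW : M.W = ⊥) (K : AddSubgroup G) [Finite K]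
    (hK : ∀ y ∈ K, M.lev y < 1) (hst : ∀ σ ∈ A.inertiaSubgroupIn ℚ, ∀ y ∈ K, σ • y ∈ K)
    (φ : G →+ ZMod p) (hφ : ∀ σ ∈ A.inertiaSubgroupIn ℚ, ∀ y ∈ K, φ (σ • y) = φ y) {y : G}
    (hy : y ∈ K) : φ y = 0 := by
  classical
  haveI := Fact.mk hp
  by_contra h0
  set φK : K →+ ZMod p := φ.comp K.subtype
  obtain ⟨c₁, hc₁⟩ : ∃ c₁ : K, φK c₁ = 1 := by
    refine ⟨(φ y)⁻¹.val • ⟨y, hy⟩, ?_⟩
    rw [map_nsmul, nsmul_eq_mul, ZMod.natCast_zmod_val]
    exact inv_mul_cancel₀ h0
  let r : Fin M.n → K → Qb := fun i k => M.e i k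
  let g : GalQ → K → K := fun σ k =>
    if hσ : σ ∈ A.inertiaSubgroupIn ℚ then ⟨σ • (k : G), hst σ hσ k k.2⟩ else k
  refine TOR.no_invariant_hom hp hA hp2 (gens := Set.range r) (Set.finite_range r) ?_ ?_ g ?_ ?_ ?_
    φK hc₁ ?_
  · rintro _ ⟨i, rfl⟩ k
    exact (A.valuation_le_one_iff _).mp (M.val i k)
  · intro c d h
    have := M.eq_of_forall (c := (c : G)) (d := (d : G)) fun i => h (r i) ⟨i, rfl⟩
    rw [hW, AddSubgroup.mem_bot, sub_eq_zero] at this
    exact Subtype.ext this
  · rintro σ hσ _ ⟨i, rfl⟩ c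
    simp only [r, g, dif_pos hσ]
    exact M.equiv σ (hS hσ) i _
  · rintro _ ⟨i, rfl⟩
    have e1 : (fun x : K × K => r i (x.1 + x.2)) = ∑ a, ∑ b,
        (⟨M.γ i a b, (A.valuation_le_one_iff _).mp (M.γ_le i a b)⟩ : A) •
          fun x : K × K => r a x.1 * r b x.2 := by
      funext x
      simp only [r, AddSubgroup.coe_add, M.comul, Finset.sum_apply, Pi.smul_apply]
      rfl
    rw [e1]
    exact sum_mem fun a _ => sum_mem fun b _ => Submodule.smul_mem _ _ (Submodule.subset_span
      ⟨r a, Algebra.subset_adjoin ⟨a, rfl⟩, r b, Algebra.subset_adjoin ⟨b, rfl⟩, rfl⟩)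
  · rintro _ ⟨i, rfl⟩ c
    exact (M.le_lev i (c : G)).trans_lt (hK c c.2)
  · intro σ hσ c
    simp only [φK, g, dif_pos hσ, AddMonoidHom.coe_comp, Function.comp_apply]
    exact hφ σ hσ c c.2

end Mdl

namespace PlaceData

variable {p : ℕ} [hpr : Fact p.Prime] (P : PlaceData p)

/-- the character of `ℤ/p` -/
def zp (a : ZMod p) : Qb := P.ζ ^ a.val

theorem zp_zero : P.zp 0 = 1 := by rw [zp, ZMod.val_zero, pow_zero]

theorem zp_add (a b : ZMod p) : P.zp (a + b) = P.zp a * P.zp b := by
  rw [zp, zp, zp, ← pow_add, ZMod.val_add]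
  exact (pow_eq_pow_mod _ P.hζ.pow_eq_one).symm

theorem zp_pow (a : ZMod p) : P.zp a ^ p = 1 := by
  rw [zp, ← pow_mul, mul_comm, pow_mul, P.hζ.pow_eq_one, one_pow]

theorem zp_mem (a : ZMod p) : P.zp a ∈ P.A := pow_mem P.ζ_mem _

theorem v_zp (a : ZMod p) : P.v (P.zp a) = 1 :=
  EIS.valuation_root_of_unity hpr.out.pos (P.zp_pow a)

theorem v_zp_sub_one {a : ZMod p} (ha : a ≠ 0) : P.v (P.zp a - 1) = P.v P.π ^ (p + 1) := by
  rw [zp, TOR.valuation_one_sub_pow P.hζ hpr.out ?_, P.vζ]
  intro h
  have := Nat.eq_zero_of_dvd_of_lt h (ZMod.val_lt a)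
  exact ha ((ZMod.val_eq_zero a).mp this)

theorem v_zp_sub_one_le (a : ZMod p) : P.v (P.zp a - 1) ≤ P.v P.π ^ (p + 1) := by
  rcases eq_or_ne a 0 with rfl | ha
  · rw [P.zp_zero, sub_self, map_zero]; exact zero_le
  · exact (P.v_zp_sub_one ha).le

theorem zp_ne_one {a : ZMod p} (ha : a ≠ 0) : P.zp a ≠ 1 := fun h => by
  have := P.v_zp_sub_one ha
  rw [h, sub_self, map_zero] at this
  exact (pow_pos P.vπ_pos _).ne this

theorem zp_sum {ι : Type*} (s : Finset ι) (f : ι → ZMod p) :
    P.zp (∑ i ∈ s, f i) = ∏ i ∈ s, P.zp (f i) := by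
  classical
  induction s using Finset.induction_on with
  | empty => rw [Finset.sum_empty, Finset.prod_empty, P.zp_zero]
  | insert a s ha ih => rw [Finset.sum_insert ha, Finset.prod_insert ha, P.zp_add, ih]

theorem sum_zp {x : ZMod p} (hx : x ≠ 0) : ∑ j : ZMod p, P.zp (j * x) = 0 := by
  set S := ∑ j : ZMod p, P.zp (j * x) with hS
  have h : S * P.zp x = S := by
    rw [hS, Finset.sum_mul]
    exact Fintype.sum_equiv (Equiv.addRight 1) _ _ fun j => by
      rw [← P.zp_add, Equiv.coe_addRight, add_mul, one_mul]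
  rcases mul_right_eq_self₀.mp h with h1 | h1
  · exact absurd h1 (P.zp_ne_one hx)
  · exact h1

variable {G : Type} [AddCommGroup G] [DistribMulAction GalQ G] {S : Subgroup GalQ}
  (M : Mdl P.A S G)

/-- characters are integral combinations of the functions of the model -/
theorem cb_char (φ : G →+ ZMod p) (hφ : ∀ w ∈ M.W, φ w = 0) :
    M.Cb 1 (fun x => P.zp (φ x)) := by
  classical
  obtain ⟨lam, hlam⟩ := M.span (fun x => P.zp (φ x)) fun x w hw => by
    rw [map_add, hφ w hw, add_zero]
  have huniq : ∀ a a' : Fin M.n → Qb, (∀ x, ∑ i, a i * M.e i x = ∑ i, a' i * M.e i x) → a = a' :=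
    fun a a' h => funext fun i => sub_eq_zero.mp (Fintype.linearIndependent_iff.mp M.indep
      (fun j => a j - a' j) (funext fun x => by
        simp only [Finset.sum_apply, Pi.smul_apply, smul_eq_mul, Pi.zero_apply, sub_mul,
          Finset.sum_sub_distrib, h x, sub_self]) i)
  have hmul : ∀ j l, lam j * lam l = ∑ i, M.γ i j l * lam i := by
    have h1 : ∀ y, (fun j => lam j * P.zp (φ y)) =
        fun j => ∑ l, (∑ i, M.γ i j l * lam i) * M.e l y := by
      intro y
      refine huniq _ _ fun x => ?_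
      calc ∑ j, lam j * P.zp (φ y) * M.e j x = P.zp (φ (x + y)) := by
            rw [map_add, P.zp_add, hlam x, Finset.sum_mul]
            exact Finset.sum_congr rfl fun j _ => by ring
        _ = ∑ i, lam i * ∑ j, ∑ l, M.γ i j l * (M.e j x * M.e l y) := by
            rw [hlam]; simp only [M.comul]
        _ = ∑ j, (∑ l, (∑ i, M.γ i j l * lam i) * M.e l y) * M.e j x := by
            simp only [Finset.mul_sum, Finset.sum_mul]
            rw [Finset.sum_comm]
            refine Finset.sum_congr rfl fun j _ => ?_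
            rw [Finset.sum_comm]
            exact Finset.sum_congr rfl fun l _ => Finset.sum_congr rfl fun i _ => by ring
    intro j
    refine congrFun (huniq (fun l => lam j * lam l) (fun l => ∑ i, M.γ i j l * lam i) fun y => ?_)
    rw [← congrFun (h1 y) j, hlam y, Finset.mul_sum]
    exact Finset.sum_congr rfl fun l _ => by ring
  refine ⟨lam, fun j => (P.A.valuation_le_one_iff _).mpr ?_, hlam⟩
  refine Reduction.mem_A_of_isIntegral P.A (isIntegral_of_smul_mem_submodule
    (Submodule.span P.A (Set.range lam)) ?_ (Submodule.fg_span (Set.finite_range lam)) _ ?_)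
  · intro hbot
    have h0 : ∀ i, lam i = 0 := fun i => by
      simpa [hbot] using Submodule.subset_span (R := P.A) (Set.mem_range_self (f := lam) i)
    have := hlam 0
    simp [h0, P.zp_zero] at this
  · intro n hn
    induction hn using Submodule.span_induction with
    | mem n hn =>
      obtain ⟨l, rfl⟩ := hn
      rw [smul_eq_mul, hmul]
      exact sum_mem fun i _ => Submodule.smul_mem _
        (⟨M.γ i j l, (P.A.valuation_le_one_iff _).mp (M.γ_le i j l)⟩ : P.A)
        (Submodule.subset_span (Set.mem_range_self i))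
    | zero => rw [smul_zero]; exact zero_mem _
    | add x y _ _ hx hy => rw [smul_add]; exact add_mem hx hy
    | smul r x _ hx => rw [smul_comm]; exact Submodule.smul_mem _ r hx

/-- a subgroup on which all sums are divisible by its order is fixed by the inertia elements
fixing the roots of unity -/
theorem fix_of_mult (hW : M.W = ⊥) (hp : ∀ x : G, p • x = 0) {m : ℕ}
    (ψ : (Fin m → ZMod p) →+ G) (hψ : Function.Injective ψ)
    (hsum : ∀ f, M.Cb 1 f → P.v (∑ c, f (ψ c)) ≤ P.v (p : Qb) ^ m) {τ : GalQ} (hτ : τ ∈ S)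
    (hτI : τ ∈ P.I) (hτζ : τ P.ζ = P.ζ) (c₀ : Fin m → ZMod p) : τ • ψ c₀ = ψ c₀ := by
  classical
  letI : Module (ZMod p) G := AddCommGroup.zmodModule hp
  have hex : ∀ g₁ : (Fin m → ZMod p) →ₗ[ZMod p] G, LinearMap.ker g₁ = ⊥ →
      ∃ g : G →ₗ[ZMod p] (Fin m → ZMod p), g.comp g₁ = LinearMap.id := fun g₁ h =>
    LinearMap.exists_leftInverse_of_injective g₁ h
  obtain ⟨lft, hlft'⟩ : ∃ g : G →+ (Fin m → ZMod p), ∀ c, g (ψ c) = c := by
    obtain ⟨g, hg⟩ := hex (ψ.toZModLinearMap p) (LinearMap.ker_eq_bot.mpr hψ)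
    exact ⟨g.toAddMonoidHom, fun c => LinearMap.congr_fun hg c⟩
  -- divisibility of the Fourier coefficients
  have key : ∀ f, M.Cb 1 f → (∀ σ ∈ P.I, σ ∈ S → σ (f 0) = f 0) →
      (∀ x, f (τ • x) = τ (f x)) → P.v (f (τ • ψ c₀) - f (ψ c₀)) < P.v P.π ^ (p + 1) := by
    intro f hf hf0 hfτ
    let φd : (Fin m → ZMod p) → (G →+ ZMod p) := fun d =>
      ∑ i, (d i) • ((Pi.evalAddMonoidHom (fun _ : Fin m => ZMod p) i).comp lft)
    have hφd : ∀ d c, φd d (ψ c) = ∑ i, d i * c i := fun d c => by
      simp [φd, AddMonoidHom.finsetSum_apply, hlft']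
    set K : Qb := (p : Qb) ^ m
    have hK : K ≠ 0 := pow_ne_zero _ (Nat.cast_ne_zero.mpr hpr.out.ne_zero)
    set cd : (Fin m → ZMod p) → Qb := fun d => (∑ c, f (ψ c) * P.zp (φd (-d) (ψ c))) / K with hcd
    have hcdA : ∀ d, cd d ∈ P.A := fun d => by
      refine (P.A.valuation_le_one_iff _).mp ?_
      rw [hcd, map_div₀, map_pow, div_le_one₀ (pow_pos P.vp_pos m)]
      exact hsum _ ((M.cb_mul hf (P.cb_char M (φd (-d)) fun w hw => by
        rw [hW, AddSubgroup.mem_bot] at hw
        rw [hw, map_zero])).mono (one_mul _).le)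
    have hinv : ∀ c', f (ψ c') = ∑ d, cd d * P.zp (∑ i, d i * c' i) := by
      intro c'
      have h1 : ∀ c, ∑ d : Fin m → ZMod p, P.zp (φd (-d) (ψ c)) * P.zp (∑ i, d i * c' i) =
          if c = c' then K else 0 := by
        intro c
        calc ∑ d : Fin m → ZMod p, P.zp (φd (-d) (ψ c)) * P.zp (∑ i, d i * c' i)
            = ∑ d : Fin m → ZMod p, ∏ i, P.zp (d i * (c' i - c i)) :=
              Finset.sum_congr rfl fun d _ => by
                rw [hφd, ← P.zp_add, ← P.zp_sum, ← Finset.sum_add_distrib]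
                exact congrArg P.zp (Finset.sum_congr rfl fun i _ => by rw [Pi.neg_apply]; ring)
          _ = ∏ i, ∑ j : ZMod p, P.zp (j * (c' i - c i)) :=
              (Fintype.prod_sum fun i (j : ZMod p) => P.zp (j * (c' i - c i))).symm
          _ = _ := by
            split_ifs with h
            · subst h
              simp [P.zp_zero, K, ZMod.card]
            · obtain ⟨i, hi⟩ := Function.ne_iff.mp h
              exact Finset.prod_eq_zero (Finset.mem_univ i) (P.sum_zp (sub_ne_zero.mpr (Ne.symm hi)))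
      simp only [hcd, div_mul_eq_mul_div, ← Finset.sum_div, Finset.sum_mul]
      rw [Finset.sum_comm, Finset.sum_congr rfl fun c _ => by
        rw [Finset.sum_congr rfl fun d _ => mul_assoc _ _ _, ← Finset.mul_sum, h1 c]]
      rw [Finset.sum_eq_single c', if_pos rfl, mul_div_cancel_right₀ _ hK]
      · intro c _ hc; rw [if_neg hc, mul_zero]
      · exact fun h => absurd (Finset.mem_univ c') h
    have h0 : ∑ d, (τ (cd d) - cd d) = 0 := by
      have e0 : f 0 = ∑ d, cd d := by
        have := hinv 0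
        simpa [P.zp_zero] using this
      rw [Finset.sum_sub_distrib, ← map_sum, ← e0, hf0 τ hτI hτ, sub_self]
    have e1 : f (τ • ψ c₀) - f (ψ c₀) =
        ∑ d, (τ (cd d) - cd d) * (P.zp (∑ i, d i * c₀ i) - 1) := by
      simp only [mul_sub, mul_one, Finset.sum_sub_distrib, h0, sub_zero, sub_mul]
      rw [hfτ, hinv c₀, map_sum]
      congr 1
      exact Finset.sum_congr rfl fun d _ => by rw [map_mul, zp, map_pow, hτζ]
    rw [e1]
    refine Valuation.map_sum_lt _ (pow_pos P.vπ_pos _).ne' fun d _ => ?_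
    rw [map_mul]
    exact (mul_le_mul' le_rfl (P.v_zp_sub_one_le _)).trans_lt
      (mul_lt_of_lt_one_left (pow_pos P.vπ_pos _) (P.v_sub_inertia hτI (hcdA d)))
  by_contra hne
  set u := τ • ψ c₀ - ψ c₀ with hu
  have hu0 : u ∉ M.W := by rw [hW, AddSubgroup.mem_bot]; exact sub_ne_zero.mpr hne
  obtain ⟨i, hi⟩ := M.exists_diff (ψ c₀) u
  rw [hu, add_sub_cancel, ← hu] at hi
  exact absurd ((P.key_bound M hu0 (by rw [hp]; exact M.W.zero_mem)).trans hi)
    (not_le.mpr (key _ (Comb.base i) (fun σ _ hσ => M.cb_apply_zero hσ i) fun x => M.equiv τ hτ i x))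

end PlaceData

end FLTAgent.PT.TW

end
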