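import Fermat.Agent.PT.TW.Flat.Gen
import Mathlib.RingTheory.Polynomial.Basic

/-!
Parcel H: a subgroup of a model on which inertia acts through the fundamental character of level
two has a function of valuation exactly `v π`.
-/

set_option autoImplicit false
set_option linter.style.haveILetI false
set_option linter.unusedSectionVars false

noncomputable section

open Polynomial

namespace FLTAgent.PT.TW

open FLTAgent.Reduction (Qb)

local notation "GalQ" => AlgebraicClosure ℚ ≃ₐ[ℚ] AlgebraicClosure ℚ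

namespace PlaceData

variable {p : ℕ} [hpr : Fact p.Prime] (P : PlaceData p)

/-- an exponent with `(z + 1) ^ k = z ^ k + 1` at `p ^ 2` roots of `X ^ (p^2) - X` is `1` or `p` -/
theorem exp_eq_one_or_p {F : Type*} [Field F] [CharP F p] {Z : Finset F} (hZ : p ^ 2 ≤ Z.card)
    (hfix : ∀ z ∈ Z, z ^ p ^ 2 = z) {k : ℕ} (hk0 : 0 < k) (hk : k < p ^ 2)
    (h : ∀ z ∈ Z, (z + 1) ^ k = z ^ k + 1) : k = 1 ∨ k = p := by
  classical
  obtain ⟨n, m, hm, rfl⟩ := Nat.exists_eq_pow_mul_and_not_dvd hk0.ne' p hpr.out.ne_one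
  suffices hm1 : m = 1 by
    subst hm1
    rw [mul_one] at hk ⊢
    have hn : n < 2 := (Nat.pow_lt_pow_iff_right hpr.out.one_lt).mp hk
    interval_cases n <;> simp
  by_contra hne
  have hm2 : 2 ≤ m := by
    rcases Nat.eq_zero_or_pos m with h0 | h0
    · exact absurd (h0 ▸ dvd_zero p) hm
    · omega
  have hinj : Set.InjOn (fun z : F => z ^ p ^ n) Z := fun a _ b _ hab =>
    iterateFrobenius_inj F p n (by simpa [iterateFrobenius_def] using hab)
  set Z' := Z.image (fun z : F => z ^ p ^ n)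
  have hZ' : p ^ 2 ≤ Z'.card := by rwa [Finset.card_image_of_injOn hinj]
  set Q : F[X] := (X + 1) ^ m - X ^ m - 1
  have hQ : Q ≠ 0 := fun h0 => by
    have h1 := congrArg (fun R : F[X] => R.coeff 1) h0
    simp only [Q, coeff_sub, coeff_zero, coeff_X_pow, coeff_one, coeff_X_add_one_pow,
      Nat.choose_one_right, if_neg (show ¬ 1 = m by omega), if_neg (one_ne_zero' ℕ), sub_zero] at h1
    exact hm ((CharP.cast_eq_zero_iff F p m).mp h1)
  have hdeg : Q.natDegree ≤ m := by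
    refine (natDegree_sub_le _ _).trans (max_le ((natDegree_sub_le _ _).trans (max_le ?_ ?_)) ?_)
    · exact natDegree_pow_le_of_le m (natDegree_add_le_of_degree_le natDegree_X.le
        ((natDegree_one (R := F)).le.trans zero_le_one)) |>.trans (mul_one m).le
    · exact (natDegree_X_pow m).le
    · rw [natDegree_one]; exact Nat.zero_le m
  have hroot : Z' ⊆ Q.roots.toFinset := by
    intro w hw
    obtain ⟨z, hz, rfl⟩ := Finset.mem_image.mp hw
    rw [Multiset.mem_toFinset, mem_roots hQ, IsRoot.def]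
    simp only [Q, eval_sub, eval_pow, eval_add, eval_X, eval_one]
    rw [← one_pow (p ^ n), ← add_pow_char_pow, one_pow, ← pow_mul, ← pow_mul, h z hz]
    ring
  have := (Finset.card_le_card hroot).trans ((Multiset.toFinset_card_le _).trans (card_roots' Q))
  have hmk : m ≤ p ^ n * m := Nat.le_mul_of_pos_left m (pow_pos hpr.out.pos n)
  omega

variable {G : Type} [AddCommGroup G] [DistribMulAction GalQ G] {S : Subgroup GalQ}
  (M : Mdl P.A S G)

theorem γ_fixed {σ : GalQ} (hσ : σ ∈ S) (i a b : Fin M.n) : σ (M.γ i a b) = M.γ i a b := by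
  have huniq : ∀ c c' : Fin M.n → Qb, (∀ x, ∑ j, c j * M.e j x = ∑ j, c' j * M.e j x) → c = c' :=
    fun c c' h => funext fun j => sub_eq_zero.mp (Fintype.linearIndependent_iff.mp M.indep
      (fun l => c l - c' l) (funext fun x => by
        simp only [Finset.sum_apply, Pi.smul_apply, smul_eq_mul, Pi.zero_apply, sub_mul,
          Finset.sum_sub_distrib, h x, sub_self]) j)
  have h1 : ∀ x y, ∑ a, (∑ b, σ (M.γ i a b) * M.e b y) * M.e a x =
      ∑ a, (∑ b, M.γ i a b * M.e b y) * M.e a x := by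
    intro x y
    obtain ⟨x, rfl⟩ : ∃ x', σ • x' = x := ⟨σ⁻¹ • x, smul_inv_smul σ x⟩
    obtain ⟨y, rfl⟩ : ∃ y', σ • y' = y := ⟨σ⁻¹ • y, smul_inv_smul σ y⟩
    have e1 : M.e i (σ • x + σ • y) = σ (M.e i (x + y)) := by rw [← smul_add, M.equiv σ hσ]
    rw [M.comul, M.comul, map_sum] at e1
    simp only [map_sum, map_mul, ← M.equiv σ hσ] at e1
    simp only [Finset.sum_mul]
    exact (Finset.sum_congr rfl fun a _ => Finset.sum_congr rfl fun b _ => by ring).trans
      (e1.symm.trans (Finset.sum_congr rfl fun a _ => Finset.sum_congr rfl fun b _ => by ring))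
  refine congrFun (huniq (fun b => σ (M.γ i a b)) (fun b => M.γ i a b) fun y => ?_) b
  exact congrFun (huniq (fun a => ∑ b, σ (M.γ i a b) * M.e b y)
    (fun a => ∑ b, M.γ i a b * M.e b y) fun x => h1 x y) a

theorem co_bound {x : Qb} (hx : ∀ h ∈ P.H, h x = x) {a k : ℕ} (hxa : P.v x ≤ P.v P.π ^ a)
    (hk : k < P.e) : P.v (P.co x k) ≤ 1 ∧ (k < a → P.v (P.co x k) ≤ P.v (p : Qb)) := by
  rcases eq_or_ne (P.co x k) 0 with h0 | h0
  · rw [h0, map_zero]; exact ⟨zero_le, fun _ => zero_le⟩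
  obtain ⟨i, hi⟩ := SS2.exists_zpow_valuation_T hpr.out P.hA (P.co_fixed x k) h0
  have h1 := (P.co_le hx hk).trans hxa
  rw [map_mul, map_pow, hi, ← P.vπ_pow, ← zpow_natCast, ← zpow_natCast, ← zpow_natCast,
    ← zpow_mul, ← zpow_add₀ P.vπ_pos.ne',
    zpow_le_zpow_iff_right_of_lt_one₀ P.vπ_pos P.vπ_lt] at h1
  have hi0 : 0 ≤ i := by
    by_contra hneg
    push Not at hneg
    have : (P.e : ℤ) * i ≤ -(P.e : ℤ) := by nlinarith
    omega
  refine ⟨by rw [hi]; exact zpow_le_one₀ P.vp_pos P.vp_lt.le hi0, fun hka => ?_⟩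
  have hi1 : 1 ≤ i := by
    by_contra hneg
    obtain rfl : i = 0 := by omega
    rw [mul_zero] at h1
    omega
  rw [hi]
  exact (zpow_le_zpow_right_of_le_one₀ P.vp_pos P.vp_lt.le hi1).trans (zpow_one _).le

theorem co_lt_le {x : Qb} {k : ℕ} (h : P.v (P.co x k) < 1) :
    P.v (P.co x k) ≤ P.v (p : Qb) := by
  rcases eq_or_ne (P.co x k) 0 with h0 | h0
  · rw [h0, map_zero]; exact zero_le
  obtain ⟨i, hi⟩ := SS2.exists_zpow_valuation_T hpr.out P.hA (P.co_fixed x k) h0
  rw [hi] at h ⊢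
  have := (zpow_lt_one_iff_right_of_lt_one₀ P.vp_pos P.vp_lt).mp h
  exact (zpow_le_zpow_right_of_le_one₀ P.vp_pos P.vp_lt.le (show (1 : ℤ) ≤ i by omega)).trans
    (zpow_one _).le

theorem co_sub {x y : Qb} (hx : ∀ h ∈ P.H, h x = x) (hy : ∀ h ∈ P.H, h y = y) {k : ℕ}
    (hk : k < P.e) : P.co (x - y) k = P.co x k - P.co y k := by
  have h := P.co_add (x := x - y) (y := y) (fun h hh => by rw [map_sub, hx h hh, hy h hh]) hy hk
  rw [sub_add_cancel] at h
  rw [h, add_sub_cancel_right]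

include P in
/-- a function of valuation `v π` on a subgroup of level-two tame type -/
theorem exists_unif (hS : P.I ≤ S) (U : AddSubgroup G) (ι : U →+ IsLocalRing.ResidueField P.A)
    (hW : ∀ u : U, ι u = 0 ↔ (u : G) ∈ M.W)
    (hst : ∀ σ ∈ P.I, ∀ u ∈ U, σ • u ∈ U)
    (hι : ∀ σ (hσ : σ ∈ P.I) (u : U), ι ⟨σ • (u : G), hst σ hσ u u.2⟩ = P.th σ * ι u)
    (hfix : ∀ u : U, ι u ^ p ^ 2 = ι u) (hne : ∃ u : U, ι u ≠ 0) :
    ∃ i, ∀ u ∈ U, u ∉ M.W → P.v (M.e i u - M.e i 0) = P.v P.π := by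
  classical
  haveI := P.charP_res
  obtain ⟨u₁, hu₁⟩ := hne
  obtain ⟨s, hs, hgen⟩ := P.exists_gen
  have hsn : ∀ n : ℕ, s ^ n ∈ P.I := fun n => pow_mem hs n
  -- every element is a translate of `u₁` modulo `W`
  have horb : ∀ u : U, ι u ≠ 0 →
      ∃ n : ℕ, P.th s ^ n * ι u₁ = ι u ∧ (u : G) - s ^ n • (u₁ : G) ∈ M.W := by
    intro u hu
    haveI : NeZero P.e := ⟨P.e_pos.ne'⟩
    have hpe : ∀ w : U, ι w ≠ 0 → ι w ^ P.e = 1 := fun w hw => by
      have := hfix w
      rw [← P.e_add_one, pow_succ] at this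
      exact mul_right_cancel₀ hw (this.trans (one_mul _).symm)
    obtain ⟨n, -, hn⟩ := hgen.eq_pow_of_pow_eq_one (ξ := ι u / ι u₁) (by
      rw [div_pow, hpe u hu, hpe u₁ hu₁, div_one])
    have h1 : P.th s ^ n * ι u₁ = ι u := by rw [hn, div_mul_cancel₀ _ hu₁]
    refine ⟨n, h1, (hW (u - ⟨s ^ n • (u₁ : G), hst _ (hsn n) _ u₁.2⟩)).mp ?_⟩
    rw [map_sub, hι _ (hsn n), P.th_pow hs, h1, sub_self]
  have hu₁W : (u₁ : G) ∉ M.W := fun h => hu₁ ((hW u₁).mpr h)
  have hpu₁ : p • (u₁ : G) ∈ M.W := by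
    refine (hW (p • u₁)).mp ?_
    rw [map_nsmul, nsmul_eq_mul, CharP.cast_eq_zero, zero_mul]
  -- the level on `U`
  set L := M.lev (u₁ : G)
  have hlevW : ∀ {x y : G}, x - y ∈ M.W → M.lev x ≤ M.lev y := fun {x y} hxy => by
    have h := M.lev_add (x - y) y
    rwa [sub_add_cancel, M.lev_of_mem hxy, max_eq_right zero_le] at h
  have hlevU : ∀ u : U, M.lev (u : G) ≤ L := by
    intro u
    rcases eq_or_ne (ι u) 0 with h0 | h0
    · rw [M.lev_of_mem ((hW u).mp h0)]; exact zero_le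
    obtain ⟨n, -, hn⟩ := horb u h0
    exact (hlevW hn).trans (M.lev_smul (hS (hsn n)) (P.I_le_D (hsn n)) _).le
  have hHfix : ∀ (i : Fin M.n) (u : U), ∀ h ∈ P.H, h (M.e i u - M.e i 0) = M.e i u - M.e i 0 := by
    intro i u h hh
    rw [map_sub, M.cb_apply_zero (hS (P.H_le hh)), ← M.equiv h (hS (P.H_le hh))]
    congr 1
    have hd : h • (u : G) - (u : G) ∈ M.W := by
      refine (hW (⟨h • (u : G), hst h (P.H_le hh) u u.2⟩ - u)).mp ?_
      rw [map_sub, hι h (P.H_le hh), P.th_H hh, one_mul, sub_self]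
    have h2 := M.inv i (u : G) _ hd
    rwa [add_sub_cancel] at h2
  obtain ⟨i₀, hi₀⟩ := M.exists_lev (u₁ : G)
  have hx0 : M.e i₀ (u₁ : G) - M.e i₀ 0 ≠ 0 := fun h0 => by
    rw [h0, map_zero] at hi₀
    exact M.lev_ne_zero hu₁W hi₀.symm
  obtain ⟨az, haz⟩ := P.exists_zpow_v (hHfix i₀ u₁) hx0
  have hLlt : L < 1 := by
    set v' : U := ⟨s • (u₁ : G), hst s hs u₁ u₁.2⟩ - u₁ with hv'
    have hι' : ι v' ≠ 0 := by
      rw [hv', map_sub, hι s hs, sub_ne_zero]
      exact fun h => hgen.ne_one (by have := P.two_p_lt; omega)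
        (mul_right_cancel₀ hu₁ (h.trans (one_mul _).symm))
    obtain ⟨n, -, hn⟩ := horb v' hι'
    have h1 : M.lev (v' : G) < 1 := M.lev_smul_sub_lt (hS hs) hs _
    refine lt_of_le_of_lt ?_ h1
    have h3 : s ^ n • (u₁ : G) - (v' : G) ∈ M.W := by rw [← neg_sub]; exact neg_mem hn
    exact (M.lev_smul (hS (hsn n)) (P.I_le_D (hsn n)) _).ge.trans (hlevW h3)
  have hkey := P.key_bound M hu₁W hpu₁
  have hLeq : L = P.v P.π ^ az := hi₀.symm.trans haz
  have haz0 : 0 < az := by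
    rw [hLeq] at hLlt
    exact (zpow_lt_one_iff_right_of_lt_one₀ P.vπ_pos P.vπ_lt).mp hLlt
  have hazp : az ≤ (p + 1 : ℕ) := by
    refine (zpow_le_zpow_iff_right_of_lt_one₀ P.vπ_pos P.vπ_lt).mp ?_
    rw [zpow_natCast, ← hLeq]
    exact hkey
  obtain ⟨a, rfl⟩ : ∃ a : ℕ, az = a := ⟨az.toNat, (Int.toNat_of_nonneg haz0.le).symm⟩
  rw [zpow_natCast] at hLeq
  have ha0 : 0 < a := by exact_mod_cast haz0
  have hap : a ≤ p + 1 := by exact_mod_cast hazp
  have h2pe := P.two_p_lt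
  have hxle : ∀ (i : Fin M.n) (u : U), P.v (M.e i u - M.e i 0) ≤ P.v P.π ^ a :=
    fun i u => hLeq ▸ (M.le_lev i _).trans (hlevU u)
  -- residues of the coordinates
  let R : Fin M.n → ℕ → U → IsLocalRing.ResidueField P.A :=
    fun i k u => P.res (P.co (M.e i u - M.e i 0) k)
  have hcA : ∀ i (u : U) {k}, k < P.e → P.co (M.e i u - M.e i 0) k ∈ P.A := fun i u {k} hk =>
    (P.A.valuation_le_one_iff _).mp (P.co_bound (hHfix i u) (hxle i u) hk).1
  have hRadd : ∀ i {k}, k < 2 * a → ∀ u u' : U, R i k (u + u') = R i k u + R i k u' := by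
    intro i k hk u u'
    have hke : k < P.e := by omega
    set X := M.e i ((u + u' : U) : G) - M.e i 0
    set x := M.e i (u : G) - M.e i 0
    set x' := M.e i (u' : G) - M.e i 0
    have hz : P.v (X - x - x') ≤ P.v P.π ^ (2 * a) := by
      have h1 := M.cb_sub_le (M.cb_diff (Comb.base i) (u' : G)) (u : G)
      rw [one_mul, zero_add] at h1
      rw [show X - x - x' = (M.e i ((u : G) + u') - M.e i u) - (M.e i u' - M.e i 0) by
        simp only [X, x, x', AddSubgroup.coe_add]; ring]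
      refine h1.trans ((mul_le_mul' (hlevU u') (hlevU u)).trans ?_)
      rw [hLeq, ← pow_add, two_mul]
    have hfixz : ∀ h ∈ P.H, h (X - x) = X - x := fun h hh => by
      rw [map_sub, hHfix i (u + u') h hh, hHfix i u h hh]
    have h0 : P.res (P.co (X - x - x') k) = 0 := P.res_eq_zero_of_lt
      (((P.co_bound (fun h hh => by rw [map_sub, hfixz h hh, hHfix i u' h hh]) hz hke).2
        hk).trans_lt P.vp_lt)
    rw [P.co_sub hfixz (hHfix i u') hke, P.co_sub (hHfix i (u + u')) (hHfix i u) hke,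
      P.res_sub (sub_mem (hcA i _ hke) (hcA i u hke)) (hcA i u' hke),
      P.res_sub (hcA i _ hke) (hcA i u hke), sub_eq_zero, sub_eq_iff_eq_add] at h0
    exact h0.trans (add_comm _ _)
  have hRscale : ∀ i {k}, k < P.e → ∀ σ (hσ : σ ∈ P.I) (u : U),
      R i k ⟨σ • (u : G), hst σ hσ u u.2⟩ = P.th σ ^ k * R i k u := by
    intro i k hk σ hσ u
    show P.res (P.co (M.e i (σ • (u : G)) - M.e i 0) k) = _
    rw [show M.e i (σ • (u : G)) - M.e i 0 = σ (M.e i u - M.e i 0) by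
      rw [map_sub, M.cb_apply_zero (hS hσ), M.equiv σ (hS hσ)],
      P.co_apply (hHfix i u) hσ hk, P.res_mul (hcA i u hk) (pow_mem (P.rt_mem σ) k),
      P.res_pow (P.rt_mem σ), mul_comm]
    rfl
  have hRW : ∀ i {k}, k < P.e → ∀ u u' : U, (u : G) - u' ∈ M.W → R i k u = R i k u' := by
    intro i k _ u u' h
    have h2 := M.inv i (u' : G) _ h
    rw [add_sub_cancel] at h2
    simp only [R, h2]
  have hR1 : ∀ i {k}, k < P.e → ∀ u : U, ι u ≠ 0 → R i k u = (ι u / ι u₁) ^ k * R i k u₁ := by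
    intro i k hk u hu
    obtain ⟨n, hn1, hn2⟩ := horb u hu
    rw [hRW i hk u ⟨s ^ n • (u₁ : G), hst _ (hsn n) _ u₁.2⟩ hn2, hRscale i hk _ (hsn n),
      P.th_pow hs, ← hn1, mul_div_cancel_right₀ _ hu₁]
  have hexp : ∀ i {k}, 0 < k → k < 2 * a → R i k u₁ ≠ 0 → k = 1 ∨ k = p := by
    intro i k hk0 hk2 hne
    have hke : k < P.e := by omega
    have hR0 : R i k 0 = 0 := by simpa using hRadd i hk2 0 0
    have hRall : ∀ u : U, R i k u = (ι u / ι u₁) ^ k * R i k u₁ := by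
      intro u
      rcases eq_or_ne (ι u) 0 with h0 | h0
      · rw [hRW i hke u 0 (by simpa using (hW u).mp h0), hR0, h0, zero_div, zero_pow hk0.ne',
          zero_mul]
      · exact hR1 i hke u h0
    let el : ℕ → U := fun n => ⟨s ^ n • (u₁ : G), hst _ (hsn n) _ u₁.2⟩
    have hel : ∀ n, ι (el n) / ι u₁ = P.th s ^ n := fun n => by
      rw [hι _ (hsn n), P.th_pow hs, mul_div_cancel_right₀ _ hu₁]
    set Z : Finset (IsLocalRing.ResidueField P.A) :=
      insert 0 ((Finset.range P.e).image fun n => P.th s ^ n)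
    have hnot : (0 : IsLocalRing.ResidueField P.A) ∉ (Finset.range P.e).image fun n => P.th s ^ n := by
      intro h0
      obtain ⟨n, -, hn⟩ := Finset.mem_image.mp h0
      exact pow_ne_zero n (P.th_ne s) hn
    refine exp_eq_one_or_p (Z := Z) ?_ ?_ hk0 (by have := P.e_add_one; omega) ?_
    · rw [Finset.card_insert_of_notMem hnot, Finset.card_image_of_injOn fun x hx y hy h =>
        hgen.pow_inj (Finset.mem_range.mp hx) (Finset.mem_range.mp hy) h, Finset.card_range,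
        P.e_add_one]
    · intro z hz
      rcases Finset.mem_insert.mp hz with rfl | hz
      · exact zero_pow (pow_ne_zero 2 hpr.out.ne_zero)
      obtain ⟨n, -, rfl⟩ := Finset.mem_image.mp hz
      rw [← P.e_add_one, pow_succ, ← pow_mul, mul_comm n, pow_mul, P.th_pow_e, one_pow, one_mul]
    · intro z hz
      obtain ⟨u, rfl⟩ : ∃ u : U, ι u / ι u₁ = z := by
        rcases Finset.mem_insert.mp hz with rfl | hz
        · exact ⟨0, by rw [map_zero, zero_div]⟩
        obtain ⟨n, -, rfl⟩ := Finset.mem_image.mp hz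
        exact ⟨el n, hel n⟩
      have h := hRadd i hk2 u u₁
      rw [hRall (u + u₁), hRall u, map_add, add_div, div_self hu₁] at h
      refine mul_right_cancel₀ hne ?_
      rw [h, add_mul, one_mul]
  -- splitting off the term of degree `a`
  have hterm : ∀ i (u : U) {k}, k < P.e → k ≠ a →
      P.v (P.co (M.e i u - M.e i 0) k * P.π ^ k) < P.v P.π ^ a := by
    intro i u k hk hka
    rw [map_mul, map_pow]
    obtain ⟨h1, h2⟩ := P.co_bound (hHfix i u) (hxle i u) hk
    rcases lt_or_gt_of_ne hka with hlt | hgt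
    · refine lt_of_le_of_lt ((mul_le_of_le_one_right zero_le
        (pow_le_one₀ zero_le P.vπ_lt.le)).trans (h2 hlt)) ?_
      rw [← P.vπ_pow, P.vpow_lt]
      omega
    · exact (mul_le_of_le_one_left zero_le h1).trans_lt (P.vpow_lt.mpr hgt)
  have hne_a : R i₀ a u₁ ≠ 0 := by
    intro h0
    have hsmall : P.v (P.co (M.e i₀ u₁ - M.e i₀ 0) a * P.π ^ a) < P.v P.π ^ a := by
      rw [map_mul, map_pow]
      exact mul_lt_of_lt_one_left (pow_pos P.vπ_pos a)
        ((P.res_eq_zero (hcA i₀ u₁ (by omega))).mp h0)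
    have : P.v (M.e i₀ u₁ - M.e i₀ 0) < P.v P.π ^ a := by
      rw [P.co_sum (hHfix i₀ u₁)]
      refine Valuation.map_sum_lt _ (pow_pos P.vπ_pos a).ne' fun k hk => ?_
      rcases eq_or_ne k a with rfl | hka
      · exact hsmall
      · exact hterm i₀ u₁ (Finset.mem_range.mp hk) hka
    rw [hi₀, show M.lev (u₁ : G) = L from rfl, hLeq] at this
    exact lt_irrefl _ this
  rcases hexp i₀ ha0 (by omega) hne_a with rfl | ha
  · -- level one
    refine ⟨i₀, fun u hu huW => ?_⟩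
    refine le_antisymm ((hxle i₀ ⟨u, hu⟩).trans (pow_one _).le) (not_lt.mp fun hlt => ?_)
    have h1e : 1 < P.e := by omega
    have hb := (P.co_le (hHfix i₀ ⟨u, hu⟩) h1e).trans_lt hlt
    rw [map_mul, pow_one] at hb
    have hc : P.v (P.co (M.e i₀ u - M.e i₀ 0) 1) < 1 := by
      by_contra hc
      exact absurd (le_mul_of_one_le_left zero_le (not_lt.mp hc)) (not_le.mpr hb)
    have hι0 : ι ⟨u, hu⟩ ≠ 0 := fun h => huW ((hW _).mp h)
    refine (mul_ne_zero (pow_ne_zero 1 (div_ne_zero hι0 hu₁)) hne_a) ?_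
    rw [← hR1 i₀ h1e ⟨u, hu⟩ hι0]
    exact P.res_eq_zero_of_lt hc
  -- level `p` is impossible
  subst a
  exfalso
  set T := SS2.inertiaFixed P.A
  have hexpand : ∀ i, ∃ C ∈ T, P.v C ≤ 1 ∧
      P.v (M.e i u₁ - M.e i 0 - C * P.π ^ p) ≤ P.v P.π ^ (2 * p) := by
    intro i
    refine ⟨P.co (M.e i u₁ - M.e i 0) p, P.co_fixed _ _,
      (P.co_bound (hHfix i u₁) (hxle i u₁) (by omega)).1, ?_⟩
    have hpr' : p ∈ Finset.range P.e := Finset.mem_range.mpr (by omega)
    conv_lhs => arg 2; arg 1; rw [P.co_sum (hHfix i u₁), ← Finset.add_sum_erase _ _ hpr']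
    rw [add_sub_cancel_left]
    refine Valuation.map_sum_le _ fun k hk => ?_
    rw [Finset.mem_erase, Finset.mem_range] at hk
    obtain ⟨h1, h2⟩ := P.co_bound (hHfix i u₁) (hxle i u₁) hk.2
    rw [map_mul, map_pow]
    have hsmall : P.v (P.co (M.e i u₁ - M.e i 0) k) ≤ P.v (p : Qb) →
        P.v (P.co (M.e i u₁ - M.e i 0) k) * P.v P.π ^ k ≤ P.v P.π ^ (2 * p) := fun h => by
      refine (mul_le_of_le_one_right zero_le (pow_le_one₀ zero_le P.vπ_lt.le)).trans (h.trans ?_)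
      rw [← P.vπ_pow, P.vpow_le]
      omega
    rcases lt_or_gt_of_ne hk.1 with hlt | hgt
    · exact hsmall (h2 hlt)
    rcases lt_or_ge k (2 * p) with h2p | h2p
    · refine hsmall (P.co_lt_le (not_le.mp fun hc => ?_))
      have hR : R i k u₁ ≠ 0 := (P.res_ne_zero (hcA i u₁ hk.2)).mpr (le_antisymm h1 hc)
      rcases hexp i (by omega) h2p hR with h | h <;> omega
    · exact (mul_le_of_le_one_left zero_le h1).trans (P.vpow_le.mpr h2p)
  -- the functions that look like `C π ^ (p k)`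
  let X : ℕ → Qb → Prop := fun k δ =>
    ∃ C ∈ T, P.v C ≤ 1 ∧ P.v (δ - C * P.π ^ (p * k)) ≤ P.v P.π ^ (p * k + p)
  have hXadd : ∀ k, ∀ {ι' : Type} (s : Finset ι') (δ : ι' → Qb), (∀ j ∈ s, X k (δ j)) →
      X k (∑ j ∈ s, δ j) := by
    intro k ι' s δ hδ
    choose! C hCT hC1 hC using hδ
    refine ⟨∑ j ∈ s, C j, sum_mem hCT, Valuation.map_sum_le _ hC1, ?_⟩
    rw [Finset.sum_mul, ← Finset.sum_sub_distrib]
    exact Valuation.map_sum_le _ hC
  have hXmul : ∀ k (δ δ' : Qb), X k δ → X 1 δ' → X (k + 1) (δ * δ') := by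
    rintro k δ δ' ⟨C, hCT, hC1, hC⟩ ⟨C', hC'T, hC'1, hC'⟩
    refine ⟨C * C', mul_mem hCT hC'T, by rw [map_mul]; exact mul_le_one' hC1 hC'1, ?_⟩
    rw [mul_one] at hC'
    have e : δ * δ' - C * C' * P.π ^ (p * (k + 1)) =
        (δ - C * P.π ^ (p * k)) * (C' * P.π ^ p) + (C * P.π ^ (p * k)) * (δ' - C' * P.π ^ p) +
          (δ - C * P.π ^ (p * k)) * (δ' - C' * P.π ^ p) := by
      rw [show p * (k + 1) = p * k + p by ring, pow_add]; ring
    rw [e, show p * (k + 1) + p = (p * k + p) + p by ring, pow_add]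
    refine (Valuation.map_add _ _ _).trans (max_le ((Valuation.map_add _ _ _).trans (max_le ?_ ?_)) ?_)
    · rw [map_mul, map_mul P.v C', map_pow]
      exact mul_le_mul' hC (mul_le_of_le_one_left zero_le hC'1)
    · rw [map_mul, map_mul P.v C, map_pow, pow_add (P.v P.π) (p * k), mul_assoc (P.v P.π ^ (p * k)),
        ← pow_add]
      exact mul_le_mul' (mul_le_of_le_one_left zero_le hC1) (hC'.trans_eq (by ring_nf))
    · rw [map_mul]
      exact mul_le_mul' hC (hC'.trans (P.vpow_le.mpr (by omega)))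
  have hXscal : ∀ k (c δ : Qb), c ∈ T → P.v c ≤ 1 → X k δ → X k (c * δ) := by
    rintro k c δ hcT hc ⟨C, hCT, hC1, hC⟩
    refine ⟨c * C, mul_mem hcT hCT, by rw [map_mul]; exact mul_le_one' hc hC1, ?_⟩
    rw [mul_assoc, ← mul_sub, map_mul]
    exact (mul_le_of_le_one_left zero_le hc).trans hC
  have hX1 : ∀ b, X 1 (M.e b u₁ - M.e b 0) := fun b => by
    obtain ⟨C, hCT, hC1, hC⟩ := hexpand b
    exact ⟨C, hCT, hC1, by rwa [mul_one, ← two_mul]⟩
  have hγT : ∀ i a b, M.γ i a b ∈ T := fun i a b =>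
    SS2.mem_inertiaFixed.mpr fun σ hσ => P.γ_fixed M (hS hσ) i a b
  set f := M.e i₀
  have hiter : ∀ k, ∃ δ : Fin M.n → Qb, (∀ a, X k (δ a)) ∧
      ∀ x, (fwdDiff (u₁ : G))^[k] f x = ∑ a, δ a * M.e a x := by
    intro k
    induction k with
    | zero =>
      refine ⟨Pi.single i₀ 1, fun a => ?_, fun x => ?_⟩
      · refine ⟨(Pi.single i₀ (1 : Qb) : Fin M.n → Qb) a, ?_, ?_, ?_⟩
        · rw [Pi.single_apply]; split_ifs
          · exact one_mem _
          · exact zero_mem _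
        · rw [Pi.single_apply]; split_ifs
          · rw [map_one]
          · rw [map_zero]; exact zero_le
        · rw [mul_zero, pow_zero, mul_one, sub_self, map_zero]; exact zero_le
      · rw [Function.iterate_zero_apply, Finset.sum_eq_single i₀
          (fun j _ hj => by rw [Pi.single_eq_of_ne hj, zero_mul])
          (fun h => absurd (Finset.mem_univ i₀) h), Pi.single_eq_same, one_mul]
    | succ k ih =>
      obtain ⟨δ, hδ, hδe⟩ := ih
      refine ⟨fun c => ∑ a, ∑ b, M.γ a c b * (δ a * (M.e b u₁ - M.e b 0)), fun c =>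
        hXadd _ _ _ fun a _ => hXadd _ _ _ fun b _ => hXscal _ _ _ (hγT a c b) (M.γ_le a c b)
          (hXmul k _ _ (hδ a) (hX1 b)), fun x => ?_⟩
      rw [Function.iterate_succ_apply', fwdDiff, hδe, hδe, ← Finset.sum_sub_distrib]
      simp only [Finset.sum_mul]
      rw [Finset.sum_comm (γ := Fin M.n)]
      refine Finset.sum_congr rfl fun a _ => ?_
      have h0 := M.comul a x 0
      rw [add_zero] at h0
      rw [M.comul, h0, ← mul_sub, ← Finset.sum_sub_distrib, Finset.mul_sum]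
      refine Finset.sum_congr rfl fun c _ => ?_
      rw [← Finset.sum_sub_distrib, Finset.mul_sum]
      exact Finset.sum_congr rfl fun b _ => by ring
  obtain ⟨δ, hδ, hδe⟩ := hiter p
  have hD : X p ((fwdDiff (u₁ : G))^[p] f 0) := by
    rw [hδe]
    refine hXadd _ _ _ fun a _ => ?_
    rw [mul_comm]
    exact hXscal _ _ _ (SS2.mem_inertiaFixed.mpr fun σ hσ => M.cb_apply_zero (hS hσ) a)
      (M.val a 0) (hδ a)
  obtain ⟨C', hC'T, hC'1, hC'⟩ := hD
  obtain ⟨C, hCT, hC1, hC⟩ := hexpand i₀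
  have hCv : P.v C = 1 := by
    refine le_antisymm hC1 (not_lt.mp fun hlt => ?_)
    have h2 : P.v (C * P.π ^ p) < P.v P.π ^ p := by
      rw [map_mul, map_pow]; exact mul_lt_of_lt_one_left (pow_pos P.vπ_pos _) hlt
    have h3 : P.v (M.e i₀ u₁ - M.e i₀ 0) < P.v P.π ^ p := by
      rw [show M.e i₀ u₁ - M.e i₀ 0 =
        (M.e i₀ u₁ - M.e i₀ 0 - C * P.π ^ p) + C * P.π ^ p by ring]
      exact Valuation.map_add_lt _ (hC.trans_lt (P.vpow_lt.mpr (by omega))) h2
    rw [hi₀, show M.lev (u₁ : G) = L from rfl, hLeq] at h3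
    exact lt_irrefl _ h3
  -- the relation `f (p u) = f 0`
  have hrel := shift_eq_sum_fwdDiff_iter (u₁ : G) f p 0
  rw [zero_add, show f (p • (u₁ : G)) = f 0 from by simpa using M.inv i₀ 0 _ hpu₁,
    Finset.sum_range_succ', Nat.choose_zero_right, one_smul, Function.iterate_zero_apply,
    right_eq_add] at hrel
  obtain ⟨q, hq⟩ : ∃ q, p = q + 2 := ⟨p - 2, by have := P.three_le; omega⟩
  set B : ℕ → Qb := fun k => p.choose (k + 1) • (fwdDiff (u₁ : G))^[k + 1] f 0
  have hB0 : B 0 = (p : Qb) * (M.e i₀ u₁ - M.e i₀ 0) := by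
    simp only [B, zero_add, Nat.choose_one_right, nsmul_eq_mul, Function.iterate_one]
    rw [fwdDiff, zero_add]
  have hBp : B (p - 1) = (fwdDiff (u₁ : G))^[p] f 0 := by
    simp only [B, Nat.sub_add_cancel hpr.out.one_le, Nat.choose_self, one_smul]
  have hmid : P.v (∑ k ∈ Finset.Ico 1 (p - 1), B k) ≤ P.v P.π ^ (P.e + 2 * p) := by
    refine Valuation.map_sum_le _ fun k hk => ?_
    rw [Finset.mem_Ico] at hk
    obtain ⟨c, hc⟩ := hpr.out.dvd_choose_self (k := k + 1) (by omega) (by omega)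
    show P.v (p.choose (k + 1) • _) ≤ _
    rw [nsmul_eq_mul, hc, Nat.cast_mul, map_mul, map_mul, pow_add, P.vπ_pow]
    refine mul_le_mul' (mul_le_of_le_one_right zero_le (P.natCast_vle_one c)) ?_
    refine (Mdl.Cb.le M (M.cb_iterate (Comb.base i₀) (u₁ : G) (k + 1)) 0).trans ?_
    rw [one_mul, show M.lev (u₁ : G) = L from rfl, hLeq, ← pow_mul, P.vpow_le]
    nlinarith
  have hsplit : ∑ k ∈ Finset.range p, B k = B 0 + ∑ k ∈ Finset.Ico 1 (p - 1), B k + B (p - 1) := by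
    rw [Finset.range_eq_Ico, Finset.sum_eq_sum_Ico_succ_bot hpr.out.pos,
      show (0 : ℕ) + 1 = 1 from rfl]
    conv_lhs => rw [show p = p - 1 + 1 by omega, Finset.sum_Ico_succ_top (show 1 ≤ p - 1 by omega)]
    ring
  rw [hsplit, hB0, hBp] at hrel
  have he2 := P.e_add_one
  have hsum : P.v ((p : Qb) * (C * P.π ^ p) + C' * P.π ^ (p * p)) ≤ P.v P.π ^ (p * p + p) := by
    rw [show (p : Qb) * (C * P.π ^ p) + C' * P.π ^ (p * p) =
      -((p : Qb) * (M.e i₀ u₁ - M.e i₀ 0 - C * P.π ^ p) +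
        (∑ k ∈ Finset.Ico 1 (p - 1), B k) +
        ((fwdDiff (u₁ : G))^[p] f 0 - C' * P.π ^ (p * p))) by linear_combination hrel,
      Valuation.map_neg]
    refine (Valuation.map_add _ _ _).trans (max_le ((Valuation.map_add _ _ _).trans
      (max_le ?_ ?_)) hC')
    · rw [map_mul, ← P.vπ_pow]
      refine (mul_le_mul' le_rfl hC).trans ?_
      rw [← pow_add, P.vpow_le]
      nlinarith
    · exact hmid.trans (P.vpow_le.mpr (by nlinarith))
  have hA' : P.v ((p : Qb) * (C * P.π ^ p)) = P.v P.π ^ (P.e + p) := by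
    rw [map_mul, map_mul, hCv, one_mul, map_pow, ← P.vπ_pow, pow_add]
  have hne' : P.v ((p : Qb) * (C * P.π ^ p)) ≠ P.v (C' * P.π ^ (p * p)) := by
    rw [hA', map_mul, map_pow]
    rcases eq_or_ne C' 0 with h0 | h0
    · rw [h0, map_zero, zero_mul]; exact (pow_pos P.vπ_pos _).ne'
    obtain ⟨i, hi⟩ := SS2.exists_zpow_valuation_T hpr.out P.hA hC'T h0
    rw [hi, ← P.vπ_pow, ← zpow_natCast, ← zpow_natCast, ← zpow_natCast, ← zpow_mul,
      ← zpow_add₀ P.vπ_pos.ne', Ne, P.vzpow_inj]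
    intro heq
    have hd : (P.e : ℤ) ∣ ((p : ℤ) - 1) := ⟨i, by
      have : ((P.e : ℤ)) + 1 = (p : ℤ) * p := by exact_mod_cast (sq p) ▸ he2
      push_cast at heq
      linear_combination heq - this⟩
    have := Int.le_of_dvd (by have := P.three_le; omega) hd
    omega
  have hge : P.v P.π ^ (P.e + p) ≤ P.v P.π ^ (p * p + p) := by
    refine le_trans ?_ hsum
    rw [Valuation.map_add_of_distinct_val _ hne', ← hA']
    exact le_max_left _ _
  rw [P.vpow_le] at hge
  have : P.e < p * p := by rw [← sq]; omega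
  omega

end PlaceData

end FLTAgent.PT.TW

end
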