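import Fermat.Agent.PT.TW.Flat.Frame
import Fermat.Agent.PT.TW.Flat.ULemma
import Fermat.Agent.PT.TW.Flat.Residual

/-!
Parcel H, the irreducible shape: inertia acts through the fundamental characters of level two, and
the flat classes form a space of dimension at most that of `k`.
-/

set_option autoImplicit false
set_option linter.style.haveILetI false
set_option linter.unusedSectionVars false

noncomputable section

open Matrix groupCohomology

namespace FLTAgent.PT.TW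

open FLTAgent.Reduction (Qb)
open IsLocalRing (ResidueField)

variable {p : ℕ} [hpr : Fact p.Prime] {k : Type} [Field k] [Algebra (ZMod p) k]

namespace CData

variable {R : GQ →* GL (Fin 2) k} (d : CData p R)

/-- vertical elements with first coordinate killed by `φ` -/
def vert {X : Type} [AddCommGroup X] (φ : k →+ X) : AddSubgroup d.Mod where
  carrier := {x | x.fst = 0 ∧ φ (x.snd 0) = 0}
  add_mem' {x y} hx hy := ⟨by rw [ExtMod.add_fst, hx.1, hy.1, add_zero],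
    by rw [ExtMod.add_snd, Pi.add_apply, map_add, hx.2, hy.2, add_zero]⟩
  zero_mem' := ⟨rfl, by rw [ExtMod.zero_snd, Pi.zero_apply, map_zero]⟩
  neg_mem' {x} hx := by
    obtain ⟨h1, h2⟩ := hx
    have e : -x = ⟨-x.fst, -x.snd⟩ :=
      (eq_neg_of_add_eq_zero_left (ExtMod.ext (by simp) (by simp) :
        (⟨-x.fst, -x.snd⟩ : d.Mod) + x = 0)).symm
    refine ⟨?_, ?_⟩
    · rw [e]; show -x.fst = 0; rw [h1, neg_zero]
    · rw [e]; show φ ((-x.snd) 0) = 0; rw [Pi.neg_apply, map_neg, h2, neg_zero]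

theorem mem_vert {X : Type} [AddCommGroup X] (φ : k →+ X) {x : d.Mod} :
    x ∈ d.vert φ ↔ x.fst = 0 ∧ φ (x.snd 0) = 0 := Iff.rfl

theorem vert_stable_one {X : Type} [AddCommGroup X] (φ : k →+ X) {σ : GQ} (hσ : R σ = 1)
    {x : d.Mod} (hx : x ∈ d.vert φ) : σ • x ∈ d.vert φ := by
  refine ⟨?_, ?_⟩
  · rw [d.smul_fst, hx.1, Matrix.mulVec_zero]
  · rw [d.smul_snd, hx.1, Matrix.mulVec_zero, Matrix.mulVec_zero, zero_add, hσ, Units.val_one,
      Matrix.one_mulVec]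
    exact hx.2

/-- how a base vector moves -/
theorem moved {σ : GQ} (hσ : R σ = 1) (j : Fin 2) :
    (σ • (⟨Pi.single j 1, 0⟩ : d.Mod) - ⟨Pi.single j 1, 0⟩) = d.vec fun i => d.C σ i j := by
  rw [sub_eq_iff_eq_add]
  apply ExtMod.ext
  · rw [d.smul_fst, hσ, Units.val_one, Matrix.one_mulVec, ExtMod.add_fst, d.vec_fst, zero_add]
  · rw [d.smul_snd, hσ, Units.val_one, Matrix.one_mulVec, Matrix.one_mulVec, add_zero,
      ExtMod.add_snd, d.vec_snd, add_zero, Matrix.mulVec_single_one]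
    rfl

end CData

/-- a quadratic relation of the multiplier passes to the values -/
theorem hom_quad {F : Type} [Field F] [Algebra (ZMod p) F] (W : (k →+ ZMod p) →+ F) (ν : k) (c : F)
    (hW : ∀ l, W (l.comp (AddMonoidHom.mulLeft ν)) = c * W l) {t n : ZMod p}
    (hν : ν * ν = algebraMap (ZMod p) k t * ν - algebraMap (ZMod p) k n) (l : k →+ ZMod p) :
    (c * c - algebraMap (ZMod p) F t * c + algebraMap (ZMod p) F n) * W l = 0 := by
  haveI : NeZero p := ⟨hpr.out.ne_zero⟩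
  have e : (l.comp (AddMonoidHom.mulLeft ν)).comp (AddMonoidHom.mulLeft ν) =
      t.val • l.comp (AddMonoidHom.mulLeft ν) - n.val • l := by
    refine AddMonoidHom.ext fun z => ?_
    simp only [AddMonoidHom.coe_comp, Function.comp_apply, AddMonoidHom.coe_mulLeft,
      AddMonoidHom.sub_apply, AddMonoidHom.smul_apply, nsmul_eq_mul, ZMod.natCast_zmod_val]
    rw [← mul_assoc, hν, sub_mul, map_sub, mul_assoc, hom_algebraMap_mul, hom_algebraMap_mul]
  have h := congrArg W e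
  rw [hW, hW, map_sub, map_nsmul, map_nsmul, hW, nsmul_eq_mul, nsmul_eq_mul,
    ← map_natCast (algebraMap (ZMod p) F), ← map_natCast (algebraMap (ZMod p) F) n.val,
    ZMod.natCast_zmod_val, ZMod.natCast_zmod_val] at h
  linear_combination h

namespace PlaceData

variable (P : PlaceData p)

/-- exponents of `th s` below `2 e` -/
theorem pow_th_inj {s : GQ} (hgen : IsPrimitiveRoot (P.th s) P.e) {i j : ℕ} (hi : i < P.e)
    (hj : j < 2 * P.e) (h : P.th s ^ j = P.th s ^ i) : j = i ∨ j = i + P.e := by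
  rcases lt_or_ge j P.e with hje | hje
  · exact Or.inl (hgen.pow_inj hje hi h)
  · refine Or.inr ?_
    obtain ⟨l, rfl⟩ : ∃ l, j = l + P.e := ⟨j - P.e, by omega⟩
    rw [pow_add, P.th_pow_e, mul_one] at h
    rw [hgen.pow_inj (by omega) hi h]

theorem exists_moved {R : GQ →* GL (Fin 2) k} (d : CData p R) {S : Subgroup GQ}
    (M : Mdl P.A S d.Mod) (hH : P.H ≤ S) (hR : ∀ h ∈ P.H, R h = 1) {X : Type} [AddCommGroup X]
    (φ : k →+ X) (hW : M.W = d.vert φ) (j : Fin 2) {τ : GQ} (hτ : τ ∈ P.H) {L : P.A.ValueGroup}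
    (hL : L ≤ M.lev (d.vec fun i => d.C τ i j)) :
    ∃ a ∈ P.A, (∀ σ ∈ P.H, φ (d.C σ 0 j) = 0 → σ a = a) ∧ L ≤ P.v (τ a - a) := by
  set y : d.Mod := ⟨Pi.single j 1, 0⟩ with hy
  obtain ⟨i, hi⟩ := M.exists_diff y (d.vec fun i => d.C τ i j)
  refine ⟨M.e i y, (P.A.valuation_le_one_iff _).mp (M.val i y), fun σ hσ h0 => ?_,
    hL.trans (hi.trans (le_of_eq ?_))⟩
  · rw [← M.equiv σ (hH hσ), ← add_sub_cancel y (σ • y), hy, d.moved (hR σ hσ)]
    exact M.inv i _ _ (by rw [hW]; exact ⟨d.vec_fst _, h0⟩)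
  · rw [← M.equiv τ (hH hτ)]
    congr 2
    conv_rhs => rw [← add_sub_cancel y (τ • y), hy, d.moved (hR τ hτ)]

end PlaceData

/-- the irreducible shape of `R` at `p` -/
structure Irr (P : PlaceData p) [Algebra (ZMod p) (ResidueField P.A)]
    (R : GQ →* GL (Fin 2) k) where
  /-- the eigenvalue -/
  μ : k
  /-- the generator of tame inertia -/
  s : GQ
  hs : s ∈ P.I
  hgen : IsPrimitiveRoot (P.th s) P.e
  hμ2 : μ ^ p ^ 2 = μ
  hμp : μ ^ p ≠ μ
  hθ : Polynomial.aeval (P.th s) (minpoly (ZMod p) μ) = 0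
  hdet : ∀ g, (R g : Matrix (Fin 2) (Fin 2) k).det =
    algebraMap (ZMod p) k (ExtCitation.cycloChar p g)
  hH : ∀ h ∈ P.H, R h = 1
  hS : (R s : Matrix (Fin 2) (Fin 2) k) = !![μ, 0; 0, μ ^ p]
  h00 : (R P.φ : Matrix (Fin 2) (Fin 2) k) 0 0 = 0
  h11 : (R P.φ : Matrix (Fin 2) (Fin 2) k) 1 1 = 0
  hlevel : ∃ F : IntermediateField ℚ Qb, FiniteDimensional ℚ F ∧ ∀ g ∈ F.fixingSubgroup, R g = 1

namespace Irr

open PlaceData (conjH)

theorem not_dvd_succ : ¬ p ∣ p + 1 := fun h =>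
  hpr.out.ne_one (Nat.dvd_one.mp ((Nat.dvd_add_right dvd_rfl).mp h))

variable [Finite k] {P : PlaceData p} [Algebra (ZMod p) (ResidueField P.A)]
  {R : GQ →* GL (Fin 2) k} (I : Irr P R)

include I

/-- `th s` -/
def θ : ResidueField P.A := P.th I.s

theorem θ_root {Pol : Polynomial (ZMod p)} (h : Polynomial.aeval I.μ Pol = 0) :
    Polynomial.aeval I.θ Pol = 0 := by
  obtain ⟨q, rfl⟩ := minpoly.dvd (ZMod p) I.μ h
  rw [map_mul, show I.θ = P.th I.s from rfl, I.hθ, zero_mul]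

theorem μ_ne : I.μ ≠ 0 := fun h => I.hμp (by rw [h, zero_pow hpr.out.ne_zero])

theorem e_dvd {n : ℕ} (h : I.μ ^ n = 1) : P.e ∣ n := by
  refine (I.hgen.pow_eq_one_iff_dvd n).mp ?_
  have := I.θ_root (Pol := Polynomial.X ^ n - 1) (by simp [h])
  rw [map_sub, map_pow, Polynomial.aeval_X, map_one, sub_eq_zero] at this
  exact this

theorem θ_pow_ne : I.θ ^ p ≠ I.θ := by
  intro h
  have h2 := P.two_p_lt
  have h3 := P.three_le
  have : p = 1 := I.hgen.pow_inj (show p < P.e by omega) (show 1 < P.e by omega)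
    (h.trans (pow_one _).symm)
  omega

theorem θ_pow_sq : I.θ ^ p ^ 2 = I.θ := by
  rw [← P.e_add_one, pow_succ, show I.θ = P.th I.s from rfl, P.th_pow_e, one_mul]

/-- the quadratic relation of a power of `μ`, shared by `θ` -/
theorem exists_quad (m : ℕ) : ∃ t n : ZMod p,
    algebraMap (ZMod p) k t = I.μ ^ m + I.μ ^ (p * m) ∧
    algebraMap (ZMod p) k n = I.μ ^ m * I.μ ^ (p * m) ∧
    algebraMap (ZMod p) (ResidueField P.A) t = I.θ ^ m + I.θ ^ (p * m) ∧
    algebraMap (ZMod p) (ResidueField P.A) n = I.θ ^ m * I.θ ^ (p * m) := by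
  haveI : CharP k p := charP_of_injective_algebraMap' (ZMod p) p
  have hp1 : (I.μ ^ m) ^ p = I.μ ^ (p * m) := by rw [← pow_mul, mul_comm]
  have hp2 : (I.μ ^ (p * m)) ^ p = I.μ ^ m := by
    rw [← pow_mul, show p * m * p = p ^ 2 * m by ring, pow_mul, I.hμ2]
  obtain ⟨t, ht⟩ := exists_algebraMap_eq (p := p) (x := I.μ ^ m + I.μ ^ (p * m))
    (by rw [add_pow_char, hp1, hp2, add_comm])
  obtain ⟨n, hn⟩ := exists_algebraMap_eq (p := p) (x := I.μ ^ m * I.μ ^ (p * m))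
    (by rw [mul_pow, hp1, hp2, mul_comm])
  refine ⟨t, n, ht, hn, ?_, ?_⟩
  · have := I.θ_root (Pol := Polynomial.X ^ m + Polynomial.X ^ (p * m) - Polynomial.C t)
      (by simp [ht])
    rw [map_sub, map_add, map_pow, map_pow, Polynomial.aeval_X, Polynomial.aeval_C,
      sub_eq_zero] at this
    exact this.symm
  · have := I.θ_root (Pol := Polynomial.X ^ m * Polynomial.X ^ (p * m) - Polynomial.C n)
      (by simp [hn])
    rw [map_sub, map_mul, map_pow, map_pow, Polynomial.aeval_X, Polynomial.aeval_C,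
      sub_eq_zero] at this
    exact this.symm

theorem omega_μ : algebraMap (ZMod p) k (ExtCitation.cycloChar p I.s) = I.μ ^ (p + 1) := by
  rw [← I.hdet, I.hS, Matrix.det_fin_two_of, mul_zero, sub_zero, pow_succ']

theorem omega_θ :
    ((ExtCitation.cycloChar p I.s : ZMod p).val : ResidueField P.A) = I.θ ^ (p + 1) :=
  (P.th_cyclo I.hs).symm

/-! ### values of `R` -/

theorem R_s_pow (n : ℕ) :
    (R (I.s ^ n) : Matrix (Fin 2) (Fin 2) k) = !![I.μ ^ n, 0; 0, (I.μ ^ p) ^ n] := by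
  induction n with
  | zero => simp [Matrix.one_fin_two]
  | succ n ih =>
    rw [pow_succ, map_mul, Units.val_mul, ih, I.hS, Matrix.mul_fin_two]
    simp [pow_succ]

theorem R_inertia {σ : GQ} (hσ : σ ∈ P.I) : ∃ n : ℕ, P.th σ = I.θ ^ n ∧
    (R σ : Matrix (Fin 2) (Fin 2) k) = !![I.μ ^ n, 0; 0, (I.μ ^ p) ^ n] := by
  obtain ⟨n, h, hh, rfl⟩ := P.exists_pow_mul_H I.hs I.hgen hσ
  refine ⟨n, ?_, by rw [map_mul, I.hH h hh, mul_one, I.R_s_pow]⟩
  rw [P.th_mul (pow_mem I.hs n), P.th_pow I.hs, P.th_H hh, mul_one]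
  rfl

theorem R_s_inv : (((R I.s)⁻¹ : GL (Fin 2) k) : Matrix (Fin 2) (Fin 2) k) =
    !![I.μ⁻¹, 0; 0, (I.μ ^ p)⁻¹] := by
  refine Units.inv_eq_of_mul_eq_one_right ?_
  rw [I.hS, Matrix.mul_fin_two]
  simp [I.μ_ne, Matrix.one_fin_two]

/-- the upper right entry at Frobenius -/
def x (_I : Irr P R) : k := (R P.φ : Matrix (Fin 2) (Fin 2) k) 0 1

/-- the lower left entry at Frobenius -/
def y (_I : Irr P R) : k := (R P.φ : Matrix (Fin 2) (Fin 2) k) 1 0

theorem R_φ : (R P.φ : Matrix (Fin 2) (Fin 2) k) = !![0, I.x; I.y, 0] := by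
  rw [Matrix.eta_fin_two (R P.φ : Matrix (Fin 2) (Fin 2) k), I.h00, I.h11]
  rfl

theorem x_ne : I.x ≠ 0 ∧ I.y ≠ 0 := by
  have h := (Matrix.isUnit_iff_isUnit_det _).mp (R P.φ).isUnit
  rw [I.R_φ, Matrix.det_fin_two_of, zero_mul, zero_sub, isUnit_iff_ne_zero, neg_ne_zero,
    mul_ne_zero_iff] at h
  exact h

theorem R_φ_inv : (((R P.φ)⁻¹ : GL (Fin 2) k) : Matrix (Fin 2) (Fin 2) k) =
    !![0, I.y⁻¹; I.x⁻¹, 0] := by
  refine Units.inv_eq_of_mul_eq_one_right ?_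
  rw [I.R_φ, Matrix.mul_fin_two]
  simp [I.x_ne.1, I.x_ne.2, Matrix.one_fin_two]

variable (d : CData p R)

theorem C_conj_s {h : GQ} (hh : h ∈ P.H) :
    d.C (I.s⁻¹ * h * I.s) 0 0 = d.C h 0 0 ∧
      d.C (I.s⁻¹ * h * I.s) 0 1 = I.μ⁻¹ * I.μ ^ p * d.C h 0 1 := by
  rw [d.C_conj (I.hH h hh), I.R_s_inv, I.hS]
  have := I.μ_ne
  constructor <;> simp [Matrix.mul_apply, Fin.sum_univ_two, Matrix.vecMul, dotProduct] <;> field_simp

theorem C_conj_φ {h : GQ} (hh : h ∈ P.H) :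
    d.C (P.φ⁻¹ * h * P.φ) 0 0 = -d.C h 0 0 ∧
      d.C (P.φ⁻¹ * h * P.φ) 0 1 = I.y⁻¹ * d.C h 1 0 * I.x ∧
      d.C (P.φ⁻¹ * h * P.φ) 1 0 = I.x⁻¹ * d.C h 0 1 * I.y := by
  rw [d.C_conj (I.hH h hh), I.R_φ_inv, I.R_φ, ← neg_eq_iff_eq_neg.mpr (d.trace_diag h)]
  obtain ⟨hx, hy⟩ := I.x_ne
  refine ⟨?_, ?_, ?_⟩ <;> simp [Matrix.mul_apply, Fin.sum_univ_two, Matrix.vecMul, dotProduct] <;> field_simp

theorem kumS (i i' : Fin 2) (l : k →+ ZMod p) : d.ent i i' l ∈ P.KumS :=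
  P.ent_mem_kumS d I.hH i i' l

theorem conj_a_s (l : k →+ ZMod p) {h : GQ} (hh : h ∈ P.H) :
    conjH I.s (d.ent 0 0 l) h =
      ((ExtCitation.cycloChar p I.s : ZMod p) • d.ent 0 0 l) h := by
  simp only [conjH, CData.ent_apply, Pi.smul_apply, smul_eq_mul, (I.C_conj_s d hh).1]

theorem conj_b_s (l : k →+ ZMod p) {h : GQ} (hh : h ∈ P.H) :
    conjH I.s (d.ent 0 1 l) h =
      d.ent 0 1 (l.comp (AddMonoidHom.mulLeft (I.μ ^ (2 * p)))) h := by
  simp only [conjH, CData.ent_apply, (I.C_conj_s d hh).2, AddMonoidHom.coe_comp,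
    Function.comp_apply, AddMonoidHom.coe_mulLeft]
  rw [← hom_algebraMap_mul, I.omega_μ]
  congr 1
  have := I.μ_ne
  rw [two_mul, pow_add, pow_succ]
  field_simp
  ring

theorem conj_a_φ (l : k →+ ZMod p) {h : GQ} (hh : h ∈ P.H) :
    conjH P.φ (d.ent 0 0 l) h =
      ((-(ExtCitation.cycloChar p P.φ : ZMod p)) • d.ent 0 0 l) h := by
  simp only [conjH, CData.ent_apply, Pi.smul_apply, smul_eq_mul, (I.C_conj_φ d hh).1, map_neg]
  ring

theorem conj_b_φ (l : k →+ ZMod p) {h : GQ} (hh : h ∈ P.H) :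
    conjH P.φ (conjH P.φ (d.ent 0 1 l)) h =
      (((ExtCitation.cycloChar p P.φ : ZMod p) ^ 2) • d.ent 0 1 l) h := by
  have hh' : P.φ⁻¹ * h * P.φ ∈ P.H := by simpa using P.conj_mem_H (inv_mem P.φ_mem) hh
  simp only [conjH, CData.ent_apply, Pi.smul_apply, smul_eq_mul, (I.C_conj_φ d hh').2.1,
    (I.C_conj_φ d hh).2.2]
  obtain ⟨hx, hy⟩ := I.x_ne
  rw [show I.y⁻¹ * (I.x⁻¹ * d.C h 0 1 * I.y) * I.x = d.C h 0 1 by field_simp, sq, mul_assoc]

/-! ### residues of the entries -/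

theorem a_lvl_one (l : k →+ ZMod p) : d.ent 0 0 l ∈ P.Lvl 1 := by
  refine P.lvl_one_of_idx (I.kumS d 0 0 l) ?_
  have h := P.idx_conj (P.I_le_D I.hs) (I.kumS d 0 0 l)
  obtain ⟨hk, hsm⟩ := P.idx_smul (I.kumS d 0 0 l) (ExtCitation.cycloChar p I.s : ZMod p)
  rw [P.idx_congr (fun σ hσ => I.conj_a_s d l hσ) hk, hsm] at h
  by_contra hne
  have h1 : (ExtCitation.cycloChar p I.s : ZMod p) = 1 :=
    mul_right_cancel₀ hne (h.trans (one_mul _).symm)
  have := I.e_dvd (n := p + 1) (by rw [← I.omega_μ, h1, map_one])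
  have := Nat.le_of_dvd (by omega) this
  have := P.two_p_lt
  omega

theorem a_wL_zero (l : k →+ ZMod p) {j : ℕ} (hjp : ¬ p ∣ j) (hjt : j < p * (p + 1))
    (hj : j ≠ p + 1) (hl : d.ent 0 0 l ∈ P.Lvl j) : P.wL j (d.ent 0 0 l) = 0 := by
  have h1 := P.wL_conj_inertia I.hs hjp hjt hl
  obtain ⟨hsl, hsw⟩ := P.wL_smul hjp hjt hl (ExtCitation.cycloChar p I.s : ZMod p)
  rw [P.wL_congr hjp hjt (fun σ hσ => I.conj_a_s d l hσ) hsl, hsw, I.omega_θ] at h1
  by_contra hne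
  have h2 := mul_right_cancel₀ hne h1
  have h3 := P.two_p_lt
  have h4 := P.e_add_one
  rcases P.pow_th_inj I.hgen (show p + 1 < P.e by omega) (show j < 2 * P.e by nlinarith) h2.symm
    with h | h
  · exact hj h
  · nlinarith

theorem a_climb (l : k →+ ZMod p) {b : ℕ} (hb : b ≤ p + 1) : d.ent 0 0 l ∈ P.Lvl b := by
  refine P.lvl_anti hb (P.lvl_climb le_rfl (by nlinarith [P.three_le]) (I.a_lvl_one d l)
    fun j _ hj hjp hl => I.a_wL_zero d l hjp (by nlinarith [P.three_le]) (by omega) hl)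

theorem a_top (l : k →+ ZMod p) (h0 : P.wL (p + 1) (d.ent 0 0 l) = 0) {h : GQ} (hh : h ∈ P.H) :
    d.ent 0 0 l h = 0 := by
  have h3 := P.three_le
  refine P.eq_zero_of_lvl_top le_rfl (P.lvl_climb (i := p + 1) (by omega) le_rfl
    (I.a_climb d l le_rfl) fun j _ hj hjp hl => ?_) hh
  rcases eq_or_ne j (p + 1) with rfl | hne
  · exact h0
  · exact I.a_wL_zero d l hjp hj hne hl

theorem a_line {l₀ : k →+ ZMod p} (h0 : P.wL (p + 1) (d.ent 0 0 l₀) ≠ 0) (l : k →+ ZMod p) :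
    ∃ n : ℕ, ∀ h ∈ P.H, d.ent 0 0 l h = n * d.ent 0 0 l₀ h := by
  have h3 := P.three_le
  have hjt : p + 1 < p * (p + 1) := by nlinarith
  set j := p + 1
  set W := P.wLHom d 0 0 (not_dvd_succ (p := p)) hjt fun l => I.a_climb d l le_rfl
  set c : ZMod p := -(ExtCitation.cycloChar p P.φ : ZMod p)
  have hrel : ∀ l, P.th P.φ ^ j * W l ^ p = (c.val : ResidueField P.A) * W l := by
    intro l
    have hl := I.a_climb d l (le_refl j)
    have h1 := P.wL_conj_frob (not_dvd_succ (p := p)) hjt hl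
    obtain ⟨hsl, hsw⟩ := P.wL_smul (not_dvd_succ (p := p)) hjt hl c
    rw [P.wL_congr (not_dvd_succ (p := p)) hjt (fun σ hσ => I.conj_a_φ d l hσ) hsl, hsw] at h1
    exact h1.symm
  have hW0 : W l₀ ≠ 0 := h0
  have hfix : (W l / W l₀) ^ p = W l / W l₀ := by
    have e := hrel l
    have e0 := hrel l₀
    have hθ : P.th P.φ ^ j ≠ 0 := pow_ne_zero _ (P.th_ne _)
    rw [div_pow, div_eq_div_iff (pow_ne_zero p hW0) hW0]
    refine mul_left_cancel₀ hθ ?_
    linear_combination W l₀ * e - W l * e0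
  obtain ⟨n, -, hn⟩ := P.exists_natCast_of_pow_eq hfix
  refine ⟨n, fun h hh => ?_⟩
  have hW : W (l - n • l₀) = 0 := by
    rw [map_sub, map_nsmul, nsmul_eq_mul, hn, div_mul_cancel₀ _ hW0, sub_self]
  have := I.a_top d (l - n • l₀) hW hh
  simp only [CData.ent_apply, AddMonoidHom.sub_apply, AddMonoidHom.smul_apply, nsmul_eq_mul,
    sub_eq_zero] at this ⊢
  exact this

theorem θp_not_fp (t : ZMod p) : algebraMap (ZMod p) (ResidueField P.A) t ≠ I.θ ^ p := by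
  intro h
  have h1 : algebraMap (ZMod p) (ResidueField P.A) t ^ p = algebraMap (ZMod p) _ t := by
    rw [← map_pow, ZMod.pow_card]
  rw [h, ← pow_mul, ← sq, I.θ_pow_sq] at h1
  exact I.θ_pow_ne h1.symm

theorem θ_not_fp (t : ZMod p) : algebraMap (ZMod p) (ResidueField P.A) t ≠ I.θ := fun h =>
  I.θp_not_fp t (by
    conv_lhs => rw [← ZMod.pow_card t, map_pow, h])

/-- the map attached to a functional, multiplying `μ` into `θ` -/
def ι (l : k →+ ZMod p) : k →+ ResidueField P.A :=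
  AddMonoidHom.mk' (fun w => algebraMap (ZMod p) (ResidueField P.A) (l (I.μ * w)) -
      I.θ ^ p * algebraMap (ZMod p) (ResidueField P.A) (l w))
    fun w w' => by simp only [mul_add, map_add]; ring

theorem ι_apply (l : k →+ ZMod p) (w : k) : I.ι l w = algebraMap (ZMod p) _ (l (I.μ * w)) -
    I.θ ^ p * algebraMap (ZMod p) (ResidueField P.A) (l w) := rfl

theorem ι_mul (l : k →+ ZMod p) (w : k) : I.ι l (I.μ * w) = I.θ * I.ι l w := by
  obtain ⟨t, n, ht, hn, ht', hn'⟩ := I.exists_quad 1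
  rw [pow_one, mul_one] at ht hn ht' hn'
  have e : I.μ * (I.μ * w) = algebraMap (ZMod p) k t * (I.μ * w) - algebraMap (ZMod p) k n * w := by
    rw [ht, hn]; ring
  rw [ι_apply, ι_apply, e, map_sub l, hom_algebraMap_mul, hom_algebraMap_mul,
    map_sub (algebraMap (ZMod p) (ResidueField P.A)),
    map_mul (algebraMap (ZMod p) (ResidueField P.A)), map_mul (algebraMap (ZMod p) (ResidueField P.A)),
    ht', hn']
  ring

theorem ι_pow_mul (l : k →+ ZMod p) (n : ℕ) (w : k) :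
    I.ι l (I.μ ^ n * w) = I.θ ^ n * I.ι l w := by
  induction n with
  | zero => rw [pow_zero, pow_zero, one_mul, one_mul]
  | succ n ih => rw [pow_succ', pow_succ', mul_assoc, I.ι_mul, ih, mul_assoc]

theorem ι_eq_zero {l : k →+ ZMod p} {w : k} :
    I.ι l w = 0 ↔ l w = 0 ∧ l (I.μ * w) = 0 := by
  refine ⟨fun h => ?_, fun ⟨h1, h2⟩ => by rw [ι_apply, h1, h2, map_zero, mul_zero, sub_zero]⟩
  rw [ι_apply, sub_eq_zero] at h
  by_cases hw : l w = 0
  · rw [hw, map_zero, mul_zero, map_eq_zero] at h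
    exact ⟨hw, h⟩
  · refine absurd ?_ (I.θp_not_fp (l (I.μ * w) / l w))
    rw [map_div₀, h, mul_div_cancel_right₀ _ (by simpa using hw)]

theorem ι_fix (l : k →+ ZMod p) (w : k) : I.ι l w ^ p ^ 2 = I.ι l w := by
  haveI := P.charP_res
  rw [ι_apply, sub_pow_char_pow, mul_pow, ← map_pow (algebraMap (ZMod p) (ResidueField P.A)),
    ← map_pow (algebraMap (ZMod p) (ResidueField P.A)), ZMod.pow_card_pow,
    ZMod.pow_card_pow, ← pow_mul, mul_comm p, pow_mul, I.θ_pow_sq]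

theorem stable_vert (l : k →+ ZMod p) {σ : GQ} (hσ : σ ∈ P.I) {x : d.Mod} (hx : x.fst = 0) :
    (σ • x).fst = 0 ∧ I.ι l ((σ • x).snd 0) = P.th σ * I.ι l (x.snd 0) := by
  obtain ⟨n, hn, hR⟩ := I.R_inertia hσ
  refine ⟨by rw [d.smul_fst, hx, Matrix.mulVec_zero], ?_⟩
  rw [d.smul_snd, hx, Matrix.mulVec_zero, Matrix.mulVec_zero, zero_add, hR, hn, ← I.ι_pow_mul]
  simp [Matrix.mulVec, dotProduct, Fin.sum_univ_two]

/-- the quotient by the kernel of `ι l` and its function of valuation `v π` -/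
theorem exists_quot_unif (hM : ∃ M : Mdl P.A ⊤ d.Mod, M.W = ⊥) (l : k →+ ZMod p) {w₀ : k}
    (hw₀ : l w₀ ≠ 0) :
    ∃ M : Mdl P.A P.I d.Mod, M.W = d.vert (I.ι l) ∧ ∃ i, ∀ x : d.Mod, x.fst = 0 →
      I.ι l (x.snd 0) ≠ 0 → P.v (M.e i x - M.e i 0) = P.v P.π := by
  obtain ⟨M₀, hM₀⟩ := hM
  have hst : ∀ σ ∈ P.I, ∀ x ∈ d.vert (I.ι l), σ • x ∈ d.vert (I.ι l) := fun σ hσ x hx => by
    obtain ⟨h1, h2⟩ := I.stable_vert d l hσ hx.1
    exact ⟨h1, by rw [h2, hx.2, mul_zero]⟩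
  obtain ⟨M, hMW, -⟩ := M₀.exists_quot P.I le_top _ (by rw [hM₀]; exact bot_le) hst
  refine ⟨M, hMW, ?_⟩
  let U : AddSubgroup d.Mod := d.vert (0 : k →+ ZMod p)
  let ι' : U →+ ResidueField P.A := AddMonoidHom.mk' (fun u => I.ι l ((u : d.Mod).snd 0))
    fun u u' => by rw [AddSubgroup.coe_add, ExtMod.add_snd, Pi.add_apply, map_add]
  obtain ⟨i, hi⟩ := P.exists_unif M le_rfl U ι'
    (fun u => by rw [hMW]; exact ⟨fun h => ⟨u.2.1, h⟩, fun h => h.2⟩)
    (fun σ hσ u hu => ⟨(I.stable_vert d l hσ hu.1).1, rfl⟩)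
    (fun σ hσ u => (I.stable_vert d l hσ u.2.1).2)
    (fun u => I.ι_fix l _)
    ⟨⟨d.vec ![w₀, 0], rfl, rfl⟩, fun h => hw₀ (I.ι_eq_zero.mp h).1⟩
  exact ⟨i, fun x hx hne => hi x ⟨hx, rfl⟩ (by rw [hMW]; exact fun h => hne h.2)⟩

/-- the diagonal entry vanishes on `H` for a flat cocycle -/
theorem a_eq_zero (hM : ∃ M : Mdl P.A ⊤ d.Mod, M.W = ⊥) {h : GQ} (hh : h ∈ P.H) :
    d.C h 0 0 = 0 := by
  haveI : Module.Finite (ZMod p) k := Module.Finite.of_finite
  haveI : NeZero p := ⟨hpr.out.ne_zero⟩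
  have h3 := P.three_le
  have hjt : p + 1 < p * (p + 1) := by nlinarith
  rw [← Module.forall_dual_apply_eq_zero_iff (ZMod p)]
  intro f
  by_cases hall : ∀ l, P.wL (p + 1) (d.ent 0 0 l) = 0
  · exact I.a_top d f.toAddMonoidHom (hall _) hh
  push Not at hall
  obtain ⟨l₁, hl₁⟩ := hall
  obtain ⟨τ, hτ, hτ1⟩ : ∃ τ ∈ P.H, d.ent 0 0 l₁ τ ≠ 0 := by
    by_contra hno
    push Not at hno
    refine hl₁ ?_
    rw [← P.wL_zero (not_dvd_succ (p := p)) hjt]
    exact P.wL_congr (not_dvd_succ (p := p)) hjt hno (zero_mem _)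
  set c := (d.ent 0 0 l₁ τ)⁻¹ with hc
  set l₀ := c.val • l₁ with hl₀
  have hτ0 : d.ent 0 0 l₀ τ = 1 := by
    rw [CData.ent_apply, hl₀, AddMonoidHom.smul_apply, nsmul_eq_mul, ZMod.natCast_zmod_val, hc]
    exact inv_mul_cancel₀ hτ1
  have hw₀ : P.wL (p + 1) (d.ent 0 0 l₀) ≠ 0 := by
    have e : d.ent 0 0 l₀ = c • d.ent 0 0 l₁ := funext fun g => by
      rw [Pi.smul_apply, CData.ent_apply, CData.ent_apply, hl₀, AddMonoidHom.smul_apply,
        nsmul_eq_mul, ZMod.natCast_zmod_val, smul_eq_mul]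
    rw [e, (P.wL_smul (not_dvd_succ (p := p)) hjt (I.a_climb d l₁ le_rfl) c).2]
    refine mul_ne_zero (fun h0 => ?_) hl₁
    rw [← P.algebraMap_val, map_eq_zero] at h0
    exact inv_ne_zero hτ1 h0
  exfalso
  -- the values lie on a line
  set a₀ := d.C τ 0 0
  have hline : ∀ σ ∈ P.H, d.C σ 0 0 = algebraMap (ZMod p) k (d.ent 0 0 l₀ σ) * a₀ := by
    intro σ hσ
    rw [← sub_eq_zero, ← Module.forall_dual_apply_eq_zero_iff (ZMod p)]
    intro g
    obtain ⟨n, hn⟩ := I.a_line d hw₀ g.toAddMonoidHom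
    have h1 := hn σ hσ
    have h2 := hn τ hτ
    rw [hτ0, mul_one] at h2
    simp only [CData.ent_apply] at h1 h2 ⊢
    rw [map_sub, ← Algebra.smul_def, map_smul, smul_eq_mul]
    rw [show g (d.C σ 0 0) = g.toAddMonoidHom (d.C σ 0 0) from rfl, h1,
      show g a₀ = g.toAddMonoidHom (d.C τ 0 0) from rfl, h2]
    ring
  obtain ⟨M, hMW, i, hi⟩ := I.exists_quot_unif d hM l₀ (w₀ := a₀) (by
    rw [show l₀ a₀ = 1 from hτ0]; exact one_ne_zero)
  have hlev : P.v P.π ^ 1 ≤ M.lev (d.vec fun i => d.C τ i 0) := by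
    rw [pow_one, ← hi (d.vec fun i => d.C τ i 0) rfl]
    · exact M.le_lev i _
    · exact fun h0 => one_ne_zero (hτ0.symm.trans (I.ι_eq_zero.mp h0).1)
  obtain ⟨a, haA, haker, hamv⟩ := P.exists_moved d M P.H_le I.hH (I.ι l₀) hMW 0 hτ hlev
  have := P.crit_level (not_dvd_succ (p := p)) hjt (I.a_climb d l₀ le_rfl) hw₀ haA
    (fun σ hσ h0 => haker σ hσ (by rw [hline σ hσ, h0, map_zero, zero_mul, map_zero]))
    hτ hτ0 (P.ent_hadd d I.hH 0 0 l₀) (show 1 ≤ p + 1 by omega) hamv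
  rw [Nat.add_sub_cancel] at this
  nlinarith

/-! ### the entry `(0, 1)` -/

theorem b_lvl_one (l : k →+ ZMod p) : d.ent 0 1 l ∈ P.Lvl 1 := by
  refine P.lvl_one_of_idx (I.kumS d 0 1 l) ?_
  let W : (k →+ ZMod p) →+ ZMod p := AddMonoidHom.mk' (fun l => P.idx (d.ent 0 1 l))
    fun l l' => by rw [d.ent_add, P.idx_add (I.kumS d 0 1 l) (I.kumS d 0 1 l')]
  have hW : ∀ l, W (l.comp (AddMonoidHom.mulLeft (I.μ ^ (2 * p)))) = 1 * W l := fun l => by
    rw [one_mul]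
    exact (P.idx_congr (fun σ hσ => I.conj_b_s d l hσ) (I.kumS d 0 1 _)).symm.trans
      (P.idx_conj (P.I_le_D I.hs) (I.kumS d 0 1 l))
  obtain ⟨t, n, ht, hn, -, -⟩ := I.exists_quad (2 * p)
  have h := hom_quad W (I.μ ^ (2 * p)) 1 hW (t := t) (n := n) (by rw [ht, hn]; ring) l
  simp only [Algebra.algebraMap_self, RingHom.id_apply, mul_one, mul_eq_zero] at h
  refine h.resolve_left fun h0 => ?_
  have h1 : (1 - I.μ ^ (2 * p)) * (1 - I.μ ^ (p * (2 * p))) = 0 := by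
    have := congrArg (algebraMap (ZMod p) k) h0
    rw [map_add, map_sub, map_one, map_zero, ht, hn] at this
    linear_combination this
  have h3 := P.three_le
  have h4 := P.two_p_lt
  rcases mul_eq_zero.mp h1 with h2 | h2
  · have := Nat.le_of_dvd (by omega) (I.e_dvd (sub_eq_zero.mp h2).symm)
    omega
  · rw [show p * (2 * p) = p ^ 2 * 2 by ring, pow_mul, I.hμ2, sub_eq_zero] at h2
    have := Nat.le_of_dvd two_pos (I.e_dvd h2.symm)
    omega

/-- the conjugation relation of the residues -/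
theorem b_wL_rel {j : ℕ} (hjp : ¬ p ∣ j) (hjt : j < p * (p + 1))
    (hall : ∀ l, d.ent 0 1 l ∈ P.Lvl j) (l : k →+ ZMod p) :
    P.wLHom d 0 1 hjp hjt hall (l.comp (AddMonoidHom.mulLeft (I.μ ^ (2 * p)))) =
      I.θ ^ j * P.wLHom d 0 1 hjp hjt hall l := by
  have h1 := P.wL_conj_inertia I.hs hjp hjt (hall l)
  rw [P.wL_congr hjp hjt (fun σ hσ => I.conj_b_s d l hσ) (hall _)] at h1
  exact h1

theorem b_wL_zero {j : ℕ} (hjp : ¬ p ∣ j) (hjt : j < p * (p + 1)) (hj2 : j ≠ 2)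
    (hje : j ≠ P.e + 2) (hall : ∀ l, d.ent 0 1 l ∈ P.Lvl j) (l : k →+ ZMod p) :
    P.wL j (d.ent 0 1 l) = 0 := by
  obtain ⟨t, n, ht, hn, ht', hn'⟩ := I.exists_quad (2 * p)
  have h := hom_quad (P.wLHom d 0 1 hjp hjt hall) (I.μ ^ (2 * p)) (I.θ ^ j)
    (I.b_wL_rel d hjp hjt hall) (t := t) (n := n) (by rw [ht, hn]; ring) l
  rw [ht', hn', mul_eq_zero] at h
  refine h.resolve_left fun h0 => ?_
  have h1 : (I.θ ^ j - I.θ ^ (2 * p)) * (I.θ ^ j - I.θ ^ (p * (2 * p))) = 0 := by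
    linear_combination h0
  have h3 := P.three_le
  have h4 := P.two_p_lt
  have h5 := P.e_add_one
  have hj2e : j < 2 * P.e := by nlinarith
  rcases mul_eq_zero.mp h1 with h2 | h2
  · rcases P.pow_th_inj I.hgen (show 2 * p < P.e by omega) hj2e (sub_eq_zero.mp h2) with h6 | h6
    · exact hjp ⟨2, by rw [h6]; ring⟩
    · nlinarith
  · rw [show I.θ ^ (p * (2 * p)) = I.θ ^ 2 by
      rw [show p * (2 * p) = p ^ 2 * 2 by ring, pow_mul, I.θ_pow_sq]] at h2
    rcases P.pow_th_inj I.hgen (show 2 < P.e by omega) hj2e (sub_eq_zero.mp h2) with h6 | h6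
    · exact hj2 h6
    · omega

theorem exists_line (l : k →+ ZMod p) {w₁ : k} (hw₁ : l w₁ = 1) :
    ∃ w : k, l w = 0 ∧ l (I.μ * w) ≠ 0 := by
  obtain ⟨t, n, ht, hn, ht', hn'⟩ := I.exists_quad 1
  rw [pow_one, mul_one] at ht hn ht' hn'
  set c := l (I.μ * w₁) with hc
  refine ⟨I.μ * w₁ - algebraMap (ZMod p) k c * w₁, by
    rw [map_sub, hom_algebraMap_mul, hw₁, mul_one, ← hc, sub_self], fun h0 => ?_⟩
  have e : I.μ * (I.μ * w₁ - algebraMap (ZMod p) k c * w₁) = algebraMap (ZMod p) k t * (I.μ * w₁) -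
      algebraMap (ZMod p) k n * w₁ - algebraMap (ZMod p) k c * (I.μ * w₁) := by
    rw [ht, hn]; ring
  rw [e, map_sub, map_sub, hom_algebraMap_mul, hom_algebraMap_mul, hom_algebraMap_mul, hw₁,
    ← hc] at h0
  have h1 := congrArg (algebraMap (ZMod p) (ResidueField P.A)) h0
  simp only [map_sub, map_mul, map_one, map_zero, ht', hn'] at h1
  have h2 : (algebraMap (ZMod p) (ResidueField P.A) c - I.θ) *
      (algebraMap (ZMod p) (ResidueField P.A) c - I.θ ^ p) = 0 := by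
    linear_combination -h1
  rcases mul_eq_zero.mp h2 with h | h
  · exact I.θ_not_fp c (sub_eq_zero.mp h)
  · exact I.θp_not_fp c (sub_eq_zero.mp h)

theorem not_dvd_two : ¬ p ∣ 2 := fun h => by
  have := Nat.le_of_dvd two_pos h
  have := P.three_le
  omega

/-- the level two does not occur for a flat cocycle -/
theorem b_not_two (hM : ∃ M : Mdl P.A ⊤ d.Mod, M.W = ⊥) (h2 : ∀ l, d.ent 0 1 l ∈ P.Lvl 2)
    (l₁ : k →+ ZMod p) : P.wL 2 (d.ent 0 1 l₁) = 0 := by
  classical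
  haveI : NeZero p := ⟨hpr.out.ne_zero⟩
  have h3 := P.three_le
  have hjt : 2 < p * (p + 1) := by nlinarith
  by_contra hl₁
  obtain ⟨τ, hτ, hτ1⟩ : ∃ τ ∈ P.H, d.ent 0 1 l₁ τ ≠ 0 := by
    by_contra hno
    push Not at hno
    refine hl₁ ?_
    rw [← P.wL_zero (I.not_dvd_two) hjt]
    exact P.wL_congr I.not_dvd_two hjt hno (zero_mem _)
  set c := (d.ent 0 1 l₁ τ)⁻¹ with hc
  set l₀ := c.val • l₁ with hl₀
  have hτ0 : d.ent 0 1 l₀ τ = 1 := by
    rw [CData.ent_apply, hl₀, AddMonoidHom.smul_apply, nsmul_eq_mul, ZMod.natCast_zmod_val, hc]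
    exact inv_mul_cancel₀ hτ1
  have hw₀ : P.wL 2 (d.ent 0 1 l₀) ≠ 0 := by
    have e : d.ent 0 1 l₀ = c • d.ent 0 1 l₁ := funext fun g => by
      rw [Pi.smul_apply, CData.ent_apply, CData.ent_apply, hl₀, AddMonoidHom.smul_apply,
        nsmul_eq_mul, ZMod.natCast_zmod_val, smul_eq_mul]
    rw [e, (P.wL_smul I.not_dvd_two hjt (h2 l₁) c).2]
    refine mul_ne_zero (fun h0 => ?_) hl₁
    rw [← P.algebraMap_val, map_eq_zero] at h0
    exact inv_ne_zero hτ1 h0
  obtain ⟨wst, hwst, hwst'⟩ := I.exists_line l₀ (w₁ := d.C τ 0 1) hτ0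
  obtain ⟨M, hMW, i, hi⟩ := I.exists_quot_unif d hM l₀ (w₀ := d.C τ 0 1) (by
    rw [show l₀ (d.C τ 0 1) = 1 from hτ0]; exact one_ne_zero)
  set u : d.Mod := d.vec ![wst, 0] with hu
  set f : d.Mod → Qb := fun x => M.e i x - M.e i 0 with hf
  have hfcb : M.Cb 1 f := (Comb.base i).add (M.cb_const (a := -M.e i 0)
    (by rw [Valuation.map_neg]; exact M.val i 0)) |>.congr fun x => sub_eq_add_neg _ _
  set N : d.Mod → Qb := fun x => ∏ j : ZMod p, f (x + j.val • u) with hN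
  have hNcb : M.Cb 1 N := M.cb_prod Finset.univ fun j _ => M.cb_translate hfcb _
  have hval : ∀ a b : ZMod p, (a + b).val • u = a.val • u + b.val • u := fun a b => by
    rw [← add_smul, ZMod.val_add]
    conv_rhs => rw [← Nat.mod_add_div (a.val + b.val) p, add_smul, mul_comm, mul_smul,
      d.nsmul_eq_zero, smul_zero, add_zero]
  have hNinv : ∀ x, ∀ w ∈ d.vert l₀, N (x + w) = N x := by
    intro x w hw
    set m : ZMod p := l₀ (I.μ * w.snd 0) / l₀ (I.μ * wst)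
    have hmem : w - m.val • u ∈ M.W := by
      have e : m.val • u = d.vec (m.val • ![wst, 0]) := (map_nsmul d.vec _ _).symm
      have hsub : w - m.val • u = ⟨0, w.snd - m.val • ![wst, 0]⟩ := by
        rw [sub_eq_iff_eq_add, e]
        apply ExtMod.ext
        · rw [ExtMod.add_fst, d.vec_fst, add_zero]; exact hw.1
        · rw [ExtMod.add_snd, d.vec_snd, sub_add_cancel]
      rw [hMW, hsub]
      refine ⟨rfl, ?_⟩
      show I.ι l₀ ((w.snd - m.val • ![wst, 0]) 0) = 0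
      rw [Pi.sub_apply, Pi.smul_apply, Matrix.cons_val_zero, I.ι_eq_zero]
      refine ⟨by rw [map_sub, map_nsmul, hw.2, hwst, smul_zero, sub_zero], ?_⟩
      rw [mul_sub, mul_smul_comm, map_sub, map_nsmul, nsmul_eq_mul, ZMod.natCast_zmod_val,
        div_mul_cancel₀ _ hwst', sub_self]
    simp only [hN]
    refine Fintype.prod_equiv (Equiv.addRight m) _ _ fun j => ?_
    rw [Equiv.coe_addRight, hval, show x + w + j.val • u =
      x + (j.val • u + m.val • u) + (w - m.val • u) by abel]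
    exact M.cb_inv hfcb hmem _
  obtain ⟨M', hMW', hMcb⟩ := M.exists_quot P.H P.H_le (d.vert l₀)
    (by rw [hMW]; exact fun x hx => ⟨hx.1, (I.ι_eq_zero.mp hx.2).1⟩)
    (fun σ hσ x hx => d.vert_stable_one l₀ (I.hH σ hσ) hx)
  set z : d.Mod := d.vec fun i => d.C τ i 1 with hz
  have hNz : P.v (N z) = P.v P.π ^ p := by
    rw [hN, map_prod, Finset.prod_congr rfl (g := fun _ => P.v P.π) fun j _ => ?_,
      Finset.prod_const, Finset.card_univ, ZMod.card]
    have e : z + j.val • u = d.vec ((fun i => d.C τ i 1) + j.val • ![wst, 0]) := by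
      rw [map_add, map_nsmul]
    refine hi _ (by rw [e, d.vec_fst]) ?_
    rw [e, d.vec_snd, Pi.add_apply, Pi.smul_apply, Matrix.cons_val_zero]
    intro h0
    have h1 := (I.ι_eq_zero.mp h0).1
    rw [map_add, map_nsmul, hwst, smul_zero, add_zero] at h1
    exact one_ne_zero (hτ0.symm.trans h1)
  have hN0 : N 0 = 0 := by
    simp only [hN]
    refine Finset.prod_eq_zero (Finset.mem_univ 0) ?_
    simp [hf]
  have hlev : P.v P.π ^ p ≤ M'.lev z := by
    have := M'.cb_sub_le (hMcb 1 N hNcb hNinv) z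
    rwa [one_mul, hN0, sub_zero, hNz] at this
  obtain ⟨a, haA, haker, hamv⟩ := P.exists_moved d M' le_rfl I.hH l₀ hMW' 1 hτ hlev
  have := P.crit_level I.not_dvd_two hjt (h2 l₀) hw₀ haA haker hτ hτ0
    (P.ent_hadd d I.hH 0 1 l₀) (show p ≤ p + 1 by omega) hamv
  rw [Nat.add_sub_cancel_left, mul_one] at this
  omega

theorem b_lvl (hM : ∃ M : Mdl P.A ⊤ d.Mod, M.W = ⊥) (l : k →+ ZMod p) :
    d.ent 0 1 l ∈ P.Lvl (P.e + 2) := by
  have h5 := P.e_add_one
  have h3 := P.three_le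
  have hb : P.e + 2 ≤ p * (p + 1) := by nlinarith
  refine P.ent_climb d 0 1 le_rfl hb (I.b_lvl_one d) (fun j _ hj hjp hall l => ?_) l
  rcases eq_or_ne j 2 with rfl | h2
  · exact I.b_not_two d hM hall l
  · exact I.b_wL_zero d hjp (hj.trans_le hb) h2 hj.ne hall l

/-! ### triviality -/

theorem C_H_zero (ha : ∀ h ∈ P.H, d.C h 0 0 = 0) (hl : ∀ l, d.ent 0 1 l ∈ P.Lvl (P.e + 2))
    (hw : ∀ l, P.wL (P.e + 2) (d.ent 0 1 l) = 0) {h : GQ} (hh : h ∈ P.H) : d.C h = 0 := by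
  have h5 := P.e_add_one
  have h3 := P.three_le
  have hb : P.e + 2 ≤ p * (p + 1) := by nlinarith
  have htop := P.ent_climb d 0 1 (b := p * (p + 1)) (show 1 ≤ P.e + 2 by omega) le_rfl hl
    fun j hj hjt hjp hall l => by
      rcases eq_or_ne j (P.e + 2) with rfl | hne
      · exact hw l
      · exact I.b_wL_zero d hjp hjt (by omega) hne hall l
  have hb0 : ∀ {g}, g ∈ P.H → d.C g 0 1 = 0 := fun {g} hg => P.entry_eq_zero d 0 1 le_rfl htop hg
  have hc : d.C h 1 0 = 0 := by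
    have hh' : P.φ⁻¹ * h * P.φ ∈ P.H := by simpa using P.conj_mem_H (inv_mem P.φ_mem) hh
    have h1 := (I.C_conj_φ d hh).2.1
    rw [hb0 hh', eq_comm, mul_eq_zero, or_iff_left I.x_ne.1, mul_eq_zero,
      or_iff_right (inv_ne_zero I.x_ne.2)] at h1
    exact h1
  ext i i'
  fin_cases i <;> fin_cases i'
  · exact ha h hh
  · exact hb0 hh
  · exact hc
  · show d.C h 1 1 = 0
    rw [d.trace_diag, ha h hh, neg_zero]

theorem coc_s (h : GQ) :
    d.C (I.s * h) 0 0 = d.C h 0 0 + d.C I.s 0 0 := by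
  rw [d.coc, Matrix.add_apply, I.R_s_inv, I.hS]
  have := I.μ_ne
  simp [Matrix.mul_apply, Fin.sum_univ_two, Matrix.vecMul, dotProduct]
  field_simp

theorem exists_triv (hC : ∀ h ∈ P.H, d.C h = 0) :
    ∃ m : Matrix (Fin 2) (Fin 2) k, m.trace = 0 ∧ ∀ g ∈ P.D, d.C g +
      ((R g : Matrix (Fin 2) (Fin 2) k) * m * ((R g)⁻¹ : GL (Fin 2) k) - m) = 0 := by
  haveI : CharP k p := charP_of_injective_algebraMap' (ZMod p) p
  have h3 := P.three_le
  have hμ := I.μ_ne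
  obtain ⟨hx, hy⟩ := I.x_ne
  have h2k : (2 : k) ≠ 0 := fun h => by
    have := (CharP.cast_eq_zero_iff k p 2).mp (by exact_mod_cast h)
    exact I.not_dvd_two this
  have hne : I.μ * (I.μ ^ p)⁻¹ - 1 ≠ 0 := fun h => I.hμp (by
    rw [sub_eq_zero, mul_inv_eq_one₀ (pow_ne_zero p hμ)] at h; exact h.symm)
  have hne' : I.μ ^ p * I.μ⁻¹ - 1 ≠ 0 := fun h => I.hμp (by
    rw [sub_eq_zero, mul_inv_eq_one₀ hμ] at h; exact h)
  have has : d.C I.s 0 0 = 0 := by
    have hn : ∀ n : ℕ, d.C (I.s ^ n) 0 0 = n * d.C I.s 0 0 := fun n => by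
      induction n with
      | zero => rw [pow_zero, d.C_one, Matrix.zero_apply, Nat.cast_zero, zero_mul]
      | succ n ih => rw [pow_succ', I.coc_s d, ih, Nat.cast_succ]; ring
    have he : I.s ^ P.e ∈ P.H :=
      P.mem_H_iff.mpr ⟨pow_mem I.hs _, by rw [P.th_pow I.hs, P.th_pow_e]⟩
    have h1 := hn P.e
    rw [hC _ he, Matrix.zero_apply, eq_comm, mul_eq_zero] at h1
    exact h1.resolve_left fun h => P.not_dvd_e ((CharP.cast_eq_zero_iff k p _).mp h)
  set t := d.C P.φ 0 0 / 2 with ht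
  set β := -d.C I.s 0 1 / (I.μ * (I.μ ^ p)⁻¹ - 1) with hβ
  set γ := -d.C I.s 1 0 / (I.μ ^ p * I.μ⁻¹ - 1) with hγ
  set m : Matrix (Fin 2) (Fin 2) k := !![t, β; γ, -t] with hm
  have hmt : m.trace = 0 := by rw [hm, Matrix.trace_fin_two_of, add_neg_cancel]
  refine ⟨m, hmt, fun g hg => ?_⟩
  set d' := d.shift m hmt I.hlevel
  show d'.C g = 0
  have hH' : ∀ h ∈ P.H, d'.C h = 0 := fun h hh => by
    show d.C h + _ = 0
    rw [hC h hh, I.hH h hh, inv_one, Units.val_one, one_mul, mul_one, sub_self, add_zero]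
  have hs' : d'.C I.s = 0 := by
    have e11 := d'.trace_diag I.s
    have e00 : d'.C I.s 0 0 = 0 := by
      show (d.C I.s + _) 0 0 = 0
      rw [Matrix.add_apply, has, I.R_s_inv, I.hS, hm]
      simp [Matrix.mul_apply, Fin.sum_univ_two, Matrix.vecMul, dotProduct]
      field_simp
      ring
    ext i i'
    fin_cases i <;> fin_cases i'
    · exact e00
    · show (d.C I.s + _) 0 1 = 0
      rw [Matrix.add_apply, I.R_s_inv, I.hS, hm]
      simp [Matrix.mul_apply, Fin.sum_univ_two, Matrix.vecMul, dotProduct]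
      have e : β * (I.μ * (I.μ ^ p)⁻¹ - 1) = -d.C I.s 0 1 := div_mul_cancel₀ _ hne
      linear_combination e
    · show (d.C I.s + _) 1 0 = 0
      rw [Matrix.add_apply, I.R_s_inv, I.hS, hm]
      simp [Matrix.mul_apply, Fin.sum_univ_two, Matrix.vecMul, dotProduct]
      have e : γ * (I.μ ^ p * I.μ⁻¹ - 1) = -d.C I.s 1 0 := div_mul_cancel₀ _ hne'
      linear_combination e
    · show d'.C I.s 1 1 = 0
      rw [e11, e00, neg_zero]
  have hI' : ∀ σ ∈ P.I, d'.C σ = 0 := by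
    intro σ hσ
    obtain ⟨n, h, hh, rfl⟩ := P.exists_pow_mul_H I.hs I.hgen hσ
    induction n with
    | zero => rw [pow_zero, one_mul]; exact hH' h hh
    | succ n ih =>
      rw [pow_succ', mul_assoc, d'.coc, ih (mul_mem (pow_mem I.hs n) (P.H_le hh)), hs', mul_zero,
        zero_mul, zero_add]
  refine P.eq_zero_on_D d' hI' ?_ g hg
  have hcomm : ((R I.s : Matrix (Fin 2) (Fin 2) k) * d'.C P.φ * ((R I.s)⁻¹ : GL (Fin 2) k)) =
      d'.C P.φ := by
    have hσ' : P.φ⁻¹ * I.s * P.φ ∈ P.I := by simpa using P.conj_mem_I (inv_mem P.φ_mem) I.hs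
    have h1 := d'.coc P.φ (P.φ⁻¹ * I.s * P.φ)
    rw [hI' _ hσ', mul_zero, zero_mul, zero_add, show P.φ * (P.φ⁻¹ * I.s * P.φ) = I.s * P.φ by group,
      d'.coc, hs', add_zero] at h1
    exact h1
  have e01 := congrFun (congrFun hcomm 0) 1
  have e10 := congrFun (congrFun hcomm 1) 0
  rw [I.R_s_inv, I.hS] at e01 e10
  simp [Matrix.mul_apply, Fin.sum_univ_two, Matrix.vecMul, dotProduct] at e01 e10
  have f01 : d'.C P.φ 0 1 = 0 := by
    by_contra hne0
    exact hne (mul_right_cancel₀ hne0 (a := I.μ * (I.μ ^ p)⁻¹ - 1) (c := 0)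
      (by linear_combination e01))
  have f10 : d'.C P.φ 1 0 = 0 := by
    by_contra hne0
    exact hne' (mul_right_cancel₀ hne0 (a := I.μ ^ p * I.μ⁻¹ - 1) (c := 0)
      (by linear_combination e10))
  have f00 : d'.C P.φ 0 0 = 0 := by
    show (d.C P.φ + _) 0 0 = 0
    rw [Matrix.add_apply, I.R_φ_inv, I.R_φ, hm]
    simp [Matrix.mul_apply, Fin.sum_univ_two, Matrix.vecMul, dotProduct]
    have e : t * 2 = d.C P.φ 0 0 := div_mul_cancel₀ _ h2k
    field_simp
    linear_combination -e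
  ext i i'
  fin_cases i <;> fin_cases i'
  · exact f00
  · exact f01
  · exact f10
  · show d'.C P.φ 1 1 = 0
    rw [d'.trace_diag, f00, neg_zero]

theorem natDegree_two :
    2 ≤ (minpoly (ZMod p) (I.μ ^ (2 * p))).natDegree := by
  have hint : IsIntegral (ZMod p) (I.μ ^ (2 * p)) := IsIntegral.of_finite (ZMod p) _
  have h1 := minpoly.natDegree_pos hint
  by_contra hlt
  obtain ⟨t, ht⟩ := (minpoly.natDegree_eq_one_iff).mp (show
    (minpoly (ZMod p) (I.μ ^ (2 * p))).natDegree = 1 by omega)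
  have h2 : (I.μ ^ (2 * p)) ^ p = I.μ ^ (2 * p) := by rw [← ht, ← map_pow, ZMod.pow_card]
  rw [← pow_mul, show 2 * p * p = p ^ 2 * 2 by ring, pow_mul, I.hμ2] at h2
  have h3 := P.three_le
  have h4 := P.two_p_lt
  have h6 : I.μ ^ (2 * p - 2) = 1 := by
    refine mul_right_cancel₀ (pow_ne_zero 2 I.μ_ne) ?_
    rw [← pow_add, show 2 * p - 2 + 2 = 2 * p by omega, one_mul, h2]
  have := Nat.le_of_dvd (by omega) (I.e_dvd h6)
  omega

theorem frob_rel (hl : ∀ l, d.ent 0 1 l ∈ P.Lvl (P.e + 2)) (hjp : ¬ p ∣ P.e + 2)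
    (hjt : P.e + 2 < p * (p + 1)) (l : k →+ ZMod p) :
    P.th P.φ ^ (P.e + 2) * (P.th P.φ ^ (P.e + 2) * P.wL (P.e + 2) (d.ent 0 1 l) ^ p) ^ p =
      (((ExtCitation.cycloChar p P.φ : ZMod p) ^ 2).val : ResidueField P.A) *
        P.wL (P.e + 2) (d.ent 0 1 l) := by
  have h1 := P.lvl_conj P.φ_mem (hl l)
  obtain ⟨hsl, hsw⟩ := P.wL_smul hjp hjt (hl l) ((ExtCitation.cycloChar p P.φ : ZMod p) ^ 2)
  rw [← hsw, ← P.wL_congr hjp hjt (fun σ hσ => I.conj_b_φ d l hσ) hsl,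
    P.wL_conj_frob hjp hjt h1, P.wL_conj_frob hjp hjt (hl l)]

end Irr

/-- the irreducible case of the flat bound -/
theorem exists_bound_irred [Finite k] (P : PlaceData p) [Algebra (ZMod p) (ResidueField P.A)]
    (r : GQ →* GL (Fin 2) k) (Q : GL (Fin 2) k) (I : Irr P (conjRep r Q))
    {U : Type*} [AddCommGroup U] [Module (ZMod p) U]
    (L : Z1 (MonoidHom.id GQ) (ad0 p r) →ₗ[ZMod p] U) (hL : ∀ c, IsLocTriv P r c → L c = 0) :
    ∃ N : Submodule (ZMod p) (Z1 (MonoidHom.id GQ) (ad0 p r)),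
      (∀ c : Z1 (MonoidHom.id GQ) (ad0 p r),
        Flat.HasFlatModel (ExtMod r ⟨c.1, c.2.1⟩) p → c ∈ N) ∧
      Finite (N.map L) ∧ Module.finrank (ZMod p) (N.map L) ≤ Module.finrank (ZMod p) k := by
  classical
  haveI := P.charP_res
  haveI : NeZero p := ⟨hpr.out.ne_zero⟩
  have h3 := P.three_le
  have h5 := P.e_add_one
  have hjt : P.e + 2 < p * (p + 1) := by nlinarith
  have hjp : ¬ p ∣ P.e + 2 := fun h => by
    have h1 : p ∣ P.e + 1 := h5 ▸ dvd_pow_self p two_ne_zero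
    exact hpr.out.ne_one (Nat.dvd_one.mp ((Nat.dvd_add_right h1).mp h))
  set D := conjData (p := p) r Q
  have hadd : ∀ c c' i i' l, (D (c + c')).ent i i' l = (D c).ent i i' l + (D c').ent i i' l := by
    intro c c' i i' l
    funext g
    simp only [Pi.add_apply, CData.ent_apply, D, conjData_C, Submodule.coe_add, mul_add, add_mul,
      Matrix.add_apply, map_add]
  have hneg : ∀ c i i' l, (D (-c)).ent i i' l = -(D c).ent i i' l := by
    intro c i i' l
    funext g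
    simp only [Pi.neg_apply, CData.ent_apply, D, conjData_C, NegMemClass.coe_neg, mul_neg, neg_mul,
      Matrix.neg_apply, map_neg]
  have hzero : ∀ i i' l, (D 0).ent i i' l = 0 := by
    intro i i' l
    funext g
    simp only [Pi.zero_apply, CData.ent_apply, D, conjData_C, ZeroMemClass.coe_zero, mul_zero,
      zero_mul, Matrix.zero_apply, map_zero]
  let N₀ : AddSubgroup (Z1 (MonoidHom.id GQ) (ad0 p r)) :=
    { carrier := {c | (∀ l, ∀ h ∈ P.H, (D c).ent 0 0 l h = 0) ∧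
        ∀ l, (D c).ent 0 1 l ∈ P.Lvl (P.e + 2)}
      add_mem' := fun {c c'} hc hc' => ⟨fun l h hh => by
          rw [hadd, Pi.add_apply, hc.1 l h hh, hc'.1 l h hh, add_zero],
        fun l => by rw [hadd]; exact add_mem (hc.2 l) (hc'.2 l)⟩
      zero_mem' := ⟨fun l h _ => by rw [hzero, Pi.zero_apply],
        fun l => by rw [hzero]; exact zero_mem _⟩
      neg_mem' := fun {c} hc => ⟨fun l h hh => by rw [hneg, Pi.neg_apply, hc.1 l h hh, neg_zero],
        fun l => by rw [hneg]; exact neg_mem (hc.2 l)⟩ }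
  set N := AddSubgroup.toZModSubmodule p N₀
  refine ⟨N, fun c hc => ?_, ?_⟩
  · have hM := exists_mdl_conj r Q c P.hA hc (D c) 0 (fun g => by simp [D])
    exact ⟨fun l h hh => by rw [CData.ent_apply, I.a_eq_zero (D c) hM hh, map_zero],
      fun l => I.b_lvl (D c) hM l⟩
  let Φ : N →+ ((k →+ ZMod p) →+ ResidueField P.A) :=
    AddMonoidHom.mk' (fun c => P.wLHom (D c.1) 0 1 hjp hjt c.2.2) fun c c' => by
      refine AddMonoidHom.ext fun l => ?_
      rw [AddMonoidHom.add_apply, P.wLHom_apply, P.wLHom_apply, P.wLHom_apply, Submodule.coe_add,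
        hadd, P.wL_add hjp hjt (c.2.2 l) (c'.2.2 l)]
  set j := P.e + 2 with hj
  set A := P.th P.φ ^ j * (P.th P.φ ^ j) ^ p with hA
  set B := (((ExtCitation.cycloChar p P.φ : ZMod p) ^ 2).val : ResidueField P.A) with hB
  have hA0 : A ≠ 0 := mul_ne_zero (pow_ne_zero _ (P.th_ne _)) (pow_ne_zero _ (pow_ne_zero _ (P.th_ne _)))
  set G : Polynomial (ResidueField P.A) :=
    Polynomial.C A * Polynomial.X ^ p ^ 2 - Polynomial.C B * Polynomial.X with hG
  have hG0 : G ≠ 0 := fun h0 => hA0 (by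
    have h1 := congrArg (fun q : Polynomial (ResidueField P.A) => q.coeff (p ^ 2)) h0
    simpa [hG, Polynomial.coeff_X, show (1 : ℕ) ≠ p ^ 2 by nlinarith] using h1)
  have hGd : G.natDegree ≤ p ^ 2 := by
    refine (Polynomial.natDegree_sub_le _ _).trans (max_le
      ((Polynomial.natDegree_C_mul_le _ _).trans (Polynomial.natDegree_X_pow_le _)) ?_)
    exact (Polynomial.natDegree_C_mul_le _ _).trans (Polynomial.natDegree_X_le.trans (by nlinarith))
  let S : Set ((k →+ ZMod p) →+ ResidueField P.A) :=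
    {W | (∀ l, W (l.comp (AddMonoidHom.mulLeft (I.μ ^ (2 * p)))) = I.θ ^ j * W l) ∧
      ∀ l, W l ∈ G.roots.toFinset}
  obtain ⟨hSfin, hScard⟩ := Count.card_additive_le (I.μ ^ (2 * p)) (fun z => I.θ ^ j * z)
    G.roots.toFinset (((Multiset.toFinset_card_le _).trans ((Polynomial.card_roots' G).trans hGd)).trans
      (Nat.pow_le_pow_right hpr.out.pos I.natDegree_two)) S (fun W hW => hW.1) (fun W hW => hW.2)
  have hker : ∀ c : N, Φ c = 0 → L c = 0 := by
    intro c hc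
    refine hL _ ?_
    obtain ⟨m, hm, htriv⟩ := I.exists_triv (D c.1) fun h hh => I.C_H_zero (D c.1)
      (fun g hg => by
        haveI : Module.Finite (ZMod p) k := Module.Finite.of_finite
        rw [← Module.forall_dual_apply_eq_zero_iff (ZMod p)]
        exact fun f => c.2.1 f.toAddMonoidHom g hg)
      c.2.2 (fun l => DFunLike.congr_fun hc l) hh
    exact isLocTriv_of_shift Q _ hm htriv
  have hΦ : ∀ c, Φ c ∈ S := by
    intro c
    refine ⟨fun l => I.b_wL_rel (D c.1) hjp hjt c.2.2 l, fun l => ?_⟩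
    have h1 := I.frob_rel (D c.1) c.2.2 hjp hjt l
    rw [mul_pow, ← mul_assoc, ← pow_mul (P.wL _ _), ← sq p] at h1
    rw [Multiset.mem_toFinset, Polynomial.mem_roots hG0, Polynomial.IsRoot.def, hG,
      Polynomial.eval_sub, Polynomial.eval_mul, Polynomial.eval_mul, Polynomial.eval_C,
      Polynomial.eval_C, Polynomial.eval_pow, Polynomial.eval_X, sub_eq_zero]
    exact h1
  exact Count.finrank_map_le L N Φ hker S hSfin hΦ hScard

end FLTAgent.PT.TW

end
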