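import Fermat.Agent.PT.TW.Flat.Place
import Mathlib.Algebra.Group.ForwardDiff

/-!
Parcel H: finite flat models over the valuation ring, read as functions on the group, invariant
under a subgroup `W`; the level of an element and its lower bound for elements killed by `p`.
-/

set_option autoImplicit false
set_option linter.style.haveILetI false
set_option linter.unusedSectionVars false

noncomputable section

namespace FLTAgent.PT.TW

open FLTAgent.Reduction (Qb)

local notation "GalQ" => AlgebraicClosure ℚ ≃ₐ[ℚ] AlgebraicClosure ℚ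

variable {G : Type} [AddCommGroup G]

/-- combinations of `e` with coefficients of value at most `M` -/
def Comb (A : ValuationSubring Qb) {n : ℕ} (e : Fin n → G → Qb) (M : A.ValueGroup)
    (f : G → Qb) : Prop :=
  ∃ c : Fin n → Qb, (∀ i, A.valuation (c i) ≤ M) ∧ ∀ x, f x = ∑ i, c i * e i x

/-- a model: functions invariant under `W`, equivariant for `S` -/
structure Mdl (A : ValuationSubring Qb) (S : Subgroup GalQ) (G : Type) [AddCommGroup G]
    [DistribMulAction GalQ G] where
  /-- the subgroup divided out -/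
  W : AddSubgroup G
  n : ℕ
  /-- the functions -/
  e : Fin n → G → Qb
  inv : ∀ i x, ∀ w ∈ W, e i (x + w) = e i x
  indep : LinearIndependent Qb e
  span : ∀ f : G → Qb, (∀ x, ∀ w ∈ W, f (x + w) = f x) →
    ∃ c : Fin n → Qb, ∀ x, f x = ∑ i, c i * e i x
  val : ∀ i x, A.valuation (e i x) ≤ 1
  one : Comb A e 1 1
  mul : ∀ i j, Comb A e 1 (e i * e j)
  equiv : ∀ σ ∈ S, ∀ i x, e i (σ • x) = σ (e i x)
  /-- the structure constants of comultiplication -/
  γ : Fin n → Fin n → Fin n → Qb
  γ_le : ∀ i a b, A.valuation (γ i a b) ≤ 1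
  comul : ∀ i x y, e i (x + y) = ∑ a, ∑ b, γ i a b * (e a x * e b y)

/-- an echelon basis of a subspace, adapted to the valuation -/
theorem exists_echelon {n : ℕ} (A : ValuationSubring Qb) :
    ∀ (d : ℕ) (L : Submodule Qb (Fin n → Qb)), Module.finrank Qb L = d →
      ∃ (T : Finset (Fin n)) (b : Fin n → Fin n → Qb),
        (∀ s ∈ T, b s ∈ L ∧ (∀ t ∈ T, b s t = if s = t then 1 else 0) ∧
          ∀ i, A.valuation (b s i) ≤ 1) ∧
        ∀ x ∈ L, x = ∑ s ∈ T, x s • b s := by
  classical
  intro d
  induction d with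
  | zero =>
    intro L hL
    refine ⟨∅, fun _ => 0, fun s hs => absurd hs (Finset.notMem_empty s), fun x hx => ?_⟩
    rw [Submodule.finrank_eq_zero.mp hL] at hx
    rw [(Submodule.mem_bot Qb).mp hx, Finset.sum_empty]
  | succ d ih =>
    intro L hL
    obtain ⟨l, hl, hl0⟩ := Submodule.exists_mem_ne_zero_of_ne_bot (p := L) (by
      intro h
      rw [h, finrank_bot] at hL
      omega)
    obtain ⟨j₀, hj₀⟩ := Function.ne_iff.mp hl0
    obtain ⟨j, -, hj⟩ := Finset.exists_max_image Finset.univ (fun i => A.valuation (l i))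
      ⟨j₀, Finset.mem_univ _⟩
    have hlj : l j ≠ 0 := fun h => hj₀ (by
      have := hj j₀ (Finset.mem_univ _)
      rw [h, map_zero, le_zero_iff, map_eq_zero] at this
      exact this)
    set m : Fin n → Qb := (l j)⁻¹ • l with hm
    have hmj : m j = 1 := by simp [hm, hlj]
    have hmle : ∀ i, A.valuation (m i) ≤ 1 := fun i => by
      rw [hm, Pi.smul_apply, smul_eq_mul, map_mul, map_inv₀,
        inv_mul_le_one₀ (zero_lt_iff.mpr ((Valuation.ne_zero_iff _).mpr hlj))]
      exact hj i (Finset.mem_univ i)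
    have hmL : m ∈ L := L.smul_mem _ hl
    set ev : L →ₗ[Qb] Qb := (LinearMap.proj (φ := fun _ : Fin n => Qb) j).comp L.subtype
    have hev : Function.Surjective ev := fun c => ⟨c • ⟨m, hmL⟩, by simp [ev, hmj]⟩
    have hdim : Module.finrank Qb (LinearMap.ker ev) = d := by
      have h1 := LinearMap.finrank_range_add_finrank_ker ev
      rw [LinearMap.range_eq_top.mpr hev, finrank_top, Module.finrank_self, hL] at h1
      omega
    set L' : Submodule Qb (Fin n → Qb) := (LinearMap.ker ev).map L.subtype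
    obtain ⟨T, b, hb, hrec⟩ := ih L' (by
      rw [← hdim]
      exact (Submodule.equivMapOfInjective _ L.injective_subtype _).finrank_eq.symm)
    have hL' : ∀ {x}, x ∈ L' ↔ x ∈ L ∧ x j = 0 := fun {x} => by
      simp [L', ev, Submodule.mem_map, LinearMap.mem_ker, and_comm]
    have hjT : j ∉ T := fun h => by
      have h1 := (hb j h).2.1 j h
      rw [if_pos rfl, (hL'.mp (hb j h).1).2] at h1
      exact zero_ne_one h1
    set b' : Fin n → Qb := m - ∑ s ∈ T, m s • b s with hb'
    have hb'L : b' ∈ L := sub_mem hmL (sum_mem fun s hs => L.smul_mem _ (hL'.mp (hb s hs).1).1)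
    have hb'j : b' j = 1 := by
      rw [hb', Pi.sub_apply, Finset.sum_apply, Finset.sum_eq_zero fun s hs => by
        rw [Pi.smul_apply, (hL'.mp (hb s hs).1).2, smul_zero], sub_zero, hmj]
    have hb'T : ∀ t ∈ T, b' t = 0 := fun t ht => by
      rw [hb', Pi.sub_apply, Finset.sum_apply, Finset.sum_eq_single t, Pi.smul_apply,
        (hb t ht).2.1 t ht, if_pos rfl, smul_eq_mul, mul_one, sub_self]
      · intro s hs hst
        rw [Pi.smul_apply, (hb s hs).2.1 t ht, if_neg hst, smul_zero]
      · exact fun h => absurd ht h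
    refine ⟨insert j T, Function.update b j b', fun s hs => ?_, fun x hx => ?_⟩
    · rcases Finset.mem_insert.mp hs with rfl | hs
      · rw [Function.update_self]
        refine ⟨hb'L, fun t ht => ?_, fun i => ?_⟩
        · rcases Finset.mem_insert.mp ht with rfl | ht
          · rw [hb'j, if_pos rfl]
          · rw [hb'T t ht, if_neg (fun h => hjT (by rw [h]; exact ht))]
        · rw [hb', Pi.sub_apply, Finset.sum_apply]
          refine (Valuation.map_sub _ _ _).trans (max_le (hmle i)
            (Valuation.map_sum_le _ fun t ht => ?_))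
          rw [Pi.smul_apply, smul_eq_mul, map_mul]
          exact mul_le_one' (hmle t) ((hb t ht).2.2 i)
      · rw [Function.update_of_ne (fun h : s = j => hjT (h ▸ hs))]
        refine ⟨(hL'.mp (hb s hs).1).1, fun t ht => ?_, (hb s hs).2.2⟩
        rcases Finset.mem_insert.mp ht with ht' | ht
        · rw [ht', (hL'.mp (hb s hs).1).2, if_neg (fun h : s = j => hjT (h ▸ hs))]
        · exact (hb s hs).2.1 t ht
    · rw [Finset.sum_insert hjT, Function.update_self, Finset.sum_congr rfl fun s hs => by
        rw [Function.update_of_ne (fun h : s = j => hjT (h ▸ hs))]]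
      have h1 := hrec (x - x j • b') (hL'.mpr ⟨sub_mem hx (L.smul_mem _ hb'L), by simp [hb'j]⟩)
      rw [Finset.sum_congr rfl (g := fun s => x s • b s) fun s hs => by simp [hb'T s hs]] at h1
      rw [← h1]
      abel

section Comb

variable {A : ValuationSubring Qb} {n : ℕ} {e : Fin n → G → Qb}

theorem Comb.congr {M : A.ValueGroup} {f g : G → Qb} (h : Comb A e M f) (hfg : ∀ x, g x = f x) :
    Comb A e M g := by
  obtain ⟨c, hc, hf⟩ := h
  exact ⟨c, hc, fun x => (hfg x).trans (hf x)⟩

theorem Comb.mono {M N : A.ValueGroup} {f : G → Qb} (h : Comb A e M f) (hMN : M ≤ N) :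
    Comb A e N f := by
  obtain ⟨c, hc, hf⟩ := h
  exact ⟨c, fun i => (hc i).trans hMN, hf⟩

theorem Comb.add {M : A.ValueGroup} {f g : G → Qb} (hf : Comb A e M f) (hg : Comb A e M g) :
    Comb A e M (fun x => f x + g x) := by
  obtain ⟨c, hc, hf⟩ := hf
  obtain ⟨d, hd, hg⟩ := hg
  refine ⟨c + d, fun i => (Valuation.map_add _ _ _).trans (max_le (hc i) (hd i)), fun x => ?_⟩
  simp only [hf x, hg x, Pi.add_apply, add_mul, Finset.sum_add_distrib]

theorem Comb.smul {M N : A.ValueGroup} {f : G → Qb} (hf : Comb A e M f) {a : Qb}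
    (ha : A.valuation a ≤ N) : Comb A e (N * M) (fun x => a * f x) := by
  obtain ⟨c, hc, hf⟩ := hf
  refine ⟨fun i => a * c i, fun i => by rw [map_mul]; exact mul_le_mul' ha (hc i), fun x => ?_⟩
  simp only [hf x, Finset.mul_sum, mul_assoc]

theorem Comb.of_zero {M : A.ValueGroup} : Comb A e M (fun _ => 0) :=
  ⟨0, fun i => by rw [Pi.zero_apply, map_zero]; exact zero_le, fun x => by simp⟩

theorem Comb.sum {ι : Type*} (s : Finset ι) {M : A.ValueGroup} {f : ι → G → Qb}
    (hf : ∀ i ∈ s, Comb A e M (f i)) : Comb A e M (fun x => ∑ i ∈ s, f i x) := by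
  classical
  induction s using Finset.induction_on with
  | empty => exact Comb.of_zero.congr fun x => Finset.sum_empty
  | insert a s ha ih =>
    refine ((hf a (Finset.mem_insert_self a s)).add
      (ih fun i hi => hf i (Finset.mem_insert_of_mem hi))).congr fun x => ?_
    rw [Finset.sum_insert ha]

theorem Comb.base (i : Fin n) : Comb A e 1 (e i) := by
  classical
  refine ⟨Pi.single i 1, fun j => ?_, fun x => ?_⟩
  · rw [Pi.single_apply]
    split_ifs
    · rw [map_one]
    · rw [map_zero]; exact zero_le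
  · rw [Finset.sum_eq_single i (fun j _ hj => by rw [Pi.single_eq_of_ne hj, zero_mul])
      (fun h => absurd (Finset.mem_univ i) h), Pi.single_eq_same, one_mul]

end Comb

namespace Mdl

variable [DistribMulAction GalQ G] {A : ValuationSubring Qb} {S : Subgroup GalQ} (M : Mdl A S G)

/-- the combinations with coefficients of value at most `N` -/
abbrev Cb (N : A.ValueGroup) (f : G → Qb) : Prop := Comb A M.e N f

theorem Cb.le {N : A.ValueGroup} {f : G → Qb} (h : M.Cb N f) (x : G) : A.valuation (f x) ≤ N := by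
  obtain ⟨c, hc, hf⟩ := h
  rw [hf]
  refine Valuation.map_sum_le _ fun i _ => ?_
  rw [map_mul]
  exact (mul_le_mul' (hc i) (M.val i x)).trans (mul_one N).le

theorem cb_inv {N : A.ValueGroup} {f : G → Qb} (h : M.Cb N f) {w : G} (hw : w ∈ M.W) (x : G) :
    f (x + w) = f x := by
  obtain ⟨c, -, hf⟩ := h
  simp only [hf, M.inv _ _ w hw]

theorem cb_mul {N N' : A.ValueGroup} {f g : G → Qb} (hf : M.Cb N f) (hg : M.Cb N' g) :
    M.Cb (N * N') (fun x => f x * g x) := by
  obtain ⟨c, hc, hf⟩ := hf
  obtain ⟨d, hd, hg⟩ := hg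
  refine (Comb.sum Finset.univ fun i _ => Comb.sum Finset.univ fun j _ =>
    ((M.mul i j).smul (a := c i * d j) (N := N * N')
      (by rw [map_mul]; exact mul_le_mul' (hc i) (hd j))).mono (mul_one _).le).congr fun x => ?_
  rw [hf x, hg x, Finset.sum_mul_sum]
  exact Finset.sum_congr rfl fun i _ => Finset.sum_congr rfl fun j _ => by
    rw [Pi.mul_apply]; ring

theorem cb_const {a : Qb} {N : A.ValueGroup} (ha : A.valuation a ≤ N) : M.Cb N (fun _ => a) :=
  ((M.one.smul ha).mono (mul_one _).le).congr fun _ => (mul_one a).symm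

theorem cb_prod {ι : Type*} (s : Finset ι) {f : ι → G → Qb} (hf : ∀ i ∈ s, M.Cb 1 (f i)) :
    M.Cb 1 (fun x => ∏ i ∈ s, f i x) := by
  classical
  induction s using Finset.induction_on with
  | empty => exact M.one.congr fun x => Finset.prod_empty
  | insert a s ha ih =>
    refine ((M.cb_mul (hf a (Finset.mem_insert_self a s))
      (ih fun i hi => hf i (Finset.mem_insert_of_mem hi))).mono (mul_one _).le).congr fun x => ?_
    rw [Finset.prod_insert ha]

theorem cb_translate {N : A.ValueGroup} {f : G → Qb} (hf : M.Cb N f) (h : G) :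
    M.Cb N (fun x => f (x + h)) := by
  obtain ⟨c, hc, hf⟩ := hf
  refine (Comb.sum Finset.univ fun i _ => ((Comb.sum (e := M.e) (M := 1) Finset.univ
    fun a _ => ((Comb.base a).smul (a := ∑ b, M.γ i a b * M.e b h) (N := 1) ?_).mono
      (mul_one _).le)).smul (hc i) |>.mono (mul_one _).le).congr fun x => ?_
  · refine Valuation.map_sum_le _ fun b _ => ?_
    rw [map_mul]
    exact mul_le_one' (M.γ_le i a b) (M.val b h)
  · rw [hf]
    refine Finset.sum_congr rfl fun i _ => ?_
    rw [M.comul]
    congr 1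
    refine Finset.sum_congr rfl fun a _ => ?_
    rw [Finset.sum_mul]
    exact Finset.sum_congr rfl fun b _ => by ring

theorem cb_apply_zero {σ : GalQ} (hσ : σ ∈ S) (i : Fin M.n) : σ (M.e i 0) = M.e i 0 := by
  rw [← M.equiv σ hσ, smul_zero]

/-- the level of an element -/
def lev (x : G) : A.ValueGroup :=
  Finset.univ.sup fun i => A.valuation (M.e i x - M.e i 0)

theorem lev_le {x : G} {N : A.ValueGroup} :
    M.lev x ≤ N ↔ ∀ i, A.valuation (M.e i x - M.e i 0) ≤ N := by
  simp [lev, Finset.sup_le_iff]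

theorem le_lev (i : Fin M.n) (x : G) : A.valuation (M.e i x - M.e i 0) ≤ M.lev x :=
  M.lev_le.mp le_rfl i

theorem lev_le_one (x : G) : M.lev x ≤ 1 :=
  M.lev_le.mpr fun i => (Valuation.map_sub _ _ _).trans (max_le (M.val i x) (M.val i 0))

theorem n_pos : 0 < M.n := by
  by_contra h
  obtain ⟨c, -, hf⟩ := M.one
  haveI : IsEmpty (Fin M.n) := ⟨fun i => h i.pos⟩
  simpa using hf 0

theorem exists_lev (x : G) : ∃ i, A.valuation (M.e i x - M.e i 0) = M.lev x := by
  haveI : Nonempty (Fin M.n) := ⟨⟨0, M.n_pos⟩⟩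
  obtain ⟨i, -, hi⟩ := Finset.exists_mem_eq_sup Finset.univ Finset.univ_nonempty
    (fun i => A.valuation (M.e i x - M.e i 0))
  exact ⟨i, hi.symm⟩

theorem cb_sub_le {N : A.ValueGroup} {f : G → Qb} (hf : M.Cb N f) (x : G) :
    A.valuation (f x - f 0) ≤ N * M.lev x := by
  obtain ⟨c, hc, hf⟩ := hf
  rw [hf, hf, ← Finset.sum_sub_distrib]
  refine Valuation.map_sum_le _ fun i _ => ?_
  rw [← mul_sub, map_mul]
  exact mul_le_mul' (hc i) (M.le_lev i x)

/-- differences along `u` shrink coefficients by the level of `u` -/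
theorem cb_diff {N : A.ValueGroup} {f : G → Qb} (hf : M.Cb N f) (u : G) :
    M.Cb (N * M.lev u) (fun y => f (y + u) - f y) := by
  obtain ⟨c, hc, hf⟩ := hf
  refine (Comb.sum Finset.univ fun i _ => (Comb.sum (e := M.e) (M := M.lev u) Finset.univ
    fun a _ => ((Comb.base a).smul (a := ∑ b, M.γ i a b * (M.e b u - M.e b 0)) (N := M.lev u)
      ?_).mono (mul_one _).le).smul (hc i)).congr fun y => ?_
  · refine Valuation.map_sum_le _ fun b _ => ?_
    rw [map_mul]
    exact (mul_le_mul' (M.γ_le i a b) (M.le_lev b u)).trans (one_mul _).le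
  · rw [hf, hf, ← Finset.sum_sub_distrib]
    refine Finset.sum_congr rfl fun i _ => ?_
    rw [← mul_sub]
    congr 1
    have h0 := M.comul i y 0
    rw [add_zero] at h0
    rw [M.comul, h0, ← Finset.sum_sub_distrib]
    refine Finset.sum_congr rfl fun a _ => ?_
    rw [← Finset.sum_sub_distrib, Finset.sum_mul]
    exact Finset.sum_congr rfl fun b _ => by ring

theorem lev_zero : M.lev 0 = 0 :=
  le_antisymm (M.lev_le.mpr fun i => by rw [sub_self, map_zero]) zero_le

theorem lev_of_mem {w : G} (hw : w ∈ M.W) : M.lev w = 0 :=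
  le_antisymm (M.lev_le.mpr fun i => by
    have := M.inv i 0 w hw
    rw [zero_add] at this
    rw [this, sub_self, map_zero]) zero_le

theorem lev_ne_zero {x : G} (hx : x ∉ M.W) : M.lev x ≠ 0 := by
  classical
  intro h
  obtain ⟨c, hc⟩ := M.span (fun y => if y ∈ M.W then 1 else 0) (fun y w hw => by
    rw [AddSubgroup.add_mem_cancel_right _ hw])
  have heq : ∀ i, M.e i x = M.e i 0 := fun i => by
    have := M.le_lev i x
    rw [h, le_zero_iff, map_eq_zero, sub_eq_zero] at this
    exact this
  have h1 := hc x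
  have h0 := hc 0
  rw [if_neg hx] at h1
  rw [if_pos M.W.zero_mem] at h0
  simp only [heq] at h1
  exact zero_ne_one (h1.trans h0.symm)

theorem lev_add (x y : G) : M.lev (x + y) ≤ max (M.lev x) (M.lev y) := by
  refine M.lev_le.mpr fun i => ?_
  have h1 : A.valuation (M.e i (x + y) - M.e i x) ≤ M.lev y := by
    refine (Cb.le M (M.cb_diff (Comb.base i) y) x).trans ?_
    rw [one_mul]
  rw [show M.e i (x + y) - M.e i 0 = (M.e i x - M.e i 0) + (M.e i (x + y) - M.e i x) by ring]
  exact (Valuation.map_add _ _ _).trans (max_le_max (M.le_lev i x) h1)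

theorem lev_neg_le (x : G) : M.lev (-x) ≤ M.lev x := by
  refine M.lev_le.mpr fun i => ?_
  have h := M.cb_sub_le (M.cb_translate (Comb.base i) (-x)) x
  rw [one_mul, add_neg_cancel, zero_add, Valuation.map_sub_swap] at h
  exact h

theorem lev_neg (x : G) : M.lev (-x) = M.lev x :=
  le_antisymm (M.lev_neg_le x) (by simpa using M.lev_neg_le (-x))

theorem lev_smul {σ : GalQ} (hσ : σ ∈ S) (hσA : σ ∈ A.decompositionSubgroup ℚ) (x : G) :
    M.lev (σ • x) = M.lev x := by
  have h : ∀ i, A.valuation (M.e i (σ • x) - M.e i 0) = A.valuation (M.e i x - M.e i 0) :=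
    fun i => by
      conv_lhs => rw [← M.cb_apply_zero hσ i, M.equiv σ hσ, ← map_sub]
      exact Local.val_aut hσA _
  simp only [lev, h]

theorem exists_diff (x u : G) :
    ∃ i, M.lev u ≤ A.valuation (M.e i (x + u) - M.e i x) := by
  obtain ⟨j, hj⟩ := M.exists_lev u
  obtain ⟨c, hc, hf⟩ := M.cb_translate (Comb.base j) (-x)
  have h : M.e j u - M.e j 0 = ∑ i, c i * (M.e i (x + u) - M.e i x) := by
    have h1 := hf (x + u)
    have h2 := hf x
    simp only [show x + u + -x = u by abel] at h1
    simp only [add_neg_cancel] at h2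
    rw [h1, h2, ← Finset.sum_sub_distrib]
    exact Finset.sum_congr rfl fun i _ => by ring
  haveI : Nonempty (Fin M.n) := ⟨⟨0, M.n_pos⟩⟩
  obtain ⟨i, -, hi⟩ := Finset.exists_max_image Finset.univ
    (fun i => A.valuation (M.e i (x + u) - M.e i x)) Finset.univ_nonempty
  refine ⟨i, ?_⟩
  rw [← hj, h]
  refine Valuation.map_sum_le _ fun k _ => ?_
  rw [map_mul]
  exact (mul_le_mul' (hc k) (hi k (Finset.mem_univ k))).trans (one_mul _).le

theorem lev_smul_sub_lt {σ : GalQ} (hσ : σ ∈ S) (hσI : σ ∈ A.inertiaSubgroupIn ℚ) (y : G) :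
    M.lev (σ • y - y) < 1 := by
  obtain ⟨i, hi⟩ := M.exists_diff y (σ • y - y)
  rw [add_sub_cancel] at hi
  refine hi.trans_lt ?_
  rw [M.equiv σ hσ]
  exact TOR.inertia_sub_lt hσI ((A.valuation_le_one_iff _).mp (M.val i y))

/-- the elements of level at most `N` -/
def below (N : A.ValueGroup) : AddSubgroup G where
  carrier := {x | M.lev x ≤ N}
  add_mem' {x y} hx hy := (M.lev_add x y).trans (max_le hx hy)
  zero_mem' := by simp only [Set.mem_setOf_eq, M.lev_zero, zero_le]
  neg_mem' {x} hx := by simpa only [Set.mem_setOf_eq, M.lev_neg] using hx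

/-- the elements of level below one -/
def conn : AddSubgroup G where
  carrier := {x | M.lev x < 1}
  add_mem' {x y} hx hy := (M.lev_add x y).trans_lt (max_lt hx hy)
  zero_mem' := by simp only [Set.mem_setOf_eq, M.lev_zero, zero_lt_one]
  neg_mem' {x} hx := by simpa only [Set.mem_setOf_eq, M.lev_neg] using hx

theorem cb_iterate {N : A.ValueGroup} {f : G → Qb} (hf : M.Cb N f) (u : G) (k : ℕ) :
    M.Cb (N * M.lev u ^ k) ((fwdDiff u)^[k] f) := by
  induction k with
  | zero => simpa using hf
  | succ k ih =>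
    rw [Function.iterate_succ_apply', pow_succ, ← mul_assoc]
    exact M.cb_diff ih u

/-- quotient by a larger stable subgroup -/
theorem exists_quot (S' : Subgroup GalQ) (hS : S' ≤ S) (W' : AddSubgroup G) (hW : M.W ≤ W')
    (hst : ∀ σ ∈ S', ∀ w ∈ W', σ • w ∈ W') :
    ∃ M' : Mdl A S' G, M'.W = W' ∧
      ∀ (N : A.ValueGroup) (f : G → Qb), M.Cb N f → (∀ x, ∀ w ∈ W', f (x + w) = f x) →
        M'.Cb N f := by
  classical
  set L : Submodule Qb (Fin M.n → Qb) :=
    { carrier := {c | ∀ x, ∀ w ∈ W', ∑ i, c i * M.e i (x + w) = ∑ i, c i * M.e i x}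
      add_mem' := fun {c d} hc hd x w hw => by
        simp only [Pi.add_apply, add_mul, Finset.sum_add_distrib, hc x w hw, hd x w hw]
      zero_mem' := fun x w _ => by simp
      smul_mem' := fun a c hc x w hw => by
        simp only [Pi.smul_apply, smul_eq_mul, mul_assoc, ← Finset.mul_sum, hc x w hw] }
  have hLmem : ∀ {c : Fin M.n → Qb}, c ∈ L ↔
      ∀ x, ∀ w ∈ W', ∑ i, c i * M.e i (x + w) = ∑ i, c i * M.e i x := Iff.rfl
  obtain ⟨T, b, hb, hrec⟩ := exists_echelon A _ L rfl
  let s : Fin T.card → Fin M.n := fun t => (T.equivFin.symm t : Fin M.n)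
  have hs : ∀ t, s t ∈ T := fun t => (T.equivFin.symm t).2
  set e' : Fin T.card → G → Qb := fun t x => ∑ i, b (s t) i * M.e i x with he'
  have hsumT : ∀ g : Fin M.n → Qb, ∑ t, g (s t) = ∑ x ∈ T, g x := fun g => by
    rw [← Finset.sum_coe_sort T]
    exact Equiv.sum_comp T.equivFin.symm fun i : T => g i
  -- coordinates of invariant combinations
  have key : ∀ c ∈ L, ∀ x, ∑ i, c i * M.e i x = ∑ t, c (s t) * e' t x := by
    intro c hc x
    have h1 := hrec c hc
    calc ∑ i, c i * M.e i x = ∑ i, (∑ r ∈ T, c r • b r) i * M.e i x := by rw [← h1]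
      _ = ∑ r ∈ T, c r * ∑ i, b r i * M.e i x := by
        simp only [Finset.sum_apply, Pi.smul_apply, smul_eq_mul, Finset.sum_mul, Finset.mul_sum]
        rw [Finset.sum_comm]
        exact Finset.sum_congr rfl fun r _ => Finset.sum_congr rfl fun i _ => by ring
      _ = _ := (hsumT fun r => c r * ∑ i, b r i * M.e i x).symm
  have hcoef : ∀ (N : A.ValueGroup) (f : G → Qb), M.Cb N f →
      (∀ x, ∀ w ∈ W', f (x + w) = f x) → Comb A e' N f := by
    rintro N f ⟨c, hc, hf⟩ hinv
    refine ⟨fun t => c (s t), fun t => hc _, fun x => ?_⟩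
    rw [hf x, key c (hLmem.mpr fun y w hw => by rw [← hf, ← hf, hinv y w hw])]
  have hinv' : ∀ t x, ∀ w ∈ W', e' t (x + w) = e' t x := fun t x w hw =>
    hLmem.mp (hb _ (hs t)).1 x w hw
  have hcb : ∀ t, M.Cb 1 (e' t) := fun t => ⟨b (s t), (hb _ (hs t)).2.2, fun _ => rfl⟩
  have hind : LinearIndependent Qb e' := by
    rw [Fintype.linearIndependent_iff]
    intro g hg t
    have h1 : ∑ i, (∑ u, g u * b (s u) i) • M.e i = 0 := by
      rw [← hg]
      funext x
      simp only [Finset.sum_apply, Pi.smul_apply, smul_eq_mul, he', Finset.mul_sum, Finset.sum_mul]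
      rw [Finset.sum_comm]
      exact Finset.sum_congr rfl fun u _ => Finset.sum_congr rfl fun i _ => by ring
    have h2 := Fintype.linearIndependent_iff.mp M.indep _ h1 (s t)
    rw [Finset.sum_eq_single t, (hb _ (hs t)).2.1 _ (hs t), if_pos rfl, mul_one] at h2
    · exact h2
    · intro u _ hu
      rw [(hb _ (hs u)).2.1 _ (hs t), if_neg, mul_zero]
      exact fun h => hu (T.equivFin.symm.injective (Subtype.ext h))
    · exact fun h => absurd (Finset.mem_univ t) h
  have huniq : ∀ {g g' : Fin T.card → Qb}, (∀ x, ∑ t, g t * e' t x = ∑ t, g' t * e' t x) →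
      g = g' := fun {g g'} h => funext fun t => sub_eq_zero.mp (Fintype.linearIndependent_iff.mp
        hind (fun t => g t - g' t) (funext fun x => by
          simp only [Finset.sum_apply, Pi.smul_apply, smul_eq_mul, Pi.zero_apply, sub_mul,
            Finset.sum_sub_distrib, h x, sub_self]) t)
  -- comultiplication
  set C : Fin T.card → Fin T.card → G → Qb := fun t a y =>
    ∑ i, b (s t) i * ∑ r, M.γ i (s a) r * M.e r y with hC
  have hsplit : ∀ t x y, e' t (x + y) = ∑ a, C t a y * e' a x := by
    intro t x y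
    set c : Fin M.n → Qb := fun j => ∑ i, b (s t) i * ∑ r, M.γ i j r * M.e r y with hc
    have h1 : ∀ x, e' t (x + y) = ∑ j, c j * M.e j x := by
      intro x
      simp only [he', hc, M.comul, Finset.mul_sum, Finset.sum_mul]
      rw [Finset.sum_comm]
      exact Finset.sum_congr rfl fun i _ => Finset.sum_congr rfl fun j _ =>
        Finset.sum_congr rfl fun r _ => by ring
    have hcL : c ∈ L := hLmem.mpr fun z w hw => by
      rw [← h1, ← h1, add_right_comm, hinv' t _ w hw]
    rw [h1, key c hcL]
  have hCinv : ∀ t a y, ∀ w ∈ W', C t a (y + w) = C t a y := by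
    intro t a y w hw
    refine congrFun (huniq (g := fun a => C t a (y + w)) (g' := fun a => C t a y) fun x => ?_) a
    rw [← hsplit, ← hsplit, ← add_assoc, hinv' t _ w hw]
  have hCcb : ∀ t a, Comb A e' 1 (C t a) := fun t a => hcoef 1 _ (by
    refine (Comb.sum Finset.univ fun i _ => (Comb.sum (e := M.e) (M := 1) Finset.univ fun r _ =>
      ((Comb.base r).smul (M.γ_le i (s a) r)).mono (one_mul _).le).smul
        ((hb _ (hs t)).2.2 i) |>.mono (one_mul _).le).congr fun y => rfl) (hCinv t a)
  choose γ' hγ hγe using hCcb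
  refine ⟨{ W := W'
            n := T.card
            e := e'
            inv := hinv'
            indep := hind
            span := fun f hf => ?_
            val := fun t x => Cb.le M (hcb t) x
            one := hcoef 1 1 M.one fun _ _ _ => rfl
            mul := fun t u => hcoef 1 _
              (((M.cb_mul (hcb t) (hcb u)).mono (one_mul _).le).congr fun x => rfl)
              fun x w hw => by rw [Pi.mul_apply, Pi.mul_apply, hinv' t x w hw, hinv' u x w hw]
            equiv := fun σ hσ t x => ?_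
            γ := γ'
            γ_le := fun t a r => hγ t a r
            comul := fun t x y => ?_ }, rfl, hcoef⟩
  · obtain ⟨c, hc⟩ := M.span f fun x w hw => hf x w (hW hw)
    refine ⟨fun t => c (s t), fun x => ?_⟩
    rw [hc x, key c (hLmem.mpr fun y w hw => by rw [← hc, ← hc, hf y w hw])]
  · have hL' : (fun i => σ (b (s t) i)) ∈ L := hLmem.mpr fun z w hw => by
      have h1 : ∀ z, ∑ i, σ (b (s t) i) * M.e i z = σ (e' t (σ⁻¹ • z)) := fun z => by
        rw [he', map_sum]
        exact Finset.sum_congr rfl fun i _ => by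
          rw [map_mul, ← M.equiv σ (hS hσ), smul_inv_smul]
      rw [h1, h1, smul_add, hinv' t _ _ (hst _ (inv_mem hσ) w hw)]
    have hfix : ∀ i, σ (b (s t) i) = b (s t) i := by
      have h2 := hrec _ hL'
      rw [Finset.sum_eq_single (s t)] at h2
      · intro i
        have := congrFun h2 i
        simpa [(hb _ (hs t)).2.1 _ (hs t)] using this
      · intro r hr hrt
        rw [(hb _ (hs t)).2.1 r hr, if_neg (Ne.symm hrt), map_zero, zero_smul]
      · exact fun h => absurd (hs t) h
    simp only [he', map_sum, map_mul, hfix, M.equiv σ (hS hσ)]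
  · rw [hsplit]
    simp only [hγe, Finset.sum_mul]
    exact Finset.sum_congr rfl fun a _ => Finset.sum_congr rfl fun r _ => by ring

end Mdl

/-! ### the key bound -/

namespace PlaceData

variable {p : ℕ} [hpr : Fact p.Prime] (P : PlaceData p) {S : Subgroup GalQ}
  [DistribMulAction GalQ G] (M : Mdl P.A S G)

include P in
theorem key_bound {u : G} (hu : u ∉ M.W) (hpu : p • u ∈ M.W) :
    P.v P.π ^ (p + 1) ≤ M.lev u := by
  rcases lt_or_ge (M.lev u) 1 with hlt | hge
  swap
  · exact (pow_le_one₀ zero_le P.vπ_lt.le).trans hge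
  set L := M.lev u
  have hL0 : 0 < L := zero_lt_iff.mpr (M.lev_ne_zero hu)
  obtain ⟨i, hi⟩ := M.exists_lev u
  set f := M.e i
  have hexp := shift_eq_sum_fwdDiff_iter u f p 0
  rw [zero_add, show f (p • u) = f 0 from by simpa using M.inv i 0 _ hpu, Finset.sum_range_succ',
    Nat.choose_zero_right, one_smul, Function.iterate_zero_apply, right_eq_add] at hexp
  obtain ⟨q, hq⟩ : ∃ q, p = q + 1 := ⟨p - 1, by have := P.three_le; omega⟩
  have hpL : P.v (p : Qb) * L ≤ L ^ p := by
    by_contra hcon
    push Not at hcon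
    set a : ℕ → Qb := fun k => p.choose (k + 1) • (fwdDiff u)^[k + 1] f 0 with ha
    have hsum : ∑ k ∈ Finset.range p, a k = 0 := hexp
    have h0 : P.v (a 0) = P.v (p : Qb) * L := by
      simp only [ha, zero_add, Nat.choose_one_right, nsmul_eq_mul, map_mul]
      congr 1
      rw [Function.iterate_one]
      show P.v (f (0 + u) - f 0) = L
      rw [zero_add, hi]
    have hpos : 0 < P.v (p : Qb) * L := mul_pos P.vp_pos hL0
    have hrest : ∀ k ∈ Finset.range p \ {0}, P.v (a k) < P.v (a 0) := by
      intro k hk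
      rw [Finset.mem_sdiff, Finset.mem_range, Finset.mem_singleton] at hk
      have hval := Mdl.Cb.le M (M.cb_iterate (Comb.base i) u (k + 1)) 0
      rw [one_mul] at hval
      rw [h0]
      show P.v (p.choose (k + 1) • (fwdDiff u)^[k + 1] f 0) < _
      rw [nsmul_eq_mul, map_mul]
      rcases eq_or_lt_of_le (Nat.succ_le_of_lt hk.1) with hkp | hkp
      · rw [show p.choose (k + 1) = 1 by rw [show k + 1 = p from hkp, Nat.choose_self],
          Nat.cast_one, map_one, one_mul]
        refine hval.trans_lt ?_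
        rw [show k + 1 = p from hkp]
        exact hcon
      · obtain ⟨c, hc⟩ := hpr.out.dvd_choose_self (Nat.succ_ne_zero k) hkp
        rw [show p.choose (k + 1) = p * c from hc, Nat.cast_mul, map_mul]
        refine lt_of_le_of_lt (mul_le_mul' (mul_le_of_le_one_right zero_le (P.natCast_vle_one c))
          hval) (mul_lt_mul_of_pos_left ?_ P.vp_pos)
        calc L ^ (k + 1) ≤ L ^ 2 := pow_le_pow_right_of_le_one' hlt.le (by omega)
          _ < L := by rw [sq]; exact mul_lt_of_lt_one_right hL0 hlt
    have h1 := Valuation.map_sum_eq_of_lt P.v (Finset.mem_range.mpr hpr.out.pos) hrest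
    rw [hsum, map_zero, h0] at h1
    exact hpos.ne h1
  refine le_of_pow_le_pow_left₀ (show p - 1 ≠ 0 by have := P.three_le; omega) zero_le ?_
  rw [← pow_mul, mul_comm, ← P.e_eq, P.vπ_pow]
  refine le_of_mul_le_mul_right ?_ hL0
  rwa [← pow_succ, Nat.sub_add_cancel hpr.out.one_le]

include P in
/-- the sums along a line of small level are divisible by `p` -/
theorem cb_line_sum {u : G} (hu : M.lev u ≤ P.v P.π ^ (p + 1)) {N : P.A.ValueGroup} {f : G → Qb}
    (hf : M.Cb N f) :
    M.Cb (P.v (p : Qb) * N) (fun x => ∑ j ∈ Finset.range p, f (x + j • u)) := by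
  classical
  have hhs : ∀ n k : ℕ, ∑ j ∈ Finset.range n, j.choose k = n.choose (k + 1) := by
    intro n k
    induction n with
    | zero => simp
    | succ n ih => rw [Finset.sum_range_succ, ih, Nat.choose_succ_succ, add_comm]
  refine (Comb.sum (Finset.range p) (M := P.v (p : Qb) * N)
    (f := fun k x => (p.choose (k + 1) : Qb) * (fwdDiff u)^[k] f x) fun k hk => ?_).congr
    fun x => ?_
  · rw [Finset.mem_range] at hk
    have h1 := M.cb_iterate hf u k
    rcases eq_or_lt_of_le (Nat.succ_le_of_lt hk) with hkp | hkp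
    · rw [show k + 1 = p from hkp, Nat.choose_self, Nat.cast_one]
      refine (h1.mono ?_).congr fun x => one_mul _
      rw [mul_comm]
      refine mul_le_mul' ((pow_le_pow_left₀ zero_le hu k).trans ?_) le_rfl
      rw [← pow_mul, show k = p - 1 by omega, mul_comm, ← P.e_eq, P.vπ_pow]
    · obtain ⟨c, hc⟩ := hpr.out.dvd_choose_self (Nat.succ_ne_zero k) hkp
      rw [show p.choose (k + 1) = p * c from hc, Nat.cast_mul]
      refine (h1.smul (N := P.v (p : Qb)) ?_).mono (mul_le_mul' le_rfl ?_)
      · rw [map_mul]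
        exact mul_le_of_le_one_right zero_le (P.natCast_vle_one c)
      · exact mul_le_of_le_one_right zero_le (pow_le_one₀ zero_le (M.lev_le_one u))
  · rw [Finset.sum_congr rfl fun j _ => shift_eq_sum_fwdDiff_iter u f j x]
    have hext : ∀ j ∈ Finset.range p, ∑ k ∈ Finset.range (j + 1), j.choose k • (fwdDiff u)^[k] f x =
        ∑ k ∈ Finset.range p, j.choose k • (fwdDiff u)^[k] f x := by
      intro j hj
      rw [Finset.mem_range] at hj
      refine Finset.sum_subset (fun k hk => Finset.mem_range.mpr ?_) fun k hk hk' => ?_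
      · have := Finset.mem_range.mp hk; omega
      · rw [Finset.mem_range] at hk'
        rw [Nat.choose_eq_zero_of_lt (by omega), zero_smul]
    rw [Finset.sum_congr rfl hext, Finset.sum_comm]
    refine Finset.sum_congr rfl fun k _ => ?_
    rw [← Finset.sum_smul, hhs, nsmul_eq_mul]

end PlaceData

end FLTAgent.PT.TW

end
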