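import Fermat.Agent.Flat.DescentArith
import Fermat.Agent.SS2.Eisenstein
import Fermat.Agent.TOR.InertiaVal
import Fermat.Agent.EIS.Cyclo
import Fermat.Agent.EIS.Tame
import Fermat.Agent.Local.Place
import Fermat.Prelude.Def_ExtCitation_KummerBridge

/-!
Parcel H: a place over `p`, a root `π` of `X ^ (p ^ 2 - 1) + p`, residues, the tame character and
the subgroup `H` of inertia fixing `π`.
-/

set_option autoImplicit false
set_option linter.style.haveILetI false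
set_option linter.unusedSectionVars false

noncomputable section

open IsLocalRing Polynomial

namespace FLTAgent.PT.TW

open FLTAgent.Reduction (Qb)

local notation "GalQ" => AlgebraicClosure ℚ ≃ₐ[ℚ] AlgebraicClosure ℚ

/-- the data at `p` -/
structure PlaceData (p : ℕ) [Fact p.Prime] where
  /-- the place -/
  A : ValuationSubring Qb
  hA : A.LiesOverPrime p
  ne2 : p ≠ 2
  /-- the uniformiser of the tame field of degree `p ^ 2 - 1` -/
  π : Qb
  hπ : π ^ (p ^ 2 - 1) = -(p : Qb)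
  /-- a primitive root of unity -/
  ζ : Qb
  hζ : IsPrimitiveRoot ζ p
  /-- a Frobenius element -/
  φ : GalQ
  frob : A.IsFrobeniusAt φ p

variable {p : ℕ} [hpr : Fact p.Prime]

theorem exists_placeData {A : ValuationSubring Qb} (hA : A.LiesOverPrime p) (hp2 : p ≠ 2) :
    ∃ P : PlaceData p, P.A = A := by
  haveI : NeZero p := ⟨hpr.out.ne_zero⟩
  haveI : NeZero (p : Qb) := ⟨Nat.cast_ne_zero.mpr hpr.out.ne_zero⟩
  have hpos : 0 < p ^ 2 - 1 := Nat.sub_pos_of_lt (Nat.one_lt_pow two_ne_zero hpr.out.one_lt)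
  obtain ⟨π, hπ⟩ := IsAlgClosed.exists_pow_nat_eq (-(p : Qb)) hpos
  obtain ⟨ζ, hζ⟩ := HasEnoughRootsOfUnity.exists_primitiveRoot Qb p
  obtain ⟨φ, hφ⟩ := EIS.exists_frobenius_at hpr.out hA
  exact ⟨⟨A, hA, hp2, π, hπ, ζ, hζ, φ, hφ⟩, rfl⟩

namespace PlaceData

variable (P : PlaceData p)
include P

/-- the valuation -/
abbrev v : Valuation Qb P.A.ValueGroup := P.A.valuation

/-- inertia -/
abbrev I : Subgroup GalQ := P.A.inertiaSubgroupIn ℚ

/-- decomposition -/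
abbrev D : Subgroup GalQ := P.A.decompositionSubgroup ℚ

/-- the degree of the tame field -/
abbrev e (_P : PlaceData p) : ℕ := p ^ 2 - 1

/-- residue, extended by `0` -/
def res (x : Qb) : ResidueField P.A :=
  open Classical in if h : x ∈ P.A then residue P.A ⟨x, h⟩ else 0

theorem three_le : 3 ≤ p := by
  have := hpr.out.two_le
  have := P.ne2
  omega

theorem e_eq : P.e = (p - 1) * (p + 1) := by
  show p ^ 2 - 1 = _
  obtain ⟨q, rfl⟩ : ∃ q, p = q + 1 := ⟨p - 1, by have := P.three_le; omega⟩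
  rw [Nat.add_sub_cancel, Nat.sub_eq_iff_eq_add (Nat.one_le_pow _ _ (by omega))]
  ring

theorem e_add_one : P.e + 1 = p ^ 2 :=
  Nat.sub_add_cancel (Nat.one_le_pow _ _ hpr.out.pos)

theorem two_p_lt : 2 * p + 2 ≤ P.e := by
  have h1 := P.three_le
  have h2 := P.e_add_one
  nlinarith

theorem e_pos : 0 < P.e := by have := P.two_p_lt; omega

theorem not_dvd_e : ¬ p ∣ P.e := fun h => by
  have h1 : p ∣ P.e + 1 := P.e_add_one ▸ dvd_pow_self p two_ne_zero
  exact hpr.out.one_lt.ne' (Nat.dvd_one.mp ((Nat.dvd_add_right h).mp h1))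

theorem vp_pos : 0 < P.v (p : Qb) :=
  zero_lt_iff.mpr ((Valuation.ne_zero_iff _).mpr (Nat.cast_ne_zero.mpr hpr.out.ne_zero))

theorem vp_lt : P.v (p : Qb) < 1 := P.hA

theorem π_ne : P.π ≠ 0 := fun h => by
  have := P.hπ
  rw [h, zero_pow P.e_pos.ne', eq_comm, neg_eq_zero] at this
  exact Nat.cast_ne_zero.mpr hpr.out.ne_zero this

theorem vπ_pow : P.v P.π ^ P.e = P.v (p : Qb) := by
  rw [← map_pow, show P.π ^ P.e = _ from P.hπ, Valuation.map_neg]

theorem vπ_pos : 0 < P.v P.π := zero_lt_iff.mpr ((Valuation.ne_zero_iff _).mpr P.π_ne)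

theorem vπ_lt : P.v P.π < 1 :=
  (pow_lt_one_iff_of_nonneg zero_le P.e_pos.ne').mp (P.vπ_pow ▸ P.vp_lt)

theorem π_mem : P.π ∈ P.A := (P.A.valuation_le_one_iff _).mp P.vπ_lt.le

theorem vpow_le {a b : ℕ} : P.v P.π ^ a ≤ P.v P.π ^ b ↔ b ≤ a :=
  pow_le_pow_iff_right_of_lt_one₀ P.vπ_pos P.vπ_lt

theorem vpow_lt {a b : ℕ} : P.v P.π ^ a < P.v P.π ^ b ↔ b < a :=
  pow_lt_pow_iff_right_of_lt_one₀ P.vπ_pos P.vπ_lt

theorem vzpow_inj {a b : ℤ} : P.v P.π ^ a = P.v P.π ^ b ↔ a = b :=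
  zpow_right_inj₀ P.vπ_pos P.vπ_lt.ne

theorem natCast_vle_one (n : ℕ) : P.v (n : Qb) ≤ 1 :=
  (P.A.valuation_le_one_iff _).mpr (natCast_mem P.A n)

theorem natCast_v_eq_one {n : ℕ} (h : ¬ p ∣ n) : P.v (n : Qb) = 1 :=
  Local.val_int_eq_one P.hA hpr.out (z := (n : ℤ)) (by exact_mod_cast h) |> fun h' => by
    simpa using h'

/-! ### residues -/

theorem res_eq {x : Qb} (h : x ∈ P.A) : P.res x = residue P.A ⟨x, h⟩ := dif_pos h

theorem res_add {x y : Qb} (hx : x ∈ P.A) (hy : y ∈ P.A) :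
    P.res (x + y) = P.res x + P.res y := by
  rw [P.res_eq hx, P.res_eq hy, P.res_eq (add_mem hx hy), ← map_add]
  rfl

theorem res_sub {x y : Qb} (hx : x ∈ P.A) (hy : y ∈ P.A) :
    P.res (x - y) = P.res x - P.res y := by
  rw [P.res_eq hx, P.res_eq hy, P.res_eq (sub_mem hx hy), ← map_sub]
  rfl

theorem res_mul {x y : Qb} (hx : x ∈ P.A) (hy : y ∈ P.A) :
    P.res (x * y) = P.res x * P.res y := by
  rw [P.res_eq hx, P.res_eq hy, P.res_eq (mul_mem hx hy), ← map_mul]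
  rfl

theorem res_zero : P.res 0 = 0 := by
  rw [P.res_eq P.A.zero_mem]
  exact map_zero (residue P.A)

theorem res_one : P.res 1 = 1 := by
  rw [P.res_eq P.A.one_mem]
  exact map_one (residue P.A)

theorem res_neg {x : Qb} (hx : x ∈ P.A) : P.res (-x) = -P.res x := by
  rw [← zero_sub, P.res_sub P.A.zero_mem hx, P.res_zero, zero_sub]

theorem res_pow {x : Qb} (hx : x ∈ P.A) (n : ℕ) : P.res (x ^ n) = P.res x ^ n := by
  induction n with
  | zero => rw [pow_zero, pow_zero, P.res_one]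
  | succ n ih => rw [pow_succ, P.res_mul (pow_mem hx n) hx, ih, pow_succ]

theorem res_natCast (n : ℕ) : P.res (n : Qb) = n := by
  induction n with
  | zero => rw [Nat.cast_zero, P.res_zero, Nat.cast_zero]
  | succ n ih => rw [Nat.cast_succ, P.res_add (natCast_mem P.A n) P.A.one_mem, ih, P.res_one,
      Nat.cast_succ]

theorem res_eq_zero {x : Qb} (hx : x ∈ P.A) : P.res x = 0 ↔ P.v x < 1 := by
  rw [P.res_eq hx]
  exact Reduction.res_eq_zero_iff P.A _

theorem res_eq_zero_of_lt {x : Qb} (hx : P.v x < 1) : P.res x = 0 :=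
  (P.res_eq_zero ((P.A.valuation_le_one_iff _).mp hx.le)).mpr hx

theorem res_ne_zero {x : Qb} (hx : x ∈ P.A) : P.res x ≠ 0 ↔ P.v x = 1 := by
  rw [P.res_eq hx]
  exact Reduction.res_ne_zero_iff P.A _

theorem res_congr {x y : Qb} (hx : x ∈ P.A) (h : P.v (x - y) < 1) : P.res x = P.res y := by
  have hxy : x - y ∈ P.A := (P.A.valuation_le_one_iff _).mp h.le
  have hy : y ∈ P.A := by simpa using sub_mem hx hxy
  rw [← sub_eq_zero, ← P.res_sub hx hy]
  exact P.res_eq_zero_of_lt h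

theorem res_prod {ι : Type*} (s : Finset ι) {f : ι → Qb} (hf : ∀ i ∈ s, f i ∈ P.A) :
    P.res (∏ i ∈ s, f i) = ∏ i ∈ s, P.res (f i) := by
  classical
  induction s using Finset.induction_on with
  | empty => rw [Finset.prod_empty, Finset.prod_empty, P.res_one]
  | insert a s ha ih =>
    rw [Finset.prod_insert ha, Finset.prod_insert ha, P.res_mul (hf a (Finset.mem_insert_self a s))
      (prod_mem fun i hi => hf i (Finset.mem_insert_of_mem hi)),
      ih fun i hi => hf i (Finset.mem_insert_of_mem hi)]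

theorem res_sum {ι : Type*} (s : Finset ι) {f : ι → Qb} (hf : ∀ i ∈ s, f i ∈ P.A) :
    P.res (∑ i ∈ s, f i) = ∑ i ∈ s, P.res (f i) := by
  classical
  induction s using Finset.induction_on with
  | empty => rw [Finset.sum_empty, Finset.sum_empty, P.res_zero]
  | insert a s ha ih =>
    rw [Finset.sum_insert ha, Finset.sum_insert ha, P.res_add (hf a (Finset.mem_insert_self a s))
      (sum_mem fun i hi => hf i (Finset.mem_insert_of_mem hi)),
      ih fun i hi => hf i (Finset.mem_insert_of_mem hi)]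

theorem charP_res : CharP (ResidueField P.A) p := Reduction.charP_residue P.A hpr.out P.hA

/-! ### Galois -/

theorem I_le_D : P.I ≤ P.D := fun _ h => EIS.decomp_of_inertia h

theorem φ_mem : P.φ ∈ P.D := P.frob.mem_decompositionSubgroup

theorem v_aut {σ : GalQ} (hσ : σ ∈ P.D) (x : Qb) : P.v (σ x) = P.v x := Local.val_aut hσ x

theorem mem_aut {σ : GalQ} (hσ : σ ∈ P.D) {x : Qb} : σ x ∈ P.A ↔ x ∈ P.A :=
  EIS.smul_mem_of_decomp hσ

theorem v_sub_inertia {σ : GalQ} (hσ : σ ∈ P.I) {x : Qb} (hx : x ∈ P.A) :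
    P.v (σ x - x) < 1 := TOR.inertia_sub_lt hσ hx

theorem res_inertia {σ : GalQ} (hσ : σ ∈ P.I) {x : Qb} (hx : x ∈ P.A) :
    P.res (σ x) = P.res x :=
  P.res_congr ((P.mem_aut (P.I_le_D hσ)).mpr hx) (P.v_sub_inertia hσ hx)

theorem res_frob {x : Qb} (hx : x ∈ P.A) : P.res (P.φ x) = P.res x ^ p := by
  rw [← P.res_pow hx]
  exact P.res_congr ((P.mem_aut P.φ_mem).mpr hx) (Chebotarev.frob_sub_pow_mem P.frob hx)

theorem mem_decoGroup {σ : GalQ} (hσ : σ ∈ P.D) : σ ∈ Flat.decoGroup P.A :=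
  Flat.mem_decoGroup.mpr fun _ => P.mem_aut hσ

theorem conj_mem_I {σ τ : GalQ} (hσ : σ ∈ P.D) (hτ : τ ∈ P.I) : σ * τ * σ⁻¹ ∈ P.I := by
  simpa using Flat.inertia_conj hpr.out P.hA (P.mem_decoGroup (inv_mem hσ)) hτ

/-! ### roots of unity of order prime to `p` -/

theorem rou_mem {n : ℕ} (hn : 0 < n) {z : Qb} (hz : z ^ n = 1) : z ∈ P.A :=
  (P.A.valuation_le_one_iff _).mp (EIS.valuation_root_of_unity hn hz).le

theorem rou_inj {n : ℕ} (hn : ¬ p ∣ n) {z w : Qb} (hz : z ^ n = 1) (hw : w ^ n = 1)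
    (h : P.res z = P.res w) : z = w := by
  have hn0 : 0 < n := Nat.pos_of_ne_zero (by rintro rfl; exact hn (dvd_zero p))
  haveI : NeZero n := ⟨hn0.ne'⟩
  haveI : NeZero (n : Qb) := ⟨Nat.cast_ne_zero.mpr hn0.ne'⟩
  haveI : NeZero (n : ResidueField P.A) :=
    ⟨Reduction.natCast_residue_ne_zero P.A hpr.out P.hA hn⟩
  obtain ⟨ξ, hξ⟩ := HasEnoughRootsOfUnity.exists_primitiveRoot Qb n
  have hξA := P.rou_mem hn0 hξ.pow_eq_one
  have hξr : IsPrimitiveRoot (P.res ξ) n := by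
    rw [P.res_eq hξA]
    have hz' : IsPrimitiveRoot (⟨ξ, hξA⟩ : P.A) n :=
      IsPrimitiveRoot.of_map_of_injective (f := P.A.subtype) hξ P.A.subtype_injective
    exact isRoot_cyclotomic_iff.mp (by
      have h1 := (hz'.isRoot_cyclotomic hn0).map (f := residue P.A)
      rwa [Polynomial.map_cyclotomic] at h1)
  obtain ⟨i, hi, rfl⟩ := hξ.eq_pow_of_pow_eq_one hz
  obtain ⟨j, hj, rfl⟩ := hξ.eq_pow_of_pow_eq_one hw
  rw [P.res_pow hξA, P.res_pow hξA] at h
  rw [hξr.pow_inj hi hj h]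

theorem rou_fixed {n : ℕ} (hn : ¬ p ∣ n) {z : Qb} (hz : z ^ n = 1) :
    z ∈ SS2.inertiaFixed P.A := by
  rw [SS2.mem_inertiaFixed]
  intro σ hσ
  exact P.rou_inj hn (by rw [← map_pow, hz, map_one]) hz (P.res_inertia hσ
    (P.rou_mem (Nat.pos_of_ne_zero (by rintro rfl; exact hn (dvd_zero p))) hz))

theorem exists_residue_fixed (r : ResidueField P.A) :
    ∃ t ∈ P.A, t ∈ SS2.inertiaFixed P.A ∧ P.res t = r := by
  obtain ⟨a, rfl⟩ := residue_surjective r
  obtain ⟨t, ht, htr⟩ := SS2.exists_residue_T hpr.out P.hA a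
  exact ⟨t, t.2, ht, by rw [P.res_eq t.2]; exact htr⟩

/-- residues have `p`-th roots -/
theorem exists_root_p (r : ResidueField P.A) : ∃ s, s ^ p = r := by
  rcases eq_or_ne r 0 with rfl | hr
  · exact ⟨0, zero_pow hpr.out.ne_zero⟩
  obtain ⟨m, hm, hpm, hrm⟩ := SS2.exists_pow_eq_one hpr.out P.hA hr
  obtain ⟨j, hj⟩ : ∃ j : ℕ, ∃ i : ℕ, p * j = m * i + 1 := by
    rcases Nat.lt_or_ge 1 m with h | h
    · obtain ⟨j, -, hj⟩ :=
        Nat.exists_mul_mod_eq_one_of_coprime ((hpr.out.coprime_iff_not_dvd).mpr hpm) h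
      exact ⟨j, p * j / m, by have := Nat.div_add_mod (p * j) m; omega⟩
    · exact ⟨1, p - 1, by
        obtain rfl : m = 1 := by omega
        have := hpr.out.pos; omega⟩
  obtain ⟨i, hi⟩ := hj
  exact ⟨r ^ j, by rw [← pow_mul, mul_comm, hi, pow_succ, pow_mul, hrm, one_pow, one_mul]⟩

/-! ### the tame character -/

/-- `σ π / π` -/
def rt (σ : GalQ) : Qb := σ P.π / P.π

/-- the tame character -/
def th (σ : GalQ) : ResidueField P.A := P.res (P.rt σ)

theorem rt_pow (σ : GalQ) : P.rt σ ^ P.e = 1 := by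
  rw [rt, div_pow, ← map_pow, show P.π ^ P.e = _ from P.hπ, map_neg, map_natCast,
    div_self (neg_ne_zero.mpr (Nat.cast_ne_zero.mpr hpr.out.ne_zero))]

theorem rt_mem (σ : GalQ) : P.rt σ ∈ P.A := P.rou_mem P.e_pos (P.rt_pow σ)

theorem rt_fixed (σ : GalQ) : P.rt σ ∈ SS2.inertiaFixed P.A :=
  P.rou_fixed P.not_dvd_e (P.rt_pow σ)

theorem rt_ne (σ : GalQ) : P.rt σ ≠ 0 := fun h => by
  simpa [h, zero_pow P.e_pos.ne'] using P.rt_pow σ

theorem apply_π (σ : GalQ) : σ P.π = P.rt σ * P.π := by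
  rw [rt, div_mul_cancel₀ _ P.π_ne]

theorem th_pow_e (σ : GalQ) : P.th σ ^ P.e = 1 := by
  rw [th, ← P.res_pow (P.rt_mem σ), P.rt_pow, P.res_one]

theorem th_ne (σ : GalQ) : P.th σ ≠ 0 := fun h => by
  simpa [h, zero_pow P.e_pos.ne'] using P.th_pow_e σ

theorem th_mul {σ τ : GalQ} (hσ : σ ∈ P.I) : P.th (σ * τ) = P.th σ * P.th τ := by
  have hm := (P.mem_aut (P.I_le_D hσ)).mpr (P.rt_mem τ)
  have e1 : P.rt (σ * τ) = σ (P.rt τ) * P.rt σ := by
    rw [rt, rt, rt, AlgEquiv.mul_apply, map_div₀]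
    have : σ P.π ≠ 0 := (_root_.map_ne_zero σ).mpr P.π_ne
    field_simp
  rw [th, e1, P.res_mul hm (P.rt_mem σ), P.res_inertia hσ (P.rt_mem τ), mul_comm]
  rfl

theorem th_one : P.th 1 = 1 := by
  rw [th, rt, AlgEquiv.one_apply, div_self P.π_ne, P.res_one]

theorem th_pow {σ : GalQ} (hσ : σ ∈ P.I) (n : ℕ) : P.th (σ ^ n) = P.th σ ^ n := by
  induction n with
  | zero => rw [pow_zero, pow_zero, P.th_one]
  | succ n ih => rw [pow_succ', P.th_mul hσ, ih, pow_succ']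

/-- the inertia elements fixing `π` -/
def H : Subgroup GalQ := P.I ⊓ MulAction.stabilizer GalQ P.π

theorem H_le : P.H ≤ P.I := inf_le_left

theorem mem_H {σ : GalQ} : σ ∈ P.H ↔ σ ∈ P.I ∧ σ P.π = P.π := Iff.rfl

theorem th_eq_one_iff {σ : GalQ} : P.th σ = 1 ↔ σ P.π = P.π := by
  constructor
  · intro h
    have := P.rou_inj P.not_dvd_e (P.rt_pow σ) (one_pow P.e) (h.trans P.res_one.symm)
    rw [P.apply_π, this, one_mul]
  · intro h
    rw [th, rt, h, div_self P.π_ne, P.res_one]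

theorem mem_H_iff {σ : GalQ} : σ ∈ P.H ↔ σ ∈ P.I ∧ P.th σ = 1 := by
  rw [P.mem_H, P.th_eq_one_iff]

theorem th_H {σ : GalQ} (hσ : σ ∈ P.H) : P.th σ = 1 := (P.mem_H_iff.mp hσ).2

theorem th_inv {σ : GalQ} (hσ : σ ∈ P.I) : P.th σ⁻¹ = (P.th σ)⁻¹ :=
  eq_inv_of_mul_eq_one_left (by rw [← P.th_mul (inv_mem hσ), inv_mul_cancel, P.th_one])

/-- the roots of `X ^ e + p` reached by inertia -/
def orb : Finset Qb :=
  open Classical in (nthRootsFinset P.e (-(p : Qb))).filter fun z => ∃ σ ∈ P.I, σ P.π = z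

theorem mem_orb {z : Qb} : z ∈ P.orb ↔ ∃ σ ∈ P.I, σ P.π = z := by
  classical
  rw [orb, Finset.mem_filter, and_iff_right_iff_imp]
  rintro ⟨σ, -, rfl⟩
  rw [mem_nthRootsFinset P.e_pos, ← map_pow, show P.π ^ P.e = _ from P.hπ, map_neg, map_natCast]

theorem card_orb : P.orb.card = P.e := by
  refine le_antisymm (le_trans (by rw [orb]; classical exact Finset.card_filter_le _ _) (?_ : (nthRootsFinset P.e (-(p : Qb))).card ≤ P.e)) ?_
  · classical
    rw [nthRootsFinset]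
    exact (Multiset.toFinset_card_le _).trans (card_nthRoots _ _)
  · exact SS2.card_le hpr.out P.hA P.e_pos P.vπ_pow P.orb
      (fun σ hσ z hz => by
        obtain ⟨τ, hτ, rfl⟩ := P.mem_orb.mp hz
        exact P.mem_orb.mpr ⟨σ * τ, mul_mem hσ hτ, rfl⟩)
      (P.mem_orb.mpr ⟨1, one_mem _, rfl⟩)

theorem exists_rt_eq {z : Qb} (hz : z ^ P.e = 1) : ∃ σ ∈ P.I, P.rt σ = z := by
  classical
  have hsub : P.orb ⊆ nthRootsFinset P.e (-(p : Qb)) := fun z hz => by
    rw [orb] at hz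
    exact (Finset.mem_filter.mp hz).1
  have hle : (nthRootsFinset P.e (-(p : Qb))).card ≤ P.orb.card := by
    rw [P.card_orb, nthRootsFinset]
    exact (Multiset.toFinset_card_le _).trans (card_nthRoots _ _)
  have hmem : z * P.π ∈ P.orb := by
    rw [Finset.eq_of_subset_of_card_le hsub hle, mem_nthRootsFinset P.e_pos, mul_pow, hz, one_mul]
    exact P.hπ
  obtain ⟨σ, hσ, hσπ⟩ := P.mem_orb.mp hmem
  exact ⟨σ, hσ, by rw [rt, hσπ, mul_div_cancel_right₀ _ P.π_ne]⟩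

/-- an element of inertia with tame character of order `p ^ 2 - 1` -/
theorem exists_gen : ∃ s ∈ P.I, IsPrimitiveRoot (P.th s) P.e := by
  haveI : NeZero P.e := ⟨P.e_pos.ne'⟩
  haveI : NeZero (P.e : Qb) := ⟨Nat.cast_ne_zero.mpr P.e_pos.ne'⟩
  obtain ⟨ξ, hξ⟩ := HasEnoughRootsOfUnity.exists_primitiveRoot Qb P.e
  obtain ⟨s, hs, hsξ⟩ := P.exists_rt_eq hξ.pow_eq_one
  refine ⟨s, hs, ⟨P.th_pow_e s, fun l hl => ?_⟩⟩
  refine (hξ.pow_eq_one_iff_dvd l).mp (P.rou_inj P.not_dvd_e ?_ (one_pow _) ?_)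
  · rw [← pow_mul, mul_comm, pow_mul, hξ.pow_eq_one, one_pow]
  · rw [← hsξ, P.res_pow (P.rt_mem s), P.res_one]
    exact hl

/-- inertia is generated by any such element and `H` -/
theorem exists_pow_mul_H {s : GalQ} (hs : s ∈ P.I) (hgen : IsPrimitiveRoot (P.th s) P.e)
    {σ : GalQ} (hσ : σ ∈ P.I) : ∃ n : ℕ, ∃ h ∈ P.H, σ = s ^ n * h := by
  haveI : NeZero P.e := ⟨P.e_pos.ne'⟩
  obtain ⟨n, -, hn⟩ := hgen.eq_pow_of_pow_eq_one (P.th_pow_e σ)
  refine ⟨n, (s ^ n)⁻¹ * σ, P.mem_H_iff.mpr ⟨mul_mem (inv_mem (pow_mem hs n)) hσ, ?_⟩,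
    (mul_inv_cancel_left _ _).symm⟩
  rw [P.th_mul (inv_mem (pow_mem hs n)), P.th_inv (pow_mem hs n), P.th_pow hs, hn,
    inv_mul_cancel₀ (P.th_ne σ)]

theorem conj_mem_H {σ h : GalQ} (hσ : σ ∈ P.D) (hh : h ∈ P.H) : σ * h * σ⁻¹ ∈ P.H := by
  refine P.mem_H.mpr ⟨P.conj_mem_I hσ (P.H_le hh), ?_⟩
  have h1 : σ⁻¹ P.π = P.rt σ⁻¹ * P.π := P.apply_π _
  show σ (h (σ⁻¹ P.π)) = P.π
  rw [h1, map_mul, (P.mem_H.mp hh).2, SS2.mem_inertiaFixed.mp (P.rt_fixed _) h (P.H_le hh), ← h1]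
  exact σ.apply_symm_apply _

/-! ### the cyclotomic character -/

theorem ζ_mem : P.ζ ∈ P.A := P.rou_mem hpr.out.pos P.hζ.pow_eq_one

theorem vζ : P.v (P.ζ - 1) = P.v P.π ^ (p + 1) := by
  refine (pow_left_inj₀ (n := p - 1) zero_le zero_le (by have := P.three_le; omega)).mp ?_
  rw [TOR.valuation_zeta_sub_one P.hζ hpr.out, ← pow_mul, mul_comm, ← P.e_eq, P.vπ_pow]

theorem cyc_spec (σ : GalQ) {z : Qb} (hz : z ^ p = 1) :
    σ z = z ^ (ExtCitation.cycloChar p σ : ZMod p).val := by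
  haveI : NeZero p := ⟨hpr.out.ne_zero⟩
  exact modularCyclotomicCharacter.spec (AlgebraicClosure ℚ)
    (ExtCitation.card_rootsOfUnity_eq_self p) (σ : AlgebraicClosure ℚ ≃+* AlgebraicClosure ℚ)
    (rootsOfUnity.mkOfPowEq z hz).2

theorem ζ_pow_sub_one (n : ℕ) :
    ∃ s ∈ P.A, P.ζ ^ n - 1 = s * (P.ζ - 1) ∧ P.res s = n := by
  refine ⟨∑ j ∈ Finset.range n, P.ζ ^ j, sum_mem fun j _ => pow_mem P.ζ_mem j,
    (geom_sum_mul _ _).symm, ?_⟩
  rw [P.res_sum _ fun j _ => pow_mem P.ζ_mem j, Finset.sum_congr rfl fun j _ => ?_, Finset.sum_const,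
    Finset.card_range, nsmul_one]
  rw [P.res_pow P.ζ_mem, P.res_congr P.ζ_mem (y := 1) (by
    rw [P.vζ]; exact pow_lt_one₀ zero_le P.vπ_lt (by omega)), P.res_one, one_pow]

theorem th_cyclo {σ : GalQ} (hσ : σ ∈ P.I) :
    P.th σ ^ (p + 1) = ((ExtCitation.cycloChar p σ : ZMod p).val : ResidueField P.A) := by
  set u := (P.ζ - 1) / P.π ^ (p + 1) with hu
  have hvu : P.v u = 1 := by
    rw [map_div₀, map_pow, P.vζ, div_self (pow_ne_zero _ P.vπ_pos.ne')]
  have huA : u ∈ P.A := (P.A.valuation_le_one_iff _).mp hvu.le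
  obtain ⟨s, hsA, hs, hsr⟩ := P.ζ_pow_sub_one (ExtCitation.cycloChar p σ : ZMod p).val
  have e1 : σ u * P.rt σ ^ (p + 1) = s * u := by
    rw [hu, map_div₀, map_sub, map_one, P.cyc_spec σ P.hζ.pow_eq_one, hs, map_pow, P.apply_π,
      mul_pow, div_mul_eq_mul_div, mul_div_assoc', mul_comm (P.rt σ ^ (p + 1)) (P.π ^ (p + 1)),
      mul_div_mul_right _ _ (pow_ne_zero _ (P.rt_ne σ))]
  have h2 := congrArg P.res e1
  rw [P.res_mul ((P.mem_aut (P.I_le_D hσ)).mpr huA) (pow_mem (P.rt_mem σ) _), P.res_mul hsA huA,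
    P.res_inertia hσ huA, P.res_pow (P.rt_mem σ), hsr, mul_comm] at h2
  exact mul_right_cancel₀ ((P.res_ne_zero huA).mpr hvu) h2

theorem ζ_fixed_H {h : GalQ} (hh : h ∈ P.H) : h P.ζ = P.ζ := by
  haveI := P.charP_res
  have h1 := P.th_cyclo (P.H_le hh)
  rw [P.th_H hh, one_pow, ← Nat.cast_one, CharP.natCast_eq_natCast (ResidueField P.A) p,
    Nat.ModEq, Nat.mod_eq_of_lt hpr.out.one_lt, Nat.mod_eq_of_lt (ZMod.val_lt _)] at h1
  rw [P.cyc_spec h P.hζ.pow_eq_one, ← h1, pow_one]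

/-! ### the field fixed by `H` -/

theorem exists_coords {x : Qb} (hx : ∀ h ∈ P.H, h x = x) :
    ∃ c : ℕ → Qb, (∀ k, c k ∈ SS2.inertiaFixed P.A) ∧
      x = ∑ k ∈ Finset.range P.e, c k * P.π ^ k := by
  classical
  choose! g hg hgz using fun z (hz : z ∈ P.orb) => P.mem_orb.mp hz
  obtain ⟨c, hc, hw⟩ := SS2.exists_coords (A := P.A) (fun z : P.orb => g z x) (fun z : P.orb => (z : Qb))
    Subtype.val_injective fun σ hσ z => by
      refine ⟨⟨σ z, P.mem_orb.mpr ⟨σ * g z, mul_mem hσ (hg z z.2), by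
        rw [AlgEquiv.mul_apply, hgz z z.2]⟩⟩, rfl, ?_⟩
      set z' := σ (z : Qb) with hz'
      have hz'm : z' ∈ P.orb := P.mem_orb.mpr ⟨σ * g z, mul_mem hσ (hg z z.2), by
        rw [AlgEquiv.mul_apply, hgz z z.2]⟩
      have h1 : (g z')⁻¹ * (σ * g z) ∈ P.H :=
        P.mem_H.mpr ⟨mul_mem (inv_mem (hg _ hz'm)) (mul_mem hσ (hg z z.2)), by
          show (g z').symm (σ (g z P.π)) = P.π
          rw [hgz z z.2, ← hz']
          conv_lhs => arg 2; rw [← hgz z' hz'm]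
          exact (g z').symm_apply_apply _⟩
      have h2 : (g z').symm (σ (g z x)) = x := hx _ h1
      calc σ (g z x) = g z' ((g z').symm (σ (g z x))) := ((g z').apply_symm_apply _).symm
        _ = g z' x := by rw [h2]
  have hπm : P.π ∈ P.orb := P.mem_orb.mpr ⟨1, one_mem _, rfl⟩
  have hx1 : g P.π x = x := hx _ (P.mem_H.mpr ⟨hg _ hπm, hgz _ hπm⟩)
  refine ⟨c, hc, ?_⟩
  have := hw ⟨P.π, hπm⟩
  rw [Fintype.card_coe, P.card_orb] at this
  exact hx1 ▸ this

/-- coordinates of a number fixed by `H` -/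
def co (x : Qb) (k : ℕ) : Qb :=
  open Classical in if h : ∀ σ ∈ P.H, σ x = x then (P.exists_coords h).choose k else 0

theorem co_fixed (x : Qb) (k : ℕ) : P.co x k ∈ SS2.inertiaFixed P.A := by
  rw [co]
  split_ifs with h
  · exact (P.exists_coords h).choose_spec.1 k
  · exact zero_mem _

theorem co_sum {x : Qb} (hx : ∀ h ∈ P.H, h x = x) :
    x = ∑ k ∈ Finset.range P.e, P.co x k * P.π ^ k := by
  have := (P.exists_coords hx).choose_spec.2
  simpa only [co, dif_pos hx] using this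

theorem co_le {x : Qb} (hx : ∀ h ∈ P.H, h x = x) {k : ℕ} (hk : k < P.e) :
    P.v (P.co x k * P.π ^ k) ≤ P.v x := by
  conv_rhs => rw [P.co_sum hx]
  exact SS2.coeff_le hpr.out P.hA P.e_pos P.vπ_pow (P.co_fixed x) hk

theorem co_unique {c : ℕ → Qb} (hc : ∀ k, c k ∈ SS2.inertiaFixed P.A) {x : Qb}
    (hx : x = ∑ k ∈ Finset.range P.e, c k * P.π ^ k) {k : ℕ} (hk : k < P.e) : P.co x k = c k := by
  have hfix : ∀ h ∈ P.H, h x = x := fun h hh => by
    rw [hx, map_sum]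
    exact Finset.sum_congr rfl fun j _ => by
      rw [map_mul, map_pow, (P.mem_H.mp hh).2, SS2.mem_inertiaFixed.mp (hc j) h (P.H_le hh)]
  refine sub_eq_zero.mp (SS2.coeff_eq_zero hpr.out P.hA P.e_pos P.vπ_pow
    (c := fun j => P.co x j - c j) (fun j => sub_mem (P.co_fixed x j) (hc j)) ?_ hk)
  simp only [sub_mul, Finset.sum_sub_distrib, ← P.co_sum hfix, ← hx, sub_self]

theorem co_add {x y : Qb} (hx : ∀ h ∈ P.H, h x = x) (hy : ∀ h ∈ P.H, h y = y) {k : ℕ}
    (hk : k < P.e) : P.co (x + y) k = P.co x k + P.co y k :=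
  P.co_unique (c := fun j => P.co x j + P.co y j) (fun j => add_mem (P.co_fixed x j) (P.co_fixed y j))
    (by simp only [add_mul, Finset.sum_add_distrib, ← P.co_sum hx, ← P.co_sum hy]) hk

theorem co_apply {x : Qb} (hx : ∀ h ∈ P.H, h x = x) {σ : GalQ} (hσ : σ ∈ P.I) {k : ℕ}
    (hk : k < P.e) : P.co (σ x) k = P.co x k * P.rt σ ^ k := by
  refine P.co_unique (c := fun j => P.co x j * P.rt σ ^ j)
    (fun j => mul_mem (P.co_fixed x j) (pow_mem (P.rt_fixed σ) j)) ?_ hk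
  conv_lhs => rw [P.co_sum hx, map_sum]
  exact Finset.sum_congr rfl fun j _ => by
    rw [map_mul, map_pow, SS2.mem_inertiaFixed.mp (P.co_fixed x j) σ hσ, P.apply_π, mul_pow,
      mul_assoc]

theorem exists_zpow_v {x : Qb} (hx : ∀ h ∈ P.H, h x = x) (hx0 : x ≠ 0) :
    ∃ i : ℤ, P.v x = P.v P.π ^ i := by
  obtain ⟨k, hk, hmax⟩ := Finset.exists_max_image (Finset.range P.e)
    (fun j => P.v (P.co x j * P.π ^ j)) ⟨0, Finset.mem_range.mpr P.e_pos⟩
  have h1 : P.v x = P.v (P.co x k * P.π ^ k) := by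
    refine le_antisymm ?_ (P.co_le hx (Finset.mem_range.mp hk))
    conv_lhs => rw [P.co_sum hx]
    exact Valuation.map_sum_le _ hmax
  have hc : P.co x k ≠ 0 := fun h => by
    rw [h, zero_mul, map_zero, Valuation.zero_iff] at h1
    exact hx0 h1
  obtain ⟨i, hi⟩ := SS2.exists_zpow_valuation_T hpr.out P.hA (P.co_fixed x k) hc
  refine ⟨i * P.e + k, ?_⟩
  rw [h1, map_mul, map_pow, hi, zpow_add₀ P.vπ_pos.ne', mul_comm i, zpow_mul, zpow_natCast,
    zpow_natCast, P.vπ_pow]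

/-- the action of inertia on the residue of a number of valuation `v π ^ i` -/
theorem res_scale {σ : GalQ} (hσ : σ ∈ P.I) {x : Qb} {i : ℕ} (hx : P.v x ≤ P.v P.π ^ i) :
    P.res (σ x / P.π ^ i) = P.th σ ^ i * P.res (x / P.π ^ i) := by
  have hA : x / P.π ^ i ∈ P.A := (P.A.valuation_le_one_iff _).mp (by
    rw [map_div₀, map_pow, div_le_one₀ (pow_pos P.vπ_pos i)]; exact hx)
  have e1 : σ x / P.π ^ i = σ (x / P.π ^ i) * P.rt σ ^ i := by
    rw [map_div₀, map_pow, P.apply_π, mul_pow, div_mul_eq_mul_div,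
      mul_comm (P.rt σ ^ i) (P.π ^ i), mul_div_mul_right _ _ (pow_ne_zero _ (P.rt_ne σ))]
  rw [e1, P.res_mul ((P.mem_aut (P.I_le_D hσ)).mpr hA) (pow_mem (P.rt_mem σ) i),
    P.res_inertia hσ hA, P.res_pow (P.rt_mem σ), mul_comm]
  rfl

theorem res_scale_frob {x : Qb} {i : ℕ} (hx : P.v x ≤ P.v P.π ^ i) :
    P.res (P.φ x / P.π ^ i) = P.th P.φ ^ i * P.res (x / P.π ^ i) ^ p := by
  have hA : x / P.π ^ i ∈ P.A := (P.A.valuation_le_one_iff _).mp (by
    rw [map_div₀, map_pow, div_le_one₀ (pow_pos P.vπ_pos i)]; exact hx)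
  have e1 : P.φ x / P.π ^ i = P.φ (x / P.π ^ i) * P.rt P.φ ^ i := by
    rw [map_div₀, map_pow, P.apply_π, mul_pow, div_mul_eq_mul_div,
      mul_comm (P.rt P.φ ^ i) (P.π ^ i), mul_div_mul_right _ _ (pow_ne_zero _ (P.rt_ne _))]
  rw [e1, P.res_mul ((P.mem_aut P.φ_mem).mpr hA) (pow_mem (P.rt_mem _) i), P.res_frob hA,
    P.res_pow (P.rt_mem _), mul_comm]
  rfl

/-! ### the decomposition group -/

/-- a finite level of the decomposition group is generated by inertia and Frobenius -/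
theorem D_le {S : Subgroup GalQ} {F : IntermediateField ℚ Qb} [FiniteDimensional ℚ F]
    (hI : P.I ≤ S) (hF : F.fixingSubgroup ≤ S) (hφ : P.φ ∈ S) : P.D ≤ S := by
  classical
  intro g hg
  obtain ⟨Z, hZ, hZS⟩ := Flat.exists_finset_roots P.hA (S := (S : Set GalQ))
    (Subgroup.isOpen_mono hF (IntermediateField.fixingSubgroup_isOpen F)) hI
  choose! d hd hzd using hZ
  set N := ∏ z ∈ Z, d z with hN
  have hN0 : ¬ p ∣ N := fun h => by
    obtain ⟨z, hz, hdiv⟩ := (hpr.out.prime.dvd_finsetProd_iff _).mp h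
    exact hd z hz hdiv
  have hNpos : 0 < N := Nat.pos_of_ne_zero fun h => hN0 (h ▸ dvd_zero p)
  haveI : NeZero N := ⟨hNpos.ne'⟩
  haveI : NeZero (N : Qb) := ⟨Nat.cast_ne_zero.mpr hNpos.ne'⟩
  obtain ⟨ξ, hξ⟩ := HasEnoughRootsOfUnity.exists_primitiveRoot Qb N
  have hξA := P.rou_mem hNpos hξ.pow_eq_one
  haveI := P.charP_res
  set x := P.res ξ with hxdef
  have hxN : x ^ N = 1 := by rw [hxdef, ← P.res_pow hξA, hξ.pow_eq_one, P.res_one]
  have hφn : ∀ n : ℕ, (P.φ ^ n) ξ ∈ P.A ∧ P.res ((P.φ ^ n) ξ) = x ^ p ^ n := by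
    intro n
    induction n with
    | zero => exact ⟨hξA, by rw [pow_zero, pow_zero, pow_one]; rfl⟩
    | succ n ih =>
      rw [pow_succ', AlgEquiv.mul_apply]
      exact ⟨(P.mem_aut P.φ_mem).mpr ih.1, by rw [P.res_frob ih.1, ih.2, ← pow_mul, pow_succ]⟩
  -- `g` maps `x` to a power `x ^ p ^ n`
  obtain ⟨m, hm, hxm⟩ : ∃ m, 0 < m ∧ x ^ p ^ m = x := by
    refine ⟨N.totient, Nat.totient_pos.mpr hNpos, ?_⟩
    obtain ⟨c, hc⟩ : ∃ c, p ^ N.totient = N * c + 1 := by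
      rcases Nat.lt_or_ge 1 N with h1 | h1
      · have := Nat.ModEq.pow_totient ((hpr.out.coprime_iff_not_dvd).mpr hN0)
        rw [Nat.ModEq, Nat.mod_eq_of_lt h1] at this
        exact ⟨p ^ N.totient / N, by have := Nat.div_add_mod (p ^ N.totient) N; omega⟩
      · exact ⟨p ^ N.totient - 1, by
          obtain hN1 : N = 1 := by omega
          rw [hN1, one_mul]
          have := Nat.one_le_pow N.totient p hpr.out.pos
          rw [hN1] at this
          omega⟩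
    rw [hc, pow_succ, pow_mul, hxN, one_pow, one_mul]
  set Q : (ResidueField P.A)[X] := ∏ n ∈ Finset.range m, (Polynomial.X - Polynomial.C (x ^ p ^ n))
    with hQ
  have hQfr : Q.map (frobenius (ResidueField P.A) p) = Q := by
    let F : ℕ → (ResidueField P.A)[X] := fun n => Polynomial.X - Polynomial.C (x ^ p ^ n)
    have hF0 : F m = F 0 := by simp only [F, hxm, pow_zero, pow_one]
    have h1 : ∏ n ∈ Finset.range m, F (n + 1) = ∏ n ∈ Finset.range m, F n := by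
      obtain ⟨m', rfl⟩ : ∃ m', m = m' + 1 := ⟨m - 1, by omega⟩
      rw [Finset.prod_range_succ' F m', Finset.prod_range_succ (fun n => F (n + 1)) m', hF0]
    rw [hQ, Polynomial.map_prod]
    refine Eq.trans (Finset.prod_congr rfl fun n _ => ?_) h1
    simp only [F, Polynomial.map_sub, map_X, map_C, frobenius_def, ← pow_mul, ← pow_succ]
  set G : ResidueField P.A →+* ResidueField P.A :=
    ((MulSemiringAction.toRingAut P.D (ResidueField P.A) ⟨g, hg⟩ :
      RingAut (ResidueField P.A)) : ResidueField P.A →+* ResidueField P.A) with hG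
  have hQg : Q.map G = Q := by
    refine Polynomial.ext fun i => ?_
    rw [coeff_map]
    have hfix : Q.coeff i ^ p = Q.coeff i := by
      have := congrArg (fun R => Polynomial.coeff R i) hQfr
      simpa [frobenius_def] using this
    obtain ⟨k, hk⟩ : ∃ k : ℕ, (k : ResidueField P.A) = Q.coeff i := by
      letI : Algebra (ZMod p) (ResidueField P.A) := ZMod.algebra _ p
      set S' : Finset (ResidueField P.A) :=
        (Finset.range p).image (fun k : ℕ => (k : ResidueField P.A))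
      have hS' : S'.card = p := by
        rw [Finset.card_image_of_injOn fun a ha b hb hab => ?_, Finset.card_range]
        have := (CharP.natCast_eq_natCast (ResidueField P.A) p).mp hab
        rwa [Nat.ModEq, Nat.mod_eq_of_lt (Finset.mem_range.mp ha),
          Nat.mod_eq_of_lt (Finset.mem_range.mp hb)] at this
      set R : (ResidueField P.A)[X] := Polynomial.X ^ p - Polynomial.X
      have hR : R ≠ 0 := FiniteField.X_pow_card_sub_X_ne_zero _ hpr.out.one_lt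
      by_contra hno
      push Not at hno
      have hsub : insert (Q.coeff i) S' ⊆ R.roots.toFinset := by
        intro z hz
        rw [Multiset.mem_toFinset, mem_roots hR, IsRoot.def, eval_sub, eval_pow, eval_X,
          sub_eq_zero]
        rcases Finset.mem_insert.mp hz with rfl | hz
        · exact hfix
        · obtain ⟨k, -, rfl⟩ := Finset.mem_image.mp hz
          rw [← frobenius_def, map_natCast]
      have hnot : Q.coeff i ∉ S' := fun h => by
        obtain ⟨k, -, hk⟩ := Finset.mem_image.mp h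
        exact hno k hk
      have h2 := (Finset.card_le_card hsub).trans
        ((Multiset.toFinset_card_le _).trans (card_roots' R))
      rw [Finset.card_insert_of_notMem hnot, hS',
        FiniteField.X_pow_card_sub_X_natDegree_eq _ hpr.out.one_lt] at h2
      omega
    rw [← hk, map_natCast]
  obtain ⟨n, -, hn⟩ : ∃ n ∈ Finset.range m, G x = x ^ p ^ n := by
    have h0 : Q.eval x = 0 := by
      rw [hQ, eval_prod]
      exact Finset.prod_eq_zero (Finset.mem_range.mpr hm) (by simp)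
    have h1 : Q.eval (G x) = 0 := by
      rw [← hQg, eval_map, eval₂_hom, h0, map_zero]
    rw [hQ, eval_prod, Finset.prod_eq_zero_iff] at h1
    obtain ⟨n, hn, hn0⟩ := h1
    rw [eval_sub, eval_X, eval_C, sub_eq_zero] at hn0
    exact ⟨n, hn, hn0⟩
  have hgξ : P.res (g ξ) = G x := by
    rw [hxdef, P.res_eq hξA, P.res_eq ((P.mem_aut hg).mpr hξA)]
    exact IsLocalRing.ResidueField.residue_smul P.D (⟨g, hg⟩ : P.D) (⟨ξ, hξA⟩ : P.A)
  have heq : g ξ = (P.φ ^ n) ξ := by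
    refine P.rou_inj hN0 ?_ ?_ (by rw [hgξ, hn, (hφn n).2]) <;> rw [← map_pow, hξ.pow_eq_one, map_one]
  have hdec : (P.φ ^ n)⁻¹ * g ∈ P.D := mul_mem (inv_mem (pow_mem P.φ_mem n)) hg
  have hmem : (P.φ ^ n)⁻¹ * g ∈ S := by
    refine hZS _ (P.mem_decoGroup hdec) fun z hz => ?_
    have hzN : z ^ N = 1 := by
      obtain ⟨c, hc⟩ := Finset.dvd_prod_of_mem d hz
      rw [hN, hc, pow_mul, hzd z hz, one_pow]
    obtain ⟨k, -, rfl⟩ := hξ.eq_pow_of_pow_eq_one hzN
    rw [map_pow, AlgEquiv.mul_apply, heq]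
    congr 1
    exact (P.φ ^ n).symm_apply_apply ξ
  simpa using mul_mem (pow_mem hφ n) hmem

end PlaceData

end FLTAgent.PT.TW

end
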